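/-
M59 / [R_p-norm], cell (R1) (helper24; prefix `m59rpk_`), part 1: THE KUMMER CORE (CONJ).

`A` a valuation subring of `Q̄` over the prime `p`, `I_A ⊆ D_A` its inertia and decomposition groups,
`K^nr = ffi_L A = Q̄^{I_A}`, `n = p ^ N`.

* `m59rpk_h90` : Hilbert 90 over `K^nr` for finite-level multiplicative cocycles on `I_A`
  (`tl_h90_of_finiteIndex` of S55).
* **`m59rpk_conj`** : let `τ ∈ I_A` fix every `γ` with `γ, γ⁻¹ ∈ A` and `γ ^ n ∈ K^nr` (the first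
  clause of (K3), `m59rpk_tauV`).  Then for EVERY finite-level cocycle `c : I_A → μ_n` and EVERY
  `φ ∈ D_A` :  `c (φ τ φ⁻¹) = φ (c τ)`.

Proof: `c s = β / s β`, `y := β ^ n ∈ K^nr`, `y = u / p ^ k` with `u` a unit of `A`
(`ffi_lvi_unit`: `p` is a uniformiser of `K^nr`); `γ := φ⁻¹ β / β` has `γ ^ n = φ⁻¹ u / u`, a unit of
`A` in `K^nr` (`D_A` normalises `I_A` and preserves `A`), so `τ γ = γ` and `τ` acts on `φ⁻¹ β` as on
`β`.
-/
import Mathlib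
import Fermat.Agent.S35.DescU.InertiaField
import Fermat.Agent.S55.Trans.LocH90

set_option autoImplicit false
set_option linter.unusedSectionVars false
set_option linter.style.haveILetI false
set_option linter.unusedVariables false

noncomputable section

namespace Fermat.Agent.M59

open Fermat.Agent.FF Fermat.Agent.S55 Fermat.Agent.S35 IntermediateField

local notation "Qb" => AlgebraicClosure ℚ
local notation "GQ" => (AlgebraicClosure ℚ ≃ₐ[ℚ] AlgebraicClosure ℚ)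

section Conj

variable (A : ValuationSubring Qb)

/-- **Hilbert 90 over the inertia field** for finite-level cocycles on `I_A`. -/
theorem m59rpk_h90 (c : GQ → Qb)
    (hc0 : ∀ s ∈ A.inertiaSubgroupIn ℚ, c s ≠ 0)
    (hc : ∀ s ∈ A.inertiaSubgroupIn ℚ, ∀ t ∈ A.inertiaSubgroupIn ℚ, c (s * t) = c s * s (c t))
    (F : IntermediateField ℚ Qb) [FiniteDimensional ℚ F]
    (hF : ∀ s ∈ A.inertiaSubgroupIn ℚ, ∀ u ∈ A.inertiaSubgroupIn ℚ, u ∈ F.fixingSubgroup →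
      c (s * u) = c s) :
    ∃ β : Qb, β ≠ 0 ∧ ∀ s ∈ A.inertiaSubgroupIn ℚ, c s * s β = β := by
  classical
  have hfi : F.fixingSubgroup.FiniteIndex := tl_finiteIndex_fixingSubgroup F
  have hfi' : (F.fixingSubgroup.subgroupOf (A.inertiaSubgroupIn ℚ)).FiniteIndex := inferInstance
  obtain ⟨β, hβ0, hβ⟩ := tl_h90_of_finiteIndex (H := ↥(A.inertiaSubgroupIn ℚ)) (Ω := Qb)
    F.toSubfield (F.fixingSubgroup.subgroupOf (A.inertiaSubgroupIn ℚ))
    (fun s => by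
      rw [Subgroup.mem_subgroupOf, IntermediateField.mem_fixingSubgroup_iff]
      rfl)
    (fun h => c (h : GQ)) (fun h => hc0 _ h.2)
    (fun g h => hc _ g.2 _ h.2)
    (fun g s hs => hF _ g.2 _ s.2 (Subgroup.mem_subgroupOf.1 hs))
  exact ⟨β, hβ0, fun s hs => hβ ⟨s, hs⟩⟩

/-- `A` is integrally closed: roots of elements of `A` lie in `A`. -/
theorem m59rpk_mem_of_pow_mem {n : ℕ} (hn : n ≠ 0) {γ : Qb} (h : γ ^ n ∈ A) : γ ∈ A := by
  rw [← A.valuation_le_one_iff] at h ⊢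
  rw [map_pow] at h
  exact (pow_le_one_iff hn).1 h

variable (p : ℕ) [hp : Fact p.Prime] (hA : A.LiesOverPrime p)

include hA in
/-- **(CONJ)**, the Kummer core of (R1). -/
theorem m59rpk_conj (τ : GQ) (hτI : τ ∈ A.inertiaSubgroupIn ℚ) (N : ℕ)
    (hτ : ∀ γ : Qb, γ ∈ A → γ⁻¹ ∈ A →
      (∀ s ∈ A.inertiaSubgroupIn ℚ, s (γ ^ p ^ N) = γ ^ p ^ N) → τ γ = γ)
    (c : GQ → Qb)
    (hcn : ∀ s ∈ A.inertiaSubgroupIn ℚ, c s ^ p ^ N = 1)
    (hc : ∀ s ∈ A.inertiaSubgroupIn ℚ, ∀ t ∈ A.inertiaSubgroupIn ℚ, c (s * t) = c s * s (c t))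
    (F : IntermediateField ℚ Qb) [FiniteDimensional ℚ F]
    (hF : ∀ s ∈ A.inertiaSubgroupIn ℚ, ∀ u ∈ A.inertiaSubgroupIn ℚ, u ∈ F.fixingSubgroup →
      c (s * u) = c s)
    (φ : GQ) (hφ : φ ∈ A.decompositionSubgroup ℚ) :
    c (φ * τ * φ⁻¹) = φ (c τ) := by
  classical
  set n := p ^ N with hn
  have hn0 : n ≠ 0 := pow_ne_zero _ hp.out.ne_zero
  have hpQ : (p : Qb) ≠ 0 := Nat.cast_ne_zero.2 hp.out.ne_zero
  have hc0 : ∀ s ∈ A.inertiaSubgroupIn ℚ, c s ≠ 0 := by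
    intro s hs h0
    have := hcn s hs
    rw [h0, zero_pow hn0] at this
    exact zero_ne_one this
  obtain ⟨β, hβ0, hβ⟩ := m59rpk_h90 A c hc0 hc F hF
  -- the action of inertia on `β`
  have hsβ : ∀ s ∈ A.inertiaSubgroupIn ℚ, s β = (c s)⁻¹ * β := by
    intro s hs
    rw [← hβ s hs, ← mul_assoc, inv_mul_cancel₀ (hc0 s hs), one_mul, hβ s hs]
  -- `y = β ^ n` lies in the inertia field
  set y := β ^ n with hy
  have hy0 : y ≠ 0 := pow_ne_zero _ hβ0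
  have hyL : y ∈ ffi_L A := by
    rw [ffi_mem_L]
    intro s hs
    rw [hy, map_pow, hsβ s hs, mul_pow, inv_pow, hcn s hs, inv_one, one_mul]
  obtain ⟨k, hk1, hk2⟩ := ffi_lvi_unit p A hA hyL hy0
  set u := y * (p : Qb) ^ k with hu
  have hu0 : u ≠ 0 := mul_ne_zero hy0 (zpow_ne_zero _ hpQ)
  -- `ψ = φ⁻¹`
  set ψ : GQ := φ⁻¹ with hψ
  have hψD : ψ ∈ A.decompositionSubgroup ℚ := inv_mem hφ
  have hψp : ψ ((p : Qb) ^ k) = (p : Qb) ^ k := by
    rw [map_zpow₀, map_natCast]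
  have hψu : ψ u = ψ y * (p : Qb) ^ k := by
    rw [hu, map_mul, hψp]
  -- `γ`
  set γ := ψ β / β with hγ
  have hψβ0 : ψ β ≠ 0 := by
    rw [Ne, map_eq_zero_iff _ (AlgEquiv.injective _)]
    exact hβ0
  have hγ0 : γ ≠ 0 := div_ne_zero hψβ0 hβ0
  have hγn : γ ^ n = ψ u * u⁻¹ := by
    rw [hγ, div_pow, ← map_pow, ← hy, hψu, hu, mul_inv, div_eq_mul_inv]
    field_simp
  have hγnA : γ ^ n ∈ A := by
    rw [hγn]
    exact A.mul_mem _ _ (s35d_decomp_mem hψD hk1) hk2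
  have hγinvnA : γ⁻¹ ^ n ∈ A := by
    rw [inv_pow, hγn, mul_inv, inv_inv, ← map_inv₀]
    exact A.mul_mem _ _ (s35d_decomp_mem hψD hk2) hk1
  have hγA : γ ∈ A := m59rpk_mem_of_pow_mem A hn0 hγnA
  have hγinvA : γ⁻¹ ∈ A := m59rpk_mem_of_pow_mem A hn0 hγinvnA
  -- `ψ y` lies in the inertia field
  have hψyL : ∀ s ∈ A.inertiaSubgroupIn ℚ, s (ψ y) = ψ y := by
    intro s hs
    have h1 := (ffi_mem_L.1 hyL) _ (s35d_conj_mem_inertia A hψD hs)
    have h2 : s (ψ y) = ψ ((ψ⁻¹ * s * ψ) y) := by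
      simp only [AlgEquiv.mul_apply, AlgEquiv.aut_inv]
      rw [AlgEquiv.apply_symm_apply]
    rw [h2, h1]
  have hγfix : ∀ s ∈ A.inertiaSubgroupIn ℚ, s (γ ^ n) = γ ^ n := by
    intro s hs
    have h1 : γ ^ n = ψ y / y := by
      rw [hγ, div_pow, ← map_pow]
    rw [h1, map_div₀, hψyL s hs, (ffi_mem_L.1 hyL) s hs]
  have hτγ : τ γ = γ := hτ γ hγA hγinvA hγfix
  -- `τ` on `ψ β`
  have hψβ : ψ β = γ * β := by
    rw [hγ, div_mul_cancel₀ _ hβ0]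
  have hτψβ : τ (ψ β) = (c τ)⁻¹ * ψ β := by
    rw [hψβ, map_mul, hτγ, hsβ τ hτI]
    ring
  -- the conjugate
  have hσI : φ * τ * φ⁻¹ ∈ A.inertiaSubgroupIn ℚ := by
    have := s35d_conj_mem_inertia A hψD hτI
    rwa [hψ, inv_inv] at this
  have hσβ : (φ * τ * φ⁻¹) β = (φ (c τ))⁻¹ * β := by
    have h1 : (φ * τ * φ⁻¹) β = φ (τ (ψ β)) := by
      simp only [AlgEquiv.mul_apply, hψ]
    rw [h1, hτψβ, map_mul, map_inv₀, hψ]
    simp only [AlgEquiv.aut_inv]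
    rw [AlgEquiv.apply_symm_apply]
  have h3 := hβ _ hσI
  rw [hσβ, ← mul_assoc] at h3
  have hφc0 : φ (c τ) ≠ 0 := by
    rw [Ne, map_eq_zero_iff _ (AlgEquiv.injective _)]
    exact hc0 τ hτI
  have h4 : c (φ * τ * φ⁻¹) * (φ (c τ))⁻¹ = 1 := mul_right_cancel₀ hβ0 (by rw [h3, one_mul])
  rw [mul_inv_eq_one₀ hφc0] at h4
  exact h4

end Conj

end Fermat.Agent.M59
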