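/-
M59 / [R_p-norm], cell (K3) (helper24; prefix `m59rpk_`), part 1: THE GALOIS SIDE.

`A` a valuation subring of `Q̄`, `I_A = A.inertiaSubgroupIn ℚ`, `K^nr = ffi_L A = Q̄^{I_A}`.

* `m59rpk_mem_inertia_of_fix` : an automorphism of `Q̄` fixing `K^nr` pointwise lies in `I_A`
  (`I_A = Gal(Q̄ / K^nr)`; from `s35d_L1_factor` and `tl_mem_inertiaSubgroupIn_iff`);
* `m59rpk_exists_moving` : for an intermediate field `M ⊇ K^nr` and `x ∉ M` there is `τ ∈ I_A`
  fixing `M` pointwise with `τ x ≠ x` (infinite Galois theory of `Q̄ / ℚ`).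
-/
import Mathlib
import Fermat.Agent.S35.DescU.InertiaField

set_option autoImplicit false
set_option linter.unusedSectionVars false
set_option linter.style.haveILetI false

noncomputable section

namespace Fermat.Agent.M59

open Fermat.Agent.FF Fermat.Agent.S35 Fermat.Agent.S55 IntermediateField
open scoped Pointwise

local notation "Qb" => AlgebraicClosure ℚ
local notation "GQ" => (AlgebraicClosure ℚ ≃ₐ[ℚ] AlgebraicClosure ℚ)

/-- every element of `Q̄` lies in a subfield which is finite and normal over `ℚ`. -/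
theorem m59rpk_exists_normal (x : Qb) :
    ∃ L2 : IntermediateField ℚ Qb, FiniteDimensional ℚ L2 ∧ Normal ℚ L2 ∧ x ∈ L2 := by
  have hint : IsIntegral ℚ x := ((AlgebraicClosure.isAlgebraic ℚ).isAlgebraic x).isIntegral
  haveI : FiniteDimensional ℚ ↥(ℚ⟮x⟯) := adjoin.finiteDimensional hint
  haveI := s35d_normal_Qb
  refine ⟨normalClosure ℚ ↥(ℚ⟮x⟯) Qb, normalClosure.is_finiteDimensional ℚ ↥(ℚ⟮x⟯) Qb,
    normalClosure.normal ℚ ↥(ℚ⟮x⟯) Qb, ?_⟩
  exact (le_normalClosure (ℚ⟮x⟯)) (mem_adjoin_simple_self ℚ x)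

/-- an automorphism fixing `Q̄^{I_A}` pointwise agrees at every point with an element of `I_A`. -/
theorem m59rpk_agree (A : ValuationSubring Qb) (τ : GQ) (hτ : ∀ a ∈ ffi_L A, τ a = a) (x : Qb) :
    ∃ s ∈ A.inertiaSubgroupIn ℚ, τ x = s x := by
  obtain ⟨L2, hfin, hnorm, hx⟩ := m59rpk_exists_normal x
  haveI := hfin
  haveI := hnorm
  obtain ⟨s, hs, hs'⟩ := s35d_L1_factor A L2 τ (fun a ha => hτ a (s35d_L1_le_inertia A L2 ha))
  exact ⟨s, hs, hs' x hx⟩

/-- **`I_A = Gal(Q̄ / Q̄^{I_A})`**: an automorphism fixing the inertia field pointwise is in the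
inertia group. -/
theorem m59rpk_mem_inertia_of_fix (A : ValuationSubring Qb) (τ : GQ)
    (hτ : ∀ a ∈ ffi_L A, τ a = a) : τ ∈ A.inertiaSubgroupIn ℚ := by
  rw [tl_mem_inertiaSubgroupIn_iff]
  have hτinv : ∀ a ∈ ffi_L A, τ⁻¹ a = a := by
    intro a ha
    have h1 := hτ a ha
    calc τ⁻¹ a = τ⁻¹ (τ a) := by rw [h1]
      _ = a := τ.symm_apply_apply a
  have hmem : ∀ (σ : GQ), (∀ a ∈ ffi_L A, σ a = a) → ∀ x ∈ A, σ x ∈ A := by
    intro σ hσ x hx
    obtain ⟨s, hs, hsx⟩ := m59rpk_agree A σ hσ x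
    rw [hsx]
    have hsA := ((tl_mem_inertiaSubgroupIn_iff A s).1 hs).1
    have : s • x ∈ s • A := ValuationSubring.smul_mem_pointwise_smul _ _ _ hx
    rw [hsA] at this
    exact this
  refine ⟨?_, fun x hx => ?_⟩
  · ext x
    rw [ValuationSubring.mem_smul_pointwise_iff_exists]
    constructor
    · rintro ⟨y, hy, rfl⟩
      exact hmem τ hτ y hy
    · intro hx
      refine ⟨τ⁻¹ x, hmem τ⁻¹ hτinv x hx, ?_⟩
      show τ (τ⁻¹ x) = x
      exact τ.apply_symm_apply x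
  · obtain ⟨s, hs, hsx⟩ := m59rpk_agree A τ hτ x
    rw [hsx]
    exact ((tl_mem_inertiaSubgroupIn_iff A s).1 hs).2 x hx

/-- **an inertia element fixing `M ⊇ Q̄^{I_A}` and moving `x ∉ M`.** -/
theorem m59rpk_exists_moving (A : ValuationSubring Qb) (M : IntermediateField ℚ Qb)
    (hM : ffi_L A ≤ M) {x : Qb} (hx : x ∉ M) :
    ∃ τ ∈ A.inertiaSubgroupIn ℚ, (∀ a ∈ M, τ a = a) ∧ τ x ≠ x := by
  haveI := s35d_normal_Qb
  haveI : IsGalois ℚ Qb := ⟨⟩
  have h1 : x ∉ IntermediateField.fixedField M.fixingSubgroup := by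
    rw [InfiniteGalois.fixedField_fixingSubgroup M]
    exact hx
  rw [IntermediateField.mem_fixedField_iff] at h1
  push Not at h1
  obtain ⟨τ, hτM, hτx⟩ := h1
  have hfix : ∀ a ∈ M, τ a = a := fun a ha =>
    (IntermediateField.mem_fixingSubgroup_iff M τ).1 hτM a ha
  exact ⟨τ, m59rpk_mem_inertia_of_fix A τ (fun a ha => hfix a (hM ha)), hfix, hτx⟩

end Fermat.Agent.M59

end
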