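/-
M59 / [R_p-norm], cell (K3) (helper24; prefix `m59rpk_`), part 2: THE KUMMER STEP, by hand.

`K ⊆ Q̄` a subfield containing the `n`-th roots of unity, `G' = Gal(Q̄ / K)`.

* `m59rpk_kummer_one` : `γ ^ n ∈ K`, `y ^ n ∈ K`, `y` fixed by every `σ ∈ G'` fixing `γ`
  ⟹ `y = γ ^ a · z` with `z ∈ K`;
* `m59rpk_kummer_list` : the same for a finite list of `γ`'s.
No Kummer correspondence, no duality of finite abelian groups: only "a subgroup of the cyclic group
`μ_n` is cyclic" in the form `IsPrimitiveRoot.eq_pow_of_pow_eq_one`.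
-/
import Mathlib
import Fermat.Agent.M59.Rp.KumGal

set_option autoImplicit false
set_option linter.unusedSectionVars false
set_option linter.style.haveILetI false
set_option linter.unusedVariables false

noncomputable section

namespace Fermat.Agent.M59

open IntermediateField

local notation "Qb" => AlgebraicClosure ℚ
local notation "GQ" => (AlgebraicClosure ℚ ≃ₐ[ℚ] AlgebraicClosure ℚ)

/-- an element fixed by `Gal(Q̄ / K)` lies in `K`. -/
theorem m59rpk_mem_of_fixed (K : IntermediateField ℚ Qb) {z : Qb}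
    (hz : ∀ σ ∈ K.fixingSubgroup, σ z = z) : z ∈ K := by
  haveI := Fermat.Agent.S35.s35d_normal_Qb
  haveI : IsGalois ℚ Qb := ⟨⟩
  rw [← InfiniteGalois.fixedField_fixingSubgroup K, IntermediateField.mem_fixedField_iff]
  exact hz

/-- elements of `Gal(Q̄ / K)` fix `K` pointwise. -/
theorem m59rpk_fix_of_mem (K : IntermediateField ℚ Qb) {σ : GQ} (hσ : σ ∈ K.fixingSubgroup)
    {z : Qb} (hz : z ∈ K) : σ z = z :=
  (IntermediateField.mem_fixingSubgroup_iff K σ).1 hσ z hz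

/-- the Kummer character: `σ y / y` is an `n`-th root of unity for `σ ∈ Gal(Q̄ / K)`, `y ^ n ∈ K`. -/
theorem m59rpk_chi_pow (K : IntermediateField ℚ Qb) {n : ℕ} {y : Qb} (hy0 : y ≠ 0)
    (hy : y ^ n ∈ K) {σ : GQ} (hσ : σ ∈ K.fixingSubgroup) : (σ y / y) ^ n = 1 := by
  rw [div_pow, ← map_pow, m59rpk_fix_of_mem K hσ hy]
  exact div_self (pow_ne_zero n hy0)

/-- the Kummer character is multiplicative on `Gal(Q̄ / K)` when `μ_n ⊆ K`. -/
theorem m59rpk_chi_mul (K : IntermediateField ℚ Qb) {n : ℕ}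
    (hμ : ∀ z : Qb, z ^ n = 1 → z ∈ K) {y : Qb} (hy0 : y ≠ 0) (hy : y ^ n ∈ K) {σ τ : GQ}
    (hσ : σ ∈ K.fixingSubgroup) (hτ : τ ∈ K.fixingSubgroup) :
    (σ * τ) y / y = (σ y / y) * (τ y / y) := by
  have h1 : τ y = (τ y / y) * y := by field_simp
  have h2 : σ (τ y / y) = τ y / y :=
    m59rpk_fix_of_mem K hσ (hμ _ (m59rpk_chi_pow K hy0 hy hτ))
  have h3 : (σ * τ) y = σ (τ y) := rfl
  rw [h3]
  conv_lhs => rw [h1, map_mul, h2]
  field_simp

/-- powers -/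
theorem m59rpk_chi_pow_apply (K : IntermediateField ℚ Qb) {n : ℕ}
    (hμ : ∀ z : Qb, z ^ n = 1 → z ∈ K) {y : Qb} (hy0 : y ≠ 0) (hy : y ^ n ∈ K) {σ : GQ}
    (hσ : σ ∈ K.fixingSubgroup) (k : ℕ) :
    (σ ^ k) y / y = (σ y / y) ^ k := by
  induction k with
  | zero =>
    rw [pow_zero, pow_zero]
    exact div_self hy0
  | succ k ih =>
    rw [pow_succ, m59rpk_chi_mul K hμ hy0 hy (K.fixingSubgroup.pow_mem hσ k) hσ, ih, pow_succ]

/-- **the one-generator Kummer lemma.** -/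
theorem m59rpk_kummer_one (K : IntermediateField ℚ Qb) {n : ℕ} (hn : 0 < n)
    (hμ : ∀ z : Qb, z ^ n = 1 → z ∈ K) {γ y : Qb} (hγ0 : γ ≠ 0) (hy0 : y ≠ 0)
    (hγ : γ ^ n ∈ K) (hy : y ^ n ∈ K)
    (hfix : ∀ σ ∈ K.fixingSubgroup, σ γ = γ → σ y = y) :
    ∃ a : ℕ, y / γ ^ a ∈ K := by
  classical
  haveI : NeZero n := ⟨hn.ne'⟩
  -- a primitive `n`-th root of unity
  obtain ⟨ζ, hζ⟩ : ∃ ζ : Qb, IsPrimitiveRoot ζ n :=
    HasEnoughRootsOfUnity.exists_primitiveRoot Qb n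
  -- the exponent of `σ γ / γ`
  have hexp : ∀ σ ∈ K.fixingSubgroup, ∃ i : ℕ, i < n ∧ ζ ^ i = σ γ / γ := fun σ hσ =>
    hζ.eq_pow_of_pow_eq_one (m59rpk_chi_pow K hγ0 hγ hσ)
  -- the set of exponents attained; take the gcd-minimal one: minimal positive exponent
  by_cases hall : ∀ σ ∈ K.fixingSubgroup, σ γ = γ
  · -- `γ` is fixed by everything: `y ∈ K`
    refine ⟨0, ?_⟩
    rw [pow_zero, div_one]
    exact m59rpk_mem_of_fixed K (fun σ hσ => hfix σ hσ (hall σ hσ))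
  · push Not at hall
    -- the subgroup of `ZMod n` of exponents
    -- choose `σ₀` with minimal positive exponent `d₀`
    have hex : ∃ d : ℕ, 0 < d ∧ ∃ σ ∈ K.fixingSubgroup, ζ ^ d = σ γ / γ := by
      obtain ⟨σ, hσ, hne⟩ := hall
      obtain ⟨i, hi, hiζ⟩ := hexp σ hσ
      refine ⟨i, ?_, σ, hσ, hiζ⟩
      rcases Nat.eq_zero_or_pos i with h0 | h0
      · exfalso
        rw [h0, pow_zero] at hiζ
        apply hne
        have : σ γ / γ = 1 := hiζ.symm
        rwa [div_eq_one_iff_eq hγ0] at this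
      · exact h0
    set d₀ := Nat.find hex with hd₀
    obtain ⟨hd₀pos, σ₀, hσ₀, hσ₀ζ⟩ := Nat.find_spec hex
    -- every attained exponent is a multiple of `d₀` (mod `n`), and `d₀ ∣ n`
    have hdiv : ∀ σ ∈ K.fixingSubgroup, ∀ i : ℕ, ζ ^ i = σ γ / γ → d₀ ∣ i := by
      intro σ hσ i hi
      -- `i = d₀ * k + r`, `r < d₀`; `σ * σ₀⁻ᵏ` has exponent `r`
      by_contra hnd
      have hr : 0 < i % d₀ := Nat.pos_of_ne_zero (fun h => hnd (Nat.dvd_of_mod_eq_zero h))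
      have hlt : i % d₀ < d₀ := Nat.mod_lt _ hd₀pos
      -- the element `σ * (σ₀ ^ (i / d₀))⁻¹`
      have hmem : σ * (σ₀ ^ (i / d₀))⁻¹ ∈ K.fixingSubgroup :=
        K.fixingSubgroup.mul_mem hσ (K.fixingSubgroup.inv_mem (K.fixingSubgroup.pow_mem hσ₀ _))
      have hpowk : (σ₀ ^ (i / d₀)) γ / γ = ζ ^ (d₀ * (i / d₀)) := by
        rw [m59rpk_chi_pow_apply K hμ hγ0 hγ hσ₀, ← hσ₀ζ, ← pow_mul]
      have hinvk : ((σ₀ ^ (i / d₀))⁻¹) γ / γ = (ζ ^ (d₀ * (i / d₀)))⁻¹ := by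
        have h1 := m59rpk_chi_mul K hμ hγ0 hγ (K.fixingSubgroup.pow_mem hσ₀ (i / d₀))
          (K.fixingSubgroup.inv_mem (K.fixingSubgroup.pow_mem hσ₀ (i / d₀)))
        rw [mul_inv_cancel] at h1
        have h2 : (1 : GQ) γ / γ = 1 := div_self hγ0
        rw [h2, hpowk] at h1
        exact eq_inv_of_mul_eq_one_right h1.symm
      have hval : (σ * (σ₀ ^ (i / d₀))⁻¹) γ / γ = ζ ^ (i % d₀) := by
        rw [m59rpk_chi_mul K hμ hγ0 hγ hσ
          (K.fixingSubgroup.inv_mem (K.fixingSubgroup.pow_mem hσ₀ _)), ← hi, hinvk]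
        have hζ0 : ζ ≠ 0 := hζ.ne_zero hn.ne'
        rw [← div_eq_mul_inv]
        rw [div_eq_iff (pow_ne_zero _ hζ0), ← pow_add, Nat.mod_add_div]
      have := Nat.find_min hex (m := i % d₀) hlt
      exact this ⟨hr, _, hmem, hval.symm⟩
    have hd₀n : d₀ ∣ n := by
      -- the identity has exponent `n`
      have h1 : ζ ^ n = (1 : GQ) γ / γ := by
        rw [hζ.pow_eq_one]
        exact (div_self hγ0).symm
      exact hdiv 1 K.fixingSubgroup.one_mem n h1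
    obtain ⟨e, he⟩ := hd₀n
    have hepos : 0 < e := by
      rcases Nat.eq_zero_or_pos e with h0 | h0
      · rw [h0, mul_zero] at he
        omega
      · exact h0
    -- `ω = ζ ^ d₀` is a primitive `e`-th root of unity
    have hω : IsPrimitiveRoot (ζ ^ d₀) e := by
      have := hζ.pow hn (show n = d₀ * e from he)
      exact this
    -- `σ₀ ^ e` fixes `γ`, hence `y`
    have hσ₀e : (σ₀ ^ e) γ = γ := by
      have h1 := m59rpk_chi_pow_apply K hμ hγ0 hγ hσ₀ e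
      rw [← hσ₀ζ, hω.pow_eq_one] at h1
      rwa [div_eq_one_iff_eq hγ0] at h1
    have hσ₀ey : (σ₀ ^ e) y = y := hfix _ (K.fixingSubgroup.pow_mem hσ₀ e) hσ₀e
    -- so `χ_y(σ₀) ^ e = 1`, `χ_y(σ₀) = ω ^ a`
    have hye : (σ₀ y / y) ^ e = 1 := by
      rw [← m59rpk_chi_pow_apply K hμ hy0 hy hσ₀ e, hσ₀ey]
      exact div_self hy0
    haveI : NeZero e := ⟨hepos.ne'⟩
    obtain ⟨a, -, ha⟩ := hω.eq_pow_of_pow_eq_one hye
    refine ⟨a, ?_⟩
    -- `z = y / γ ^ a` is fixed by `Gal(Q̄ / K)`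
    have hz0 : y / γ ^ a ≠ 0 := div_ne_zero hy0 (pow_ne_zero _ hγ0)
    have hzn : (y / γ ^ a) ^ n ∈ K := by
      rw [div_pow, ← pow_mul, mul_comm a n, pow_mul]
      exact div_mem hy (pow_mem hγ a)
    -- the character of `z`
    have hχz : ∀ σ ∈ K.fixingSubgroup, σ (y / γ ^ a) / (y / γ ^ a) = (σ y / y) / (σ γ / γ) ^ a := by
      intro σ hσ
      rw [map_div₀, map_pow]
      have h1 : σ γ ≠ 0 := (map_ne_zero σ).2 hγ0
      have h2 : σ y ≠ 0 := (map_ne_zero σ).2 hy0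
      rw [div_pow]
      field_simp
    apply m59rpk_mem_of_fixed K
    intro σ hσ
    -- the exponent of `σ` is a multiple of `d₀`
    obtain ⟨i, -, hi⟩ := hexp σ hσ
    obtain ⟨k, hk⟩ := hdiv σ hσ i hi
    -- `σ * (σ₀ ^ k)⁻¹` fixes `γ`
    have hmem : σ * (σ₀ ^ k)⁻¹ ∈ K.fixingSubgroup :=
      K.fixingSubgroup.mul_mem hσ (K.fixingSubgroup.inv_mem (K.fixingSubgroup.pow_mem hσ₀ _))
    have hζ0 : ζ ≠ 0 := hζ.ne_zero hn.ne'
    have hpowk : (σ₀ ^ k) γ / γ = ζ ^ i := by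
      rw [m59rpk_chi_pow_apply K hμ hγ0 hγ hσ₀, ← hσ₀ζ, ← pow_mul, hk]
    have hfixγ : (σ * (σ₀ ^ k)⁻¹) γ = γ := by
      have h1 := m59rpk_chi_mul K hμ hγ0 hγ hmem (K.fixingSubgroup.pow_mem hσ₀ k)
      rw [inv_mul_cancel_right, ← hi, hpowk] at h1
      have h2 : (σ * (σ₀ ^ k)⁻¹) γ / γ = 1 := by
        have h3 : ζ ^ i ≠ 0 := pow_ne_zero _ hζ0
        have := mul_right_cancel₀ h3 ((one_mul _).trans h1)
        exact this.symm
      rwa [div_eq_one_iff_eq hγ0] at h2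
    have hfixy : (σ * (σ₀ ^ k)⁻¹) y = y := hfix _ hmem hfixγ
    -- `χ_z(σ₀) = 1`
    have hzσ₀ : σ₀ (y / γ ^ a) = y / γ ^ a := by
      have h1 := hχz σ₀ hσ₀
      rw [← hσ₀ζ, ← ha, div_self (pow_ne_zero _ (pow_ne_zero _ hζ0))] at h1
      rwa [div_eq_one_iff_eq hz0] at h1
    have hzσ₀k : (σ₀ ^ k) (y / γ ^ a) = y / γ ^ a := by
      have h1 := m59rpk_chi_pow_apply K hμ hz0 hzn hσ₀ k
      rw [hzσ₀, div_self hz0, one_pow] at h1
      rwa [div_eq_one_iff_eq hz0] at h1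
    have hzτ : (σ * (σ₀ ^ k)⁻¹) (y / γ ^ a) = y / γ ^ a := by
      rw [map_div₀, map_pow, hfixγ, hfixy]
    have hσeq : σ = (σ * (σ₀ ^ k)⁻¹) * σ₀ ^ k := by group
    rw [hσeq]
    show (σ * (σ₀ ^ k)⁻¹) ((σ₀ ^ k) (y / γ ^ a)) = _
    rw [hzσ₀k, hzτ]

/-- the field `K(γ)`. -/
def m59rpk_adj (K : IntermediateField ℚ Qb) (γ : Qb) : IntermediateField ℚ Qb :=
  IntermediateField.adjoin ℚ ((K : Set Qb) ∪ {γ})

theorem m59rpk_le_adj (K : IntermediateField ℚ Qb) (γ : Qb) : K ≤ m59rpk_adj K γ := fun z hz =>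
  IntermediateField.subset_adjoin ℚ _ (Or.inl hz)

theorem m59rpk_mem_adj (K : IntermediateField ℚ Qb) (γ : Qb) : γ ∈ m59rpk_adj K γ :=
  IntermediateField.subset_adjoin ℚ _ (Or.inr rfl)

/-- an automorphism fixing a set pointwise fixes the field it generates pointwise. -/
theorem m59rpk_fix_adjoin (S : Set Qb) (σ : GQ) (hS : ∀ s ∈ S, σ s = s) {z : Qb}
    (hz : z ∈ IntermediateField.adjoin ℚ S) : σ z = z := by
  have hle : IntermediateField.adjoin ℚ S ≤ IntermediateField.fixedField (Subgroup.zpowers σ) := by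
    rw [IntermediateField.adjoin_le_iff]
    intro s hs
    show s ∈ IntermediateField.fixedField (Subgroup.zpowers σ)
    rw [IntermediateField.mem_fixedField_iff]
    intro g hg
    have h1 : σ ∈ MulAction.stabilizer GQ s := by
      rw [MulAction.mem_stabilizer_iff]
      exact hS s hs
    have h2 : Subgroup.zpowers σ ≤ MulAction.stabilizer GQ s := (Subgroup.zpowers_le).2 h1
    exact MulAction.mem_stabilizer_iff.1 (h2 hg)
  have := hle hz
  rw [IntermediateField.mem_fixedField_iff] at this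
  exact this σ (Subgroup.mem_zpowers σ)

theorem m59rpk_mem_fixing_adj (K : IntermediateField ℚ Qb) (γ : Qb) (σ : GQ) :
    σ ∈ (m59rpk_adj K γ).fixingSubgroup ↔ σ ∈ K.fixingSubgroup ∧ σ γ = γ := by
  rw [IntermediateField.mem_fixingSubgroup_iff, IntermediateField.mem_fixingSubgroup_iff]
  constructor
  · intro h
    exact ⟨fun z hz => h z (m59rpk_le_adj K γ hz), h γ (m59rpk_mem_adj K γ)⟩
  · rintro ⟨h1, h2⟩ z hz
    refine m59rpk_fix_adjoin _ σ ?_ hz
    rintro s (hs | hs)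
    · exact h1 s hs
    · rw [Set.mem_singleton_iff.1 hs]
      exact h2

/-- the `n`-th power of an element of the submonoid generated by elements with `n`-th power in
`K` lies in `K`. -/
theorem m59rpk_closure_pow_mem (K : IntermediateField ℚ Qb) (n : ℕ) (S : Set Qb)
    (hS : ∀ γ ∈ S, γ ^ n ∈ K) {g : Qb} (hg : g ∈ Submonoid.closure S) : g ^ n ∈ K := by
  induction hg using Submonoid.closure_induction with
  | mem x hx => exact hS x hx
  | one => rw [one_pow]; exact K.one_mem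
  | mul x y _ _ hx hy => rw [mul_pow]; exact K.mul_mem hx hy

theorem m59rpk_closure_ne_zero (S : Set Qb) (hS : ∀ γ ∈ S, γ ≠ 0) {g : Qb}
    (hg : g ∈ Submonoid.closure S) : g ≠ 0 := by
  induction hg using Submonoid.closure_induction with
  | mem x hx => exact hS x hx
  | one => exact one_ne_zero
  | mul x y _ _ hx hy => exact mul_ne_zero hx hy

/-- **the Kummer step for finitely many generators.** -/
theorem m59rpk_kummer_list {n : ℕ} (hn : 0 < n) (γs : List Qb) :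
    ∀ (K : IntermediateField ℚ Qb), (∀ z : Qb, z ^ n = 1 → z ∈ K) →
      (∀ γ ∈ γs, γ ≠ 0) → (∀ γ ∈ γs, γ ^ n ∈ K) →
      ∀ y : Qb, y ≠ 0 → y ^ n ∈ K →
        (∀ σ ∈ K.fixingSubgroup, (∀ γ ∈ γs, σ γ = γ) → σ y = y) →
        ∃ g ∈ Submonoid.closure {γ : Qb | γ ∈ γs}, y / g ∈ K := by
  induction γs with
  | nil =>
    intro K hμ _ _ y hy0 hy hfix
    refine ⟨1, Submonoid.one_mem _, ?_⟩
    rw [div_one]
    exact m59rpk_mem_of_fixed K (fun σ hσ => hfix σ hσ (fun γ hγ => absurd hγ (List.not_mem_nil)))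
  | cons γ rest ih =>
    intro K hμ hγ0 hγK y hy0 hy hfix
    have hγ0' : γ ≠ 0 := hγ0 γ (List.mem_cons_self)
    have hγK' : γ ^ n ∈ K := hγK γ (List.mem_cons_self)
    have hle := m59rpk_le_adj K γ
    obtain ⟨g', hg', hyg'⟩ := ih (m59rpk_adj K γ) (fun z hz => hle (hμ z hz))
      (fun γ' h => hγ0 γ' (List.mem_cons_of_mem _ h))
      (fun γ' h => hle (hγK γ' (List.mem_cons_of_mem _ h))) y hy0 (hle hy)
      (fun σ hσ hrest => by
        rw [m59rpk_mem_fixing_adj] at hσ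
        refine hfix σ hσ.1 (fun γ' h => ?_)
        rcases List.mem_cons.1 h with rfl | h
        · exact hσ.2
        · exact hrest γ' h)
    have hg'0 : g' ≠ 0 := m59rpk_closure_ne_zero _ (fun γ' h => hγ0 γ' (List.mem_cons_of_mem _ h)) hg'
    have hg'n : g' ^ n ∈ K := m59rpk_closure_pow_mem K n _
      (fun γ' h => hγK γ' (List.mem_cons_of_mem _ h)) hg'
    have hy'0 : y / g' ≠ 0 := div_ne_zero hy0 hg'0
    have hy'n : (y / g') ^ n ∈ K := by
      rw [div_pow]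
      exact div_mem hy hg'n
    obtain ⟨a, ha⟩ := m59rpk_kummer_one K hn hμ hγ0' hy'0 hγK' hy'n (fun σ hσ hσγ =>
      m59rpk_fix_of_mem (m59rpk_adj K γ) ((m59rpk_mem_fixing_adj K γ σ).2 ⟨hσ, hσγ⟩) hyg')
    refine ⟨γ ^ a * g', ?_, ?_⟩
    · refine Submonoid.mul_mem _ (Submonoid.pow_mem _ (Submonoid.subset_closure ?_) a)
        (Submonoid.closure_mono (fun γ' h => ?_) hg')
      · exact List.mem_cons_self
      · exact List.mem_cons_of_mem _ h
    · have : y / (γ ^ a * g') = y / g' / γ ^ a := by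
        rw [div_div, mul_comm]
      rw [this]
      exact ha

end Fermat.Agent.M59

end
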