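/-
M59 / [R_p-norm], cell (K3) (helper24; prefix `m59rpk_`), part 3: CYCLOTOMIC DESCENT.

`A` a valuation subring of `Q̄` over the ODD prime `p`, `K^nr = ffi_L A`.

* `m59rpk_zeta_not_mem` : a primitive `p`-th root of unity does not lie in `K^nr`
  (`∏_{0<j<p} (1 - ω^j) = p` and `p` is a uniformiser of `A ∩ K^nr`: `ffi_lvi_unr`);
* `m59rpk_descent` : `f ∈ K^nr(μ_n)`, `n = p^N`, `f^n ∈ K^nr` ⟹ `f^n = f₀^n` with `f₀ ∈ K^nr`
  (`H¹(Gal(K^nr(μ_n)/K^nr), μ_n) = 0` through ONE element `σ₀ ∈ I_A` moving `ζ_p`).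
-/
import Mathlib
import Fermat.Agent.M59.Rp.KumStep

set_option autoImplicit false
set_option linter.unusedSectionVars false
set_option linter.style.haveILetI false
set_option linter.unusedVariables false

noncomputable section

namespace Fermat.Agent.M59

open Fermat.Agent.FF IntermediateField

local notation "Qb" => AlgebraicClosure ℚ
local notation "GQ" => (AlgebraicClosure ℚ ≃ₐ[ℚ] AlgebraicClosure ℚ)

section Zeta

variable (p : ℕ) [hp : Fact p.Prime] (A : ValuationSubring Qb) (hA : A.LiesOverPrime p)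

include hA in
/-- `p` is not a unit of `A`: no positive power of `p` times an element of `A` is `1`. -/
theorem m59rpk_p_pow_not_unit {k : ℕ} (hk : 0 < k) {a : Qb} (ha : a ∈ A) :
    (p : Qb) ^ k * a ≠ 1 := by
  intro h
  have hpn : (p : Qb) ∈ A.nonunits := hA
  have hpA : (p : Qb) ∈ A := A.nonunits_le hpn
  have h1 : A.valuation (p : Qb) < 1 := (ValuationSubring.mem_nonunits_iff A).1 hpn
  have h2 : A.valuation ((p : Qb) ^ k * a) = 1 := by rw [h, map_one]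
  rw [map_mul, map_pow] at h2
  have h3 : A.valuation a ≤ 1 := (A.valuation_le_one_iff a).2 ha
  have h4 : A.valuation (p : Qb) ^ k < 1 := pow_lt_one₀ zero_le h1 hk.ne'
  have h5 : A.valuation (p : Qb) ^ k * A.valuation a < 1 := by
    calc A.valuation (p : Qb) ^ k * A.valuation a ≤ A.valuation (p : Qb) ^ k * 1 :=
          mul_le_mul' le_rfl h3
      _ = A.valuation (p : Qb) ^ k := mul_one _
      _ < 1 := h4
  rw [h2] at h5
  exact lt_irrefl _ h5

include hA in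
/-- **a primitive `p`-th root of unity does not lie in the inertia field** (`p` odd). -/
theorem m59rpk_zeta_not_mem (hp2 : p ≠ 2) {ω : Qb} (hω : IsPrimitiveRoot ω p) :
    ω ∉ ffi_L A := by
  intro hmem
  have hp0 : p ≠ 0 := hp.out.ne_zero
  have hp3 : 3 ≤ p := by
    have := hp.out.two_le
    omega
  obtain ⟨m, hm⟩ : ∃ m, p = m + 1 := ⟨p - 1, by omega⟩
  have hpn : (p : Qb) ∈ A.nonunits := hA
  have hpA : (p : Qb) ∈ A := A.nonunits_le hpn
  -- `ω ∈ A`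
  have hωA : ω ∈ A := by
    rw [← A.valuation_le_one_iff]
    have h1 : A.valuation ω ^ p = 1 := by rw [← map_pow, hω.pow_eq_one, map_one]
    exact le_of_eq ((pow_eq_one_iff_of_nonneg zero_le hp0).1 h1)
  have hωk : ∀ k : ℕ, ω ^ k ∈ A := fun k => A.pow_mem hωA k
  -- the product formula
  have hprod : ∏ k ∈ Finset.range m, (1 - ω ^ (k + 1)) = ((m + 1 : ℕ) : Qb) := by
    have := IsPrimitiveRoot.prod_one_sub_pow_eq_order (hm ▸ hω)
    rw [this]
    push_cast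
    ring
  -- each factor is `(1 - ω)` times an element of `A`
  have hfac : ∀ k : ℕ, ∃ s ∈ A, 1 - ω ^ (k + 1) = (1 - ω) * s := by
    intro k
    refine ⟨∑ i ∈ Finset.range (k + 1), ω ^ i, A.sum_mem (fun i _ => hωk i), ?_⟩
    rw [mul_comm, geom_sum_mul_neg]
  -- hence `p = (1 - ω) ^ m * s`
  have hp_eq : ∃ s ∈ A, (p : Qb) = (1 - ω) ^ m * s := by
    have h1 : ∀ n : ℕ, ∃ s ∈ A, ∏ k ∈ Finset.range n, (1 - ω ^ (k + 1)) = (1 - ω) ^ n * s := by
      intro n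
      induction n with
      | zero => exact ⟨1, A.one_mem, by simp⟩
      | succ n ih =>
        obtain ⟨s, hs, e⟩ := ih
        obtain ⟨t, ht, e'⟩ := hfac n
        refine ⟨s * t, A.mul_mem _ _ hs ht, ?_⟩
        rw [Finset.prod_range_succ, e, e']
        ring
    obtain ⟨s, hs, e⟩ := h1 m
    refine ⟨s, hs, ?_⟩
    rw [← e, hprod, hm]
  obtain ⟨s, hs, e⟩ := hp_eq
  -- `1 - ω` is a non-unit of `A`
  have hπA : 1 - ω ∈ A := sub_mem A.one_mem hωA
  have hπn : 1 - ω ∈ A.nonunits := by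
    rw [ValuationSubring.mem_nonunits_iff]
    by_contra hcon
    have h1 : A.valuation (1 - ω) = 1 :=
      le_antisymm ((A.valuation_le_one_iff _).2 hπA) (not_lt.1 hcon)
    have h2 : A.valuation (p : Qb) < 1 := (ValuationSubring.mem_nonunits_iff A).1 hpn
    -- every `1 - ω ^ (k+1)`, `k < m`, is a unit: they divide each other; use the product
    -- `1 - ω = (1 - ω^j) * (geometric sum)` since `ω = (ω^j)^i`
    have hunit : ∀ k ∈ Finset.range m, A.valuation (1 - ω ^ (k + 1)) = 1 := by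
      intro k hk
      have hk' : k + 1 < p := by
        have := Finset.mem_range.1 hk
        omega
      have hcop : Nat.Coprime (k + 1) p :=
        (Nat.coprime_of_lt_prime (Nat.succ_ne_zero k) hk' hp.out).symm
      -- `ω ^ (k+1)` is a primitive root, so `ω` is a power of it
      have hprim : IsPrimitiveRoot (ω ^ (k + 1)) p := hω.pow_of_coprime (k + 1) hcop
      haveI : NeZero p := ⟨hp0⟩
      obtain ⟨i, -, hi⟩ := hprim.eq_pow_of_pow_eq_one hω.pow_eq_one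
      have h3 : 1 - ω = (1 - ω ^ (k + 1)) * ∑ j ∈ Finset.range i, (ω ^ (k + 1)) ^ j := by
        rw [mul_comm, geom_sum_mul_neg, hi]
      have h4 : A.valuation (1 - ω ^ (k + 1)) ≤ 1 :=
        (A.valuation_le_one_iff _).2 (sub_mem A.one_mem (hωk _))
      have h5 : A.valuation (∑ j ∈ Finset.range i, (ω ^ (k + 1)) ^ j) ≤ 1 :=
        (A.valuation_le_one_iff _).2 (A.sum_mem (fun j _ => A.pow_mem (hωk _) j))
      have h6 := congrArg A.valuation h3
      rw [h1, map_mul] at h6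
      by_contra hne
      have hlt : A.valuation (1 - ω ^ (k + 1)) < 1 := lt_of_le_of_ne h4 hne
      have : A.valuation (1 - ω ^ (k + 1)) *
          A.valuation (∑ j ∈ Finset.range i, (ω ^ (k + 1)) ^ j) < 1 := by
        calc _ ≤ A.valuation (1 - ω ^ (k + 1)) * 1 := mul_le_mul' le_rfl h5
          _ = A.valuation (1 - ω ^ (k + 1)) := mul_one _
          _ < 1 := hlt
      rw [← h6] at this
      exact lt_irrefl _ this
    have h7 : A.valuation ((m + 1 : ℕ) : Qb) = 1 := by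
      rw [← hprod, map_prod]
      exact Finset.prod_eq_one hunit
    rw [← hm] at h7
    rw [h7] at h2
    exact lt_irrefl _ h2
  -- `1 - ω ∈ K^nr`, so `1 - ω = p * a`, `a ∈ A`
  have hπL : 1 - ω ∈ ffi_L A := (ffi_L A).sub_mem (ffi_L A).one_mem hmem
  have hdiv : (1 - ω) / (p : Qb) ∈ A := ffi_lvi_unr p A hA hπL hπn
  set a := (1 - ω) / (p : Qb) with ha
  have hpQ : (p : Qb) ≠ 0 := Nat.cast_ne_zero.2 hp0
  have hπ : 1 - ω = (p : Qb) * a := by
    rw [ha]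
    field_simp
  -- `p = p ^ m * (a ^ m * s)`, `m ≥ 2`
  have hm2 : 2 ≤ m := by omega
  obtain ⟨m', hm'⟩ : ∃ m', m = m' + 1 := ⟨m - 1, by omega⟩
  have h8 : (p : Qb) ^ m' * (a ^ m * s) = 1 := by
    have h9 : (p : Qb) = (p : Qb) ^ m * a ^ m * s := by
      conv_lhs => rw [e, hπ, mul_pow]
    have h10 : (p : Qb) * 1 = (p : Qb) * ((p : Qb) ^ m' * (a ^ m * s)) := by
      conv_lhs => rw [mul_one, h9, hm', pow_succ]
      rw [hm']
      ring
    exact (mul_left_cancel₀ hpQ h10).symm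
  exact m59rpk_p_pow_not_unit p A hA (by omega) (A.mul_mem _ _ (A.pow_mem hdiv m) hs) h8

end Zeta

section Descent

variable (p : ℕ) [hp : Fact p.Prime] (A : ValuationSubring Qb) (hA : A.LiesOverPrime p)

/-- the field `K^nr(μ_n)`. -/
def m59rpk_cyc (n : ℕ) : IntermediateField ℚ Qb :=
  IntermediateField.adjoin ℚ ((ffi_L A : Set Qb) ∪ {z | z ^ n = 1})

theorem m59rpk_le_cyc (n : ℕ) : ffi_L A ≤ m59rpk_cyc A n := fun z hz =>
  IntermediateField.subset_adjoin ℚ _ (Or.inl hz)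

theorem m59rpk_root_mem_cyc {n : ℕ} {z : Qb} (hz : z ^ n = 1) : z ∈ m59rpk_cyc A n :=
  IntermediateField.subset_adjoin ℚ _ (Or.inr hz)

include hA in
/-- **cyclotomic descent** (`p` odd). -/
theorem m59rpk_descent (hp2 : p ≠ 2) {N : ℕ} (hN : 1 ≤ N) {f : Qb} (hf0 : f ≠ 0)
    (hfF : f ∈ m59rpk_cyc A (p ^ N)) (hfn : f ^ (p ^ N) ∈ ffi_L A) :
    ∃ f₀ ∈ ffi_L A, f₀ ^ (p ^ N) = f ^ (p ^ N) := by
  classical
  set n := p ^ N with hndef
  have hp0 : p ≠ 0 := hp.out.ne_zero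
  have hn : 0 < n := pow_pos hp.out.pos N
  haveI : NeZero n := ⟨hn.ne'⟩
  obtain ⟨ζ, hζ⟩ : ∃ ζ : Qb, IsPrimitiveRoot ζ n :=
    HasEnoughRootsOfUnity.exists_primitiveRoot Qb n
  have hζ0 : ζ ≠ 0 := hζ.ne_zero hn.ne'
  -- the inertia group fixes `K^nr`
  have hfixK : ∀ σ ∈ A.inertiaSubgroupIn ℚ, ∀ a ∈ ffi_L A, σ a = a :=
    fun σ hσ a ha => ffi_mem_L.1 ha σ hσ
  -- the cyclotomic exponent
  have hex : ∀ σ : GQ, ∃ e : ℕ, ζ ^ e = σ ζ := by
    intro σ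
    have h1 : (σ ζ) ^ n = 1 := by rw [← map_pow, hζ.pow_eq_one, map_one]
    obtain ⟨e, -, he⟩ := hζ.eq_pow_of_pow_eq_one h1
    exact ⟨e, he⟩
  choose e he using hex
  have hroot : ∀ (σ : GQ) (ω : Qb), ω ^ n = 1 → σ ω = ω ^ e σ := by
    intro σ ω hω
    obtain ⟨j, -, hj⟩ := hζ.eq_pow_of_pow_eq_one hω
    rw [← hj, map_pow, ← he σ, ← pow_mul, ← pow_mul, mul_comm]
  -- the cocycle
  set c : GQ → Qb := fun σ => σ f / f with hc
  have hc0 : ∀ σ : GQ, c σ ≠ 0 := fun σ => div_ne_zero ((map_ne_zero σ).2 hf0) hf0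
  have hσf : ∀ σ : GQ, σ f = c σ * f := by
    intro σ
    rw [hc]
    field_simp
  have hcn : ∀ σ ∈ A.inertiaSubgroupIn ℚ, c σ ^ n = 1 := by
    intro σ hσ
    rw [hc]
    show (σ f / f) ^ n = 1
    rw [div_pow, ← map_pow, hfixK σ hσ _ hfn]
    exact div_self (pow_ne_zero _ hf0)
  have hcoc : ∀ σ ∈ A.inertiaSubgroupIn ℚ, ∀ τ ∈ A.inertiaSubgroupIn ℚ,
      c (σ * τ) = c τ ^ e σ * c σ := by
    intro σ hσ τ hτ
    have h1 : (σ * τ) f = σ (τ f) := rfl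
    have h2 : c (σ * τ) = (σ * τ) f / f := rfl
    rw [h2, h1, hσf τ, map_mul, hroot σ _ (hcn τ hτ), hσf σ]
    field_simp
  -- commutation on `f`
  have hcomm : ∀ σ ∈ A.inertiaSubgroupIn ℚ, ∀ τ ∈ A.inertiaSubgroupIn ℚ,
      (σ * τ) f = (τ * σ) f := by
    intro σ hσ τ hτ
    have hρ : (τ * σ)⁻¹ * (σ * τ) ∈ A.inertiaSubgroupIn ℚ :=
      Subgroup.mul_mem _ (Subgroup.inv_mem _ (Subgroup.mul_mem _ hτ hσ)) (Subgroup.mul_mem _ hσ hτ)
    have h1 : ((τ * σ)⁻¹ * (σ * τ)) f = f := by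
      refine m59rpk_fix_adjoin _ _ ?_ hfF
      rintro s (hs | hs)
      · exact hfixK _ hρ s hs
      · have hs' : s ^ n = 1 := hs
        have h2 : (σ * τ) s = (τ * σ) s := by
          show σ (τ s) = τ (σ s)
          rw [hroot τ s hs', hroot σ s hs', map_pow, map_pow, hroot σ s hs', hroot τ s hs',
            ← pow_mul, ← pow_mul, mul_comm]
        show (τ * σ)⁻¹ ((σ * τ) s) = s
        rw [h2]
        exact (τ * σ).symm_apply_apply s
    have h3 : (τ * σ) (((τ * σ)⁻¹ * (σ * τ)) f) = (σ * τ) f := by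
      show (τ * σ) ((τ * σ)⁻¹ ((σ * τ) f)) = (σ * τ) f
      exact (τ * σ).apply_symm_apply _
    rw [← h3, h1]
  have hccomm : ∀ σ ∈ A.inertiaSubgroupIn ℚ, ∀ τ ∈ A.inertiaSubgroupIn ℚ,
      c (σ * τ) = c (τ * σ) := by
    intro σ hσ τ hτ
    show (σ * τ) f / f = (τ * σ) f / f
    rw [hcomm σ hσ τ hτ]
  -- an inertia element moving `ζ_p`
  obtain ⟨N', rfl⟩ : ∃ N', N = N' + 1 := ⟨N - 1, by omega⟩
  have hζp : IsPrimitiveRoot (ζ ^ p ^ N') p := hζ.pow hn (by rw [hndef, pow_succ])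
  have hnot := m59rpk_zeta_not_mem p A hA hp2 hζp
  rw [ffi_mem_L] at hnot
  push Not at hnot
  obtain ⟨σ₀, hσ₀, hσ₀ζ⟩ := hnot
  have hζpn : (ζ ^ p ^ N') ^ n = 1 := by
    rw [← pow_mul, mul_comm, pow_mul, hζ.pow_eq_one, one_pow]
  rw [hroot σ₀ _ hζpn] at hσ₀ζ
  -- `p ∤ e σ₀ - 1`
  have hnd : ¬ (p : ℤ) ∣ (e σ₀ : ℤ) - 1 := by
    intro hd
    apply hσ₀ζ
    have h1 : (ζ ^ p ^ N') ^ ((e σ₀ : ℤ) - 1) = 1 := (hζp.zpow_eq_one_iff_dvd _).2 hd
    have hz0 : ζ ^ p ^ N' ≠ 0 := pow_ne_zero _ hζ0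
    rw [zpow_sub₀ hz0, zpow_natCast, zpow_one, div_eq_one_iff_eq hz0] at h1
    exact h1
  -- Bezout
  have hcop : IsCoprime ((p : ℤ) ^ (N' + 1)) ((e σ₀ : ℤ) - 1) := by
    apply IsCoprime.pow_left
    exact (Irreducible.coprime_iff_not_dvd (Nat.prime_iff_prime_int.1 hp.out).irreducible).2 hnd
  obtain ⟨a, t, hat⟩ := hcop
  -- the key relation
  have hrel : ∀ σ ∈ A.inertiaSubgroupIn ℚ,
      c σ ^ ((e σ₀ : ℤ) - 1) = c σ₀ ^ ((e σ : ℤ) - 1) := by
    intro σ hσ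
    have h1 := hccomm σ hσ σ₀ hσ₀
    rw [hcoc σ hσ σ₀ hσ₀, hcoc σ₀ hσ₀ σ hσ] at h1
    rw [zpow_sub₀ (hc0 σ), zpow_sub₀ (hc0 σ₀), zpow_natCast, zpow_natCast, zpow_one, zpow_one]
    have h2 := hc0 σ
    have h3 := hc0 σ₀
    field_simp
    rw [← h1, mul_comm]
  -- the root of unity `ζ'`
  set ζ' : Qb := c σ₀ ^ t with hζ'
  have hζ'0 : ζ' ≠ 0 := zpow_ne_zero _ (hc0 σ₀)
  have hζ'n : ζ' ^ n = 1 := by
    rw [hζ', ← zpow_natCast, ← zpow_mul, mul_comm, zpow_mul, zpow_natCast, hcn σ₀ hσ₀, one_zpow]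
  refine ⟨f / ζ', ?_, ?_⟩
  · rw [ffi_mem_L]
    intro σ hσ
    rw [map_div₀, hroot σ ζ' hζ'n, hσf σ]
    -- `c σ = ζ' ^ (e σ - 1)`
    have h1 : c σ = ζ' ^ ((e σ : ℤ) - 1) := by
      have h2 : ζ' ^ ((e σ : ℤ) - 1) = (c σ ^ ((e σ₀ : ℤ) - 1)) ^ t := by
        rw [hζ', ← zpow_mul, mul_comm, zpow_mul, ← hrel σ hσ]
      rw [h2, ← zpow_mul]
      have h3 : ((e σ₀ : ℤ) - 1) * t = 1 - a * (n : ℤ) := by
        have : ((n : ℕ) : ℤ) = (p : ℤ) ^ (N' + 1) := by rw [hndef]; push_cast; ring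
        rw [this]
        linear_combination hat
      rw [h3, zpow_sub₀ (hc0 σ), zpow_one, zpow_mul', zpow_natCast, hcn σ hσ, one_zpow, div_one]
    rw [h1, zpow_sub₀ hζ'0, zpow_natCast, zpow_one]
    have := pow_ne_zero (e σ) hζ'0
    field_simp
  · rw [div_pow, hζ'n, div_one]

end Descent

end Fermat.Agent.M59

end
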