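/-
M59 / [R_p-norm], cell (K3) (helper24; prefix `m59rpk_`), part 4: THE ELEMENT `τ_v`.

`A` a valuation subring of `Q̄` over the ODD prime `p`, `I_A = A.inertiaSubgroupIn ℚ`,
`K^nr = ffi_L A = Q̄^{I_A}`.

**`m59rpk_tauV`** : there is `τ ∈ I_A` which fixes EVERY `p`-power root of EVERY unit of `K^nr`
(in particular all of `μ_{p^∞}`) and moves EVERY `p`-th root of `p`.

Proof: `M := K^nr(S)`, `S` = the `p`-power roots of the units of `K^nr`.  If a `p`-th root `x` of `p`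
were in `M`, it would lie in `K^nr(μ_n)(γ_1, …, γ_k)`, `n = p^N`, `γ_i^n` units of `K^nr`; the Kummer
step (`m59rpk_kummer_list`) gives `x = g · f`, `g ∈ ⟨γ_i⟩`, `f ∈ K^nr(μ_n)`; cyclotomic descent
(`m59rpk_descent`) gives `f₀ ∈ K^nr` with `f₀^n = f^n = p^{n/p} / g^n`; but the value group of
`K^nr` is generated by `v(p)` (`ffi_lvi_unit`): `n · v(f₀) = (n/p) · v(p)` is impossible.
Then `m59rpk_exists_moving` (infinite Galois theory + `I_A = Gal(Q̄/K^nr)`).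
-/
import Mathlib
import Fermat.Agent.M59.Rp.KumDesc

set_option autoImplicit false
set_option linter.unusedSectionVars false
set_option linter.style.haveILetI false
set_option linter.unusedVariables false

noncomputable section

namespace Fermat.Agent.M59

open Fermat.Agent.FF IntermediateField

local notation "Qb" => AlgebraicClosure ℚ
local notation "GQ" => (AlgebraicClosure ℚ ≃ₐ[ℚ] AlgebraicClosure ℚ)

/-- **(K3)**, the statement. -/
def m59rpk_TauV_stmt : Prop :=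
  ∀ (p : ℕ) [Fact p.Prime], p ≠ 2 → ∀ A : ValuationSubring Qb, A.LiesOverPrime p →
    ∃ τ ∈ A.inertiaSubgroupIn ℚ,
      (∀ (N : ℕ) (γ : Qb), γ ∈ A → γ⁻¹ ∈ A →
        (∀ s ∈ A.inertiaSubgroupIn ℚ, s (γ ^ p ^ N) = γ ^ p ^ N) → τ γ = γ) ∧
      (∀ x : Qb, x ^ p = (p : Qb) → τ x ≠ x)

section Main

variable (p : ℕ) [hp : Fact p.Prime] (A : ValuationSubring Qb)

/-- the `p`-power roots of the units of `K^nr`. -/
def m59rpk_S : Set Qb := {γ | A.valuation γ = 1 ∧ ∃ N : ℕ, γ ^ p ^ N ∈ ffi_L A}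

/-- the field `M = K^nr(S)`. -/
def m59rpk_M : IntermediateField ℚ Qb :=
  IntermediateField.adjoin ℚ ((ffi_L A : Set Qb) ∪ m59rpk_S p A)

theorem m59rpk_le_M : ffi_L A ≤ m59rpk_M p A := fun z hz =>
  IntermediateField.subset_adjoin ℚ _ (Or.inl hz)

theorem m59rpk_S_le_M {γ : Qb} (hγ : γ ∈ m59rpk_S p A) : γ ∈ m59rpk_M p A :=
  IntermediateField.subset_adjoin ℚ _ (Or.inr hγ)

/-- `v γ = 1` iff `γ` and `γ⁻¹` lie in `A` and `γ ≠ 0`. -/
theorem m59rpk_val_eq_one_of_mem {γ : Qb} (h0 : γ ≠ 0) (h1 : γ ∈ A) (h2 : γ⁻¹ ∈ A) :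
    A.valuation γ = 1 := by
  have h3 : A.valuation γ ≤ 1 := (A.valuation_le_one_iff γ).2 h1
  have h4 : A.valuation γ⁻¹ ≤ 1 := (A.valuation_le_one_iff γ⁻¹).2 h2
  rw [map_inv₀] at h4
  have h5 : A.valuation γ ≠ 0 := (Valuation.ne_zero_iff _).2 h0
  have h6 : 1 ≤ A.valuation γ := by
    by_contra hlt
    push Not at hlt
    have : 1 < (A.valuation γ)⁻¹ := (one_lt_inv₀ (zero_lt_iff.2 h5)).2 hlt
    exact absurd h4 (not_le.2 this)
  exact le_antisymm h3 h6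

variable (hA : A.LiesOverPrime p)

include hA in
/-- **no `p`-th root of `p` lies in `M`** (`p` odd). -/
theorem m59rpk_rootP_not_mem (hp2 : p ≠ 2) {x : Qb} (hx : x ^ p = (p : Qb)) :
    x ∉ m59rpk_M p A := by
  classical
  intro hxM
  have hp0 : p ≠ 0 := hp.out.ne_zero
  have hpQ : (p : Qb) ≠ 0 := Nat.cast_ne_zero.2 hp0
  have hx0 : x ≠ 0 := by
    rintro rfl
    rw [zero_pow hp0] at hx
    exact hpQ hx.symm
  obtain ⟨T, hTS, hxT⟩ := IntermediateField.exists_finset_of_mem_adjoin hxM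
  -- a common exponent
  let Nf : Qb → ℕ := fun γ => if h : γ ∈ m59rpk_S p A then h.2.choose else 0
  have hNf : ∀ γ, γ ∈ m59rpk_S p A → γ ^ p ^ Nf γ ∈ ffi_L A := by
    intro γ h
    show γ ^ p ^ (if h : γ ∈ m59rpk_S p A then h.2.choose else 0) ∈ ffi_L A
    rw [dif_pos h]
    exact h.2.choose_spec
  set N' := ∑ γ ∈ T, Nf γ with hN'
  set n := p ^ (N' + 1) with hn
  have hnpos : 0 < n := pow_pos hp.out.pos _
  have hγn : ∀ γ ∈ T, γ ∈ m59rpk_S p A → γ ^ n ∈ ffi_L A := by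
    intro γ hγT hγS
    have hle : Nf γ ≤ N' + 1 :=
      (Finset.single_le_sum (f := Nf) (fun _ _ => Nat.zero_le _) hγT).trans (Nat.le_succ _)
    obtain ⟨k, hk⟩ := Nat.exists_eq_add_of_le hle
    rw [hn, hk, pow_add, pow_mul]
    exact pow_mem (hNf γ hγS) _
  -- the list of generators
  set γs := (T.filter (fun γ => γ ∈ m59rpk_S p A)).toList with hγs
  have hmemγs : ∀ γ, γ ∈ γs ↔ γ ∈ T ∧ γ ∈ m59rpk_S p A := by
    intro γ
    rw [hγs, Finset.mem_toList, Finset.mem_filter]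
  set F := m59rpk_cyc A n with hF
  have hK0F : ffi_L A ≤ F := m59rpk_le_cyc A n
  have hxn : x ^ n = ((p : ℕ) : Qb) ^ p ^ N' := by
    rw [hn, pow_succ, mul_comm, pow_mul, hx]
  have hxnK : x ^ n ∈ ffi_L A := by
    rw [hxn]
    exact pow_mem (_root_.natCast_mem (ffi_L A) p) _
  -- properties of the elements of the submonoid generated by the `γ`'s
  have hgprop : ∀ g ∈ Submonoid.closure {γ : Qb | γ ∈ γs},
      A.valuation g = 1 ∧ g ^ n ∈ ffi_L A := by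
    intro g hg
    induction hg using Submonoid.closure_induction with
    | mem y hy =>
      have hy' := (hmemγs y).1 hy
      exact ⟨hy'.2.1, hγn y hy'.1 hy'.2⟩
    | one => exact ⟨map_one _, by rw [one_pow]; exact (ffi_L A).one_mem⟩
    | mul y z _ _ hy hz =>
      refine ⟨by rw [map_mul, hy.1, hz.1, mul_one], ?_⟩
      rw [mul_pow]
      exact (ffi_L A).mul_mem hy.2 hz.2
  obtain ⟨g, hg, hfF⟩ := m59rpk_kummer_list hnpos γs F
    (fun z hz => m59rpk_root_mem_cyc A hz)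
    (fun γ h => by
      have h1 := ((hmemγs γ).1 h).2.1
      intro h0
      rw [h0, map_zero] at h1
      exact zero_ne_one h1)
    (fun γ h => hK0F (hγn γ ((hmemγs γ).1 h).1 ((hmemγs γ).1 h).2))
    x hx0 (hK0F hxnK)
    (fun σ hσ hfix => by
      refine m59rpk_fix_adjoin _ σ ?_ hxT
      intro t ht
      rcases hTS ht with h | h
      · exact m59rpk_fix_of_mem F hσ (hK0F h)
      · exact hfix t ((hmemγs t).2 ⟨ht, h⟩))
  obtain ⟨hgv, hgn⟩ := hgprop g hg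
  have hg0 : g ≠ 0 := by
    rintro rfl
    rw [map_zero] at hgv
    exact zero_ne_one hgv
  set f := x / g with hf
  have hf0 : f ≠ 0 := div_ne_zero hx0 hg0
  have hfn : f ^ n ∈ ffi_L A := by
    rw [hf, div_pow]
    exact div_mem hxnK hgn
  -- descent
  obtain ⟨f₀, hf₀, hf₀n⟩ := m59rpk_descent p A hA hp2 (Nat.succ_le_succ (Nat.zero_le N')) hf0 hfF hfn
  have hf₀0 : f₀ ≠ 0 := by
    rintro rfl
    rw [zero_pow hnpos.ne'] at hf₀n
    exact pow_ne_zero n hf0 hf₀n.symm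
  -- valuations
  obtain ⟨k, hk1, hk2⟩ := ffi_lvi_unit p A hA hf₀ hf₀0
  have hvp0 : A.valuation (p : Qb) ≠ 0 := (Valuation.ne_zero_iff _).2 hpQ
  have hvp1 : A.valuation (p : Qb) < 1 := (ValuationSubring.mem_nonunits_iff A).1 hA
  have hfk0 : f₀ * (p : Qb) ^ k ≠ 0 := mul_ne_zero hf₀0 (zpow_ne_zero _ hpQ)
  have hv1 : A.valuation (f₀ * (p : Qb) ^ k) = 1 := m59rpk_val_eq_one_of_mem A hfk0 hk1 hk2
  rw [map_mul, map_zpow₀] at hv1
  have hvf₀ : A.valuation f₀ = A.valuation (p : Qb) ^ (-k) := by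
    rw [zpow_neg]
    exact eq_inv_of_mul_eq_one_left hv1
  have hvx : A.valuation x ^ p = A.valuation (p : Qb) := by rw [← map_pow, hx]
  have hvf : A.valuation f = A.valuation x := by rw [hf, map_div₀, hgv, div_one]
  have hkey : A.valuation (p : Qb) ^ (-k * (n : ℤ)) = A.valuation (p : Qb) ^ ((p ^ N' : ℕ) : ℤ) := by
    have h1 : A.valuation f₀ ^ n = A.valuation f ^ n := by rw [← map_pow, ← map_pow, hf₀n]
    rw [hvf₀, hvf, ← zpow_natCast, ← zpow_mul] at h1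
    rw [h1, hn, pow_succ, mul_comm, pow_mul, hvx, zpow_natCast]
  have hinj := zpow_right_injective₀ (zero_lt_iff.2 hvp0) hvp1.ne hkey
  -- `-k * p ^ (N' + 1) = p ^ N'`
  have h2 : (-k * (p : ℤ)) * ((p : ℤ) ^ N') = 1 * (p : ℤ) ^ N' := by
    have : ((n : ℕ) : ℤ) = (p : ℤ) ^ N' * (p : ℤ) := by rw [hn]; push_cast; ring
    rw [this] at hinj
    push_cast at hinj
    linear_combination hinj
  have hpZ : ((p : ℤ) ^ N') ≠ 0 := pow_ne_zero _ (Int.natCast_ne_zero.2 hp0)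
  have h3 : -k * (p : ℤ) = 1 := mul_right_cancel₀ hpZ h2
  have h4 : (p : ℤ) ∣ 1 := ⟨-k, by rw [← h3]; ring⟩
  have h5 : (p : ℤ) ≤ 1 := Int.le_of_dvd one_pos h4
  have := hp.out.two_le
  omega

include hA in
/-- **(K3): the element `τ_v`.** -/
theorem m59rpk_tauV_at (hp2 : p ≠ 2) :
    ∃ τ ∈ A.inertiaSubgroupIn ℚ,
      (∀ (N : ℕ) (γ : Qb), γ ∈ A → γ⁻¹ ∈ A →
        (∀ s ∈ A.inertiaSubgroupIn ℚ, s (γ ^ p ^ N) = γ ^ p ^ N) → τ γ = γ) ∧
      (∀ x : Qb, x ^ p = (p : Qb) → τ x ≠ x) := by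
  obtain ⟨x₀, hx₀⟩ := IsAlgClosed.exists_pow_nat_eq ((p : ℕ) : Qb) hp.out.pos
  obtain ⟨τ, hτI, hτM, hτx⟩ := m59rpk_exists_moving A (m59rpk_M p A) (m59rpk_le_M p A)
    (m59rpk_rootP_not_mem p A hA hp2 hx₀)
  refine ⟨τ, hτI, ?_, ?_⟩
  · intro N γ h1 h2 h3
    by_cases h0 : γ = 0
    · rw [h0, map_zero]
    · exact hτM γ (m59rpk_S_le_M p A
        ⟨m59rpk_val_eq_one_of_mem A h0 h1 h2, N, ffi_mem_L.2 h3⟩)
  · intro x hx hfix
    have hp0 : p ≠ 0 := hp.out.ne_zero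
    have hpQ : (p : Qb) ≠ 0 := Nat.cast_ne_zero.2 hp0
    have hx₀0 : x₀ ≠ 0 := by
      rintro rfl
      rw [zero_pow hp0] at hx₀
      exact hpQ hx₀.symm
    have hx0 : x ≠ 0 := by
      rintro rfl
      rw [zero_pow hp0] at hx
      exact hpQ hx.symm
    have hω : (x / x₀) ^ p = 1 := by
      rw [div_pow, hx, hx₀]
      exact div_self hpQ
    have hωM : x / x₀ ∈ m59rpk_M p A := by
      refine m59rpk_S_le_M p A ⟨?_, 1, ?_⟩
      · have h1 : A.valuation (x / x₀) ^ p = 1 := by rw [← map_pow, hω, map_one]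
        exact (pow_eq_one_iff_of_nonneg zero_le hp0).1 h1
      · rw [pow_one, hω]
        exact (ffi_L A).one_mem
    have h1 : τ (x / x₀) = x / x₀ := hτM _ hωM
    rw [map_div₀, hfix] at h1
    have hτx₀0 : τ x₀ ≠ 0 := (map_ne_zero τ).2 hx₀0
    apply hτx
    field_simp at h1
    exact h1.symm

/-- **(K3)**. -/
theorem m59rpk_tauV : m59rpk_TauV_stmt := fun p _ hp2 A hA => m59rpk_tauV_at p A hA hp2

end Main

end Fermat.Agent.M59

end
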