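/-
M59 / [R_p-norm] (helper24; prefix `m59rpk_`): THE VALUES OF THE MOD `p` KUMMER COCYCLES AT `τ_v`
(input of (R3): `kumP(τ_v) ≠ 0`, `kumU(τ_v) = 0`, `χ(τ_v) = 1`, coboundaries vanish at `τ_v`).

`A` over `p`, `τ` with the two clauses of (K3) (`m59rpk_tauV`).  In the vocabulary of S56/Kum
(`s56k_chi`, `s56k_kumP`, `s56k_kumU`):

* `m59rpk_chi_tau`  : `s56k_chi p τ = 1`;
* `m59rpk_kumU_tau` : `s56k_kumU p τ = 0`;
* `m59rpk_kumP_tau` : `s56k_kumP p τ ≠ 0`;
* `m59rpk_coc_tau`  : if `w τ = a * kumP τ + b * kumU τ + (χ τ - 1) * t` then `w τ = a * kumP τ`, and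
  `w τ = 0 ↔ a = 0` (`m59rpk_coc_tau_iff`).
-/
import Mathlib
import Fermat.Agent.S56.Kum.Main
import Fermat.Agent.M59.Rp.KumConj

set_option autoImplicit false
set_option linter.unusedSectionVars false
set_option linter.unusedVariables false

noncomputable section

namespace Fermat.Agent.M59

open Fermat.Agent.S56

local notation "Qb" => AlgebraicClosure ℚ
local notation "GQ" => (AlgebraicClosure ℚ ≃ₐ[ℚ] AlgebraicClosure ℚ)

section Val

variable (p : ℕ) [hp : Fact p.Prime] (A : ValuationSubring Qb) (hA : A.LiesOverPrime p)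
  (τ : GQ)
  (hτ1 : ∀ (N : ℕ) (γ : Qb), γ ∈ A → γ⁻¹ ∈ A →
    (∀ s ∈ A.inertiaSubgroupIn ℚ, s (γ ^ p ^ N) = γ ^ p ^ N) → τ γ = γ)
  (hτ2 : ∀ x : Qb, x ^ p = (p : Qb) → τ x ≠ x)

include hτ1 in
/-- `τ` fixes every `p`-th root of every element `y` with `y, y⁻¹ ∈ A` fixed by inertia. -/
theorem m59rpk_fix_root {γ : Qb} (h1 : γ ^ p ∈ A) (h2 : (γ ^ p)⁻¹ ∈ A)
    (h3 : ∀ s ∈ A.inertiaSubgroupIn ℚ, s (γ ^ p) = γ ^ p) : τ γ = γ := by
  have hp0 : p ≠ 0 := hp.out.ne_zero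
  refine hτ1 1 γ (m59rpk_mem_of_pow_mem A hp0 h1)
    (m59rpk_mem_of_pow_mem A hp0 (by rw [inv_pow]; exact h2)) ?_
  intro s hs
  rw [pow_one]
  exact h3 s hs

include hτ1 in
theorem m59rpk_chi_tau : s56k_chi p τ = 1 := by
  apply s56k_chi_of_fix
  apply m59rpk_fix_root p A τ hτ1
  · rw [s56k_zeta_pow]; exact A.one_mem
  · rw [s56k_zeta_pow, inv_one]; exact A.one_mem
  · intro s _
    rw [s56k_zeta_pow, map_one]

include hA hτ1 in
theorem m59rpk_kumU_tau : s56k_kumU p τ = 0 := by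
  apply s56k_kum_of_fix (s56k_rootU_ne_zero p)
  have hvp : A.valuation (p : Qb) < 1 := (A.mem_nonunits_iff).1 hA
  have hv : A.valuation (1 + (p : Qb)) = 1 := by
    have := Valuation.map_add_eq_of_lt_left A.valuation
      (x := (1 : Qb)) (y := (p : Qb)) (by rw [map_one]; exact hvp)
    rw [this, map_one]
  have h1 : (1 + (p : Qb)) ∈ A := (A.valuation_le_one_iff _).1 hv.le
  have h2 : (1 + (p : Qb))⁻¹ ∈ A := by
    rw [← A.valuation_le_one_iff, map_inv₀, hv, inv_one]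
  apply m59rpk_fix_root p A τ hτ1
  · rw [s56k_rootU_pow]; exact h1
  · rw [s56k_rootU_pow]; exact h2
  · intro s _
    exact s56k_rootU_fix p s

include hτ2 in
theorem m59rpk_kumP_tau : s56k_kumP p τ ≠ 0 := by
  intro h
  apply hτ2 (s56k_rootP p) (s56k_rootP_pow p)
  have := s56k_kum_spec (p := p) (s56k_rootP_ne_zero p) (s56k_rootP_fix p τ)
  rw [show s56k_kum p (s56k_rootP p) τ = 0 from h, s56k_E_zero, one_mul] at this
  exact this

include hA hτ1 in
/-- a cocycle in the span of `kumP`, `kumU` and the coboundaries takes the value `a * kumP τ` at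
`τ`. -/
theorem m59rpk_coc_tau {a b t wτ : ZMod p}
    (h : wτ = a * s56k_kumP p τ + b * s56k_kumU p τ + (s56k_chi p τ - 1) * t) :
    wτ = a * s56k_kumP p τ := by
  rw [h, m59rpk_kumU_tau p A hA τ hτ1, m59rpk_chi_tau p A τ hτ1]
  ring

include hA hτ1 hτ2 in
theorem m59rpk_coc_tau_iff {a b t wτ : ZMod p}
    (h : wτ = a * s56k_kumP p τ + b * s56k_kumU p τ + (s56k_chi p τ - 1) * t) :
    wτ = 0 ↔ a = 0 := by
  rw [m59rpk_coc_tau p A hA τ hτ1 h]
  constructor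
  · intro h0
    rcases mul_eq_zero.1 h0 with h1 | h1
    · exact h1
    · exact absurd h1 (m59rpk_kumP_tau p τ hτ2)
  · intro h0
    rw [h0, zero_mul]

end Val

end Fermat.Agent.M59
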