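/-
M59 / [R_p-norm] (helper24; prefix `m59rpk_`): THE ELEMENT `τ_u` (input of the normalisation (R0)).

`A` over the ODD prime `p`, `K^nr = ffi_L A`.

**`m59rpk_tauU`** : there is `τ ∈ I_A` which fixes EVERY `p`-power root of unity and moves EVERY
`p`-th root of `1 + p`  (`K^nr(μ_{p^∞}, (1+p)^{1/p})` is not abelian over `K^nr`... in the form:
`(1 + p)^{1/p} ∉ K^nr(μ_{p^∞})`).

Proof: a `p`-th root `x` of `1 + p` in `K^nr(μ_{p^∞})` lies in `K^nr(μ_n)`, `n = p ^ N`;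
cyclotomic descent (`m59rpk_descent`) gives `f₀ ∈ K^nr` with `f₀ ^ n = (1 + p) ^ (n / p)`; then
`f₀ ^ p / (1 + p)` is a `p`-power root of unity of `K^nr`, hence `1` (`m59rpk_zeta_not_mem`); but
`1 + p` is not a `p`-th power in `K^nr`: `f₀ ≡ 1 mod 𝔪`, so `f₀ = 1 + p w` (`ffi_lvi_unr`) and
`f₀ ^ p ≡ 1 mod p²`.
-/
import Mathlib
import Fermat.Agent.M59.Rp.KumMain
import Fermat.Agent.M59.Rp.KumConj
import Fermat.Agent.M59.Rp.KumVal

set_option autoImplicit false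
set_option linter.unusedSectionVars false
set_option linter.style.haveILetI false
set_option linter.unusedVariables false

noncomputable section

namespace Fermat.Agent.M59

open Fermat.Agent.FF IntermediateField

local notation "Qb" => AlgebraicClosure ℚ
local notation "GQ" => (AlgebraicClosure ℚ ≃ₐ[ℚ] AlgebraicClosure ℚ)

section TauU

variable (p : ℕ) [hp : Fact p.Prime] (A : ValuationSubring Qb) (hA : A.LiesOverPrime p)

/-- `(1 + y) ^ p = 1 + y * (p + y * t)`. -/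
theorem m59rpk_one_add_pow {R : Type*} [CommRing R] (y : R) (n : ℕ) :
    ∃ t : R, (1 + y) ^ n = 1 + y * ((n : R) + y * t) := by
  have h1 := geom_sum_mul (1 + y) n
  have h2 : ∀ i ∈ Finset.range n, y ∣ (1 + y) ^ i - 1 := by
    intro i _
    have := sub_one_dvd_pow_sub_one (1 + y) i
    rwa [add_sub_cancel_left] at this
  obtain ⟨t, ht⟩ := Finset.dvd_sum h2
  refine ⟨t, ?_⟩
  have h3 : ∑ i ∈ Finset.range n, (1 + y) ^ i = (n : R) + y * t := by
    rw [← ht, Finset.sum_sub_distrib]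
    simp
  rw [h3, add_sub_cancel_left] at h1
  linear_combination -h1

include hA in
/-- **`1 + p` is not a `p`-th power in the inertia field.** -/
theorem m59rpk_one_add_p_not_pow {f : Qb} (hf : f ∈ ffi_L A) : f ^ p ≠ 1 + (p : Qb) := by
  intro h
  have hp0 : p ≠ 0 := hp.out.ne_zero
  have hpn : (p : Qb) ∈ A.nonunits := hA
  have hpA : (p : Qb) ∈ A := A.nonunits_le hpn
  have hpQ : (p : Qb) ≠ 0 := Nat.cast_ne_zero.2 hp0
  have hfA : f ∈ A := by
    apply m59rpk_mem_of_pow_mem A hp0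
    rw [h]
    exact A.add_mem _ _ A.one_mem hpA
  -- `g = f - 1` is a non-unit
  set g := f - 1 with hg
  have hgA : g ∈ A := sub_mem hfA (one_mem A)
  have hgL : g ∈ ffi_L A := sub_mem hf (one_mem _)
  obtain ⟨r, hr⟩ := exists_add_pow_prime_eq hp.out (⟨g, hgA⟩ : A) 1
  have hr' : (g + 1) ^ p = g ^ p + 1 + (p : Qb) * g * 1 * (r : Qb) := by
    have := congrArg (fun z : A => (z : Qb)) hr
    simpa using this
  have hg1 : g + 1 = f := by rw [hg]; ring
  rw [hg1, h] at hr'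
  have hgp : g ^ p = (p : Qb) * (1 - g * (r : Qb)) := by linear_combination -hr'
  have hgn : g ∈ A.nonunits := by
    rw [ValuationSubring.mem_nonunits_iff]
    have h1 : A.valuation (g ^ p) < 1 := by
      rw [hgp, map_mul]
      have h2 : A.valuation (1 - g * (r : Qb)) ≤ 1 :=
        (A.valuation_le_one_iff _).2 (sub_mem (one_mem A) (A.mul_mem _ _ hgA r.2))
      exact mul_lt_one_of_lt_of_le ((ValuationSubring.mem_nonunits_iff A).1 hpn) h2
    rw [map_pow] at h1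
    by_contra hcon
    push Not at hcon
    exact absurd h1 (not_lt.2 (one_le_pow₀ hcon))
  have hw : g / (p : Qb) ∈ A := ffi_lvi_unr p A hA hgL hgn
  set w := g / (p : Qb) with hwdef
  have hgw : g = (p : Qb) * w := by rw [hwdef]; field_simp
  obtain ⟨t, ht⟩ := m59rpk_one_add_pow (⟨(p : Qb) * w, A.mul_mem _ _ hpA hw⟩ : A) p
  have ht' : (1 + (p : Qb) * w) ^ p = 1 + (p : Qb) * w * ((p : Qb) + (p : Qb) * w * (t : Qb)) := by
    have := congrArg (fun z : A => (z : Qb)) ht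
    simpa using this
  have hf1 : f = 1 + (p : Qb) * w := by rw [← hgw, hg]; ring
  rw [← hf1, h] at ht'
  -- `p = p² s`
  have h5 : (p : Qb) ^ 1 * (w * (1 + w * (t : Qb))) = 1 := by
    have h6 : (p : Qb) * ((p : Qb) * (w * (1 + w * (t : Qb)))) = (p : Qb) * 1 := by
      linear_combination -ht'
    have := mul_left_cancel₀ hpQ h6
    rw [pow_one]
    exact this
  exact m59rpk_p_pow_not_unit p A hA (by norm_num)
    (A.mul_mem _ _ hw (A.add_mem _ _ A.one_mem (A.mul_mem _ _ hw t.2))) h5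

include hA in
/-- a `p`-power root of unity of the inertia field is `1` (`p` odd). -/
theorem m59rpk_root_eq_one (hp2 : p ≠ 2) {ξ : Qb} (hξL : ξ ∈ ffi_L A) {M : ℕ}
    (hξ : ξ ^ p ^ M = 1) : ξ = 1 := by
  have h1 : orderOf ξ ∣ p ^ M := orderOf_dvd_of_pow_eq_one hξ
  obtain ⟨j, -, hj⟩ := (Nat.dvd_prime_pow hp.out).1 h1
  rcases Nat.eq_zero_or_pos j with h0 | hpos
  · rw [h0, pow_zero, orderOf_eq_one_iff] at hj
    exact hj
  · exfalso
    have h2 : IsPrimitiveRoot ξ (p ^ j) := hj ▸ IsPrimitiveRoot.orderOf ξ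
    have h3 : p ^ j = p ^ (j - 1) * p := by
      rw [← pow_succ]
      congr 1
      omega
    have h4 : IsPrimitiveRoot (ξ ^ p ^ (j - 1)) p :=
      IsPrimitiveRoot.pow (pow_pos hp.out.pos _) h2 h3
    exact m59rpk_zeta_not_mem p A hA hp2 h4 (pow_mem hξL _)

/-- the field `K^nr(μ_{p^∞})`. -/
def m59rpk_cycInf : IntermediateField ℚ Qb :=
  IntermediateField.adjoin ℚ ((ffi_L A : Set Qb) ∪ {z | ∃ N : ℕ, z ^ p ^ N = 1})

theorem m59rpk_le_cycInf : ffi_L A ≤ m59rpk_cycInf p A := fun z hz =>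
  IntermediateField.subset_adjoin ℚ _ (Or.inl hz)

include hA in
/-- **no `p`-th root of `1 + p` lies in `K^nr(μ_{p^∞})`** (`p` odd). -/
theorem m59rpk_rootU_not_mem (hp2 : p ≠ 2) {x : Qb} (hx : x ^ p = 1 + (p : Qb)) :
    x ∉ m59rpk_cycInf p A := by
  classical
  intro hxM
  have hp0 : p ≠ 0 := hp.out.ne_zero
  have hUL : (1 + (p : Qb)) ∈ ffi_L A := add_mem (one_mem _) (_root_.natCast_mem (ffi_L A) p)
  have hU0 : (1 + (p : Qb)) ≠ 0 := by
    have h2 : ((1 + p : ℕ) : Qb) ≠ 0 := Nat.cast_ne_zero.2 (by omega)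
    rwa [Nat.cast_add, Nat.cast_one] at h2
  have hx0 : x ≠ 0 := by
    rintro rfl
    rw [zero_pow hp0] at hx
    exact hU0 hx.symm
  obtain ⟨T, hTS, hxT⟩ := IntermediateField.exists_finset_of_mem_adjoin hxM
  -- a common exponent
  let Nf : Qb → ℕ := fun z => if h : ∃ N : ℕ, z ^ p ^ N = 1 then h.choose else 0
  have hNf : ∀ z, (∃ N : ℕ, z ^ p ^ N = 1) → z ^ p ^ Nf z = 1 := by
    intro z h
    show z ^ p ^ (if h : ∃ N : ℕ, z ^ p ^ N = 1 then h.choose else 0) = 1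
    rw [dif_pos h]
    exact h.choose_spec
  set N' := ∑ z ∈ T, Nf z with hN'
  set n := p ^ (N' + 1) with hn
  have hTn : (T : Set Qb) ⊆ (ffi_L A : Set Qb) ∪ {z | z ^ n = 1} := by
    intro z hz
    rcases hTS hz with h | h
    · exact Or.inl h
    · right
      have hle : Nf z ≤ N' + 1 :=
        (Finset.single_le_sum (f := Nf) (fun _ _ => Nat.zero_le _) hz).trans (Nat.le_succ _)
      obtain ⟨k, hk⟩ := Nat.exists_eq_add_of_le hle
      show z ^ n = 1
      rw [hn, hk, pow_add, pow_mul, hNf z h, one_pow]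
  have hxF : x ∈ m59rpk_cyc A n := IntermediateField.adjoin.mono ℚ _ _ hTn hxT
  have hxn : x ^ n = (1 + (p : Qb)) ^ p ^ N' := by
    rw [hn, pow_succ, mul_comm, pow_mul, hx]
  have hxnL : x ^ n ∈ ffi_L A := by
    rw [hxn]
    exact pow_mem hUL _
  obtain ⟨f₀, hf₀L, hf₀⟩ := m59rpk_descent p A hA hp2 (N := N' + 1) (by omega) hx0 hxF hxnL
  -- `ξ = f₀ ^ p / (1 + p)` is a root of unity of `K^nr`
  set ξ := f₀ ^ p / (1 + (p : Qb)) with hξ
  have hξL : ξ ∈ ffi_L A := div_mem (pow_mem hf₀L _) hUL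
  have hξ1 : ξ ^ p ^ N' = 1 := by
    rw [hξ, div_pow, ← pow_mul, ← pow_succ', ← hxn]
    rw [show p ^ (N' + 1) = n from rfl, hf₀]
    exact div_self (pow_ne_zero _ hx0)
  have h1 := m59rpk_root_eq_one p A hA hp2 hξL hξ1
  have h2 : f₀ ^ p = 1 + (p : Qb) := by
    rw [hξ, div_eq_one_iff_eq hU0] at h1
    exact h1
  exact m59rpk_one_add_p_not_pow p A hA hf₀L h2

include hA in
/-- **the element `τ_u`**. -/
theorem m59rpk_tauU (hp2 : p ≠ 2) :
    ∃ τ ∈ A.inertiaSubgroupIn ℚ,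
      (∀ (N : ℕ) (μ : Qb), μ ^ p ^ N = 1 → τ μ = μ) ∧
      (∀ x : Qb, x ^ p = 1 + (p : Qb) → τ x ≠ x) := by
  obtain ⟨x₀, hx₀⟩ := IsAlgClosed.exists_pow_nat_eq (1 + (p : Qb)) hp.out.pos
  obtain ⟨τ, hτI, hτM, hτx⟩ := m59rpk_exists_moving A (m59rpk_cycInf p A) (m59rpk_le_cycInf p A)
    (m59rpk_rootU_not_mem p A hA hp2 hx₀)
  have hμ : ∀ (N : ℕ) (μ : Qb), μ ^ p ^ N = 1 → τ μ = μ := fun N μ h =>
    hτM μ (IntermediateField.subset_adjoin ℚ _ (Or.inr ⟨N, h⟩))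
  refine ⟨τ, hτI, hμ, fun x hx hfix => ?_⟩
  have hp0 : p ≠ 0 := hp.out.ne_zero
  have hx₀0 : x₀ ≠ 0 := by
    rintro rfl
    rw [zero_pow hp0] at hx₀
    have h2 : ((1 + p : ℕ) : Qb) ≠ 0 := Nat.cast_ne_zero.2 (by omega)
    rw [Nat.cast_add, Nat.cast_one] at h2
    exact h2 hx₀.symm
  -- `x = ξ x₀` with `ξ ^ p = 1`
  have h1 : (x / x₀) ^ p ^ 1 = 1 := by
    rw [pow_one, div_pow, hx, hx₀]
    exact div_self (by rw [← hx₀]; exact pow_ne_zero _ hx₀0)
  have h2 := hμ 1 _ h1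
  apply hτx
  have h3 : x₀ = x / (x / x₀) := by
    have hx0 : x ≠ 0 := by
      rintro rfl
      rw [zero_div, pow_one, zero_pow hp0] at h1
      exact zero_ne_one h1
    field_simp
  rw [h3, map_div₀, hfix, h2]

/-- in the vocabulary of S56/Kum: `χ(τ_u) = 1`. -/
theorem m59rpk_chi_tauU (τ : GQ) (hμ : ∀ (N : ℕ) (μ : Qb), μ ^ p ^ N = 1 → τ μ = μ) :
    Fermat.Agent.S56.s56k_chi p τ = 1 := by
  apply Fermat.Agent.S56.s56k_chi_of_fix
  apply hμ 1
  rw [pow_one]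
  exact Fermat.Agent.S56.s56k_zeta_pow p

/-- in the vocabulary of S56/Kum: `kumU(τ_u) ≠ 0`. -/
theorem m59rpk_kumU_tauU (τ : GQ) (hx : ∀ x : Qb, x ^ p = 1 + (p : Qb) → τ x ≠ x) :
    Fermat.Agent.S56.s56k_kumU p τ ≠ 0 := by
  intro h
  apply hx (Fermat.Agent.S56.s56k_rootU p) (Fermat.Agent.S56.s56k_rootU_pow p)
  have := Fermat.Agent.S56.s56k_kum_spec (p := p) (Fermat.Agent.S56.s56k_rootU_ne_zero p)
    (Fermat.Agent.S56.s56k_rootU_fix p τ)
  rw [show Fermat.Agent.S56.s56k_kum p (Fermat.Agent.S56.s56k_rootU p) τ = 0 from h,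
    Fermat.Agent.S56.s56k_E_zero, one_mul] at this
  exact this

end TauU

end Fermat.Agent.M59
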