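import Mathlib
import Fermat.Agent.M59.Top.EngSeams
import Fermat.Agent.M59.C.Present

/-!
# M59 / block [R_p-norm] (helper13, owner; cells (K3)+(R1) by helper24 in `Rp/Kum*.lean`): THE SEAMS
Prefix `m59rp_`.  Definitions, `_stmt` Props, trivial wiring.  Spec: #5281, #5286, #5320 (3).

Everything at `p` is expressed through TRACES of the framed representation, so every coordinate is
defined for every pair (ordinary or not), is compatible with every trace-compatible map between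
Hecke rings and lies in the trace algebra.

* `m59rp_Elts p A` : the fixed elements of `G_ℚ` at the place `A` over `p`:
  `s0 ∈ I_A` moving `ζ_p`; `tv ∈ I_A` fixing `μ_{p^∞}` and every `p`-power root of every unit of
  `K^nr`, moving every `p`-th root of `p` (the `τ_v` of (K3), `m59rpk_tauV`); `tu ∈ I_A` fixing
  `μ_{p^∞}` and moving every `p`-th root of `1 + p`; `fr` a Frobenius element at `A`.
* coordinates of `M : G_ℚ →* M₂(R)` : `m59rp_c` `= det M(s0)`,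
  `m59rp_z M σ` `= (1 - c)⁻¹ (tr M(σ s0) - c tr M(σ))` (the unramified quotient character),
  `m59rp_a z0 M` `= z0 z(fr) - 1`, `m59rp_v g0 M` `= tr M(g0 tv) - tr M(g0)`,
  `m59rp_u g0 M` `= tr M(g0 tu) - tr M(g0)`.
  In an ordinary basis with second vector fixed by `s0`: `M = (x, β; γ, δ)`, `γ = 0` on `D_A`,
  `v = β(tv) γ(g0)`, `u = β(tu) γ(g0)`.
* `m59rp_IsAdapted E rb g0` : `g0` does not preserve the residual ordinary line (`γ̄(g0) ≠ 0`).
* `m59rp_PeuAt`, `m59rp_Peu : m59e_PeuPred` : for every ordinary-shaped pair of vectors of `ρ̄` on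
  inertia, every `𝔽_p`-functional of its cocycle has a UNIT radical (the fields `β_*` of
  `s44_IsLocBasis`).
* residual cases: (II) `v̄ ≠ 0`; (III-ns) `v̄ = 0`, `ū ≠ 0`; (III-sp) `v̄ = ū = 0`.
-/

set_option autoImplicit false
set_option linter.unusedSectionVars false
set_option linter.unusedVariables false

open Polynomial IsLocalRing ExtCitation
open Fermat.Agent.S53 Fermat.Agent.S56 Fermat.Agent.TW

namespace Fermat.Agent.M59

noncomputable section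

local notation "GQ" => (AlgebraicClosure ℚ ≃ₐ[ℚ] AlgebraicClosure ℚ)
local notation "Qb" => AlgebraicClosure ℚ

attribute [local instance] S53.dualNumberAlgebra

/-! ### the fixed elements -/

/-- the fixed elements of `G_ℚ` at the place `A` over `p`. -/
structure m59rp_Elts (p : ℕ) (A : ValuationSubring Qb) where
  /-- an inertia element moving `ζ_p` -/
  s0 : GQ
  /-- the element `τ_v` of (K3) -/
  tv : GQ
  /-- an inertia element fixing `μ_{p^∞}` and moving the `p`-th roots of `1 + p` -/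
  tu : GQ
  /-- a Frobenius element -/
  fr : GQ
  s0_mem : s0 ∈ A.inertiaSubgroupIn ℚ
  s0_ne : ∀ ζ : Qb, ζ ^ p = 1 → ζ ≠ 1 → s0 ζ ≠ ζ
  tv_mem : tv ∈ A.inertiaSubgroupIn ℚ
  tv_fix : ∀ (N : ℕ) (γ : Qb), γ ∈ A → γ⁻¹ ∈ A →
    (∀ s ∈ A.inertiaSubgroupIn ℚ, s (γ ^ p ^ N) = γ ^ p ^ N) → tv γ = γ
  tv_ne : ∀ x : Qb, x ^ p = (p : Qb) → tv x ≠ x
  tu_mem : tu ∈ A.inertiaSubgroupIn ℚ
  tu_fix : ∀ (N : ℕ) (ζ : Qb), ζ ^ p ^ N = 1 → tu ζ = ζ
  tu_ne : ∀ x : Qb, x ^ p = 1 + (p : Qb) → tu x ≠ x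
  fr_frob : A.IsFrobeniusAt fr p

/-! ### the trace coordinates -/

section coords

variable {R : Type} [CommRing R] {p : ℕ} {A : ValuationSubring Qb}

/-- `c = det M(s0)` (`= ε(s0)`). -/
def m59rp_c (E : m59rp_Elts p A) (M : GQ →* Matrix (Fin 2) (Fin 2) R) : R := (M E.s0).det

/-- the unramified quotient character, by traces: `(1 - c) z(σ) = tr M(σ s0) - c tr M(σ)`. -/
def m59rp_z (E : m59rp_Elts p A) (M : GQ →* Matrix (Fin 2) (Fin 2) R) (σ : GQ) : R :=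
  Ring.inverse (1 - m59rp_c E M) * ((M (σ * E.s0)).trace - m59rp_c E M * (M σ).trace)

/-- the coordinate `a = z0 z(Frob) - 1`. -/
def m59rp_a (E : m59rp_Elts p A) (z0 : R) (M : GQ →* Matrix (Fin 2) (Fin 2) R) : R :=
  z0 * m59rp_z E M E.fr - 1

/-- the coordinate `v = tr M(g0 τ_v) - tr M(g0)` (`= β(τ_v) γ(g0)`). -/
def m59rp_v (E : m59rp_Elts p A) (g0 : GQ) (M : GQ →* Matrix (Fin 2) (Fin 2) R) : R :=
  (M (g0 * E.tv)).trace - (M g0).trace

/-- the coordinate `u = tr M(g0 τ_u) - tr M(g0)` (`= β(τ_u) γ(g0)`). -/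
def m59rp_u (E : m59rp_Elts p A) (g0 : GQ) (M : GQ →* Matrix (Fin 2) (Fin 2) R) : R :=
  (M (g0 * E.tu)).trace - (M g0).trace

end coords

/-- `g0` does not preserve the residual ordinary line `im (rb(s0) - 1) = ker (rb(s0) - c̄)`. -/
def m59rp_IsAdapted {k : Type} [Field k] {p : ℕ} {A : ValuationSubring Qb} (E : m59rp_Elts p A)
    (rb : FramedResidual k) (g0 : GQ) : Prop :=
  (rb E.s0 - (rb E.s0).det • (1 : Matrix (Fin 2) (Fin 2) k)) * rb g0 * (rb E.s0 - 1) ≠ 0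

/-! ### the residual predicate -/

/-- **peu ramifiée at the place `A`**: for every ordinary-shaped pair `(x, v)` of vectors of `ρ̄` on the
inertia group of `A` (`σ x = χ(σ) x`, `σ v = v + c(σ) x`, `c` with values in `k`) and every additive
functional `l : k → 𝔽_p`, the `𝔽_p`-valued cocycle `l ∘ c` has a UNIT radical `β`. -/
def m59rp_PeuAt (k : Type) [Field k] (ρb : ResidualGaloisRep k) (p : ℕ)
    (A : ValuationSubring Qb) : Prop :=
  ∀ ζ : Qb, IsPrimitiveRoot ζ p → ∀ (x v : ρb.V) (c : GQ → k), x ≠ 0 →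
    (∀ σ ∈ A.inertiaSubgroupIn ℚ, ∀ j : ℕ, σ ζ = ζ ^ j → ρb.ρ σ x = (j : k) • x) →
    (∀ σ ∈ A.inertiaSubgroupIn ℚ, ρb.ρ σ v = v + c σ • x) →
    ∀ l : k →+ ZMod p, ∃ β : Qb, β ≠ 0 ∧ β ∈ A ∧ β⁻¹ ∈ A ∧
      ∀ σ ∈ A.inertiaSubgroupIn ℚ, σ β = ζ ^ (l (c σ)).val * β

/-- **the Galois-side predicate of the engine**: peu ramifiée at every place over `p`. -/
def m59rp_Peu : m59e_PeuPred := fun k _ ρb p =>
  ∀ A : ValuationSubring Qb, A.LiesOverPrime p → m59rp_PeuAt k ρb p A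

/-! ### the seams -/

/-- **(E)** the fixed elements exist (`tv`: helper24's `m59rpk_tauV`). -/
def m59rp_Elts_stmt : Prop :=
  ∀ (p : ℕ) [Fact p.Prime], p ≠ 2 → ∀ A : ValuationSubring Qb, A.LiesOverPrime p →
    Nonempty (m59rp_Elts p A)

/-- **(CONJ-PEU)** the places over `p` are conjugate: peu ramifiée at one place ⟹ at all. -/
def m59rp_PeuConj_stmt : Prop :=
  ∀ (p : ℕ) [Fact p.Prime] (k : Type) [Field k] (ρb : ResidualGaloisRep k)
    (A : ValuationSubring Qb), A.LiesOverPrime p → m59rp_PeuAt k ρb p A → m59rp_Peu k ρb p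

/-- the residual representation as a `GaloisRepAdic` over the field `k`. -/
abbrev m59rp_res {k : Type} [Field k] (rb : FramedResidual k) : GaloisRepAdic k :=
  GaloisRepAdic.ofResidualGaloisRep rb.toResidualGaloisRep

/-- **(RES-ORD)** a pair with cyclotomic determinant, ordinary at `p`, has a residual representation
with cyclotomic determinant, ordinary at `p`. -/
def m59rp_ResOrd_stmt : Prop :=
  ∀ (p : ℕ) [Fact p.Prime] (𝒪 : Type) [CommRing 𝒪] [IsLocalRing 𝒪]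
    (rb : FramedResidual (ResidueField 𝒪)) (H : twc_HPair 𝒪 rb),
    H.r.toGaloisRepAdic.DetIsCyclotomic p → H.r.toGaloisRepAdic.IsOrdinaryAt p →
    (m59rp_res rb).DetIsCyclotomic p ∧ (m59rp_res rb).IsOrdinaryAt p

/-- **(AD)** an adapted `g0` exists (`ρ̄` absolutely irreducible, ordinary, `det = ω`). -/
def m59rp_Adapted_stmt : Prop :=
  ∀ (p : ℕ) [Fact p.Prime], p ≠ 2 → ∀ (k : Type) [Field k] (rb : FramedResidual k)
    (A : ValuationSubring Qb), A.LiesOverPrime p → ∀ E : m59rp_Elts p A,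
    rb.toResidualGaloisRep.IsAbsolutelyIrreducible →
    (m59rp_res rb).DetIsCyclotomic p → (m59rp_res rb).IsOrdinaryAt p →
    ∃ g0 : GQ, m59rp_IsAdapted E rb g0

/-- **(R1), trace form** (from helper24's `m59rpk_R1`): for every ordinary framed representation
with cyclotomic determinant over a separated local ring with finite quotients, every `σ ∈ D_A` and
every `g ∈ G_ℚ`: `(z(σ)² - 1) (tr r(g τ_v) - tr r(g)) = 0`. -/
def m59rp_R1_stmt : Prop :=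
  ∀ (p : ℕ) [Fact p.Prime], p ≠ 2 → ∀ (A : ValuationSubring Qb), A.LiesOverPrime p →
  ∀ (E : m59rp_Elts p A) (T : Type) [CommRing T] [IsLocalRing T],
    (∀ n : ℕ, Finite (T ⧸ maximalIdeal T ^ n)) →
    (∀ x : T, (∀ n : ℕ, x ∈ maximalIdeal T ^ n) → x = 0) →
  ∀ r : FramedRep T, r.toGaloisRepAdic.DetIsCyclotomic p → r.toGaloisRepAdic.IsOrdinaryAt p →
  ∀ σ ∈ A.decompositionSubgroup ℚ, ∀ g : GQ,
    (m59rp_z E r.toMonoidHom σ ^ 2 - 1) * ((r (g * E.tv)).trace - (r g).trace) = 0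

/-- **(Z)** the trace character `m59rp_z` at a Frobenius element is THE eigenvalue of every
Frobenius element at every place over `p` on every unramified quotient line (the `z` of helper10's
`m59p_IsUrEig`, unfolded). -/
def m59rp_ZUr_stmt : Prop :=
  ∀ (p : ℕ) [Fact p.Prime], p ≠ 2 → ∀ (A : ValuationSubring Qb), A.LiesOverPrime p →
  ∀ (E : m59rp_Elts p A) (T : Type) [CommRing T] [IsLocalRing T],
    (∀ x : T, (∀ n : ℕ, x ∈ maximalIdeal T ^ n) → x = 0) →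
  ∀ r : FramedRep T, r.toGaloisRepAdic.DetIsCyclotomic p →
  ∀ (P : ValuationSubring Qb), P.LiesOverPrime p → ∀ σ : GQ, P.IsFrobeniusAt σ p → ∀ z : T,
    (∃ L : Submodule T r.toGaloisRepAdic.V,
      (∃ b : Module.Basis (Fin 2) T r.toGaloisRepAdic.V, L = T ∙ b 0) ∧
      (∀ g ∈ P.decompositionSubgroup ℚ, ∀ v ∈ L, r.toGaloisRepAdic.ρ g v ∈ L) ∧
      (∀ g ∈ P.inertiaSubgroupIn ℚ, ∀ v : r.toGaloisRepAdic.V, r.toGaloisRepAdic.ρ g v - v ∈ L) ∧
      ∀ v : r.toGaloisRepAdic.V, r.toGaloisRepAdic.ρ σ v - z • v ∈ L) →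
    z = m59rp_z E r.toMonoidHom E.fr

/-- **(Z-ex)** conversely, for an ordinary `r` with cyclotomic determinant, `m59rp_z` at the fixed
Frobenius element IS such an eigenvalue, for every Frobenius element at every place over `p`
(a witness of helper10's `m59p_IsUrEig`, unfolded). -/
def m59rp_ZUrEx_stmt : Prop :=
  ∀ (p : ℕ) [Fact p.Prime], p ≠ 2 → ∀ (A : ValuationSubring Qb), A.LiesOverPrime p →
  ∀ (E : m59rp_Elts p A) (T : Type) [CommRing T] [IsLocalRing T],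
  ∀ r : FramedRep T, r.toGaloisRepAdic.DetIsCyclotomic p → r.toGaloisRepAdic.IsOrdinaryAt p →
  ∀ (P : ValuationSubring Qb), P.LiesOverPrime p → ∀ σ : GQ, P.IsFrobeniusAt σ p →
    ∃ L : Submodule T r.toGaloisRepAdic.V,
      (∃ b : Module.Basis (Fin 2) T r.toGaloisRepAdic.V, L = T ∙ b 0) ∧
      (∀ g ∈ P.decompositionSubgroup ℚ, ∀ v ∈ L, r.toGaloisRepAdic.ρ g v ∈ L) ∧
      (∀ g ∈ P.inertiaSubgroupIn ℚ, ∀ v : r.toGaloisRepAdic.V, r.toGaloisRepAdic.ρ g v - v ∈ L) ∧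
      ∀ v : r.toGaloisRepAdic.V,
        r.toGaloisRepAdic.ρ σ v - m59rp_z E r.toMonoidHom E.fr • v ∈ L

/-- **(PEU-II)** case (II): `ρ̄` ordinary with `det = ω` and NOT peu ramifiée at `A` ⟹ `v̄ ≠ 0`. -/
def m59rp_PeuII_stmt : Prop :=
  ∀ (p : ℕ) [Fact p.Prime], p ≠ 2 → ∀ (k : Type) [Field k] (rb : FramedResidual k)
    (A : ValuationSubring Qb), A.LiesOverPrime p → ∀ (E : m59rp_Elts p A) (g0 : GQ),
    m59rp_IsAdapted E rb g0 →
    (m59rp_res rb).DetIsCyclotomic p → (m59rp_res rb).IsOrdinaryAt p →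
    ¬ m59rp_PeuAt k rb.toResidualGaloisRep p A →
    m59rp_v E g0 rb.toMonoidHom ≠ 0

/-- **(PEU-III)** the converse: `ρ̄` ordinary with `det = ω` and peu ramifiée at `A` ⟹ `v̄ = 0`. -/
def m59rp_PeuIII_stmt : Prop :=
  ∀ (p : ℕ) [Fact p.Prime], p ≠ 2 → ∀ (k : Type) [Field k] (rb : FramedResidual k)
    (A : ValuationSubring Qb), A.LiesOverPrime p → ∀ (E : m59rp_Elts p A) (g0 : GQ),
    (m59rp_res rb).DetIsCyclotomic p → (m59rp_res rb).IsOrdinaryAt p →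
    m59rp_PeuAt k rb.toResidualGaloisRep p A →
    m59rp_v E g0 rb.toMonoidHom = 0

/-- **(MEM)** the coordinates lie in the maximal ideal: `a_T` when `z0` lifts `z̄(Frob)⁻¹`, `v_T`
when `v̄ = 0`, `u_T` when `ū = 0`. -/
def m59rp_Mem_stmt : Prop :=
  ∀ (p : ℕ) [Fact p.Prime], p ≠ 2 →
  ∀ (𝒪 : Type) [CommRing 𝒪] [IsLocalRing 𝒪] (rb : FramedResidual (ResidueField 𝒪))
    (A : ValuationSubring Qb), A.LiesOverPrime p → ∀ (E : m59rp_Elts p A) (g0 : GQ) (z0 : 𝒪),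
  ∀ H : twc_HPair 𝒪 rb, H.r.toGaloisRepAdic.DetIsCyclotomic p →
    (residue 𝒪 z0 * m59rp_z E rb.toMonoidHom E.fr = 1 →
      m59rp_a E (algebraMap 𝒪 H.T z0) H.r.toMonoidHom ∈ maximalIdeal H.T) ∧
    (m59rp_v E g0 rb.toMonoidHom = 0 → m59rp_v E g0 H.r.toMonoidHom ∈ maximalIdeal H.T) ∧
    (m59rp_u E g0 rb.toMonoidHom = 0 → m59rp_u E g0 H.r.toMonoidHom ∈ maximalIdeal H.T)

/-- **(R3), case (III)** (`v̄ = 0`): an `𝒪`-algebra map `T → k[ε]` killing `a_T`, `v_T` (and `u_T`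
in the residually split case `ū = 0`) has a cocycle which is a coboundary on `D_p`
(the `p`-component of helper21's `m59c_LocCob`). -/
def m59rp_LocCobIII_stmt : Prop :=
  ∀ (p : ℕ) [Fact p.Prime], p ≠ 2 →
  ∀ (𝒪 : Type) [CommRing 𝒪] [IsDomain 𝒪] [IsDiscreteValuationRing 𝒪]
    [IsAdicComplete (maximalIdeal 𝒪) 𝒪] [Finite (ResidueField 𝒪)],
    (p : 𝒪) ∈ maximalIdeal 𝒪 →
  ∀ (rb : FramedResidual (ResidueField 𝒪)) (E : m59rp_Elts p (padicPlace p)) (g0 : GQ) (z0 : 𝒪),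
    m59rp_IsAdapted E rb g0 → m59rp_v E g0 rb.toMonoidHom = 0 → z0 ^ 2 = 1 →
  ∀ H : twc_HPair 𝒪 rb, H.r.toGaloisRepAdic.DetIsCyclotomic p →
    H.r.toGaloisRepAdic.IsOrdinaryAt p →
  ∀ φ : H.T →ₐ[𝒪] DualNumber (ResidueField 𝒪),
    φ (m59rp_a E (algebraMap 𝒪 H.T z0) H.r.toMonoidHom) = 0 →
    φ (m59rp_v E g0 H.r.toMonoidHom) = 0 →
    (m59rp_u E g0 rb.toMonoidHom = 0 → φ (m59rp_u E g0 H.r.toMonoidHom) = 0) →
    s56t_coc (twc_frame H.r φ) ∈
      s56a_cobOn rb ((primeLocalPlace (pPrime p)).decompositionSubgroup ℚ)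

/-- **(R3), case (II)** (`v̄ ≠ 0`; `a_T = 0` is automatic by (R1)): an `𝒪`-algebra map `T → k[ε]`
killing `w_T = u_T v_T⁻¹ - w0` has a cocycle which is a coboundary on `D_p`. -/
def m59rp_LocCobII_stmt : Prop :=
  ∀ (p : ℕ) [Fact p.Prime], p ≠ 2 →
  ∀ (𝒪 : Type) [CommRing 𝒪] [IsDomain 𝒪] [IsDiscreteValuationRing 𝒪]
    [IsAdicComplete (maximalIdeal 𝒪) 𝒪] [Finite (ResidueField 𝒪)],
    (p : 𝒪) ∈ maximalIdeal 𝒪 →
  ∀ (rb : FramedResidual (ResidueField 𝒪)) (E : m59rp_Elts p (padicPlace p)) (g0 : GQ) (w0 : 𝒪),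
    m59rp_IsAdapted E rb g0 → m59rp_v E g0 rb.toMonoidHom ≠ 0 →
  ∀ H : twc_HPair 𝒪 rb, H.r.toGaloisRepAdic.DetIsCyclotomic p →
    H.r.toGaloisRepAdic.IsOrdinaryAt p →
  ∀ φ : H.T →ₐ[𝒪] DualNumber (ResidueField 𝒪),
    φ (m59rp_u E g0 H.r.toMonoidHom * Ring.inverse (m59rp_v E g0 H.r.toMonoidHom) -
      algebraMap 𝒪 H.T w0) = 0 →
    s56t_coc (twc_frame H.r φ) ∈
      s56a_cobOn rb ((primeLocalPlace (pPrime p)).decompositionSubgroup ℚ)

/-- **(A0-II)** case (II): `v̄ ≠ 0` ⟹ `z(σ)² = 1` on `D_A` for every ordinary pair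
(from (R1): `v_T` is a unit); with `z0 z̄(Frob) = 1`, `p` odd: `a_T = 0`. -/
def m59rp_AZeroII_stmt : Prop :=
  ∀ (p : ℕ) [Fact p.Prime], p ≠ 2 →
  ∀ (𝒪 : Type) [CommRing 𝒪] [IsLocalRing 𝒪] [Finite (ResidueField 𝒪)]
    (rb : FramedResidual (ResidueField 𝒪))
    (A : ValuationSubring Qb), A.LiesOverPrime p → ∀ (E : m59rp_Elts p A) (g0 : GQ) (z0 : 𝒪),
    m59rp_v E g0 rb.toMonoidHom ≠ 0 → z0 ^ 2 = 1 →
    residue 𝒪 z0 * m59rp_z E rb.toMonoidHom E.fr = 1 →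
  ∀ H : twc_HPair 𝒪 rb, H.r.toGaloisRepAdic.DetIsCyclotomic p →
    H.r.toGaloisRepAdic.IsOrdinaryAt p →
    m59rp_a E (algebraMap 𝒪 H.T z0) H.r.toMonoidHom = 0

/-- **(R2')** the tangent form of "flat ⟹ `v = 0`" (from main's `s56fo_lift` / `s56fo_Peu`): for
a FLAT pair every `𝒪`-algebra map `T → k[ε]` kills `v_T`. -/
def m59rp_FlatTan_stmt : Prop :=
  ∀ (p : ℕ) [Fact p.Prime], p ≠ 2 →
  ∀ (𝒪 : Type) [CommRing 𝒪] [IsDomain 𝒪] [IsDiscreteValuationRing 𝒪]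
    [IsAdicComplete (maximalIdeal 𝒪) 𝒪] [Finite (ResidueField 𝒪)],
    (p : 𝒪) ∈ maximalIdeal 𝒪 →
  ∀ (rb : FramedResidual (ResidueField 𝒪)) (A : ValuationSubring Qb), A.LiesOverPrime p →
  ∀ (E : m59rp_Elts p A) (g0 : GQ),
  ∀ H : twc_HPair 𝒪 rb, H.r.toGaloisRepAdic.DetIsCyclotomic p →
    H.r.toGaloisRepAdic.IsOrdinaryAt p → H.r.toGaloisRepAdic.IsFlatAt p →
  ∀ φ : H.T →ₐ[𝒪] DualNumber (ResidueField 𝒪), φ (m59rp_v E g0 H.r.toMonoidHom) = 0

/-! ### wiring -/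

/-- **(R1) ⟹ the relation `a v = 0`** for `z0² = 1`, `p` odd, `a_T ∈ 𝔪_T`:
`z(Frob)² - 1 = a (2 + a)` with `2 + a` a unit. -/
theorem m59rp_av_of_R1 {T : Type} [CommRing T] [IsLocalRing T] {z z0 v : T}
    (hz0 : z0 ^ 2 = 1) (h2 : IsUnit (2 : T)) (ha : z0 * z - 1 ∈ maximalIdeal T)
    (h : (z ^ 2 - 1) * v = 0) : (z0 * z - 1) * v = 0 := by
  have h1 : z ^ 2 - 1 = (z0 * z - 1) * (2 + (z0 * z - 1)) := by
    have : (z0 * z - 1) * (2 + (z0 * z - 1)) = z0 ^ 2 * z ^ 2 - 1 := by ring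
    rw [this, hz0, one_mul]
  have hu : IsUnit (2 + (z0 * z - 1)) := by
    by_contra hn
    have hm : 2 + (z0 * z - 1) ∈ maximalIdeal T := (mem_maximalIdeal _).2 hn
    have : (2 : T) ∈ maximalIdeal T := by
      have := (maximalIdeal T).sub_mem hm ha
      simpa using this
    exact (mem_maximalIdeal _).1 this h2
  obtain ⟨w, hw⟩ := hu
  rw [h1, ← hw] at h
  have h3 : (z0 * z - 1) * v * (w : T) = 0 := by
    rw [← h]; ring
  have := congrArg (· * ((w⁻¹ : Tˣ) : T)) h3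
  simpa [mul_assoc] using this

end

end Fermat.Agent.M59
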