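import Mathlib
import Fermat.Agent.M59.Rp.Seams
import Fermat.Agent.M59.Rp.KumVal
import Fermat.Agent.M59.Rp.KumTauU
import Fermat.Agent.S56.LocP.Final

/-!
# M59 / block [R_p-norm], cell (R3), the core over `k[ε]` (helper13; prefix `m59rp_`)

`r` a framed representation over `k[ε]` lifting `rb`, STRICTLY ordinary at `p` with cyclotomic
determinant.  Main's `s56o_data` gives the line `k u₀`, a trace-zero `m` and
`coc r σ - ∂m σ = f σ • gen u₀` on `D_p` with `f` an `ω`-cocycle; likewise `∂Dg σ = f̄ σ • gen u₀`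
for the diagonal matrix `Dg` of the Borel.

* `m59rp_trace_formula` : for `τ` in inertia with `rb τ = 1 + b • gen`:
  `tr r(g τ) - tr r(g) = (b + ε f τ) * G̃(g)`, `G̃(g)` independent of `τ`, with constant term
  `tr (rb g * gen) = det (rb g u₀, u₀)`;
* `m59rp_kum_inj` : an `ω`-cocycle on `D_p` is determined modulo coboundaries by its values at
  `τ_v` and `τ_u` (`s56k_span` + helper24's evaluations);
* `m59rp_locCore` : the trace coordinates `V = m59rp_v`, `U = m59rp_u` of `r` are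
  `(bv + ε fv) G̃`, `(bu + ε fu) G̃` with `G̃` a unit, and `(fv, fu) ∈ k (bv, bu)` implies that the
  cocycle of `r` is a coboundary on `D_p`.
-/

set_option autoImplicit false
set_option linter.unusedSectionVars false
set_option linter.unusedVariables false
set_option linter.style.haveILetI false

open Polynomial IsLocalRing ExtCitation Matrix
open Fermat.Agent.S53 Fermat.Agent.S56 Fermat.Agent.TW

namespace Fermat.Agent.M59

noncomputable section

local notation "GQ" => (AlgebraicClosure ℚ ≃ₐ[ℚ] AlgebraicClosure ℚ)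
local notation "Qb" => AlgebraicClosure ℚ

variable {k : Type} [Field k]

/-! ### linear algebra of the line `W₀` -/

/-- `tr (M * gen u₀) = det (M u₀, u₀)`. -/
theorem m59rp_trace_mul_gen (M : Matrix (Fin 2) (Fin 2) k) (u₀ : Fin 2 → k) :
    (M * s56oa_gen u₀).trace = (M *ᵥ u₀) 0 * u₀ 1 - (M *ᵥ u₀) 1 * u₀ 0 := by
  simp only [Matrix.trace_fin_two, Matrix.mul_apply, Fin.sum_univ_two, Matrix.mulVec, dotProduct,
    s56oa_gen_apply_zero, s56oa_gen_apply_one]
  ring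

/-- two vectors with vanishing determinant, the second nonzero, are proportional. -/
theorem m59rp_prop_of_det {w u₀ : Fin 2 → k} (hu : u₀ ≠ 0) (h : w 0 * u₀ 1 - w 1 * u₀ 0 = 0) :
    ∃ t : k, w = t • u₀ := by
  by_cases h0 : u₀ 0 = 0
  · have h1 : u₀ 1 ≠ 0 := by
      intro h1
      apply hu
      funext i
      fin_cases i
      · exact h0
      · exact h1
    refine ⟨w 1 / u₀ 1, ?_⟩
    funext i
    fin_cases i
    · simp only [Fin.zero_eta, Pi.smul_apply, smul_eq_mul, h0, mul_zero]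
      rw [h0, mul_zero, sub_zero] at h
      exact (mul_eq_zero.mp h).resolve_right h1
    · simp only [Fin.mk_one, Pi.smul_apply, smul_eq_mul]
      field_simp
  · refine ⟨w 0 / u₀ 0, ?_⟩
    funext i
    fin_cases i
    · simp only [Fin.zero_eta, Pi.smul_apply, smul_eq_mul]
      field_simp
    · simp only [Fin.mk_one, Pi.smul_apply, smul_eq_mul]
      field_simp
      linear_combination -h

/-- the square of an element of `W₀` vanishes; more generally `N * N' = 0`. -/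
theorem m59rp_W0_mul {u₀ : Fin 2 → k} {N N' : Matrix (Fin 2) (Fin 2) k}
    (hN : N ∈ s56oa_W0 u₀) (hN' : N' ∈ s56oa_W0 u₀) : N * N' = 0 := by
  apply Matrix.toLin'.injective
  refine LinearMap.ext fun v => ?_
  rw [Matrix.toLin'_apply, ← Matrix.mulVec_mulVec]
  obtain ⟨t, ht⟩ := hN'.2 v
  rw [ht, Matrix.mulVec_smul, hN.1, smul_zero]
  simp

/-- commutator with the diagonal matrix: `N * Dg - Dg * N = -2 N` on `W₀`. -/
theorem m59rp_comm_Dg {u₀ : Fin 2 → k} {N Dg : Matrix (Fin 2) (Fin 2) k}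
    (hN : N ∈ s56oa_W0 u₀) (h1 : Dg *ᵥ u₀ = u₀)
    (h2 : ∀ w : Fin 2 → k, ∃ t : k, Dg *ᵥ w = t • u₀ - w) :
    N * Dg - Dg * N = (-2 : k) • N := by
  apply Matrix.toLin'.injective
  refine LinearMap.ext fun v => ?_
  rw [Matrix.toLin'_apply, Matrix.toLin'_apply, Matrix.sub_mulVec, ← Matrix.mulVec_mulVec,
    ← Matrix.mulVec_mulVec, Matrix.smul_mulVec]
  obtain ⟨t, ht⟩ := h2 v
  obtain ⟨s, hs⟩ := hN.2 v
  rw [ht, Matrix.mulVec_sub, Matrix.mulVec_smul, hN.1, smul_zero, zero_sub, hs,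
    Matrix.mulVec_smul, h1]
  module

/-- `N * Dg * N = 0` on `W₀`. -/
theorem m59rp_N_Dg_N {u₀ : Fin 2 → k} {N Dg : Matrix (Fin 2) (Fin 2) k}
    (hN : N ∈ s56oa_W0 u₀) (h1 : Dg *ᵥ u₀ = u₀) : N * Dg * N = 0 := by
  apply Matrix.toLin'.injective
  refine LinearMap.ext fun v => ?_
  rw [Matrix.toLin'_apply, ← Matrix.mulVec_mulVec, ← Matrix.mulVec_mulVec]
  obtain ⟨s, hs⟩ := hN.2 v
  rw [hs, Matrix.mulVec_smul, h1, Matrix.mulVec_smul, hN.1, smul_zero]
  simp

/-- **the coboundary of the diagonal matrix at a unipotent element**: `rb τ = 1 + N`, `N ∈ W₀`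
⟹ `∂Dg τ = -2 N`. -/
theorem m59rp_d_Dg_unip (rb : FramedResidual k) {u₀ : Fin 2 → k} {Dg : Matrix (Fin 2) (Fin 2) k}
    (h1 : Dg *ᵥ u₀ = u₀) (h2 : ∀ w : Fin 2 → k, ∃ t : k, Dg *ᵥ w = t • u₀ - w)
    (τ : GQ) (N : Matrix (Fin 2) (Fin 2) k) (hτ : rb τ = 1 + N) (hN : N ∈ s56oa_W0 u₀) :
    s56o_d rb Dg τ = (-2 : k) • N := by
  have hinv : rb τ⁻¹ = 1 - N := by
    have h3 : rb τ * (1 - N) = 1 := by
      rw [hτ]
      have : (1 + N) * (1 - N) = 1 - N * N := by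
        simp only [Matrix.add_mul, Matrix.mul_sub, Matrix.one_mul, Matrix.mul_one]
        abel
      rw [this, m59rp_W0_mul hN hN, sub_zero]
    have h4 := s56o_rb_inv_mul rb τ
    calc rb τ⁻¹ = rb τ⁻¹ * (rb τ * (1 - N)) := by rw [h3, Matrix.mul_one]
      _ = (rb τ⁻¹ * rb τ) * (1 - N) := by rw [Matrix.mul_assoc]
      _ = 1 - N := by rw [h4, Matrix.one_mul]
  unfold s56o_d
  rw [hinv, hτ]
  have e : (1 + N) * Dg * (1 - N) - Dg = (N * Dg - Dg * N) - N * Dg * N := by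
    simp only [Matrix.add_mul, Matrix.mul_sub, Matrix.one_mul, Matrix.mul_one]
    abel
  rw [e, m59rp_comm_Dg hN h1 h2, m59rp_N_Dg_N hN h1, sub_zero]

/-! ### the trace formula -/

theorem m59rp_trace_fst (M : Matrix (Fin 2) (Fin 2) (DualNumber k)) :
    (M.trace).fst = (s56t_fst M).trace := by
  simp [Matrix.trace_fin_two]

theorem m59rp_trace_snd (M : Matrix (Fin 2) (Fin 2) (DualNumber k)) :
    (M.trace).snd = (s56t_snd M).trace := by
  simp [Matrix.trace_fin_two]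

/-- the dual number `a + ε b`. -/
def m59rp_dn (a b : k) : DualNumber k := (a, b)

@[simp] theorem m59rp_dn_fst (a b : k) : (m59rp_dn a b).fst = a := rfl

@[simp] theorem m59rp_dn_snd (a b : k) : (m59rp_dn a b).snd = b := rfl

/-- the factor `G̃(g)` of the trace formula (independent of `τ`). -/
def m59rp_Gt (rb : FramedResidual k) (r : FramedRep (DualNumber k)) (u₀ : Fin 2 → k)
    (m : Matrix (Fin 2) (Fin 2) k) (g : GQ) : DualNumber k :=
  m59rp_dn ((rb g * s56oa_gen u₀).trace)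
    ((rb g * (s56oa_gen u₀ * m - m * s56oa_gen u₀)).trace +
      (s56t_snd (r g) * s56oa_gen u₀).trace)

/-- **the trace formula**: `rb τ = 1 + b • gen`, `coc τ - ∂m τ = f • gen` ⟹
`tr r(g τ) - tr r(g) = (b + ε f) G̃(g)`. -/
theorem m59rp_trace_formula (rb : FramedResidual k) (r : FramedRep (DualNumber k))
    (hr : ∀ σ, s56t_bar r σ = rb σ) (u₀ : Fin 2 → k) (m : Matrix (Fin 2) (Fin 2) k)
    (g τ : GQ) (b f : k) (hτ : rb τ = 1 + b • s56oa_gen u₀)
    (hc : s56t_coc r τ - s56o_d rb m τ = f • s56oa_gen u₀) :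
    (r (g * τ)).trace - (r g).trace = m59rp_dn b f * m59rp_Gt rb r u₀ m g := by
  have hgg : s56oa_gen u₀ * s56oa_gen u₀ = 0 :=
    m59rp_W0_mul (s56oa_gen_mem u₀) (s56oa_gen_mem u₀)
  have hfst : ∀ σ, s56t_fst (r σ) = rb σ := fun σ => by rw [← hr σ]; rfl
  -- the `ε`-part of `r τ`
  have hsnd : s56t_snd (r τ) =
      b • (s56oa_gen u₀ * m - m * s56oa_gen u₀) + f • s56oa_gen u₀ := by
    have hcoc : s56t_coc r τ = s56o_d rb m τ + f • s56oa_gen u₀ := by
      rw [← hc]; abel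
    have hd : s56o_d rb m τ * rb τ = rb τ * m - m * rb τ := by
      unfold s56o_d
      rw [Matrix.sub_mul, Matrix.mul_assoc, s56o_rb_inv_mul, Matrix.mul_one]
    rw [s56t_snd_eq, hr, hcoc, Matrix.add_mul, hd, hτ]
    simp only [Matrix.add_mul, Matrix.mul_add, Matrix.one_mul, Matrix.mul_one,
      Matrix.smul_mul, Matrix.mul_smul, hgg, smul_zero, add_zero, smul_sub]
    abel
  apply TrivSqZeroExt.ext
  · rw [TrivSqZeroExt.fst_sub, m59rp_trace_fst, m59rp_trace_fst, r.map_mul, s56t_fst_mul, hfst,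
      hfst, hτ, TrivSqZeroExt.fst_mul]
    simp only [m59rp_Gt, Matrix.mul_add, Matrix.mul_one, Matrix.mul_smul, Matrix.trace_add,
      Matrix.trace_smul, smul_eq_mul, m59rp_dn_fst]
    ring
  · rw [TrivSqZeroExt.snd_sub, m59rp_trace_snd, m59rp_trace_snd, r.map_mul, s56t_snd_mul, hfst,
      hfst, hsnd, hτ, DualNumber.snd_mul]
    simp only [m59rp_Gt, Matrix.mul_add, Matrix.mul_one, Matrix.mul_smul, Matrix.trace_add,
      Matrix.trace_smul, smul_eq_mul, m59rp_dn_fst, m59rp_dn_snd]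
    ring

/-! ### the residual ordinary line and the adapted element -/

/-- the determinant of a matrix acting by `x` on the line `k u₀` and trivially modulo it. -/
theorem m59rp_det_unip {S : Matrix (Fin 2) (Fin 2) k} {u₀ : Fin 2 → k} {x : k} (hu : u₀ ≠ 0)
    (hx : S *ᵥ u₀ = x • u₀) (hz : ∀ v : Fin 2 → k, ∃ t : k, S *ᵥ v - v = t • u₀) :
    S.det = x := by
  obtain ⟨t0, h0⟩ := hz (Pi.single 0 1)
  obtain ⟨t1, h1⟩ := hz (Pi.single 1 1)
  rw [Matrix.mulVec_single_one] at h0 h1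
  have e00 : S 0 0 = 1 + t0 * u₀ 0 := by
    have := congrFun h0 0
    simp only [Pi.sub_apply, Matrix.col_apply, Pi.single_eq_same, Pi.smul_apply, smul_eq_mul] at this
    linear_combination this
  have e10 : S 1 0 = t0 * u₀ 1 := by
    have := congrFun h0 1
    simpa using this
  have e01 : S 0 1 = t1 * u₀ 0 := by
    have := congrFun h1 0
    simpa using this
  have e11 : S 1 1 = 1 + t1 * u₀ 1 := by
    have := congrFun h1 1
    simp only [Pi.sub_apply, Matrix.col_apply, Pi.single_eq_same, Pi.smul_apply, smul_eq_mul] at this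
    linear_combination this
  have g0 := congrFun hx 0
  have g1 := congrFun hx 1
  simp only [Matrix.mulVec, dotProduct, Fin.sum_univ_two, Pi.smul_apply, smul_eq_mul, e00, e10, e01,
    e11] at g0 g1
  have k0 : (1 + t0 * u₀ 0 + t1 * u₀ 1 - x) * u₀ 0 = 0 := by linear_combination g0
  have k1 : (1 + t0 * u₀ 0 + t1 * u₀ 1 - x) * u₀ 1 = 0 := by linear_combination g1
  have hx' : 1 + t0 * u₀ 0 + t1 * u₀ 1 - x = 0 := by
    by_contra hne
    apply hu
    funext i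
    fin_cases i
    · exact (mul_eq_zero.mp k0).resolve_left hne
    · exact (mul_eq_zero.mp k1).resolve_left hne
  rw [Matrix.det_fin_two, e00, e10, e01, e11]
  linear_combination hx'

theorem m59rp_inertia_le {p : ℕ} [Fact p.Prime] {σ : GQ}
    (hσ : σ ∈ (padicPlace p).inertiaSubgroupIn ℚ) :
    σ ∈ (padicPlace p).decompositionSubgroup ℚ := by
  obtain ⟨x, -, hx⟩ := hσ
  rw [← hx]
  exact x.2

/-- **adapted ⟹ `g0` moves the residual ordinary line**: the constant term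
`tr (rb g0 * gen u₀) = det (rb g0 u₀, u₀)` of `G̃(g0)` is nonzero. -/
theorem m59rp_adapted_ne {p : ℕ} [Fact p.Prime] (rb : FramedResidual k) {u₀ : Fin 2 → k}
    (hu : u₀ ≠ 0) (hO : s56o_Ord p rb u₀) (E : m59rp_Elts p (padicPlace p)) (g0 : GQ)
    (had : m59rp_IsAdapted E rb g0) : (rb g0 * s56oa_gen u₀).trace ≠ 0 := by
  intro h0
  rw [m59rp_trace_mul_gen] at h0
  obtain ⟨t, ht⟩ := m59rp_prop_of_det hu h0
  obtain ⟨zb, -, hz1, hx, hz⟩ := hO E.s0 (m59rp_inertia_le E.s0_mem)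
  have hzb : zb = 1 := hz1 E.s0_mem
  subst hzb
  simp only [mul_one, one_smul] at hx hz
  have hdet : (rb E.s0).det = (cycloExp p E.s0 : k) := m59rp_det_unip hu hx hz
  apply had
  apply Matrix.toLin'.injective
  refine LinearMap.ext fun v => ?_
  rw [Matrix.toLin'_apply, ← Matrix.mulVec_mulVec, ← Matrix.mulVec_mulVec]
  obtain ⟨s, hs⟩ := hz v
  rw [Matrix.sub_mulVec (rb E.s0) 1 v, Matrix.one_mulVec, hs, Matrix.mulVec_smul, ht,
    Matrix.mulVec_smul, Matrix.mulVec_smul, Matrix.sub_mulVec, hx, hdet, Matrix.smul_mulVec,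
    Matrix.one_mulVec, sub_self, smul_zero, smul_zero]
  simp

/-- an inertia element on which `ω` is trivial acts on `rb` by `1 + b • gen`. -/
theorem m59rp_unip_coef {p : ℕ} [Fact p.Prime] (rb : FramedResidual k) {u₀ : Fin 2 → k}
    (hu : u₀ ≠ 0) (hO : s56o_Ord p rb u₀) {τ : GQ}
    (hτ : τ ∈ (padicPlace p).inertiaSubgroupIn ℚ) (hω : (cycloExp p τ : k) = 1) :
    rb τ - 1 ∈ s56oa_W0 u₀ := by
  obtain ⟨zb, -, hz1, hx, hz⟩ := hO τ (m59rp_inertia_le hτ)
  have hzb : zb = 1 := hz1 hτ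
  subst hzb
  rw [hω] at hx
  simp only [mul_one, one_smul] at hx hz
  rw [s56oa_mem_W0]
  refine ⟨by rw [Matrix.sub_mulVec, Matrix.one_mulVec, hx, sub_self], fun v => ?_⟩
  obtain ⟨s, hs⟩ := hz v
  exact ⟨s, by rw [Matrix.sub_mulVec, Matrix.one_mulVec, hs]⟩

/-! ### the Kummer evaluation -/

theorem m59rp_cast_val_ne {p : ℕ} [Fact p.Prime] [CharP k p] {z : ZMod p} (hz : z ≠ 0) :
    ((z.val : ℕ) : k) ≠ 0 := by
  intro h
  rw [CharP.cast_eq_zero_iff k p] at h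
  have h1 : z.val < p := ZMod.val_lt z
  have h2 : z.val = 0 := Nat.eq_zero_of_dvd_of_lt h h1
  exact hz ((ZMod.val_eq_zero z).mp h2)

/-- **an `ω`-cocycle on `D_p` is determined modulo coboundaries by its values at `τ_v` and `τ_u`**:
the evaluation `(f(τ_v), f(τ_u))` on `H¹(D_p, k(1)) = ⟨kumP, kumU⟩` has the triangular matrix
`[[kumP(τ_v), 0], [kumP(τ_u), kumU(τ_u)]]` with nonzero diagonal. -/
theorem m59rp_kum_inj {p : ℕ} [Fact p.Prime] (hp2 : p ≠ 2) [CharP k p] [Finite k]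
    (E : m59rp_Elts p (padicPlace p)) (w w' : GQ → k) (hw : s56k_IsCoc p k w)
    (hw' : s56k_IsCoc p k w') (t : k) (hv : w E.tv = t * w' E.tv) (hu : w E.tu = t * w' E.tu) :
    ∃ y : k, ∀ σ ∈ (padicPlace p).decompositionSubgroup ℚ,
      w σ = t * w' σ + (s56k_omega p k σ - 1) * y := by
  obtain ⟨α, β, x, h⟩ := s56k_span p hp2 w hw
  obtain ⟨α', β', x', h'⟩ := s56k_span p hp2 w' hw'
  have hA : (padicPlace p).LiesOverPrime p := Fermat.Agent.S55.pl_padicPlace_liesOver p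
  have hχv : s56k_chi p E.tv = 1 := m59rpk_chi_tau p (padicPlace p) E.tv E.tv_fix
  have hUv : s56k_kumU p E.tv = 0 := m59rpk_kumU_tau p (padicPlace p) hA E.tv E.tv_fix
  have hPv : s56k_kumP p E.tv ≠ 0 := m59rpk_kumP_tau p E.tv E.tv_ne
  have hχu : s56k_chi p E.tu = 1 := m59rpk_chi_tauU p E.tu E.tu_fix
  have hUu : s56k_kumU p E.tu ≠ 0 := m59rpk_kumU_tauU p E.tu E.tu_ne
  have hωv : s56k_omega p k E.tv = 1 := by rw [s56k_omega, hχv, s56k_natCast_val_one]
  have hωu : s56k_omega p k E.tu = 1 := by rw [s56k_omega, hχu, s56k_natCast_val_one]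
  have hPv' : (((s56k_kumP p E.tv).val : ℕ) : k) ≠ 0 := m59rp_cast_val_ne hPv
  have hUu' : (((s56k_kumU p E.tu).val : ℕ) : k) ≠ 0 := m59rp_cast_val_ne hUu
  have hUv' : (((s56k_kumU p E.tv).val : ℕ) : k) = 0 := by rw [hUv, ZMod.val_zero, Nat.cast_zero]
  have e1 := h E.tv (m59rp_inertia_le E.tv_mem)
  have e1' := h' E.tv (m59rp_inertia_le E.tv_mem)
  have e2 := h E.tu (m59rp_inertia_le E.tu_mem)
  have e2' := h' E.tu (m59rp_inertia_le E.tu_mem)
  rw [hωv, hUv'] at e1 e1'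
  rw [hωu] at e2 e2'
  have hα : α = t * α' := by
    have : (α - t * α') * (((s56k_kumP p E.tv).val : ℕ) : k) = 0 := by
      linear_combination -e1 + hv + t * e1'
    exact sub_eq_zero.mp ((mul_eq_zero.mp this).resolve_right hPv')
  have hβ : β = t * β' := by
    have : (β - t * β') * (((s56k_kumU p E.tu).val : ℕ) : k) = 0 := by
      rw [hα] at e2
      linear_combination -e2 + hu + t * e2'
    exact sub_eq_zero.mp ((mul_eq_zero.mp this).resolve_right hUu')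
  refine ⟨x - t * x', fun σ hσ => ?_⟩
  rw [h σ hσ, h' σ hσ, hα, hβ]
  ring

/-! ### the core -/

/-- **the core of (R3)**: for a STRICTLY ordinary lift `r` of `rb` to `k[ε]` with cyclotomic
determinant and an adapted `g0`, the trace coordinates are `V = (bv + ε fv) G̃`,
`U = (bu + ε fu) G̃` with `G̃` a unit of `k[ε]` (its constant term is `tr (rb g0 * gen u₀) ≠ 0`
exactly because `g0` is adapted), and `(fv, fu) ∈ k (bv, bu)` implies that the cocycle of `r` is a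
coboundary on `D_p`. -/
theorem m59rp_locCore {p : ℕ} [Fact p.Prime] (hp2 : p ≠ 2) [Finite k] [Algebra (ZMod p) k]
    (rb : FramedResidual k) (E : m59rp_Elts p (padicPlace p)) (g0 : GQ)
    (had : m59rp_IsAdapted E rb g0)
    (r : FramedRep (DualNumber k)) (hr : ∀ σ, s56t_bar r σ = rb σ)
    (hdet : r.toGaloisRepAdic.DetIsCyclotomic p)
    (hord : r.toGaloisRepAdic.IsStrictOrdinaryAt p) :
    ∃ (bv bu fv fu : k) (Gt : DualNumber k), Gt.fst ≠ 0 ∧
      m59rp_v E g0 r.toMonoidHom = m59rp_dn bv fv * Gt ∧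
      m59rp_u E g0 r.toMonoidHom = m59rp_dn bu fu * Gt ∧
      ((∃ t : k, fv = t * bv ∧ fu = t * bu) →
        s56t_coc r ∈ s56a_cobOn rb ((padicPlace p).decompositionSubgroup ℚ)) := by
  have hpr : p.Prime := Fact.out
  haveI : CharP k p := charP_of_injective_algebraMap (algebraMap (ZMod p) k).injective p
  have h2 : (2 : k) ≠ 0 := by
    intro h
    have h' : ((2 : ℕ) : k) = 0 := by exact_mod_cast h
    rw [CharP.cast_eq_zero_iff k p] at h'
    have := Nat.le_of_dvd (by norm_num) h'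
    have := hpr.two_le
    omega
  obtain ⟨u₀, m, hu₀, hm, hO, hW⟩ := s56o_data hp2 rb r hr hdet hord
  have hB := s56o_borel_of_ord hO
  obtain ⟨φ₀, hφ₀⟩ := s56o_exists_coef hu₀
  obtain ⟨Dg, hDtr, hD1, hD2⟩ := s56o_exists_Dg hu₀
  have hgm := s56oa_gen_mem u₀
  have hgtr : (s56oa_gen u₀).trace = 0 := s56oa_W0_trace hu₀ hgm
  have hφgen : φ₀ (s56oa_gen u₀) = 1 := by
    have h := hφ₀ _ hgm
    have hne := s56oa_gen_ne_zero hu₀
    by_contra hne1
    have h3 : (1 - φ₀ (s56oa_gen u₀)) • s56oa_gen u₀ = 0 := by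
      rw [sub_smul, one_smul, ← h, sub_self]
    rcases smul_eq_zero.mp h3 with h1 | h1
    · exact hne1 (sub_eq_zero.mp h1).symm
    · exact hne h1
  -- the two cocycles
  have hd0 : ∀ σ, s56o_d rb Dg σ - s56o_d rb 0 σ = s56o_d rb Dg σ := by
    intro σ
    unfold s56o_d
    simp
  have hDW : ∀ σ ∈ (padicPlace p).decompositionSubgroup ℚ, s56o_d rb Dg σ ∈ s56oa_W0 u₀ :=
    fun σ hσ => s56o_d_Dg hu₀ hB hD1 hD2 hσ
  have hfZ : s56o_IsZ p ((padicPlace p).decompositionSubgroup ℚ)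
      (fun σ => φ₀ (s56t_coc r σ - s56o_d rb m σ)) :=
    s56o_isZ_coef hB φ₀ (fun σ _ τ _ => by rw [s56t_coc_mul, hr, hr])
      (by
        obtain ⟨L, hL, h⟩ := s56t_coc_level r
        exact ⟨L, hL, fun σ _ s _ hs => (h σ s hs).1⟩) hW
  have hfbZ : s56o_IsZ p ((padicPlace p).decompositionSubgroup ℚ)
      (fun σ => φ₀ (s56o_d rb Dg σ - s56o_d rb 0 σ)) :=
    s56o_isZ_coef hB φ₀ (fun σ _ τ _ => s56o_d_mul rb Dg σ τ)
      (by
        obtain ⟨L, hL, h⟩ := s56o_d_level rb Dg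
        exact ⟨L, hL, fun σ _ s _ hs => h σ s hs⟩)
      (fun σ hσ => by rw [hd0]; exact hDW σ hσ)
  have hfC := (s56k_isZ_iff p k _).1 hfZ
  have hfbC := (s56k_isZ_iff p k _).1 hfbZ
  have hfgen : ∀ σ ∈ (padicPlace p).decompositionSubgroup ℚ,
      s56t_coc r σ - s56o_d rb m σ = φ₀ (s56t_coc r σ - s56o_d rb m σ) • s56oa_gen u₀ :=
    fun σ hσ => hφ₀ _ (hW σ hσ)
  have hfbgen : ∀ σ ∈ (padicPlace p).decompositionSubgroup ℚ,
      s56o_d rb Dg σ = φ₀ (s56o_d rb Dg σ - s56o_d rb 0 σ) • s56oa_gen u₀ :=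
    fun σ hσ => by rw [hd0]; exact hφ₀ _ (hDW σ hσ)
  -- the elements `τ_v`, `τ_u`
  have hχv : s56k_chi p E.tv = 1 := m59rpk_chi_tau p (padicPlace p) E.tv E.tv_fix
  have hχu : s56k_chi p E.tu = 1 := m59rpk_chi_tauU p E.tu E.tu_fix
  have hωv : ((cycloExp p E.tv : ℕ) : k) = 1 := by
    rw [← s56k_omega_eq_cycloExp p k E.tv, s56k_omega, hχv, s56k_natCast_val_one]
  have hωu : ((cycloExp p E.tu : ℕ) : k) = 1 := by
    rw [← s56k_omega_eq_cycloExp p k E.tu, s56k_omega, hχu, s56k_natCast_val_one]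
  have hvD := m59rp_inertia_le E.tv_mem
  have huD := m59rp_inertia_le E.tu_mem
  have hNv := m59rp_unip_coef rb hu₀ hO E.tv_mem hωv
  have hNu := m59rp_unip_coef rb hu₀ hO E.tu_mem hωu
  have hτv : rb E.tv = 1 + φ₀ (rb E.tv - 1) • s56oa_gen u₀ := by
    rw [← hφ₀ _ hNv]; abel
  have hτu : rb E.tu = 1 + φ₀ (rb E.tu - 1) • s56oa_gen u₀ := by
    rw [← hφ₀ _ hNu]; abel
  have hfbv : φ₀ (s56o_d rb Dg E.tv - s56o_d rb 0 E.tv) = -2 * φ₀ (rb E.tv - 1) := by
    rw [hd0, m59rp_d_Dg_unip rb hD1 hD2 E.tv _ hτv (Submodule.smul_mem _ _ hgm), map_smul,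
      map_smul, hφgen, smul_eq_mul, smul_eq_mul, mul_one]
  have hfbu : φ₀ (s56o_d rb Dg E.tu - s56o_d rb 0 E.tu) = -2 * φ₀ (rb E.tu - 1) := by
    rw [hd0, m59rp_d_Dg_unip rb hD1 hD2 E.tu _ hτu (Submodule.smul_mem _ _ hgm), map_smul,
      map_smul, hφgen, smul_eq_mul, smul_eq_mul, mul_one]
  refine ⟨φ₀ (rb E.tv - 1), φ₀ (rb E.tu - 1), φ₀ (s56t_coc r E.tv - s56o_d rb m E.tv),
    φ₀ (s56t_coc r E.tu - s56o_d rb m E.tu), m59rp_Gt rb r u₀ m g0,
    m59rp_adapted_ne rb hu₀ hO E g0 had,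
    m59rp_trace_formula rb r hr u₀ m g0 E.tv _ _ hτv (hfgen E.tv hvD),
    m59rp_trace_formula rb r hr u₀ m g0 E.tu _ _ hτu (hfgen E.tu huD), ?_⟩
  rintro ⟨t, htv, htu⟩
  obtain ⟨y, hy⟩ := m59rp_kum_inj hp2 E _ _ hfC hfbC (-t / 2)
    (by
      show φ₀ (s56t_coc r E.tv - s56o_d rb m E.tv) =
        -t / 2 * φ₀ (s56o_d rb Dg E.tv - s56o_d rb 0 E.tv)
      rw [hfbv, htv]
      field_simp)
    (by
      show φ₀ (s56t_coc r E.tu - s56o_d rb m E.tu) =
        -t / 2 * φ₀ (s56o_d rb Dg E.tu - s56o_d rb 0 E.tu)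
      rw [hfbu, htu]
      field_simp)
  rw [s56a_mem_cobOn]
  refine ⟨m + ((-t / 2) • Dg + y • s56oa_gen u₀), ?_, fun σ hσ => ?_⟩
  · rw [Matrix.trace_add, Matrix.trace_add, Matrix.trace_smul, Matrix.trace_smul, hm, hDtr, hgtr]
    simp
  · have e1 := hfgen σ hσ
    have e2 := hy σ hσ
    have e3 := hfbgen σ hσ
    have e4 : s56o_d rb (s56oa_gen u₀) σ = ((cycloExp p σ : k) - 1) • s56oa_gen u₀ :=
      s56o_d_W0 hB hσ hgm
    rw [s56k_omega_eq_cycloExp] at e2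
    show s56t_coc r σ = s56o_d rb (m + ((-t / 2) • Dg + y • s56oa_gen u₀)) σ
    rw [s56o_d_add, s56o_d_add, s56o_d_smul, s56o_d_smul, e4, e3]
    rw [sub_eq_iff_eq_add] at e1
    rw [e1, e2, smul_smul, smul_smul, add_smul]
    rw [mul_comm y]
    abel

/-- a product `(b + ε f) G̃` with `G̃` a unit vanishes iff `b = f = 0`. -/
theorem m59rp_dn_mul_eq_zero {b f : k} {Gt : DualNumber k} (hG : Gt.fst ≠ 0)
    (h : m59rp_dn b f * Gt = 0) : b = 0 ∧ f = 0 := by
  have h1 := congrArg TrivSqZeroExt.fst h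
  have h2 := congrArg TrivSqZeroExt.snd h
  rw [TrivSqZeroExt.fst_mul, m59rp_dn_fst, TrivSqZeroExt.fst_zero] at h1
  rw [DualNumber.snd_mul, m59rp_dn_fst, m59rp_dn_snd, TrivSqZeroExt.snd_zero] at h2
  have hb : b = 0 := (mul_eq_zero.mp h1).resolve_right hG
  rw [hb, zero_mul, zero_add] at h2
  exact ⟨hb, (mul_eq_zero.mp h2).resolve_right hG⟩

/-- **(R3), case (III), over `k[ε]`**: `V = 0` and (`Ū = 0 → U = 0`) ⟹ the cocycle is a
coboundary on `D_p`. -/
theorem m59rp_locCore_III {p : ℕ} [Fact p.Prime] (hp2 : p ≠ 2) [Finite k] [Algebra (ZMod p) k]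
    (rb : FramedResidual k) (E : m59rp_Elts p (padicPlace p)) (g0 : GQ)
    (had : m59rp_IsAdapted E rb g0)
    (r : FramedRep (DualNumber k)) (hr : ∀ σ, s56t_bar r σ = rb σ)
    (hdet : r.toGaloisRepAdic.DetIsCyclotomic p)
    (hord : r.toGaloisRepAdic.IsStrictOrdinaryAt p)
    (hV : m59rp_v E g0 r.toMonoidHom = 0)
    (hU : (m59rp_u E g0 r.toMonoidHom).fst = 0 → m59rp_u E g0 r.toMonoidHom = 0) :
    s56t_coc r ∈ s56a_cobOn rb ((padicPlace p).decompositionSubgroup ℚ) := by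
  obtain ⟨bv, bu, fv, fu, Gt, hG, eV, eU, himp⟩ :=
    m59rp_locCore hp2 rb E g0 had r hr hdet hord
  rw [eV] at hV
  obtain ⟨hbv, hfv⟩ := m59rp_dn_mul_eq_zero hG hV
  apply himp
  by_cases hbu : bu = 0
  · refine ⟨0, by rw [hfv, zero_mul], ?_⟩
    have h0 : (m59rp_u E g0 r.toMonoidHom).fst = 0 := by
      rw [eU, TrivSqZeroExt.fst_mul, m59rp_dn_fst, hbu, zero_mul]
    have h1 := hU h0
    rw [eU] at h1
    rw [(m59rp_dn_mul_eq_zero hG h1).2, zero_mul]
  · refine ⟨fu / bu, by rw [hfv, hbv, mul_zero], ?_⟩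
    field_simp

end

end Fermat.Agent.M59
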