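/-
M59 / [R_p-norm], cells (Z), (Z-ex) (helper24; prefix `m59rpk_`): THE TRACE CHARACTER `m59rp_z` IS THE
UNRAMIFIED QUOTIENT CHARACTER.

`r` a framed representation over a local ring `T` with cyclotomic determinant, `P` a place over `p`,
`b` a basis of `T²` ordinary at `P` (`T ∙ b 0` is `D_P`-stable, `I_P` is trivial on `V / T ∙ b 0`),
`N σ` the matrix of `r σ` in the basis `b`: `N σ = (x, β; 0, δ)` on `D_P`, `δ = 1` on `I_P`.

* `m59rpk_tr_core` : `s ∈ I_P`, `σ ∈ D_P` ⟹ `tr N(σ s) - det N(s) tr N(σ) = (1 - det N(s)) δ(σ)`.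
* `m59rpk_one_sub_c_unit` : `1 - det r(s0)` is a unit (`s0` moves `ζ_p`, `det ≡ ε mod p`, `p ∈ 𝔪_T`).
* `m59rpk_z_entry` : `E` at the place `P` itself, `σ ∈ D_P` ⟹ `m59rp_z E r σ = δ(σ)`.
* `m59rpk_z_frob_entry` : `E` at ANY place `A` over `p`, `σ` a Frobenius element at `P` ⟹
  `δ(σ) = m59rp_z E r E.fr` (places over `p` are conjugate, traces are conjugation invariant, two
  Frobenius elements at `P` differ by inertia).
* `m59rpk_zUr : m59rp_ZUr_stmt`, `m59rpk_zUrEx : m59rp_ZUrEx_stmt`.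
-/
import Mathlib
import Fermat.Agent.M59.Rp.Seams
import Fermat.Agent.S56.ChebEl.Frob

set_option autoImplicit false
set_option linter.unusedSectionVars false
set_option linter.unusedVariables false
set_option linter.style.haveILetI false

noncomputable section

namespace Fermat.Agent.M59

open IsLocalRing Fermat.Agent.S53 Fermat.Agent.S55 Fermat.Agent.S56
open scoped Pointwise

local notation "Qb" => AlgebraicClosure ℚ
local notation "GQ" => (AlgebraicClosure ℚ ≃ₐ[ℚ] AlgebraicClosure ℚ)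

section General

variable {T : Type} [CommRing T] [IsLocalRing T]

/-- the matrices of a representation in a basis. -/
def m59rpk_N (ρ : GaloisRepAdic T) (b : Module.Basis (Fin 2) T ρ.V) (σ : GQ) :
    Matrix (Fin 2) (Fin 2) T := LinearMap.toMatrix b b (ρ.ρ σ)

variable (ρ : GaloisRepAdic T) (b : Module.Basis (Fin 2) T ρ.V)

theorem m59rpk_N_apply (σ : GQ) (i j : Fin 2) :
    m59rpk_N ρ b σ i j = b.repr (ρ.ρ σ (b j)) i :=
  LinearMap.toMatrix_apply b b (ρ.ρ σ) i j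

theorem m59rpk_N_mul (σ σ' : GQ) : m59rpk_N ρ b (σ * σ') = m59rpk_N ρ b σ * m59rpk_N ρ b σ' := by
  show LinearMap.toMatrix b b (ρ.ρ (σ * σ')) = _
  rw [map_mul]
  exact LinearMap.toMatrix_mul b _ _

theorem m59rpk_N_one : m59rpk_N ρ b 1 = 1 := by
  show LinearMap.toMatrix b b (ρ.ρ 1) = _
  rw [map_one]
  exact LinearMap.toMatrix_one b

theorem m59rpk_N_mul_apply (σ σ' : GQ) (i j : Fin 2) :
    m59rpk_N ρ b (σ * σ') i j =
      m59rpk_N ρ b σ i 0 * m59rpk_N ρ b σ' 0 j + m59rpk_N ρ b σ i 1 * m59rpk_N ρ b σ' 1 j := by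
  rw [m59rpk_N_mul, Matrix.mul_apply, Fin.sum_univ_two]

theorem m59rpk_N_trace (σ : GQ) :
    (m59rpk_N ρ b σ).trace = LinearMap.trace T ρ.V (ρ.ρ σ) :=
  (LinearMap.trace_eq_matrix_trace T b (ρ.ρ σ)).symm

theorem m59rpk_N_det (σ : GQ) : (m59rpk_N ρ b σ).det = LinearMap.det (ρ.ρ σ) :=
  LinearMap.det_toMatrix b (ρ.ρ σ)

theorem m59rpk_trace_eq (σ : GQ) :
    (m59rpk_N ρ b σ).trace = m59rpk_N ρ b σ 0 0 + m59rpk_N ρ b σ 1 1 := by
  rw [Matrix.trace, Fin.sum_univ_two]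
  rfl

theorem m59rpk_repr_span {w : ρ.V} (hw : w ∈ Submodule.span T {b 0}) : b.repr w 1 = 0 := by
  obtain ⟨a, rfl⟩ := Submodule.mem_span_singleton.1 hw
  rw [map_smul, Module.Basis.repr_self, Finsupp.smul_apply, Finsupp.single_apply]
  simp

variable (P : ValuationSubring Qb)
  (hstab : ∀ σ ∈ P.decompositionSubgroup ℚ, ∀ v ∈ Submodule.span T {b 0},
    ρ.ρ σ v ∈ Submodule.span T {b 0})
  (hin : ∀ σ ∈ P.inertiaSubgroupIn ℚ, ∀ w : ρ.V, ρ.ρ σ w - w ∈ Submodule.span T {b 0})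

include hstab in
theorem m59rpk_N_D10 {σ : GQ} (hσ : σ ∈ P.decompositionSubgroup ℚ) : m59rpk_N ρ b σ 1 0 = 0 := by
  rw [m59rpk_N_apply]
  exact m59rpk_repr_span ρ b (hstab σ hσ _ (Submodule.mem_span_singleton_self _))

include hin in
theorem m59rpk_N_I10 {s : GQ} (hs : s ∈ P.inertiaSubgroupIn ℚ) : m59rpk_N ρ b s 1 0 = 0 := by
  have h := m59rpk_repr_span ρ b (hin s hs (b 0))
  rw [map_sub, Finsupp.sub_apply, Module.Basis.repr_self, Finsupp.single_apply] at h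
  rw [m59rpk_N_apply]
  simpa using h

include hin in
theorem m59rpk_N_I11 {s : GQ} (hs : s ∈ P.inertiaSubgroupIn ℚ) : m59rpk_N ρ b s 1 1 = 1 := by
  have h := m59rpk_repr_span ρ b (hin s hs (b 1))
  rw [map_sub, Finsupp.sub_apply, Module.Basis.repr_self, Finsupp.single_apply] at h
  rw [m59rpk_N_apply]
  simpa [sub_eq_zero] using h

include hstab hin in
/-- the core trace identity. -/
theorem m59rpk_tr_core {s σ : GQ} (hs : s ∈ P.inertiaSubgroupIn ℚ)
    (hσ : σ ∈ P.decompositionSubgroup ℚ) :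
    (m59rpk_N ρ b (σ * s)).trace - (m59rpk_N ρ b s).det * (m59rpk_N ρ b σ).trace =
      (1 - (m59rpk_N ρ b s).det) * m59rpk_N ρ b σ 1 1 := by
  have h1 := m59rpk_N_D10 ρ b P hstab hσ
  have h2 := m59rpk_N_I10 ρ b P hin hs
  have h3 := m59rpk_N_I11 ρ b P hin hs
  rw [m59rpk_trace_eq, m59rpk_trace_eq, Matrix.det_fin_two, m59rpk_N_mul_apply,
    m59rpk_N_mul_apply, h1, h2, h3]
  ring

include hin in
/-- multiplying by an inertia element on the left does not change the lower right entry. -/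
theorem m59rpk_N_I_mul {s σ : GQ} (hs : s ∈ P.inertiaSubgroupIn ℚ) :
    m59rpk_N ρ b (s * σ) 1 1 = m59rpk_N ρ b σ 1 1 := by
  rw [m59rpk_N_mul_apply, m59rpk_N_I10 ρ b P hin hs, m59rpk_N_I11 ρ b P hin hs]
  ring

end General

section Framed

variable {T : Type} [CommRing T] [IsLocalRing T] (r : FramedRep T)

theorem m59rpk_fr_trace (b : Module.Basis (Fin 2) T r.toGaloisRepAdic.V) (σ : GQ) :
    (m59rpk_N r.toGaloisRepAdic b σ).trace = (r σ).trace := by
  rw [m59rpk_N_trace]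
  exact Matrix.trace_toLin'_eq (r.toMonoidHom σ)

theorem m59rpk_fr_det (σ : GQ) : LinearMap.det (r.toGaloisRepAdic.ρ σ) = (r σ).det :=
  LinearMap.det_toLin' (r.toMonoidHom σ)

theorem m59rpk_fr_detN (b : Module.Basis (Fin 2) T r.toGaloisRepAdic.V) (σ : GQ) :
    (m59rpk_N r.toGaloisRepAdic b σ).det = (r σ).det := by
  rw [m59rpk_N_det, m59rpk_fr_det]

/-- traces are conjugation invariant. -/
theorem m59rpk_trace_conj (τ σ : GQ) : (r (τ * σ * τ⁻¹)).trace = (r σ).trace := by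
  rw [r.map_mul, r.map_mul, Matrix.trace_mul_comm, ← Matrix.mul_assoc, ← r.map_mul,
    inv_mul_cancel, r.map_one, Matrix.one_mul]

theorem m59rpk_det_conj (τ σ : GQ) : (r (τ * σ * τ⁻¹)).det = (r σ).det := by
  rw [r.map_mul, r.map_mul, Matrix.det_mul, Matrix.det_mul, mul_right_comm, ← Matrix.det_mul,
    ← r.map_mul, mul_inv_cancel, r.map_one, Matrix.det_one, one_mul]

variable {p : ℕ} [hp : Fact p.Prime]

/-- `1 - det r(s)` is a unit for every `s` moving the nontrivial `p`-th roots of unity. -/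
theorem m59rpk_one_sub_c_unit (hdet : r.toGaloisRepAdic.DetIsCyclotomic p) (s : GQ)
    (hs : ∀ ζ : Qb, ζ ^ p = 1 → ζ ≠ 1 → s ζ ≠ ζ) : IsUnit (1 - (r s).det) := by
  have hp0 : p ≠ 0 := hp.out.ne_zero
  haveI : NeZero p := ⟨hp0⟩
  obtain ⟨hpm, hcyc⟩ := hdet
  obtain ⟨a, ha⟩ : ∃ a : ℕ, ∀ μ : Qb, μ ^ p ^ 1 = 1 → s μ = μ ^ a :=
    ⟨_, fun μ hμ =>
      cyclotomicCharacter.spec p (MulSemiringAction.toRingAut GQ (AlgebraicClosure ℚ) s) μ hμ⟩
  have h1 := hcyc 1 s a ha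
  rw [m59rpk_fr_det] at h1
  obtain ⟨ω, hω⟩ := HasEnoughRootsOfUnity.exists_primitiveRoot Qb p
  have hω1 : ω ≠ 1 := hω.ne_one hp.out.one_lt
  have hsω : ω ^ a ≠ ω := by
    rw [← ha ω (by rw [pow_one]; exact hω.pow_eq_one)]
    exact hs ω hω.pow_eq_one hω1
  -- `p ∤ a - 1`
  have hnd : ¬ (p : ℤ) ∣ (a : ℤ) - 1 := by
    intro hd
    apply hsω
    have hω0 : ω ≠ 0 := hω.ne_zero hp0
    have h2 : ω ^ ((a : ℤ) - 1) = 1 := (hω.zpow_eq_one_iff_dvd _).2 hd
    have h3 : ω ^ ((a : ℤ) - 1 + 1) = ω ^ ((a : ℤ) - 1) * ω := zpow_add_one₀ hω0 _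
    rw [sub_add_cancel, h2, one_mul, zpow_natCast] at h3
    exact h3
  have hcop : IsCoprime ((a : ℤ) - 1) (p : ℤ) :=
    ((Nat.prime_iff_prime_int.1 hp.out).coprime_iff_not_dvd.2 hnd).symm
  obtain ⟨u, v, huv⟩ := hcop
  -- `a - 1` is a unit of `T`
  have hunit : IsUnit ((a : T) - 1) := by
    by_contra hn
    have hm : (a : T) - 1 ∈ maximalIdeal T := (mem_maximalIdeal _).2 hn
    have h4 : ((u * ((a : ℤ) - 1) + v * (p : ℤ) : ℤ) : T) = 1 := by rw [huv]; simp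
    have h5 : (1 : T) ∈ maximalIdeal T := by
      rw [← h4]
      push_cast
      exact (maximalIdeal T).add_mem ((maximalIdeal T).mul_mem_left _ hm)
        ((maximalIdeal T).mul_mem_left _ hpm)
    exact (maximalIdeal T).ne_top_iff_one.1 (maximalIdeal.isMaximal T).ne_top h5
  have hmem : (r s).det - (a : T) ∈ maximalIdeal T := by
    obtain ⟨c, hc⟩ := Ideal.mem_span_singleton.1 h1
    rw [hc]
    refine (maximalIdeal T).mul_mem_right _ ?_
    simpa using hpm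
  by_contra hn
  have hm : 1 - (r s).det ∈ maximalIdeal T := (mem_maximalIdeal _).2 hn
  have h6 : (a : T) - 1 ∈ maximalIdeal T := by
    have := (maximalIdeal T).neg_mem ((maximalIdeal T).add_mem hm hmem)
    convert this using 1
    ring
  exact (mem_maximalIdeal _).1 h6 hunit

variable {A : ValuationSubring Qb} (E : m59rp_Elts p A)

/-- `m59rp_z` through the matrices in any basis. -/
theorem m59rpk_z_N (b : Module.Basis (Fin 2) T r.toGaloisRepAdic.V) (σ : GQ) :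
    m59rp_z E r.toMonoidHom σ = Ring.inverse (1 - (r E.s0).det) *
      ((m59rpk_N r.toGaloisRepAdic b (σ * E.s0)).trace -
        (m59rpk_N r.toGaloisRepAdic b E.s0).det * (m59rpk_N r.toGaloisRepAdic b σ).trace) := by
  rw [m59rpk_fr_trace, m59rpk_fr_trace, m59rpk_fr_detN]
  rfl

/-- `E` at the place `A`, `b` ordinary at `A`, `σ ∈ D_A` : `m59rp_z E r σ` is the lower right entry. -/
theorem m59rpk_z_entry (hdet : r.toGaloisRepAdic.DetIsCyclotomic p)
    (b : Module.Basis (Fin 2) T r.toGaloisRepAdic.V)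
    (hstab : ∀ σ ∈ A.decompositionSubgroup ℚ, ∀ v ∈ Submodule.span T {b 0},
      r.toGaloisRepAdic.ρ σ v ∈ Submodule.span T {b 0})
    (hin : ∀ σ ∈ A.inertiaSubgroupIn ℚ, ∀ w : r.toGaloisRepAdic.V,
      r.toGaloisRepAdic.ρ σ w - w ∈ Submodule.span T {b 0})
    {σ : GQ} (hσ : σ ∈ A.decompositionSubgroup ℚ) :
    m59rp_z E r.toMonoidHom σ = m59rpk_N r.toGaloisRepAdic b σ 1 1 := by
  rw [m59rpk_z_N r E b, m59rpk_tr_core r.toGaloisRepAdic b A hstab hin E.s0_mem hσ, m59rpk_fr_detN,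
    ← mul_assoc, Ring.inverse_mul_cancel _ (m59rpk_one_sub_c_unit r hdet E.s0 E.s0_ne), one_mul]

/-- a conjugated copy of `E.s0`, in the inertia group of `P = τ • A`, with the trace data of `E`. -/
theorem m59rpk_z_frob_entry (hdet : r.toGaloisRepAdic.DetIsCyclotomic p)
    (P : ValuationSubring Qb) (hA : A.LiesOverPrime p) (hP : P.LiesOverPrime p)
    (b : Module.Basis (Fin 2) T r.toGaloisRepAdic.V)
    (hstab : ∀ σ ∈ P.decompositionSubgroup ℚ, ∀ v ∈ Submodule.span T {b 0},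
      r.toGaloisRepAdic.ρ σ v ∈ Submodule.span T {b 0})
    (hin : ∀ σ ∈ P.inertiaSubgroupIn ℚ, ∀ w : r.toGaloisRepAdic.V,
      r.toGaloisRepAdic.ρ σ w - w ∈ Submodule.span T {b 0})
    {σ : GQ} (hσ : P.IsFrobeniusAt σ p) :
    m59rpk_N r.toGaloisRepAdic b σ 1 1 = m59rp_z E r.toMonoidHom E.fr := by
  obtain ⟨τ, rfl⟩ := pl_exists_smul_eq hp.out hA hP
  set s' : GQ := τ * E.s0 * τ⁻¹ with hs'
  set f' : GQ := τ * E.fr * τ⁻¹ with hf'
  have hs'I : s' ∈ (τ • A).inertiaSubgroupIn ℚ := tl_inertia_conj A τ E.s0 E.s0_mem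
  have hf'F : (τ • A).IsFrobeniusAt f' p := s56ce_frob_conj A E.fr_frob τ
  have hι : σ * f'⁻¹ ∈ (τ • A).inertiaSubgroupIn ℚ := s56ce_frob_inertia (τ • A) hf'F hσ
  -- `δ(σ) = δ(f')`
  have h1 : m59rpk_N r.toGaloisRepAdic b σ 1 1 = m59rpk_N r.toGaloisRepAdic b f' 1 1 := by
    have := m59rpk_N_I_mul r.toGaloisRepAdic b (τ • A) hin (σ := f') hι
    rwa [inv_mul_cancel_right] at this
  -- the trace expression at the conjugated elements
  have h2 := m59rpk_tr_core r.toGaloisRepAdic b (τ • A) hstab hin hs'I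
    hf'F.mem_decompositionSubgroup
  rw [m59rpk_fr_trace, m59rpk_fr_trace, m59rpk_fr_detN] at h2
  have h3 : f' * s' = τ * (E.fr * E.s0) * τ⁻¹ := by rw [hs', hf']; group
  rw [h3, m59rpk_trace_conj, hs', hf', m59rpk_det_conj, m59rpk_trace_conj] at h2
  rw [h1, hf']
  show _ = Ring.inverse (1 - (r E.s0).det) * ((r (E.fr * E.s0)).trace - (r E.s0).det * (r E.fr).trace)
  rw [h2, ← mul_assoc, Ring.inverse_mul_cancel _ (m59rpk_one_sub_c_unit r hdet E.s0 E.s0_ne),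
    one_mul]

end Framed

/-- **(Z)**. -/
theorem m59rpk_zUr : m59rp_ZUr_stmt := by
  intro p hp hp2 A hA E T _ _ hsep r hdet P hP σ hσ z hz
  obtain ⟨L, ⟨b, rfl⟩, hstab, hin, hz⟩ := hz
  rw [← m59rpk_z_frob_entry r E hdet P hA hP b hstab hin hσ, m59rpk_N_apply]
  obtain ⟨a, ha⟩ := Submodule.mem_span_singleton.1 (hz (b 1))
  have h3 : r.toGaloisRepAdic.ρ σ (b 1) = z • b 1 + a • b 0 := by
    rw [ha]
    abel
  rw [h3, map_add, map_smul, map_smul, Module.Basis.repr_self, Module.Basis.repr_self,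
    Finsupp.add_apply, Finsupp.smul_apply, Finsupp.smul_apply, Finsupp.single_apply,
    Finsupp.single_apply]
  simp

/-- **(Z-ex)**. -/
theorem m59rpk_zUrEx : m59rp_ZUrEx_stmt := by
  intro p hp hp2 A hA E T _ _ r hdet hord P hP σ hσ
  obtain ⟨L, ⟨b, rfl⟩, hstab, hin⟩ := hord P hP
  refine ⟨_, ⟨b, rfl⟩, hstab, hin, ?_⟩
  rw [← m59rpk_z_frob_entry r E hdet P hA hP b hstab hin hσ]
  intro v
  -- `v = v0 b0 + v1 b1`
  have hv : v = b.repr v 0 • b 0 + b.repr v 1 • b 1 := by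
    conv_lhs => rw [← b.sum_repr v, Fin.sum_univ_two]
  have h0 : r.toGaloisRepAdic.ρ σ (b 0) ∈ Submodule.span T {b 0} :=
    hstab σ hσ.mem_decompositionSubgroup _ (Submodule.mem_span_singleton_self _)
  have h1 : r.toGaloisRepAdic.ρ σ (b 1) - m59rpk_N r.toGaloisRepAdic b σ 1 1 • b 1 ∈
      Submodule.span T {b 0} := by
    have hw : r.toGaloisRepAdic.ρ σ (b 1) =
        b.repr (r.toGaloisRepAdic.ρ σ (b 1)) 0 • b 0 + b.repr (r.toGaloisRepAdic.ρ σ (b 1)) 1 • b 1 := by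
      conv_lhs => rw [← b.sum_repr (r.toGaloisRepAdic.ρ σ (b 1)), Fin.sum_univ_two]
    rw [m59rpk_N_apply]
    have : r.toGaloisRepAdic.ρ σ (b 1) - b.repr (r.toGaloisRepAdic.ρ σ (b 1)) 1 • b 1 =
        b.repr (r.toGaloisRepAdic.ρ σ (b 1)) 0 • b 0 := by
      rw [sub_eq_iff_eq_add]
      exact hw
    rw [this]
    exact Submodule.smul_mem _ _ (Submodule.mem_span_singleton_self _)
  have key : r.toGaloisRepAdic.ρ σ v - m59rpk_N r.toGaloisRepAdic b σ 1 1 • v =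
      b.repr v 0 • (r.toGaloisRepAdic.ρ σ (b 0) - m59rpk_N r.toGaloisRepAdic b σ 1 1 • b 0) +
      b.repr v 1 • (r.toGaloisRepAdic.ρ σ (b 1) - m59rpk_N r.toGaloisRepAdic b σ 1 1 • b 1) := by
    conv_lhs => rw [hv]
    rw [map_add, map_smul, map_smul]
    module
  rw [key]
  refine Submodule.add_mem _ (Submodule.smul_mem _ _ (Submodule.sub_mem _ h0
    (Submodule.smul_mem _ _ (Submodule.mem_span_singleton_self _)))) (Submodule.smul_mem _ _ h1)

end Fermat.Agent.M59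

end
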