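import Mathlib
import Fermat.Agent.M59.Rp.Seams
import Fermat.Agent.M59.Rp.ZUr
import Fermat.Agent.S56.LocTW.FrobGen
import Fermat.Agent.JT3.ES.FrobExists
import Fermat.Agent.S56.Tan.Cocycle

/-!
# M59 / block [R_p-norm], cell (R3): ORDINARY + `z(Frob)² = 1` ⟹ STRICTLY ORDINARY
(helper13; prefix `m59rp_`)

`r` a framed representation with cyclotomic determinant, ordinary at `p`, `N σ = (x, β; 0, δ)` its
matrices in an ordinary basis at a place `P` over `p`.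

* `m59rp_frobGen_gen` : [FROB-GEN] (main's `s56w_frobGen_galois`) at an arbitrary place and an
  arbitrary finite level;
* `m59rp_strict_of_sq` : if `δ(σ)² = 1` on `D_P` for every `P` then `r` is STRICTLY ordinary
  (`x δ = ε` and `δ² = 1` give `x = ε δ`);
* `m59rp_delta_sq` : over `k[ε]` (finite level), `δ(Frob)² = 1` at one Frobenius element of `P`
  ⟹ `δ² = 1` on `D_P` (`D_P / I_P` is generated by Frobenius modulo every open subgroup);
* `m59rp_strict_of_z` : over `k[ε]`, `m59rp_z(E.fr)² = 1` ⟹ strictly ordinary (helper24's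
  `m59rpk_z_frob_entry`: `δ(Frob_P) = m59rp_z E r E.fr` for every Frobenius element at every `P`).
-/

set_option autoImplicit false
set_option linter.unusedSectionVars false
set_option linter.unusedVariables false
set_option linter.style.haveILetI false

open IsLocalRing ExtCitation
open Fermat.Agent.S53 Fermat.Agent.S55 Fermat.Agent.S56

namespace Fermat.Agent.M59

noncomputable section

local notation "GQ" => (AlgebraicClosure ℚ ≃ₐ[ℚ] AlgebraicClosure ℚ)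
local notation "Qb" => AlgebraicClosure ℚ

/-- **[FROB-GEN] at an arbitrary place**: modulo inertia and any open subgroup, the decomposition
group of `P` is generated by a Frobenius element. -/
theorem m59rp_frobGen_gen {q : ℕ} (hq : q.Prime) (P : ValuationSubring Qb)
    (hP : P.LiesOverPrime q) {φ : GQ} (hφ : P.IsFrobeniusAt φ q)
    (F : IntermediateField ℚ Qb) (hF : FiniteDimensional ℚ F) {σ : GQ}
    (hσ : σ ∈ P.decompositionSubgroup ℚ) :
    ∃ n : ℤ, ∃ τ ∈ P.inertiaSubgroupIn ℚ, (φ ^ n * τ)⁻¹ * σ ∈ F.fixingSubgroup := by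
  haveI := hF
  haveI : Algebra.IsAlgebraic ℚ Qb := AlgebraicClosure.isAlgebraic ℚ
  haveI : IsAlgClosure ℚ Qb := ⟨inferInstance, inferInstance⟩
  haveI : Normal ℚ Qb := IsAlgClosure.normal ℚ Qb
  set K : IntermediateField ℚ Qb := IntermediateField.normalClosure ℚ ↥F Qb with hK
  haveI : Normal ℚ ↥K := normalClosure.normal ℚ ↥F Qb
  haveI : FiniteDimensional ℚ ↥K := normalClosure.is_finiteDimensional ℚ ↥F Qb
  haveI : IsGalois ℚ ↥K := ⟨⟩
  haveI : NumberField ↥K := { to_charZero := inferInstance, to_finiteDimensional := inferInstance }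
  obtain ⟨n, τ, hτ, h⟩ := s56w_frobGen_galois P hq hP K hφ hσ
  exact ⟨n, τ, hτ, IntermediateField.fixingSubgroup_antitone (IntermediateField.le_normalClosure F) h⟩

section General

variable {T : Type} [CommRing T] [IsLocalRing T]

/-- **ordinary + `δ² = 1` on every `D_P` ⟹ strictly ordinary** (cyclotomic determinant). -/
theorem m59rp_strict_of_sq {p : ℕ} (ρ : GaloisRepAdic T) (hdet : ρ.DetIsCyclotomic p)
    (h : ∀ P : ValuationSubring Qb, P.LiesOverPrime p →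
      ∃ b : Module.Basis (Fin 2) T ρ.V,
        (∀ σ ∈ P.decompositionSubgroup ℚ, ∀ v ∈ Submodule.span T {b 0},
          ρ.ρ σ v ∈ Submodule.span T {b 0}) ∧
        (∀ σ ∈ P.inertiaSubgroupIn ℚ, ∀ w : ρ.V, ρ.ρ σ w - w ∈ Submodule.span T {b 0}) ∧
        ∀ σ ∈ P.decompositionSubgroup ℚ, m59rpk_N ρ b σ 1 1 ^ 2 = 1) :
    ρ.IsStrictOrdinaryAt p := by
  refine ⟨hdet.1, fun P hP => ?_⟩
  obtain ⟨b, hD, hI, hsq⟩ := h P hP
  refine ⟨_, ⟨b, rfl⟩, hD, hI, fun σ hσ => ?_⟩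
  have hD10 : m59rpk_N ρ b σ 1 0 = 0 := m59rpk_N_D10 ρ b P hD hσ
  have hz2 := hsq σ hσ
  -- expansion of `ρ σ (b j)` in the basis
  have hexp : ∀ j : Fin 2, ρ.ρ σ (b j) = m59rpk_N ρ b σ 0 j • b 0 + m59rpk_N ρ b σ 1 j • b 1 := by
    intro j
    conv_lhs => rw [← b.sum_repr (ρ.ρ σ (b j))]
    rw [Fin.sum_univ_two, m59rpk_N_apply, m59rpk_N_apply]
  have hdetM : LinearMap.det (ρ.ρ σ) = m59rpk_N ρ b σ 0 0 * m59rpk_N ρ b σ 1 1 := by
    rw [← m59rpk_N_det ρ b, Matrix.det_fin_two, hD10, mul_zero, sub_zero]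
  refine ⟨m59rpk_N ρ b σ 0 0, m59rpk_N ρ b σ 1 1, ?_, ?_, ?_⟩
  · intro w hw
    obtain ⟨a, rfl⟩ := Submodule.mem_span_singleton.1 hw
    rw [map_smul, hexp 0, hD10, zero_smul, add_zero, smul_smul, smul_smul, mul_comm]
  · intro w
    have hw : w = b.repr w 0 • b 0 + b.repr w 1 • b 1 := by
      conv_lhs => rw [← b.sum_repr w]
      rw [Fin.sum_univ_two]
    have h2 : ρ.ρ σ w - m59rpk_N ρ b σ 1 1 • w =
        (b.repr w 0 * m59rpk_N ρ b σ 0 0 + b.repr w 1 * m59rpk_N ρ b σ 0 1 -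
          m59rpk_N ρ b σ 1 1 * b.repr w 0) • b 0 := by
      conv_lhs => rw [hw]
      rw [map_add, map_smul, map_smul, hexp 0, hexp 1, hD10]
      simp only [zero_smul, add_zero, smul_add, smul_smul, add_smul, sub_smul]
      rw [mul_comm (m59rpk_N ρ b σ 1 1) (b.repr w 1)]
      abel
    rw [h2]
    exact Submodule.smul_mem _ _ (Submodule.mem_span_singleton_self _)
  · intro n a ha
    have h1 : LinearMap.det (ρ.ρ σ) - (a : T) ∈ Ideal.span {((p ^ n : ℕ) : T)} := hdet.2 n σ a ha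
    rw [hdetM] at h1
    have h3 : m59rpk_N ρ b σ 0 0 - (a : T) * m59rpk_N ρ b σ 1 1 =
        (m59rpk_N ρ b σ 0 0 * m59rpk_N ρ b σ 1 1 - (a : T)) * m59rpk_N ρ b σ 1 1 := by
      have : m59rpk_N ρ b σ 0 0 * m59rpk_N ρ b σ 1 1 * m59rpk_N ρ b σ 1 1 =
          m59rpk_N ρ b σ 0 0 := by
        rw [mul_assoc, ← pow_two, hz2, mul_one]
      rw [sub_mul, this]
    rw [h3]
    exact Ideal.mul_mem_right _ _ h1

/-- `δ` is multiplicative on `D_P`. -/
theorem m59rp_delta_mul (ρ : GaloisRepAdic T) (b : Module.Basis (Fin 2) T ρ.V)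
    (P : ValuationSubring Qb)
    (hstab : ∀ σ ∈ P.decompositionSubgroup ℚ, ∀ v ∈ Submodule.span T {b 0},
      ρ.ρ σ v ∈ Submodule.span T {b 0})
    {σ σ' : GQ} (hσ : σ ∈ P.decompositionSubgroup ℚ) :
    m59rpk_N ρ b (σ * σ') 1 1 = m59rpk_N ρ b σ 1 1 * m59rpk_N ρ b σ' 1 1 := by
  rw [m59rpk_N_mul_apply, m59rpk_N_D10 ρ b P hstab hσ, zero_mul, zero_add]

/-- the subgroup of `D_P` on which `δ² = 1`. -/
def m59rp_sqSub (ρ : GaloisRepAdic T) (b : Module.Basis (Fin 2) T ρ.V)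
    (P : ValuationSubring Qb)
    (hstab : ∀ σ ∈ P.decompositionSubgroup ℚ, ∀ v ∈ Submodule.span T {b 0},
      ρ.ρ σ v ∈ Submodule.span T {b 0}) : Subgroup GQ where
  carrier := {σ | σ ∈ P.decompositionSubgroup ℚ ∧ m59rpk_N ρ b σ 1 1 ^ 2 = 1}
  mul_mem' := by
    rintro σ σ' ⟨h1, h2⟩ ⟨h1', h2'⟩
    refine ⟨mul_mem h1 h1', ?_⟩
    rw [m59rp_delta_mul ρ b P hstab h1, mul_pow, h2, h2', one_mul]
  one_mem' := ⟨one_mem _, by rw [m59rpk_N_one]; simp⟩
  inv_mem' := by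
    rintro σ ⟨h1, h2⟩
    refine ⟨inv_mem h1, ?_⟩
    have h3 : m59rpk_N ρ b σ⁻¹ 1 1 * m59rpk_N ρ b σ 1 1 = 1 := by
      rw [← m59rp_delta_mul ρ b P hstab (inv_mem h1), inv_mul_cancel, m59rpk_N_one]
      simp
    calc m59rpk_N ρ b σ⁻¹ 1 1 ^ 2 = m59rpk_N ρ b σ⁻¹ 1 1 ^ 2 * m59rpk_N ρ b σ 1 1 ^ 2 := by
          rw [h2, mul_one]
      _ = (m59rpk_N ρ b σ⁻¹ 1 1 * m59rpk_N ρ b σ 1 1) ^ 2 := by rw [mul_pow]
      _ = 1 := by rw [h3, one_pow]

end General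

section Dual

variable {k : Type} [Field k]

/-- **`δ(Frob)² = 1` ⟹ `δ² = 1` on `D_P`** (over `k[ε]`, where `r` has a finite level). -/
theorem m59rp_delta_sq {p : ℕ} (hp : p.Prime) (r : FramedRep (DualNumber k))
    (P : ValuationSubring Qb) (hP : P.LiesOverPrime p)
    (b : Module.Basis (Fin 2) (DualNumber k) r.toGaloisRepAdic.V)
    (hstab : ∀ σ ∈ P.decompositionSubgroup ℚ, ∀ v ∈ Submodule.span (DualNumber k) {b 0},
      r.toGaloisRepAdic.ρ σ v ∈ Submodule.span (DualNumber k) {b 0})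
    (hin : ∀ σ ∈ P.inertiaSubgroupIn ℚ, ∀ w : r.toGaloisRepAdic.V,
      r.toGaloisRepAdic.ρ σ w - w ∈ Submodule.span (DualNumber k) {b 0})
    {φ : GQ} (hφ : P.IsFrobeniusAt φ p)
    (hφ2 : m59rpk_N r.toGaloisRepAdic b φ 1 1 ^ 2 = 1)
    {σ : GQ} (hσ : σ ∈ P.decompositionSubgroup ℚ) :
    m59rpk_N r.toGaloisRepAdic b σ 1 1 ^ 2 = 1 := by
  obtain ⟨F, hF, hlev⟩ := s56t_exists_level r
  obtain ⟨n, τ, hτ, hs⟩ := m59rp_frobGen_gen hp P hP hφ F hF hσ
  set H := m59rp_sqSub r.toGaloisRepAdic b P hstab with hH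
  have hφH : φ ∈ H := ⟨hφ.mem_decompositionSubgroup, hφ2⟩
  have hτD : τ ∈ P.decompositionSubgroup ℚ := by
    obtain ⟨x, -, hx⟩ := hτ
    rw [← hx]
    exact x.2
  have hτH : τ ∈ H := ⟨hτD, by rw [m59rpk_N_I11 r.toGaloisRepAdic b P hin hτ, one_pow]⟩
  have hsD : (φ ^ n * τ)⁻¹ * σ ∈ P.decompositionSubgroup ℚ :=
    mul_mem (inv_mem (mul_mem (zpow_mem hφ.mem_decompositionSubgroup n) hτD)) hσ
  have hs1 : r ((φ ^ n * τ)⁻¹ * σ) = 1 :=
    hlev _ ((IntermediateField.mem_fixingSubgroup_iff F _).1 hs)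
  have hsH : (φ ^ n * τ)⁻¹ * σ ∈ H := by
    refine ⟨hsD, ?_⟩
    have : m59rpk_N r.toGaloisRepAdic b ((φ ^ n * τ)⁻¹ * σ) = 1 := by
      show LinearMap.toMatrix b b (r.toGaloisRepAdic.ρ ((φ ^ n * τ)⁻¹ * σ)) = 1
      have h1 : r.toGaloisRepAdic.ρ ((φ ^ n * τ)⁻¹ * σ) = 1 := by
        show Matrix.toLin' (r.toMonoidHom ((φ ^ n * τ)⁻¹ * σ)) = 1
        rw [show r.toMonoidHom ((φ ^ n * τ)⁻¹ * σ) = 1 from hs1]
        exact Matrix.toLin'_one
      rw [h1]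
      exact LinearMap.toMatrix_one b
    rw [this]
    simp
  have hσH : σ ∈ H := by
    have : σ = (φ ^ n * τ) * ((φ ^ n * τ)⁻¹ * σ) := by group
    rw [this]
    exact mul_mem (mul_mem (zpow_mem hφH n) hτH) hsH
  exact hσH.2

/-- **over `k[ε]`: ordinary with `m59rp_z(E.fr)² = 1` ⟹ strictly ordinary.** -/
theorem m59rp_strict_of_z {p : ℕ} [hp : Fact p.Prime] {A : ValuationSubring Qb}
    (hA : A.LiesOverPrime p) (E : m59rp_Elts p A) (r : FramedRep (DualNumber k))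
    (hdet : r.toGaloisRepAdic.DetIsCyclotomic p) (hord : r.toGaloisRepAdic.IsOrdinaryAt p)
    (hz : m59rp_z E r.toMonoidHom E.fr ^ 2 = 1) :
    r.toGaloisRepAdic.IsStrictOrdinaryAt p := by
  refine m59rp_strict_of_sq r.toGaloisRepAdic hdet fun P hP => ?_
  obtain ⟨L, ⟨b, rfl⟩, hstab, hin⟩ := hord P hP
  obtain ⟨φ, hφ⟩ := Fermat.Agent.JT3.fex_exists_isFrobeniusAt hp.out P hP
  refine ⟨b, hstab, hin, fun σ hσ => ?_⟩
  refine m59rp_delta_sq hp.out r P hP b hstab hin hφ ?_ hσ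
  rw [m59rpk_z_frob_entry r E hdet P hA hP b hstab hin hφ]
  exact hz

end Dual

end

end Fermat.Agent.M59
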