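import Mathlib
import Fermat.Agent.M59.Rp.Seams
import Fermat.Agent.M59.Rp.LocCore
import Fermat.Agent.M59.Rp.Strict
import Fermat.Agent.S56.Asm.Fin

/-!
# M59 / block [R_p-norm], cell (R3), case (III): `m59rp_locCobIII : m59rp_LocCobIII_stmt`
(helper13; prefix `m59rp_`)

`H` an ordinary pair with cyclotomic determinant, `φ : H.T →ₐ[𝒪] k[ε]` killing `a_T`, `v_T` (and
`u_T` when `ū = 0`), `r_φ = twc_frame H.r φ`:

* the trace coordinates commute with `φ` (`m59rp_frame_v`, `_u`, `_z`, `_a`; `1 - c` is a unit of `T`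
  by helper24's `m59rpk_one_sub_c_unit`);
* `φ(a_T) = 0`, `z0² = 1` ⟹ `m59rp_z(E.fr)² = 1` for `r_φ` ⟹ `r_φ` STRICTLY ordinary
  (`m59rp_strict_of_z`);
* `m59rp_locCore_III` (`Rp/LocCore.lean`) ⟹ the cocycle of `r_φ` is a coboundary on `D_p`.
-/

set_option autoImplicit false
set_option linter.unusedSectionVars false
set_option linter.unusedVariables false
set_option linter.style.haveILetI false

open Polynomial IsLocalRing ExtCitation Matrix
open Fermat.Agent.S53 Fermat.Agent.S56 Fermat.Agent.TW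

namespace Fermat.Agent.M59

noncomputable section

local notation "GQ" => (AlgebraicClosure ℚ ≃ₐ[ℚ] AlgebraicClosure ℚ)
local notation "Qb" => AlgebraicClosure ℚ

attribute [local instance] S53.dualNumberAlgebra

section Frame

variable {𝒪 : Type} [CommRing 𝒪] [IsLocalRing 𝒪]
  {T : Type} [CommRing T] [IsLocalRing T] [Algebra 𝒪 T] [IsLocalHom (algebraMap 𝒪 T)]

theorem m59rp_frame_ord (r : FramedRep T) (φ : T →ₐ[𝒪] DualNumber (ResidueField 𝒪)) {p : ℕ}
    (h : r.toGaloisRepAdic.IsOrdinaryAt p) :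
    (twc_frame r φ).toGaloisRepAdic.IsOrdinaryAt p := by
  obtain ⟨e⟩ := twc_frame_isEquiv r φ
  exact s56t_tr_isOrdinaryAt e (s56bc_ordinary _ (twc_isLocalHom φ) _ p h)

theorem m59rp_frame_det (r : FramedRep T) (φ : T →ₐ[𝒪] DualNumber (ResidueField 𝒪)) (σ : GQ) :
    (twc_frame r φ σ).det = φ ((r σ).det) := by
  rw [twc_frame_apply, Matrix.det_fin_two, Matrix.det_fin_two, map_sub, map_mul, map_mul]
  rfl

variable {p : ℕ} {A : ValuationSubring Qb} (E : m59rp_Elts p A)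

theorem m59rp_frame_v (r : FramedRep T) (φ : T →ₐ[𝒪] DualNumber (ResidueField 𝒪)) (g0 : GQ) :
    m59rp_v E g0 (twc_frame r φ).toMonoidHom = φ (m59rp_v E g0 r.toMonoidHom) := by
  unfold m59rp_v
  rw [map_sub]
  exact congrArg₂ (· - ·) (twc_frame_trace r φ _) (twc_frame_trace r φ _)

theorem m59rp_frame_u (r : FramedRep T) (φ : T →ₐ[𝒪] DualNumber (ResidueField 𝒪)) (g0 : GQ) :
    m59rp_u E g0 (twc_frame r φ).toMonoidHom = φ (m59rp_u E g0 r.toMonoidHom) := by
  unfold m59rp_u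
  rw [map_sub]
  exact congrArg₂ (· - ·) (twc_frame_trace r φ _) (twc_frame_trace r φ _)

theorem m59rp_frame_c (r : FramedRep T) (φ : T →ₐ[𝒪] DualNumber (ResidueField 𝒪)) :
    m59rp_c E (twc_frame r φ).toMonoidHom = φ (m59rp_c E r.toMonoidHom) :=
  m59rp_frame_det r φ E.s0

theorem m59rp_map_inverse {R S : Type} [CommRing R] [CommRing S] (f : R →+* S) {x : R}
    (hx : IsUnit x) : Ring.inverse (f x) = f (Ring.inverse x) := by
  obtain ⟨u, rfl⟩ := hx
  rw [Ring.inverse_unit, show f (u : R) = ((Units.map (f : R →* S) u : Sˣ) : S) from rfl,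
    Ring.inverse_unit, ← map_inv, Units.coe_map]
  rfl

theorem m59rp_frame_z (r : FramedRep T) (φ : T →ₐ[𝒪] DualNumber (ResidueField 𝒪))
    (hu : IsUnit (1 - m59rp_c E r.toMonoidHom)) (σ : GQ) :
    m59rp_z E (twc_frame r φ).toMonoidHom σ = φ (m59rp_z E r.toMonoidHom σ) := by
  have h1 : ((twc_frame r φ).toMonoidHom (σ * E.s0)).trace = φ ((r.toMonoidHom (σ * E.s0)).trace) :=
    twc_frame_trace r φ _
  have h2 : ((twc_frame r φ).toMonoidHom σ).trace = φ ((r.toMonoidHom σ).trace) :=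
    twc_frame_trace r φ _
  have h3 := m59rp_frame_c E r φ
  have h4 : Ring.inverse (1 - φ (m59rp_c E r.toMonoidHom)) =
      φ (Ring.inverse (1 - m59rp_c E r.toMonoidHom)) := by
    have h5 := m59rp_map_inverse (φ : T →+* DualNumber (ResidueField 𝒪)) hu
    rw [map_sub, map_one] at h5
    exact h5
  unfold m59rp_z
  rw [h3, h1, h2, h4, ← map_mul, ← map_sub, ← map_mul]

theorem m59rp_frame_a (r : FramedRep T) (φ : T →ₐ[𝒪] DualNumber (ResidueField 𝒪))
    (hu : IsUnit (1 - m59rp_c E r.toMonoidHom)) (z0 : T) :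
    m59rp_a E (φ z0) (twc_frame r φ).toMonoidHom = φ (m59rp_a E z0 r.toMonoidHom) := by
  unfold m59rp_a
  rw [m59rp_frame_z E r φ hu, map_sub, map_mul, map_one]

end Frame

/-- the residual coordinate is the constant term of the coordinate of a lift. -/
theorem m59rp_u_fst {k : Type} [Field k] {p : ℕ} {A : ValuationSubring Qb} (E : m59rp_Elts p A)
    (g0 : GQ) (rb : FramedResidual k) (r : FramedRep (DualNumber k))
    (hr : ∀ σ, s56t_bar r σ = rb σ) :
    (m59rp_u E g0 r.toMonoidHom).fst = m59rp_u E g0 rb.toMonoidHom := by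
  unfold m59rp_u
  rw [TrivSqZeroExt.fst_sub, m59rp_trace_fst, m59rp_trace_fst]
  have h1 : s56t_fst (r.toMonoidHom (g0 * E.tu)) = rb.toMonoidHom (g0 * E.tu) := hr _
  have h2 : s56t_fst (r.toMonoidHom g0) = rb.toMonoidHom g0 := hr _
  rw [h1, h2]

/-- **(R3), case (III)**. -/
theorem m59rp_locCobIII : m59rp_LocCobIII_stmt := by
  intro p _ hp2 𝒪 _ _ _ _ _ hp𝒪 rb E g0 z0 had hvb hz0 H hdet hord φ ha hv hu
  haveI : CharP (ResidueField 𝒪) p := s56a_charP p hp𝒪
  letI : Algebra (ZMod p) (ResidueField 𝒪) := ZMod.algebra _ p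
  have hA : (padicPlace p).LiesOverPrime p := Fermat.Agent.S55.pl_padicPlace_liesOver p
  have hbar : ∀ σ, s56t_bar (twc_frame H.r φ) σ = rb σ := fun σ => twc_frame_bar H.r H.lift φ σ
  have hdet' := twc_frame_det H.r φ hdet
  have hord' := m59rp_frame_ord H.r φ hord
  have hunit : IsUnit (1 - m59rp_c E H.r.toMonoidHom) :=
    m59rpk_one_sub_c_unit H.r hdet E.s0 E.s0_ne
  -- `z(Frob)² = 1`
  have hz : m59rp_z E (twc_frame H.r φ).toMonoidHom E.fr ^ 2 = 1 := by
    have h1 := m59rp_frame_a E H.r φ hunit (algebraMap 𝒪 H.T z0)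
    rw [ha] at h1
    unfold m59rp_a at h1
    have h2 : φ (algebraMap 𝒪 H.T z0) * m59rp_z E (twc_frame H.r φ).toMonoidHom E.fr = 1 :=
      sub_eq_zero.mp h1
    have h3 : φ (algebraMap 𝒪 H.T z0) ^ 2 = 1 := by
      rw [← map_pow, ← map_pow, hz0, map_one, map_one]
    have h4 : m59rp_z E (twc_frame H.r φ).toMonoidHom E.fr = φ (algebraMap 𝒪 H.T z0) := by
      calc m59rp_z E (twc_frame H.r φ).toMonoidHom E.fr
          = φ (algebraMap 𝒪 H.T z0) ^ 2 * m59rp_z E (twc_frame H.r φ).toMonoidHom E.fr := by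
            rw [h3, one_mul]
        _ = φ (algebraMap 𝒪 H.T z0) *
            (φ (algebraMap 𝒪 H.T z0) * m59rp_z E (twc_frame H.r φ).toMonoidHom E.fr) := by ring
        _ = φ (algebraMap 𝒪 H.T z0) := by rw [h2, mul_one]
    rw [h4, h3]
  have hstrict := m59rp_strict_of_z hA E (twc_frame H.r φ) hdet' hord' hz
  have hV : m59rp_v E g0 (twc_frame H.r φ).toMonoidHom = 0 := by
    rw [m59rp_frame_v, hv]
  have hU : (m59rp_u E g0 (twc_frame H.r φ).toMonoidHom).fst = 0 →
      m59rp_u E g0 (twc_frame H.r φ).toMonoidHom = 0 := by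
    intro h0
    rw [m59rp_u_fst E g0 rb _ hbar] at h0
    rw [m59rp_frame_u, hu h0]
  exact m59rp_locCore_III hp2 rb E g0 had (twc_frame H.r φ) hbar hdet' hstrict hV hU

end

end Fermat.Agent.M59
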