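import Mathlib
import Fermat.Agent.M59.Rp.LocCob

/-!
# M59 / block [R_p-norm]: THE INPUTS OF THE COTANGENT BOUND IN CASE (III) (helper13; prefix `m59rp_`)

For the consumer of helper21's `m59c_finrank_le` (M59/C/Present.lean) with `pPrime p` FRAMED
(`Th' = insert (pPrime p) Th`, `p ∉ Smin`), coordinates at `p`: `a_T`, `v_T` (and `u_T` in the
residually split case `ū = 0`), weight `d_p = 1` (`ū ≠ 0`) resp. `d_p = 2` (`ū = 0`).

* `m59rp_res_trace` : residually, `rb τ = 1 + b • gen u₀` ⟹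
  `tr rb(g τ) - tr rb(g) = b * tr (rb g * gen u₀)`;
* `m59rp_inv_of_split` : **`v̄ = ū = 0` ⟹ `1 ≤ dim H⁰(D_p, ad⁰ ρ̄)`** (the extension class of the
  residual ordinary line is killed by the evaluation at `τ_v`, `τ_u`, hence is a coboundary by
  `m59rp_kum_inj`: `ρ̄|_{D_p}` is split and the "diagonal" matrix of the splitting is invariant);
  this is the hypothesis `hd` of `m59c_finrank_le` at `pPrime p` for `d_p = 2`;
* `m59rp_ord_of_strict` : a strictly ordinary lift of `rb` to `k[ε]` with cyclotomic determinant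
  provides the residual datum `s56o_Ord p rb u₀` used above (main's `s56o_data`);
* `m59rp_locCob_insert` : `m59c_LocCob Th H φ` + `φ` kills `a_T`, `v_T` (and `u_T` if `ū = 0`) ⟹
  `m59c_LocCob (insert (pPrime p) Th) H φ` (`m59rp_locCobIII`).
-/

set_option autoImplicit false
set_option linter.unusedSectionVars false
set_option linter.unusedVariables false
set_option linter.style.haveILetI false

open Polynomial IsLocalRing ExtCitation Matrix Module
open Fermat.Agent.S53 Fermat.Agent.S56 Fermat.Agent.TW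

namespace Fermat.Agent.M59

noncomputable section

local notation "GQ" => (AlgebraicClosure ℚ ≃ₐ[ℚ] AlgebraicClosure ℚ)
local notation "Qb" => AlgebraicClosure ℚ

attribute [local instance] S53.dualNumberAlgebra

section Residual

variable {k : Type} [Field k]

/-- the residual trace formula. -/
theorem m59rp_res_trace (rb : FramedResidual k) (u₀ : Fin 2 → k) (g τ : GQ) (b : k)
    (hτ : rb τ = 1 + b • s56oa_gen u₀) :
    (rb (g * τ)).trace - (rb g).trace = b * (rb g * s56oa_gen u₀).trace := by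
  rw [rb.map_mul, hτ, Matrix.mul_add, Matrix.mul_one, Matrix.trace_add, Matrix.mul_smul,
    Matrix.trace_smul, smul_eq_mul]
  ring

/-- **residually split ⟹ `h⁰(D_p, ad⁰ ρ̄) ≥ 1`.** -/
theorem m59rp_inv_of_split {p : ℕ} [Fact p.Prime] (hp2 : p ≠ 2) [Finite k] [Algebra (ZMod p) k]
    (rb : FramedResidual k) (E : m59rp_Elts p (padicPlace p)) (g0 : GQ)
    (had : m59rp_IsAdapted E rb g0) {u₀ : Fin 2 → k} (hu₀ : u₀ ≠ 0) (hO : s56o_Ord p rb u₀)
    (hV : m59rp_v E g0 rb.toMonoidHom = 0) (hU : m59rp_u E g0 rb.toMonoidHom = 0) :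
    1 ≤ finrank k (s56a_inv rb ((padicPlace p).decompositionSubgroup ℚ)) := by
  haveI : CharP k p := charP_of_injective_algebraMap (algebraMap (ZMod p) k).injective p
  have hB := s56o_borel_of_ord hO
  obtain ⟨φ₀, hφ₀⟩ := s56o_exists_coef hu₀
  obtain ⟨Dg, hDtr, hD1, hD2⟩ := s56o_exists_Dg hu₀
  have hgm := s56oa_gen_mem u₀
  have hgtr : (s56oa_gen u₀).trace = 0 := s56oa_W0_trace hu₀ hgm
  have hφgen : φ₀ (s56oa_gen u₀) = 1 := by
    have h := hφ₀ _ hgm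
    have hne := s56oa_gen_ne_zero hu₀
    by_contra hne1
    have h3 : (1 - φ₀ (s56oa_gen u₀)) • s56oa_gen u₀ = 0 := by
      rw [sub_smul, one_smul, ← h, sub_self]
    rcases smul_eq_zero.mp h3 with h1 | h1
    · exact hne1 (sub_eq_zero.mp h1).symm
    · exact hne h1
  have hd0 : ∀ σ, s56o_d rb Dg σ - s56o_d rb 0 σ = s56o_d rb Dg σ := by
    intro σ
    unfold s56o_d
    simp
  have hDW : ∀ σ ∈ (padicPlace p).decompositionSubgroup ℚ, s56o_d rb Dg σ ∈ s56oa_W0 u₀ :=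
    fun σ hσ => s56o_d_Dg hu₀ hB hD1 hD2 hσ
  have hfbZ : s56o_IsZ p ((padicPlace p).decompositionSubgroup ℚ)
      (fun σ => φ₀ (s56o_d rb Dg σ - s56o_d rb 0 σ)) :=
    s56o_isZ_coef hB φ₀ (fun σ _ τ _ => s56o_d_mul rb Dg σ τ)
      (by
        obtain ⟨L, hL, h⟩ := s56o_d_level rb Dg
        exact ⟨L, hL, fun σ _ s _ hs => h σ s hs⟩)
      (fun σ hσ => by rw [hd0]; exact hDW σ hσ)
  have hfbC := (s56k_isZ_iff p k _).1 hfbZ
  have h0Z : s56o_IsZ p ((padicPlace p).decompositionSubgroup ℚ) (fun _ : GQ => (0 : k)) :=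
    ⟨fun σ _ τ _ => by simp, ⊥, inferInstance, fun σ _ s _ _ => rfl⟩
  have h0C := (s56k_isZ_iff p k _).1 h0Z
  -- the elements `τ_v`, `τ_u`
  have hχv : s56k_chi p E.tv = 1 := m59rpk_chi_tau p (padicPlace p) E.tv E.tv_fix
  have hχu : s56k_chi p E.tu = 1 := m59rpk_chi_tauU p E.tu E.tu_fix
  have hωv : ((cycloExp p E.tv : ℕ) : k) = 1 := by
    rw [← s56k_omega_eq_cycloExp p k E.tv, s56k_omega, hχv, s56k_natCast_val_one]
  have hωu : ((cycloExp p E.tu : ℕ) : k) = 1 := by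
    rw [← s56k_omega_eq_cycloExp p k E.tu, s56k_omega, hχu, s56k_natCast_val_one]
  have hNv := m59rp_unip_coef rb hu₀ hO E.tv_mem hωv
  have hNu := m59rp_unip_coef rb hu₀ hO E.tu_mem hωu
  have hτv : rb E.tv = 1 + φ₀ (rb E.tv - 1) • s56oa_gen u₀ := by
    rw [← hφ₀ _ hNv]; abel
  have hτu : rb E.tu = 1 + φ₀ (rb E.tu - 1) • s56oa_gen u₀ := by
    rw [← hφ₀ _ hNu]; abel
  have hG := m59rp_adapted_ne rb hu₀ hO E g0 had
  have hbv : φ₀ (rb E.tv - 1) = 0 := by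
    have h1 := m59rp_res_trace rb u₀ g0 E.tv _ hτv
    have h2 : (rb (g0 * E.tv)).trace - (rb g0).trace = 0 := hV
    rw [h2] at h1
    exact (mul_eq_zero.mp h1.symm).resolve_right hG
  have hbu : φ₀ (rb E.tu - 1) = 0 := by
    have h1 := m59rp_res_trace rb u₀ g0 E.tu _ hτu
    have h2 : (rb (g0 * E.tu)).trace - (rb g0).trace = 0 := hU
    rw [h2] at h1
    exact (mul_eq_zero.mp h1.symm).resolve_right hG
  have hfbv : φ₀ (s56o_d rb Dg E.tv - s56o_d rb 0 E.tv) = 0 := by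
    rw [hd0, m59rp_d_Dg_unip rb hD1 hD2 E.tv _ hτv (Submodule.smul_mem _ _ hgm), hbv]
    simp
  have hfbu : φ₀ (s56o_d rb Dg E.tu - s56o_d rb 0 E.tu) = 0 := by
    rw [hd0, m59rp_d_Dg_unip rb hD1 hD2 E.tu _ hτu (Submodule.smul_mem _ _ hgm), hbu]
    simp
  obtain ⟨y, hy⟩ := m59rp_kum_inj hp2 E _ _ hfbC h0C 0
    (by show φ₀ (s56o_d rb Dg E.tv - s56o_d rb 0 E.tv) = 0 * 0; rw [hfbv, mul_zero])
    (by show φ₀ (s56o_d rb Dg E.tu - s56o_d rb 0 E.tu) = 0 * 0; rw [hfbu, mul_zero])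
  -- the invariant matrix `Dg - y • gen`
  have hinv : Dg - y • s56oa_gen u₀ ∈ s56a_inv rb ((padicPlace p).decompositionSubgroup ℚ) := by
    rw [s56a_mem_inv]
    refine ⟨by rw [Matrix.trace_sub, hDtr, Matrix.trace_smul, hgtr, smul_zero, sub_zero],
      fun σ hσ => ?_⟩
    have e1 : s56o_d rb Dg σ = φ₀ (s56o_d rb Dg σ - s56o_d rb 0 σ) • s56oa_gen u₀ := by
      rw [hd0]; exact hφ₀ _ (hDW σ hσ)
    have e2 := hy σ hσ
    rw [s56k_omega_eq_cycloExp] at e2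
    have e4 : s56o_d rb (s56oa_gen u₀) σ = ((cycloExp p σ : k) - 1) • s56oa_gen u₀ :=
      s56o_d_W0 hB hσ hgm
    have h1 : s56o_d rb (Dg - y • s56oa_gen u₀) σ = 0 := by
      have h2 : s56o_d rb (Dg - y • s56oa_gen u₀) σ =
          s56o_d rb Dg σ - y • s56o_d rb (s56oa_gen u₀) σ := by
        rw [sub_eq_add_neg, ← neg_one_smul k (y • s56oa_gen u₀), s56o_d_add, s56o_d_smul,
          s56o_d_smul, neg_one_smul, ← sub_eq_add_neg]
      rw [h2, e1, e2, e4, smul_smul]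
      simp only [mul_zero, zero_add]
      rw [mul_comm, sub_self]
    have h2 : rb σ * (Dg - y • s56oa_gen u₀) * rb σ⁻¹ = Dg - y • s56oa_gen u₀ := by
      unfold s56o_d at h1
      exact sub_eq_zero.mp h1
    calc rb σ * (Dg - y • s56oa_gen u₀)
        = rb σ * (Dg - y • s56oa_gen u₀) * (rb σ⁻¹ * rb σ) := by
          rw [s56o_rb_inv_mul, Matrix.mul_one]
      _ = (rb σ * (Dg - y • s56oa_gen u₀) * rb σ⁻¹) * rb σ := by
          rw [Matrix.mul_assoc, Matrix.mul_assoc, Matrix.mul_assoc]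
      _ = (Dg - y • s56oa_gen u₀) * rb σ := by rw [h2]
  have hne : (⟨Dg - y • s56oa_gen u₀, hinv⟩ :
      ↥(s56a_inv rb ((padicPlace p).decompositionSubgroup ℚ))) ≠ 0 := by
    intro h0
    have h1 : Dg - y • s56oa_gen u₀ = 0 := congrArg Subtype.val h0
    have h2 : (Dg - y • s56oa_gen u₀) *ᵥ u₀ = u₀ := by
      rw [Matrix.sub_mulVec, hD1, Matrix.smul_mulVec, hgm.1, smul_zero, sub_zero]
    rw [h1, Matrix.zero_mulVec] at h2
    exact hu₀ h2.symm
  exact Module.finrank_pos_iff_exists_ne_zero.2 ⟨_, hne⟩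

/-- a strictly ordinary lift of `rb` to `k[ε]` with cyclotomic determinant gives the residual
ordinary datum. -/
theorem m59rp_ord_of_strict {p : ℕ} [Fact p.Prime] (hp2 : p ≠ 2) [Algebra (ZMod p) k]
    (rb : FramedResidual k) (r : FramedRep (DualNumber k)) (hr : ∀ σ, s56t_bar r σ = rb σ)
    (hdet : r.toGaloisRepAdic.DetIsCyclotomic p)
    (hord : r.toGaloisRepAdic.IsStrictOrdinaryAt p) :
    ∃ u₀ : Fin 2 → k, u₀ ≠ 0 ∧ s56o_Ord p rb u₀ := by
  obtain ⟨u₀, m, hu₀, -, hO, -⟩ := s56o_data hp2 rb r hr hdet hord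
  exact ⟨u₀, hu₀, hO⟩

end Residual

section Pair

variable {𝒪 : Type} [CommRing 𝒪] [IsDomain 𝒪] [IsDiscreteValuationRing 𝒪]
  [IsAdicComplete (maximalIdeal 𝒪) 𝒪] [Finite (ResidueField 𝒪)]

/-- **the local condition at `p` added to `m59c_LocCob`** (case (III)). -/
theorem m59rp_locCob_insert {p : ℕ} [Fact p.Prime] (hp2 : p ≠ 2)
    (hp𝒪 : (p : 𝒪) ∈ maximalIdeal 𝒪) (rb : FramedResidual (ResidueField 𝒪))
    (E : m59rp_Elts p (padicPlace p)) (g0 : GQ) (z0 : 𝒪)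
    (had : m59rp_IsAdapted E rb g0) (hvb : m59rp_v E g0 rb.toMonoidHom = 0) (hz0 : z0 ^ 2 = 1)
    (H : twc_HPair 𝒪 rb) (hdet : H.r.toGaloisRepAdic.DetIsCyclotomic p)
    (hord : H.r.toGaloisRepAdic.IsOrdinaryAt p) (Th : Finset Nat.Primes)
    (φ : H.T →ₐ[𝒪] DualNumber (ResidueField 𝒪)) (hTh : m59c_LocCob Th H φ)
    (ha : φ (m59rp_a E (algebraMap 𝒪 H.T z0) H.r.toMonoidHom) = 0)
    (hv : φ (m59rp_v E g0 H.r.toMonoidHom) = 0)
    (hu : m59rp_u E g0 rb.toMonoidHom = 0 → φ (m59rp_u E g0 H.r.toMonoidHom) = 0) :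
    m59c_LocCob (insert (pPrime p) Th) H φ := by
  intro ℓ hℓ
  rcases Finset.mem_insert.1 hℓ with rfl | hℓ'
  · exact m59rp_locCobIII p hp2 𝒪 hp𝒪 rb E g0 z0 had hvb hz0 H hdet hord φ ha hv hu
  · exact hTh ℓ hℓ'

end Pair

end

end Fermat.Agent.M59
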