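/-
M59 / [R_p-norm], cell (MEM) (helper24; prefix `m59rpk_`).

The trace coordinates `m59rp_c`, `m59rp_z`, `m59rp_a`, `m59rp_v`, `m59rp_u` are compatible with every
entrywise-compatible ring homomorphism (`m59rpk_map_c/_z/_v/_u`; `_z` needs `1 - c` a unit), hence
`m59rpk_mem : m59rp_Mem_stmt` : for a Hecke pair `H` over `rb`, `a_T ∈ 𝔪_T` when `z0` lifts
`z̄(Frob)⁻¹`, `v_T ∈ 𝔪_T` when `v̄ = 0`, `u_T ∈ 𝔪_T` when `ū = 0`; plus the residue formulas
`m59rpk_res_z`, `m59rpk_res_v'`, `m59rpk_res_u` (`residue (coordinate of H.r) = ι (coordinate of rb)`).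
-/
import Mathlib
import Fermat.Agent.M59.Rp.ZUr

set_option autoImplicit false
set_option linter.unusedSectionVars false
set_option linter.unusedVariables false
set_option linter.style.haveILetI false

noncomputable section

namespace Fermat.Agent.M59

open IsLocalRing Fermat.Agent.S53 Fermat.Agent.TW

local notation "Qb" => AlgebraicClosure ℚ
local notation "GQ" => (AlgebraicClosure ℚ ≃ₐ[ℚ] AlgebraicClosure ℚ)

section Compat

variable {R S : Type} [CommRing R] [CommRing S] (f : R →+* S) {p : ℕ} {A : ValuationSubring Qb}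
  (E : m59rp_Elts p A)
  (M : GQ →* Matrix (Fin 2) (Fin 2) R) (M' : GQ →* Matrix (Fin 2) (Fin 2) S)
  (h : ∀ σ, (M σ).map f = M' σ)

include h in
theorem m59rpk_map_trace (σ : GQ) : f (M σ).trace = (M' σ).trace := by
  rw [← h σ, Matrix.trace, Matrix.trace, map_sum]
  rfl

include h in
theorem m59rpk_map_c : f (m59rp_c E M) = m59rp_c E M' := by
  unfold m59rp_c
  rw [← h, RingHom.map_det]
  rfl

include h in
theorem m59rpk_map_v (g0 : GQ) : f (m59rp_v E g0 M) = m59rp_v E g0 M' := by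
  unfold m59rp_v
  rw [map_sub, m59rpk_map_trace f M M' h, m59rpk_map_trace f M M' h]

include h in
theorem m59rpk_map_u (g0 : GQ) : f (m59rp_u E g0 M) = m59rp_u E g0 M' := by
  unfold m59rp_u
  rw [map_sub, m59rpk_map_trace f M M' h, m59rpk_map_trace f M M' h]

include h in
theorem m59rpk_map_z (hu : IsUnit (1 - m59rp_c E M)) (σ : GQ) :
    f (m59rp_z E M σ) = m59rp_z E M' σ := by
  have hu' : IsUnit (1 - m59rp_c E M') := by
    rw [← m59rpk_map_c f E M M' h, ← map_one f, ← map_sub]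
    exact hu.map f
  have h1 : (1 - m59rp_c E M) * m59rp_z E M σ =
      (M (σ * E.s0)).trace - m59rp_c E M * (M σ).trace := by
    unfold m59rp_z
    rw [← mul_assoc, Ring.mul_inverse_cancel _ hu, one_mul]
  have h2 : (1 - m59rp_c E M') * m59rp_z E M' σ =
      (M' (σ * E.s0)).trace - m59rp_c E M' * (M' σ).trace := by
    unfold m59rp_z
    rw [← mul_assoc, Ring.mul_inverse_cancel _ hu', one_mul]
  have h3 : (1 - m59rp_c E M') * f (m59rp_z E M σ) = (1 - m59rp_c E M') * m59rp_z E M' σ := by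
    rw [h2, ← m59rpk_map_c f E M M' h, ← m59rpk_map_trace f M M' h (σ * E.s0),
      ← m59rpk_map_trace f M M' h σ, ← map_one f, ← map_sub, ← map_mul, ← map_mul, ← map_sub, h1]
  exact hu'.mul_left_cancel h3

end Compat

section Pair

variable {p : ℕ} [hp : Fact p.Prime] {𝒪 : Type} [CommRing 𝒪] [IsLocalRing 𝒪]
  {rb : FramedResidual (ResidueField 𝒪)} {A : ValuationSubring Qb} (E : m59rp_Elts p A)
  (H : twc_HPair 𝒪 rb)

theorem m59rpk_lift_T (σ : GQ) :
    (H.r.toMonoidHom σ).map (residue H.T) =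
      (rb.map (ResidueField.map (algebraMap 𝒪 H.T))).toMonoidHom σ := H.lift σ

theorem m59rpk_lift_k (σ : GQ) :
    (rb.toMonoidHom σ).map (ResidueField.map (algebraMap 𝒪 H.T)) =
      (rb.map (ResidueField.map (algebraMap 𝒪 H.T))).toMonoidHom σ := rfl

theorem m59rpk_res_v' (g0 : GQ) :
    residue H.T (m59rp_v E g0 H.r.toMonoidHom) =
      ResidueField.map (algebraMap 𝒪 H.T) (m59rp_v E g0 rb.toMonoidHom) := by
  rw [m59rpk_map_v (residue H.T) E _ _ (m59rpk_lift_T H),
    m59rpk_map_v (ResidueField.map (algebraMap 𝒪 H.T)) E _ _ (m59rpk_lift_k H)]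

theorem m59rpk_res_u (g0 : GQ) :
    residue H.T (m59rp_u E g0 H.r.toMonoidHom) =
      ResidueField.map (algebraMap 𝒪 H.T) (m59rp_u E g0 rb.toMonoidHom) := by
  rw [m59rpk_map_u (residue H.T) E _ _ (m59rpk_lift_T H),
    m59rpk_map_u (ResidueField.map (algebraMap 𝒪 H.T)) E _ _ (m59rpk_lift_k H)]

/-- `1 - c̄` is a unit of the residue field. -/
theorem m59rpk_one_sub_cbar_unit (hdet : H.r.toGaloisRepAdic.DetIsCyclotomic p) :
    IsUnit (1 - m59rp_c E rb.toMonoidHom) := by
  have hu := m59rpk_one_sub_c_unit H.r hdet E.s0 E.s0_ne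
  have h1 : residue H.T (1 - m59rp_c E H.r.toMonoidHom) =
      ResidueField.map (algebraMap 𝒪 H.T) (1 - m59rp_c E rb.toMonoidHom) := by
    rw [map_sub, map_sub, map_one, map_one, m59rpk_map_c (residue H.T) E _ _ (m59rpk_lift_T H),
      m59rpk_map_c (ResidueField.map (algebraMap 𝒪 H.T)) E _ _ (m59rpk_lift_k H)]
  have h2 : IsUnit (ResidueField.map (algebraMap 𝒪 H.T) (1 - m59rp_c E rb.toMonoidHom)) := by
    rw [← h1]
    exact (show IsUnit (1 - m59rp_c E H.r.toMonoidHom) from hu).map (residue H.T)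
  rw [isUnit_iff_ne_zero] at h2 ⊢
  intro h0
  exact h2 (by rw [h0, map_zero])

theorem m59rpk_res_z (hdet : H.r.toGaloisRepAdic.DetIsCyclotomic p) (σ : GQ) :
    residue H.T (m59rp_z E H.r.toMonoidHom σ) =
      ResidueField.map (algebraMap 𝒪 H.T) (m59rp_z E rb.toMonoidHom σ) := by
  rw [m59rpk_map_z (residue H.T) E _ _ (m59rpk_lift_T H)
      (m59rpk_one_sub_c_unit H.r hdet E.s0 E.s0_ne),
    m59rpk_map_z (ResidueField.map (algebraMap 𝒪 H.T)) E _ _ (m59rpk_lift_k H)
      (m59rpk_one_sub_cbar_unit E H hdet)]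

end Pair

/-- **(MEM)**. -/
theorem m59rpk_mem : m59rp_Mem_stmt := by
  intro p hp hp2 𝒪 _ _ rb A hA E g0 z0 H hdet
  refine ⟨fun hz => ?_, fun hv => ?_, fun hu => ?_⟩
  · rw [← residue_eq_zero_iff]
    unfold m59rp_a
    rw [map_sub, map_mul, map_one, m59rpk_res_z E H hdet, ← ResidueField.map_residue, ← map_mul,
      hz, map_one, sub_self]
  · rw [← residue_eq_zero_iff, m59rpk_res_v', hv, map_zero]
  · rw [← residue_eq_zero_iff, m59rpk_res_u, hu, map_zero]

end Fermat.Agent.M59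

end
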