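/-
S59 project, block [R_p-norm], cell [ORD-T] (helper24; prefix `m59rpk_`), deliverable (A1):
THE REPRESENTATION OF A HECKE–GALOIS DATUM OF LEVEL `p ∥ Nb` IS ORDINARY AT `p` as soon as the
given residual representation `ρ̄` (compatible with the eigensystem) is.

* `m59rpk_ord_residual`   : `ρ.IsOrdinaryAt p` ⟹ `(ofResidualGaloisRep ρ.residual).IsOrdinaryAt p`
  (any local ring);
* `m59rpk_ord_resBC`      : residual ordinarity passes along a field extension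
  (`ρ̄ ↦ ρ̄.baseChangeAlong φ`);
* `m59rpk_ord_res` [ORD-RES] : `H` a Hecke–Galois datum, `ρ̄` compatible with `θ`
  (`twt_Compat θ ρ̄`), `ρ̄` ordinary at `p` ⟹ the residual representation of `H.ρ` is ordinary
  at `p` (`twt_re_datum`: `H.ρ.residual ≅ ρ̄ ⊗ k_T`);
* `m59rpk_ord_top`        : the same hypotheses + `p ∥ Nb`, the primes of `Nb` in `S` ⟹
  `H.ρ.IsOrdinaryAt p` (statement S33, `s33z_main`);
* `m59rpk_ord_top_adic`   : the variant where `ρ̄ = ρ_W.residual` for an ordinary `ρ_W` over `𝒪`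
  (the Tate-curve representation of the engine, `m59e_IsTate.ord`);
* `m59rpk_ord_level`, `m59rpk_ord_level_adic`, `m59rpk_ord_level_tw` : the same for the datum
  `L.H'` of a Taylor–Wiles level `L : twe_Level B p Q` over a base of level `N`, `p ∥ N`, `Q` a
  set of primes `≡ 1 (p)`;
* `m59rpk_ord_isUrEig`    : the consumer form, `∃ z, m59p_IsUrEig L.H'.ρ P σ z` for every `σ` in
  the decomposition group (what the hypotheses `esp` / `new` of `m59p_StepP` quantify over).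
-/
import Mathlib
import Fermat.Agent.S33.Final
import Fermat.Agent.TW.Top.ResidEquiv
import Fermat.Agent.TW.Aut.Seams
import Fermat.Agent.S56.Asm.M
import Fermat.Agent.S56.Tan.Transport
import Fermat.Agent.S56.PS.BaseChange
import Fermat.Agent.M59.AtP.UrEig

set_option autoImplicit false
set_option linter.unusedSectionVars false
set_option linter.style.haveILetI false

noncomputable section

namespace Fermat.Agent.M59

open IsLocalRing TensorProduct Polynomial CuspForm Fermat.Agent.S56 Fermat.Agent.TW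
  Fermat.Agent.S33

local notation "GQ" => (AlgebraicClosure ℚ ≃ₐ[ℚ] AlgebraicClosure ℚ)
local notation "Qbar" => AlgebraicClosure ℚ

section residual

/-- the reduction of an ordinary representation is ordinary. -/
theorem m59rpk_ord_residual {A : Type} [CommRing A] [IsLocalRing A] (ρ : GaloisRepAdic A)
    {p : ℕ} (h : ρ.IsOrdinaryAt p) :
    (GaloisRepAdic.ofResidualGaloisRep ρ.residual).IsOrdinaryAt p := by
  intro P hP
  obtain ⟨L, ⟨b, rfl⟩, hD, hI⟩ := h P hP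
  refine ⟨Submodule.span (ResidueField A) {(1 : ResidueField A) ⊗ₜ[A] b 0},
    ⟨b.baseChange (ResidueField A), ?_⟩, ?_, ?_⟩
  · exact s56bc_span_eq b
  · intro σ hσ v hv
    exact s56bc_stable (b 0) (ρ.ρ σ) (hD σ hσ) v hv
  · intro σ hσ v
    exact s56bc_one_sub_mem (b 0) (ρ.ρ σ) (hI σ hσ) v

/-- residual ordinarity passes along a field extension. -/
theorem m59rpk_ord_resBC {k k' : Type} [Field k] [Field k'] (φ : k →+* k')
    (ρbar : ResidualGaloisRep k) {p : ℕ}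
    (h : (GaloisRepAdic.ofResidualGaloisRep ρbar).IsOrdinaryAt p) :
    (GaloisRepAdic.ofResidualGaloisRep (ρbar.baseChangeAlong φ)).IsOrdinaryAt p := by
  letI : Algebra k k' := φ.toAlgebra
  intro P hP
  obtain ⟨L, ⟨b, rfl⟩, hD, hI⟩ := h P hP
  refine ⟨Submodule.span k' {(1 : k') ⊗ₜ[k] b 0}, ⟨b.baseChange k', ?_⟩, ?_, ?_⟩
  · exact s56bc_span_eq b
  · intro σ hσ v hv
    exact s56bc_stable (b 0) (ρbar.ρ σ) (hD σ hσ) v hv
  · intro σ hσ v
    exact s56bc_one_sub_mem (b 0) (ρbar.ρ σ) (hI σ hσ) v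

/-- residual ordinarity passes along an equivalence of residual representations. -/
theorem m59rpk_ord_resEquiv {k : Type} [Field k] {ρ₁ ρ₂ : ResidualGaloisRep k}
    (h : ρ₁.IsEquiv ρ₂) {p : ℕ}
    (h1 : (GaloisRepAdic.ofResidualGaloisRep ρ₁).IsOrdinaryAt p) :
    (GaloisRepAdic.ofResidualGaloisRep ρ₂).IsOrdinaryAt p := by
  obtain ⟨e⟩ := h
  exact s56t_tr_isOrdinaryAt (s56am_adicEquiv e) h1

end residual

section datum

variable {p : ℕ} {N : ℕ} [NeZero N] {S : Finset ℕ}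
  {𝒪 : Type} [CommRing 𝒪] [IsDomain 𝒪] [IsDiscreteValuationRing 𝒪]
  [IsAdicComplete (maximalIdeal 𝒪) 𝒪]
  {θ : heckeAlgebra N 2 (↑S : Set ℕ) →+* ResidueField 𝒪}
  {T : Type} [CommRing T] [IsLocalRing T] [IsNoetherianRing T]
  [IsAdicComplete (maximalIdeal T) T] [Algebra 𝒪 T] [IsLocalHom (algebraMap 𝒪 T)]
  [Module.Finite 𝒪 T] [Module.Free 𝒪 T]

/-- **[ORD-RES]**: the residual representation of a Hecke–Galois datum is ordinary at `p` as soon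
as the given `ρ̄` (compatible with the eigensystem) is. -/
theorem m59rpk_ord_res (H : HeckeGaloisRepDatum N (↑S : Set ℕ) 𝒪 θ T)
    (ρbar : ResidualGaloisRep (ResidueField 𝒪)) (hcompat : twt_Compat θ ρbar)
    (hord : (GaloisRepAdic.ofResidualGaloisRep ρbar).IsOrdinaryAt p) :
    (GaloisRepAdic.ofResidualGaloisRep H.ρ.residual).IsOrdinaryAt p := by
  obtain ⟨e⟩ := twt_re_datum H ρbar hcompat
  exact m59rpk_ord_resEquiv ⟨e.symm⟩
    (m59rpk_ord_resBC (ResidueField.map (algebraMap 𝒪 T)) ρbar hord)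

/-- **[ORD-T], (A1)**: the representation of a Hecke–Galois datum of level `p ∥ N` is ordinary at
`p` as soon as the given `ρ̄` (compatible with the eigensystem) is. -/
theorem m59rpk_ord_top [Finite (ResidueField 𝒪)] [CharZero 𝒪]
    (hp : p.Prime) (hp2 : p ≠ 2) (hp𝒪 : (p : 𝒪) ∈ maximalIdeal 𝒪)
    (hN : p ∣ N ∧ ¬ p ^ 2 ∣ N) (hNS : ∀ q : ℕ, q.Prime → q ∣ N → q ∈ S)
    (H : HeckeGaloisRepDatum N (↑S : Set ℕ) 𝒪 θ T)
    (ρbar : ResidualGaloisRep (ResidueField 𝒪)) (hcompat : twt_Compat θ ρbar)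
    (hord : (GaloisRepAdic.ofResidualGaloisRep ρbar).IsOrdinaryAt p) :
    H.ρ.IsOrdinaryAt p :=
  s33z_main hp hp2 hp𝒪 hN hNS H (m59rpk_ord_res H ρbar hcompat hord)

/-- **[ORD-T], (A1), adic form**: `ρ̄ = ρ_W.residual` for an ordinary `ρ_W` over `𝒪`. -/
theorem m59rpk_ord_top_adic [Finite (ResidueField 𝒪)] [CharZero 𝒪]
    (hp : p.Prime) (hp2 : p ≠ 2) (hp𝒪 : (p : 𝒪) ∈ maximalIdeal 𝒪)
    (hN : p ∣ N ∧ ¬ p ^ 2 ∣ N) (hNS : ∀ q : ℕ, q.Prime → q ∣ N → q ∈ S)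
    (H : HeckeGaloisRepDatum N (↑S : Set ℕ) 𝒪 θ T)
    (ρW : GaloisRepAdic 𝒪) (hcompat : twt_Compat θ ρW.residual)
    (hord : ρW.IsOrdinaryAt p) : H.ρ.IsOrdinaryAt p :=
  m59rpk_ord_top hp hp2 hp𝒪 hN hNS H ρW.residual hcompat (m59rpk_ord_residual ρW hord)

end datum

section level

variable {p : ℕ} {N : ℕ} [NeZero N] {S : Finset ℕ}
  {𝒪 : Type} [CommRing 𝒪] [IsDomain 𝒪] [IsDiscreteValuationRing 𝒪]
  [IsAdicComplete (maximalIdeal 𝒪) 𝒪]
  {θ : heckeAlgebra N 2 (↑S : Set ℕ) →+* ResidueField 𝒪}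

/-- `p ∥ N`, `Q` a set of primes `≡ 1 (p)` ⟹ `p ∥ N ∏_{t ∈ Q} t²`. -/
theorem m59rpk_nbal_exact (hp : p.Prime) (hN : p ∣ N ∧ ¬ p ^ 2 ∣ N) (Q : Finset ℕ)
    (hQ : ∀ t ∈ Q, t.Prime ∧ t % p = 1) :
    p ∣ twe_Nbal N Q ∅ ∧ ¬ p ^ 2 ∣ twe_Nbal N Q ∅ := by
  have hnb : twe_Nbal N Q ∅ = N * ∏ t ∈ Q, t ^ 2 := by
    unfold twe_Nbal
    rw [Finset.prod_empty, mul_one]
  rw [hnb]
  refine ⟨Dvd.dvd.mul_right hN.1 _, fun h => hN.2 ?_⟩
  have hcop : Nat.Coprime (p ^ 2) (∏ t ∈ Q, t ^ 2) := by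
    refine Nat.Coprime.prod_right fun t ht => ?_
    refine Nat.Coprime.pow _ _ ?_
    rw [Nat.Prime.coprime_iff_not_dvd hp]
    intro hpt
    have h1 := (hQ t ht).2
    rw [Nat.mod_eq_zero_of_dvd hpt] at h1
    exact zero_ne_one h1
  exact hcop.dvd_of_dvd_mul_right h

/-- the primes of `N ∏_{t ∈ Q} t²` lie in `S ∪ Q`. -/
theorem m59rpk_nbal_primes (hNS : ∀ q : ℕ, q.Prime → q ∣ N → q ∈ S) (Q : Finset ℕ)
    (hQ : ∀ t ∈ Q, t.Prime) :
    ∀ q : ℕ, q.Prime → q ∣ twe_Nbal N Q ∅ → q ∈ S ∪ Q := by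
  intro q hq hdvd
  have hnb : twe_Nbal N Q ∅ = N * ∏ t ∈ Q, t ^ 2 := by
    unfold twe_Nbal
    rw [Finset.prod_empty, mul_one]
  rw [hnb] at hdvd
  rcases (Nat.Prime.dvd_mul hq).mp hdvd with h | h
  · exact Finset.mem_union_left _ (hNS q hq h)
  · obtain ⟨t, ht, hqt⟩ := (Prime.dvd_finsetProd_iff hq.prime _).mp h
    have hqt' : q ∣ t := hq.dvd_of_dvd_pow hqt
    have : q = t := (Nat.prime_dvd_prime_iff_eq hq (hQ t ht)).mp hqt'
    exact Finset.mem_union_right _ (this ▸ ht)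

variable {B : twe_Base 𝒪 N S θ} {Q : Finset ℕ} [NeZero (twe_Nbal N Q ∅)]

/-- the eigensystem of a Taylor–Wiles level is compatible with the `ρ̄` of the base. -/
theorem m59rpk_compat_level (L : twe_Level B p Q)
    (ρbar : ResidualGaloisRep (ResidueField 𝒪)) (hcompat : twt_Compat θ ρbar) :
    twt_Compat L.θ' ρbar := by
  intro ℓ hℓ hℓN hℓS A hA σ hσ
  have h3 : ¬ ℓ ∣ N := fun h => hℓN (by
    unfold twe_Nbal
    exact Dvd.dvd.mul_right (Dvd.dvd.mul_right h _) _)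
  have h4 : ℓ ∉ (↑S : Set ℕ) := fun h => hℓS (by
    rw [Finset.coe_union]
    exact Set.mem_union_left _ h)
  rw [L.θ'_eq ℓ hℓ hℓN hℓS h3 h4]
  exact hcompat ℓ hℓ h3 h4 A hA σ hσ

/-- **[ORD-T], (A1), level form**: the representation of the datum of a Taylor–Wiles level over a
base of level `p ∥ N` is ordinary at `p`. -/
theorem m59rpk_ord_level [Finite (ResidueField 𝒪)] [CharZero 𝒪]
    (hp : p.Prime) (hp2 : p ≠ 2) (hp𝒪 : (p : 𝒪) ∈ maximalIdeal 𝒪)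
    (hN : p ∣ N ∧ ¬ p ^ 2 ∣ N) (hNS : ∀ q : ℕ, q.Prime → q ∣ N → q ∈ S)
    (hQ : ∀ t ∈ Q, t.Prime ∧ t % p = 1) (L : twe_Level B p Q)
    (ρbar : ResidualGaloisRep (ResidueField 𝒪)) (hcompat : twt_Compat θ ρbar)
    (hord : (GaloisRepAdic.ofResidualGaloisRep ρbar).IsOrdinaryAt p) :
    L.H'.ρ.IsOrdinaryAt p :=
  m59rpk_ord_top hp hp2 hp𝒪 (m59rpk_nbal_exact hp hN Q hQ)
    (m59rpk_nbal_primes hNS Q fun t ht => (hQ t ht).1) L.H' ρbar
    (m59rpk_compat_level L ρbar hcompat) hord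

/-- the same with the hypothesis `twe_IsTWSet θ p Q` of the chain statements. -/
theorem m59rpk_ord_level_tw [Finite (ResidueField 𝒪)] [CharZero 𝒪]
    (hp : p.Prime) (hp2 : p ≠ 2) (hp𝒪 : (p : 𝒪) ∈ maximalIdeal 𝒪)
    (hN : p ∣ N ∧ ¬ p ^ 2 ∣ N) (hNS : ∀ q : ℕ, q.Prime → q ∣ N → q ∈ S)
    (hQ : twe_IsTWSet θ p Q) (L : twe_Level B p Q)
    (ρbar : ResidualGaloisRep (ResidueField 𝒪)) (hcompat : twt_Compat θ ρbar)
    (hord : (GaloisRepAdic.ofResidualGaloisRep ρbar).IsOrdinaryAt p) :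
    L.H'.ρ.IsOrdinaryAt p :=
  m59rpk_ord_level hp hp2 hp𝒪 hN hNS (fun t ht => ⟨(hQ t ht).1, (hQ t ht).2.1⟩) L ρbar hcompat
    hord

/-- the adic form: `ρ̄ = ρ_W.residual`, `ρ_W` ordinary over `𝒪`. -/
theorem m59rpk_ord_level_adic [Finite (ResidueField 𝒪)] [CharZero 𝒪]
    (hp : p.Prime) (hp2 : p ≠ 2) (hp𝒪 : (p : 𝒪) ∈ maximalIdeal 𝒪)
    (hN : p ∣ N ∧ ¬ p ^ 2 ∣ N) (hNS : ∀ q : ℕ, q.Prime → q ∣ N → q ∈ S)
    (hQ : ∀ t ∈ Q, t.Prime ∧ t % p = 1) (L : twe_Level B p Q)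
    (ρW : GaloisRepAdic 𝒪) (hcompat : twt_Compat θ ρW.residual)
    (hord : ρW.IsOrdinaryAt p) : L.H'.ρ.IsOrdinaryAt p :=
  m59rpk_ord_level hp hp2 hp𝒪 hN hNS hQ L ρW.residual hcompat (m59rpk_ord_residual ρW hord)

/-- **consumer form**: every element of the decomposition group at `P ∣ p` has an eigenvalue on
the unramified quotient line of `L.H'.ρ`. -/
theorem m59rpk_ord_isUrEig [Finite (ResidueField 𝒪)] [CharZero 𝒪]
    (hp : p.Prime) (hp2 : p ≠ 2) (hp𝒪 : (p : 𝒪) ∈ maximalIdeal 𝒪)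
    (hN : p ∣ N ∧ ¬ p ^ 2 ∣ N) (hNS : ∀ q : ℕ, q.Prime → q ∣ N → q ∈ S)
    (hQ : ∀ t ∈ Q, t.Prime ∧ t % p = 1) (L : twe_Level B p Q)
    (ρbar : ResidualGaloisRep (ResidueField 𝒪)) (hcompat : twt_Compat θ ρbar)
    (hord : (GaloisRepAdic.ofResidualGaloisRep ρbar).IsOrdinaryAt p)
    (P : ValuationSubring Qbar) (hP : P.LiesOverPrime p) (σ : GQ)
    (hσ : σ ∈ P.decompositionSubgroup ℚ) : ∃ z : L.T', m59p_IsUrEig L.H'.ρ P σ z :=
  m59p_isUrEig_of_ord L.H'.ρ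
    (m59rpk_ord_level hp hp2 hp𝒪 hN hNS hQ L ρbar hcompat hord) P hP σ hσ

end level

end Fermat.Agent.M59
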