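/-
M59 / [R_p-norm], cell (R1) (helper24; prefix `m59rpk_`), part 2: THE RELATION `(z² - 1) · v = 0`.

`R` a local ring with `R / 𝔪ⁿ` finite and `⋂ 𝔪ⁿ = 0` (e.g. noetherian with finite residue field:
`twds_finite_quot_pow`, Krull), `ρ : GaloisRepAdic R` with cyclotomic determinant (Prelude
`DetIsCyclotomic p`), `P` a valuation subring of `Q̄` over `p`, `b` a basis of `ρ.V` ORDINARY at `P`:
`R ∙ b 0` is `D_P`-stable and `I_P` acts trivially on `V / R ∙ b 0` (the two clauses of the Prelude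
`IsOrdinaryAt`).  `τ ∈ I_P` with the FIRST clause of (K3) (`m59rpk_tauV`): `τ` fixes every `γ` with
`γ, γ⁻¹ ∈ P` and `γ ^ p ^ N` inertia-fixed.  With

  `v := b.repr (ρ τ (b 1)) 0`   (upper right entry of `ρ τ`),
  `z := b.repr (ρ φ (b 1)) 1`   (lower right entry of `ρ φ`, the unramified quotient character),

**`m59rpk_R1`** : for EVERY `φ ∈ D_P` :  `(z ^ 2 - 1) * v = 0`.

Proof: the entries in the basis `b` : `ρ σ = (x σ, β σ; 0, z σ)` on `D_P`, `z = 1` on `I_P`, `x z = det`;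
for every character `ψ` of the finite group `R / 𝔪ⁿ` the map `s ↦ ψ (β s)` is a finite-level
multiplicative cocycle on `I_P` with values in `μ_{pⁿ}`; (CONJ) (`m59rpk_conj`) gives
`ψ (β (φ τ φ⁻¹)) = φ (ψ (β τ)) = ψ (a · β τ)`, `a` the cyclotomic exponent of `φ` mod `pⁿ`, hence
`β (φ τ φ⁻¹) = det ρ φ · v`; the matrix identity `ρ (φ τ φ⁻¹) ρ φ = ρ φ ρ τ` gives
`z φ · β (φ τ φ⁻¹) = x φ · v`.  So `x φ (z φ² - 1) v = 0` and `x φ` is a unit.
-/
import Mathlib
import Fermat.Prelude.Def_GaloisRep_LocalConditions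
import Fermat.Agent.M59.Rp.KumConj

set_option autoImplicit false
set_option linter.unusedSectionVars false
set_option linter.style.haveILetI false
set_option linter.unusedVariables false

noncomputable section

namespace Fermat.Agent.M59

open IsLocalRing

local notation "Qb" => AlgebraicClosure ℚ
local notation "GQ" => (AlgebraicClosure ℚ ≃ₐ[ℚ] AlgebraicClosure ℚ)

section R1

/-- the mod `p ^ n` cyclotomic exponent of `σ` exists -/
theorem m59rpk_exists_cyc (p : ℕ) [Fact p.Prime] (σ : GQ) (n : ℕ) :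
    ∃ a : ℕ, ∀ μ : Qb, μ ^ p ^ n = 1 → σ μ = μ ^ a :=
  ⟨_, fun μ hμ =>
    cyclotomicCharacter.spec p (MulSemiringAction.toRingAut GQ (AlgebraicClosure ℚ) σ) μ hμ⟩

variable {R : Type} [CommRing R] [IsLocalRing R]

/-- coefficients of elements of `J • ⊤` lie in `J`. -/
theorem m59rpk_repr_mem {V : Type} [AddCommGroup V] [Module R V] {ι : Type} (b : Module.Basis ι R V)
    (J : Ideal R) {w : V} (hw : w ∈ J • (⊤ : Submodule R V)) (i : ι) : b.repr w i ∈ J := by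
  refine Submodule.smul_induction_on (p := fun w => b.repr w i ∈ J) hw ?_ ?_
  · intro a ha x _
    rw [map_smul, Finsupp.smul_apply, smul_eq_mul]
    exact J.mul_mem_right _ ha
  · intro x y hx hy
    rw [map_add, Finsupp.add_apply]
    exact J.add_mem hx hy

/-- **(R1)**, entry form. -/
theorem m59rpk_R1 (hfin : ∀ n : ℕ, Finite (R ⧸ maximalIdeal R ^ n))
    (hsep : ∀ x : R, (∀ n : ℕ, x ∈ maximalIdeal R ^ n) → x = 0)
    (p : ℕ) [hp : Fact p.Prime] (ρ : GaloisRepAdic R) (hdet : ρ.DetIsCyclotomic p)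
    (P : ValuationSubring Qb) (hP : P.LiesOverPrime p)
    (b : Module.Basis (Fin 2) R ρ.V)
    (hstab : ∀ σ ∈ P.decompositionSubgroup ℚ, ρ.ρ σ (b 0) ∈ Submodule.span R {b 0})
    (hin : ∀ σ ∈ P.inertiaSubgroupIn ℚ, ∀ w : ρ.V, ρ.ρ σ w - w ∈ Submodule.span R {b 0})
    (τ : GQ) (hτI : τ ∈ P.inertiaSubgroupIn ℚ)
    (hτ : ∀ (N : ℕ) (γ : Qb), γ ∈ P → γ⁻¹ ∈ P →
      (∀ s ∈ P.inertiaSubgroupIn ℚ, s (γ ^ p ^ N) = γ ^ p ^ N) → τ γ = γ)
    (φ : GQ) (hφ : φ ∈ P.decompositionSubgroup ℚ) :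
    (b.repr (ρ.ρ φ (b 1)) 1 ^ 2 - 1) * b.repr (ρ.ρ τ (b 1)) 0 = 0 := by
  classical
  have hp0 : p ≠ 0 := hp.out.ne_zero
  -- the matrices
  set M : GQ → Matrix (Fin 2) (Fin 2) R := fun σ => LinearMap.toMatrix b b (ρ.ρ σ) with hM
  have hMapp : ∀ σ i j, M σ i j = b.repr (ρ.ρ σ (b j)) i := fun σ i j =>
    LinearMap.toMatrix_apply b b (ρ.ρ σ) i j
  have hMmul : ∀ σ σ', M (σ * σ') = M σ * M σ' := by
    intro σ σ'
    show LinearMap.toMatrix b b (ρ.ρ (σ * σ')) = _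
    rw [map_mul]
    exact LinearMap.toMatrix_mul b _ _
  have hM1 : M 1 = 1 := by
    show LinearMap.toMatrix b b (ρ.ρ 1) = _
    rw [map_one]
    exact LinearMap.toMatrix_one b
  have hmul : ∀ σ σ' i j, M (σ * σ') i j = M σ i 0 * M σ' 0 j + M σ i 1 * M σ' 1 j := by
    intro σ σ' i j
    rw [hMmul, Matrix.mul_apply, Fin.sum_univ_two]
  have hspan : ∀ w : ρ.V, w ∈ Submodule.span R {b 0} → b.repr w 1 = 0 := by
    intro w hw
    obtain ⟨a, rfl⟩ := Submodule.mem_span_singleton.1 hw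
    rw [map_smul, Module.Basis.repr_self, Finsupp.smul_apply, Finsupp.single_apply]
    simp
  have hD10 : ∀ σ ∈ P.decompositionSubgroup ℚ, M σ 1 0 = 0 := fun σ hσ => by
    rw [hMapp]
    exact hspan _ (hstab σ hσ)
  have hI10 : ∀ s ∈ P.inertiaSubgroupIn ℚ, M s 1 0 = 0 := by
    intro s hs
    have h := hspan _ (hin s hs (b 0))
    rw [map_sub, Finsupp.sub_apply, Module.Basis.repr_self, Finsupp.single_apply] at h
    rw [hMapp]
    simpa using h
  have hI11 : ∀ s ∈ P.inertiaSubgroupIn ℚ, M s 1 1 = 1 := by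
    intro s hs
    have h := hspan _ (hin s hs (b 1))
    rw [map_sub, Finsupp.sub_apply, Module.Basis.repr_self, Finsupp.single_apply] at h
    rw [hMapp]
    simpa [sub_eq_zero] using h
  have hdetM : ∀ σ, M σ 1 0 = 0 → LinearMap.det (ρ.ρ σ) = M σ 0 0 * M σ 1 1 := by
    intro σ h
    rw [← LinearMap.det_toMatrix b, Matrix.det_fin_two]
    show M σ 0 0 * M σ 1 1 - M σ 0 1 * M σ 1 0 = _
    rw [h, mul_zero, sub_zero]
  -- `p ^ n ∈ 𝔪 ^ n`
  have hpn : ∀ n : ℕ, Ideal.span {((p ^ n : ℕ) : R)} ≤ maximalIdeal R ^ n := by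
    intro n
    rw [Ideal.span_le, Set.singleton_subset_iff, Nat.cast_pow]
    exact Ideal.pow_mem_pow hdet.1 n
  have hcyc : ∀ (σ : GQ) (n a : ℕ), (∀ μ : Qb, μ ^ p ^ n = 1 → σ μ = μ ^ a) → M σ 1 0 = 0 →
      M σ 0 0 * M σ 1 1 - (a : R) ∈ maximalIdeal R ^ n := by
    intro σ n a ha h
    rw [← hdetM σ h]
    exact hpn n (hdet.2 n σ a ha)
  -- `τ` and `σ = φ τ φ⁻¹` fix the `p`-power roots of unity
  have hτμ : ∀ (n : ℕ) (μ : Qb), μ ^ p ^ n = 1 → τ μ = μ := by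
    intro n μ hμ
    have hn0 : p ^ n ≠ 0 := pow_ne_zero _ hp0
    refine hτ n μ (m59rpk_mem_of_pow_mem P hn0 (by rw [hμ]; exact P.one_mem))
      (m59rpk_mem_of_pow_mem P hn0 (by rw [inv_pow, hμ, inv_one]; exact P.one_mem)) ?_
    intro s _
    rw [hμ, map_one]
  set σ : GQ := φ * τ * φ⁻¹ with hσ
  have hφinv : φ⁻¹ ∈ P.decompositionSubgroup ℚ := inv_mem hφ
  have hσI : σ ∈ P.inertiaSubgroupIn ℚ := by
    have := Fermat.Agent.S35.s35d_conj_mem_inertia P hφinv hτI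
    rwa [inv_inv] at this
  have hσμ : ∀ (n : ℕ) (μ : Qb), μ ^ p ^ n = 1 → σ μ = μ := by
    intro n μ hμ
    have h1 : (φ⁻¹ μ) ^ p ^ n = 1 := by rw [← map_pow, hμ, map_one]
    have h2 : σ μ = φ (τ (φ⁻¹ μ)) := by
      simp only [hσ, AlgEquiv.mul_apply]
    rw [h2, hτμ n _ h1]
    simp only [AlgEquiv.aut_inv]
    rw [AlgEquiv.apply_symm_apply]
  have hxσ : M σ 0 0 = 1 := by
    rw [← sub_eq_zero]
    refine hsep _ fun n => ?_
    have := hcyc σ n 1 (fun μ hμ => by rw [pow_one]; exact hσμ n μ hμ) (hI10 σ hσI)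
    rwa [hI11 σ hσI, mul_one, Nat.cast_one] at this
  -- the key congruence
  have key : ∀ n : ℕ, M σ 0 1 - M φ 0 0 * M φ 1 1 * M τ 0 1 ∈ maximalIdeal R ^ n := by
    intro n
    set J : Ideal R := maximalIdeal R ^ n with hJ
    obtain ⟨a, ha⟩ := m59rpk_exists_cyc p φ n
    have h1 : M φ 0 0 * M φ 1 1 - (a : R) ∈ J := hcyc φ n a ha (hD10 φ hφ)
    suffices h2 : M σ 0 1 - (a : R) * M τ 0 1 ∈ J by
      have h3 : M σ 0 1 - M φ 0 0 * M φ 1 1 * M τ 0 1 =
          (M σ 0 1 - (a : R) * M τ 0 1) - (M φ 0 0 * M φ 1 1 - (a : R)) * M τ 0 1 := by ring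
      rw [h3]
      exact J.sub_mem h2 (J.mul_mem_right _ h1)
    by_contra hcon
    haveI : Finite (R ⧸ J) := hfin n
    have hg : Multiplicative.ofAdd (Ideal.Quotient.mk J (M σ 0 1 - (a : R) * M τ 0 1)) ≠ 1 := by
      intro h
      apply hcon
      rw [← Ideal.Quotient.eq_zero_iff_mem]
      exact Multiplicative.ofAdd.injective h
    haveI : NeZero (Monoid.exponent (Multiplicative (R ⧸ J))) :=
      ⟨Monoid.exponent_ne_zero_of_finite⟩
    obtain ⟨ψ, hψ⟩ := CommGroup.exists_apply_ne_one_of_hasEnoughRootsOfUnity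
      (Multiplicative (R ⧸ J)) Qb hg
    -- the character on `R`
    set e : R → Qbˣ := fun r => ψ (Multiplicative.ofAdd (Ideal.Quotient.mk J r)) with he
    have he_add : ∀ r r' : R, e (r + r') = e r * e r' := by
      intro r r'
      show ψ (Multiplicative.ofAdd (Ideal.Quotient.mk J (r + r'))) = _
      rw [map_add, ofAdd_add, map_mul]
    have he_J : ∀ r : R, r ∈ J → e r = 1 := by
      intro r hr
      show ψ (Multiplicative.ofAdd (Ideal.Quotient.mk J r)) = 1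
      rw [Ideal.Quotient.eq_zero_iff_mem.2 hr, ofAdd_zero, map_one]
    have he_congr : ∀ r r' : R, r - r' ∈ J → e r = e r' := by
      intro r r' h
      have : r = (r - r') + r' := by ring
      rw [this, he_add, he_J _ h, one_mul]
    have he_nat : ∀ (k : ℕ) (r : R), e ((k : R) * r) = e r ^ k := by
      intro k r
      show ψ (Multiplicative.ofAdd (Ideal.Quotient.mk J ((k : R) * r))) = _
      rw [← nsmul_eq_mul, map_nsmul, ofAdd_nsmul, map_pow]
    have he_pow : ∀ r : R, e r ^ p ^ n = 1 := by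
      intro r
      rw [← he_nat]
      apply he_J
      exact J.mul_mem_right _ (hpn n (Ideal.subset_span rfl))
    -- the cocycle
    set c : GQ → Qb := fun s => ((e (M s 0 1) : Qbˣ) : Qb) with hc
    have hcn : ∀ s ∈ P.inertiaSubgroupIn ℚ, c s ^ p ^ n = 1 := by
      intro s _
      show ((e (M s 0 1) : Qbˣ) : Qb) ^ p ^ n = 1
      rw [← Units.val_pow_eq_pow_val, he_pow, Units.val_one]
    have hcn' : ∀ s : GQ, c s ^ p ^ n = 1 := by
      intro s
      show ((e (M s 0 1) : Qbˣ) : Qb) ^ p ^ n = 1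
      rw [← Units.val_pow_eq_pow_val, he_pow, Units.val_one]
    have hcc : ∀ s ∈ P.inertiaSubgroupIn ℚ, ∀ t ∈ P.inertiaSubgroupIn ℚ,
        c (s * t) = c s * s (c t) := by
      intro s hs t ht
      obtain ⟨as, has⟩ := m59rpk_exists_cyc p s n
      have h5 : M s 0 0 - (as : R) ∈ J := by
        have := hcyc s n as has (hI10 s hs)
        rwa [hI11 s hs, mul_one] at this
      have h6 : e (M s 0 0 * M t 0 1) = e (M t 0 1) ^ as := by
        rw [← he_nat]
        apply he_congr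
        rw [← sub_mul]
        exact J.mul_mem_right _ h5
      show ((e (M (s * t) 0 1) : Qbˣ) : Qb) = ((e (M s 0 1) : Qbˣ) : Qb) * s (c t)
      rw [has (c t) (hcn' t), hmul, hI11 t ht, mul_one, he_add, h6, Units.val_mul,
        Units.val_pow_eq_pow_val, mul_comm]
    obtain ⟨L, hLfin, hL⟩ := ρ.isAdicContinuous n
    haveI : FiniteDimensional ℚ L := hLfin
    have hF : ∀ s ∈ P.inertiaSubgroupIn ℚ, ∀ u ∈ P.inertiaSubgroupIn ℚ, u ∈ L.fixingSubgroup →
        c (s * u) = c s := by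
      intro s hs u hu huL
      have h7 : M u 0 1 ∈ J := by
        have h8 := m59rpk_repr_mem b J (hL u
          (fun x hx => (IntermediateField.mem_fixingSubgroup_iff L u).1 huL x hx) (b 1)) 0
        rw [map_sub, Finsupp.sub_apply, Module.Basis.repr_self, Finsupp.single_apply] at h8
        rw [hMapp]
        simpa using h8
      show ((e (M (s * u) 0 1) : Qbˣ) : Qb) = ((e (M s 0 1) : Qbˣ) : Qb)
      rw [hmul, hI11 u hu, mul_one, he_add, he_J _ (J.mul_mem_left _ h7), one_mul]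
    have hconj := m59rpk_conj P p hP τ hτI n (hτ n) c hcn hcc L hF φ hφ
    -- read off
    have h9 : ((e (M σ 0 1) : Qbˣ) : Qb) = ((e ((a : R) * M τ 0 1) : Qbˣ) : Qb) := by
      have h10 : c σ = φ (c τ) := hconj
      rw [ha (c τ) (hcn' τ)] at h10
      show c σ = _
      rw [h10, he_nat, Units.val_pow_eq_pow_val]
    have h11 : e (M σ 0 1) = e ((a : R) * M τ 0 1) := Units.ext h9
    have h12 : M σ 0 1 = (M σ 0 1 - (a : R) * M τ 0 1) + (a : R) * M τ 0 1 := by ring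
    rw [h12, he_add] at h11
    have h13 : e (M σ 0 1 - (a : R) * M τ 0 1) = 1 := by
      have := mul_right_cancel (b := e ((a : R) * M τ 0 1)) (h11.trans (one_mul _).symm)
      exact this
    exact hψ h13
  have hβσ : M σ 0 1 = M φ 0 0 * M φ 1 1 * M τ 0 1 := by
    rw [← sub_eq_zero]
    exact hsep _ key
  -- the matrix identity `σ φ = φ τ`
  have hσφ : σ * φ = φ * τ := by
    rw [hσ]
    group
  have h14 : M σ 0 1 * M φ 1 1 = M φ 0 0 * M τ 0 1 := by
    have h15 := hmul σ φ 0 1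
    rw [hσφ, hmul φ τ 0 1, hxσ, one_mul, hI11 τ hτI, mul_one] at h15
    have h16 : M φ 0 0 * M τ 0 1 + M φ 0 1 = M φ 0 1 + M σ 0 1 * M φ 1 1 := h15
    have h17 : M φ 0 0 * M τ 0 1 = M σ 0 1 * M φ 1 1 := by
      have := congrArg (fun t => t - M φ 0 1) h16
      simpa using this
    exact h17.symm
  -- `x φ` is a unit
  have hunit : M φ⁻¹ 0 0 * M φ 0 0 = 1 := by
    have h18 := hmul φ⁻¹ φ 0 0
    rw [inv_mul_cancel, hM1, hD10 φ hφ, mul_zero, add_zero] at h18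
    rw [← h18]
    simp
  have h19 : M φ 0 0 * ((M φ 1 1 ^ 2 - 1) * M τ 0 1) = 0 := by
    rw [hβσ] at h14
    have : M φ 0 0 * ((M φ 1 1 ^ 2 - 1) * M τ 0 1) =
        M φ 0 0 * M φ 1 1 * M τ 0 1 * M φ 1 1 - M φ 0 0 * M τ 0 1 := by ring
    rw [this, h14, sub_self]
  have h20 : (M φ 1 1 ^ 2 - 1) * M τ 0 1 = 0 := by
    have := congrArg (fun t => M φ⁻¹ 0 0 * t) h19
    simp only [mul_zero] at this
    rwa [← mul_assoc, hunit, one_mul] at this
  rw [← hMapp, ← hMapp]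
  exact h20

/-- **(R1)**, with the entries named: `ρ τ (b 1) = b 1 + v • b 0` and `ρ φ (b 1) ≡ z • b 1` modulo the
line `R ∙ b 0` (the shape of `m59p_IsUrEig`). -/
theorem m59rpk_R1_named (hfin : ∀ n : ℕ, Finite (R ⧸ maximalIdeal R ^ n))
    (hsep : ∀ x : R, (∀ n : ℕ, x ∈ maximalIdeal R ^ n) → x = 0)
    (p : ℕ) [hp : Fact p.Prime] (ρ : GaloisRepAdic R) (hdet : ρ.DetIsCyclotomic p)
    (P : ValuationSubring Qb) (hP : P.LiesOverPrime p)
    (b : Module.Basis (Fin 2) R ρ.V)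
    (hstab : ∀ σ ∈ P.decompositionSubgroup ℚ, ρ.ρ σ (b 0) ∈ Submodule.span R {b 0})
    (hin : ∀ σ ∈ P.inertiaSubgroupIn ℚ, ∀ w : ρ.V, ρ.ρ σ w - w ∈ Submodule.span R {b 0})
    (τ : GQ) (hτI : τ ∈ P.inertiaSubgroupIn ℚ)
    (hτ : ∀ (N : ℕ) (γ : Qb), γ ∈ P → γ⁻¹ ∈ P →
      (∀ s ∈ P.inertiaSubgroupIn ℚ, s (γ ^ p ^ N) = γ ^ p ^ N) → τ γ = γ)
    (v : R) (hv : ρ.ρ τ (b 1) = b 1 + v • b 0)
    (φ : GQ) (hφ : φ ∈ P.decompositionSubgroup ℚ)
    (z : R) (hz : ρ.ρ φ (b 1) - z • b 1 ∈ Submodule.span R {b 0}) :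
    (z ^ 2 - 1) * v = 0 := by
  have h := m59rpk_R1 hfin hsep p ρ hdet P hP b hstab hin τ hτI hτ φ hφ
  have h1 : b.repr (ρ.ρ τ (b 1)) 0 = v := by
    rw [hv, map_add, map_smul, Module.Basis.repr_self, Module.Basis.repr_self, Finsupp.add_apply,
      Finsupp.smul_apply, Finsupp.single_apply, Finsupp.single_apply]
    simp
  have h2 : b.repr (ρ.ρ φ (b 1)) 1 = z := by
    obtain ⟨a, ha⟩ := Submodule.mem_span_singleton.1 hz
    have h3 : ρ.ρ φ (b 1) = z • b 1 + a • b 0 := by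
      rw [ha]
      abel
    rw [h3, map_add, map_smul, map_smul, Module.Basis.repr_self, Module.Basis.repr_self,
      Finsupp.add_apply, Finsupp.smul_apply, Finsupp.smul_apply, Finsupp.single_apply,
      Finsupp.single_apply]
    simp
  rw [h1, h2] at h
  exact h

end R1

end Fermat.Agent.M59
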