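/-
M59 / [R_p-norm], cell (R1), TRACE FORM (helper24; prefix `m59rpk_`).

`m59rpk_R1_trace : m59rp_R1_stmt` : `T` local, separated, with finite quotients, `r` framed over `T`,
ordinary at `p`, cyclotomic determinant, `E : m59rp_Elts p A`, `σ ∈ D_A`, `g ∈ G_ℚ` :
  `(z(σ)² - 1) (tr r(g τ_v) - tr r(g)) = 0`.
In an ordinary basis at `A` : `z(σ) = δ(σ)` (`m59rpk_z_entry`), `r(τ_v) = (1, β; 0, 1)`
(`det r(τ_v) = 1` by separatedness, `τ_v` fixes `μ_{p^∞}`), so `tr r(g τ_v) - tr r(g) = γ(g) β(τ_v)`,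
and `(δ(σ)² - 1) β(τ_v) = 0` is the entry form `m59rpk_R1`.
-/
import Mathlib
import Fermat.Agent.M59.Rp.ZUr
import Fermat.Agent.M59.Rp.KumR1

set_option autoImplicit false
set_option linter.unusedSectionVars false
set_option linter.unusedVariables false
set_option linter.style.haveILetI false

noncomputable section

namespace Fermat.Agent.M59

open IsLocalRing Fermat.Agent.S53

local notation "Qb" => AlgebraicClosure ℚ
local notation "GQ" => (AlgebraicClosure ℚ ≃ₐ[ℚ] AlgebraicClosure ℚ)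

/-- an element fixing `μ_{p^∞}` has determinant `1` (separatedness). -/
theorem m59rpk_det_eq_one {T : Type} [CommRing T] [IsLocalRing T]
    (hsep : ∀ x : T, (∀ n : ℕ, x ∈ maximalIdeal T ^ n) → x = 0)
    {p : ℕ} (ρ : GaloisRepAdic T) (hdet : ρ.DetIsCyclotomic p) (τ : GQ)
    (hτ : ∀ (N : ℕ) (μ : Qb), μ ^ p ^ N = 1 → τ μ = μ) : LinearMap.det (ρ.ρ τ) = 1 := by
  obtain ⟨hpm, hcyc⟩ := hdet
  have h : LinearMap.det (ρ.ρ τ) - 1 = 0 := by
    refine hsep _ fun n => ?_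
    have h1 := hcyc n τ 1 (fun μ hμ => by rw [hτ n μ hμ, pow_one])
    rw [Nat.cast_one] at h1
    obtain ⟨c, hc⟩ := Ideal.mem_span_singleton.1 h1
    rw [hc, Nat.cast_pow]
    exact Ideal.mul_mem_right _ _ (Ideal.pow_mem_pow hpm n)
  exact sub_eq_zero.1 h

/-- `τ_v` fixes `μ_{p^∞}`. -/
theorem m59rpk_tv_fix_mu {p : ℕ} [hp : Fact p.Prime] {A : ValuationSubring Qb} (E : m59rp_Elts p A)
    (N : ℕ) (μ : Qb) (hμ : μ ^ p ^ N = 1) : E.tv μ = μ := by
  have hp0 : p ≠ 0 := hp.out.ne_zero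
  have hN : p ^ N ≠ 0 := pow_ne_zero _ hp0
  have hμA : μ ∈ A := m59rpk_mem_of_pow_mem A hN (by rw [hμ]; exact A.one_mem)
  have hμiA : μ⁻¹ ∈ A := m59rpk_mem_of_pow_mem A hN (by rw [inv_pow, hμ, inv_one]; exact A.one_mem)
  refine E.tv_fix N μ hμA hμiA fun s _ => ?_
  rw [hμ, map_one]

/-- **(R1), trace form**. -/
theorem m59rpk_R1_trace : m59rp_R1_stmt := by
  intro p hp hp2 A hA E T _ _ hfin hsep r hdet hord σ hσ g
  obtain ⟨L, ⟨b, rfl⟩, hstab, hin⟩ := hord A hA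
  have hstab' : ∀ σ ∈ A.decompositionSubgroup ℚ,
      r.toGaloisRepAdic.ρ σ (b 0) ∈ Submodule.span T {b 0} := fun σ hσ =>
    hstab σ hσ _ (Submodule.mem_span_singleton_self _)
  have hR1 := m59rpk_R1 hfin hsep p r.toGaloisRepAdic hdet A hA b hstab' hin E.tv E.tv_mem
    E.tv_fix σ hσ
  rw [← m59rpk_N_apply, ← m59rpk_N_apply] at hR1
  rw [m59rpk_z_entry r E hdet b hstab hin hσ]
  -- the matrix of `τ_v`
  have h10 := m59rpk_N_I10 r.toGaloisRepAdic b A hin E.tv_mem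
  have h11 := m59rpk_N_I11 r.toGaloisRepAdic b A hin E.tv_mem
  have hd : (m59rpk_N r.toGaloisRepAdic b E.tv).det = 1 := by
    rw [m59rpk_N_det]
    exact m59rpk_det_eq_one hsep r.toGaloisRepAdic hdet E.tv (m59rpk_tv_fix_mu E)
  have h00 : m59rpk_N r.toGaloisRepAdic b E.tv 0 0 = 1 := by
    rw [Matrix.det_fin_two, h10, h11] at hd
    simpa using hd
  have htr : (r (g * E.tv)).trace - (r g).trace =
      m59rpk_N r.toGaloisRepAdic b g 1 0 * m59rpk_N r.toGaloisRepAdic b E.tv 0 1 := by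
    rw [← m59rpk_fr_trace r b, ← m59rpk_fr_trace r b, m59rpk_trace_eq, m59rpk_trace_eq,
      m59rpk_N_mul_apply, m59rpk_N_mul_apply, h10, h11, h00]
    ring
  rw [htr, mul_left_comm, hR1, mul_zero]

end Fermat.Agent.M59

end
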