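/-
M59 / [R_p-norm], cell (A0-II) (helper24; prefix `m59rpk_`).

`m59rpk_aZeroII : m59rp_AZeroII_stmt` : in case (II) (`v̄ ≠ 0`), with `z0² = 1` and `z0` a lift of
`z̄(Frob)⁻¹`, the coordinate `a_T = z0 z(Frob) - 1` of every ordinary pair VANISHES:
(R1)-trace at `σ = Frob`, `g = g0` gives `(z(Frob)² - 1) v_T = 0`; `v_T` is a unit (`v̄ ≠ 0`),
`a_T ∈ 𝔪_T` by (MEM), `2` is a unit, and `m59rp_av_of_R1`.

Also `m59rpk_pair_hfin`, `m59rpk_pair_hsep` (the Hecke ring of a pair has finite quotients and is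
separated) and `m59rpk_two_unit`.
-/
import Mathlib
import Fermat.Agent.M59.Rp.Mem
import Fermat.Agent.M59.Rp.R1Trace

set_option autoImplicit false
set_option linter.unusedSectionVars false
set_option linter.unusedVariables false
set_option linter.style.haveILetI false

noncomputable section

namespace Fermat.Agent.M59

open IsLocalRing Fermat.Agent.S53 Fermat.Agent.TW

local notation "Qb" => AlgebraicClosure ℚ
local notation "GQ" => (AlgebraicClosure ℚ ≃ₐ[ℚ] AlgebraicClosure ℚ)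

section Pair

variable {𝒪 : Type} [CommRing 𝒪] [IsLocalRing 𝒪] {rb : FramedResidual (ResidueField 𝒪)}
  (H : twc_HPair 𝒪 rb)

/-- the residue field of the Hecke ring of a pair is finite. -/
theorem m59rpk_pair_finite_res [Finite (ResidueField 𝒪)] : Finite (ResidueField H.T) := by
  have hsurj : Function.Surjective (ResidueField.map (algebraMap 𝒪 H.T)) := fun y => by
    obtain ⟨a, ha⟩ := H.residue_surjective y
    exact ⟨residue 𝒪 a, by rw [ResidueField.map_residue]; exact ha⟩
  exact Finite.of_surjective _ hsurj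

theorem m59rpk_pair_hfin [Finite (ResidueField 𝒪)] (n : ℕ) :
    Finite (H.T ⧸ maximalIdeal H.T ^ n) := by
  haveI : Finite (H.T ⧸ maximalIdeal H.T) := m59rpk_pair_finite_res H
  exact Ideal.finite_quotient_pow (IsNoetherian.noetherian _) n

theorem m59rpk_pair_hsep (x : H.T) (hx : ∀ n : ℕ, x ∈ maximalIdeal H.T ^ n) : x = 0 := by
  have h1 : x ∈ ⨅ n : ℕ, maximalIdeal H.T ^ n := by
    rw [Ideal.mem_iInf]
    exact hx
  rw [Ideal.iInf_pow_eq_bot_of_isLocalRing _ (maximalIdeal.isMaximal H.T).ne_top] at h1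
  exact h1

end Pair

/-- `2` is a unit of a local ring with `p ∈ 𝔪`, `p` odd. -/
theorem m59rpk_two_unit {T : Type} [CommRing T] [IsLocalRing T] {p : ℕ} (hp : p.Prime)
    (hp2 : p ≠ 2) (hpm : (p : T) ∈ maximalIdeal T) : IsUnit (2 : T) := by
  by_contra hn
  have h2 : (2 : T) ∈ maximalIdeal T := (mem_maximalIdeal _).2 hn
  obtain ⟨m, hm⟩ : ∃ m, p = 2 * m + 1 := by
    rcases hp.eq_two_or_odd with h | h
    · exact absurd h hp2
    · exact ⟨p / 2, by omega⟩
  have h1 : (1 : T) = (p : T) - 2 * (m : T) := by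
    rw [hm]
    push_cast
    ring
  have : (1 : T) ∈ maximalIdeal T := by
    rw [h1]
    exact (maximalIdeal T).sub_mem hpm ((maximalIdeal T).mul_mem_right _ h2)
  exact (maximalIdeal T).ne_top_iff_one.1 (maximalIdeal.isMaximal T).ne_top this

/-- **(A0-II)**. -/
theorem m59rpk_aZeroII : m59rp_AZeroII_stmt := by
  intro p hp hp2 𝒪 _ _ _ rb A hA E g0 z0 hv hz0 hz H hdet hord
  -- (R1), trace form
  have hR1 := m59rpk_R1_trace p hp2 A hA E H.T (m59rpk_pair_hfin H) (m59rpk_pair_hsep H) H.r hdet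
    hord E.fr E.fr_frob.mem_decompositionSubgroup g0
  -- `v_T` is a unit
  have hvu : IsUnit (m59rp_v E g0 H.r.toMonoidHom) := by
    by_contra hn
    have hm : m59rp_v E g0 H.r.toMonoidHom ∈ maximalIdeal H.T := (mem_maximalIdeal _).2 hn
    rw [← residue_eq_zero_iff, m59rpk_res_v'] at hm
    exact hv ((map_eq_zero_iff _ (ResidueField.map (algebraMap 𝒪 H.T)).injective).1 hm)
  have ha := (m59rpk_mem p hp2 𝒪 rb A hA E g0 z0 H hdet).1 hz
  have h2 : IsUnit (2 : H.T) := m59rpk_two_unit hp.out hp2 hdet.1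
  have hz0' : (algebraMap 𝒪 H.T z0) ^ 2 = 1 := by rw [← map_pow, hz0, map_one]
  have h := m59rp_av_of_R1 hz0' h2 ha hR1
  exact (hvu.mul_left_eq_zero).1 h

end Fermat.Agent.M59

end
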