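/-
M59 / [R_p-norm], cell (AD) (helper10; prefix `m59rpa_`): AN ADAPTED `g0` EXISTS.

`rb` absolutely irreducible, residually ordinary at `p` with `det = ω`; `E.s0 ∈ I_A` moves `ζ_p`, so
`c := det rb(s0) ≠ 1`.  The ordinary line `L` at `A` is `im (rb(s0) − 1)` (a nonzero subspace of the
line `L`), and `rb(s0) w = c w` forces `w ∈ L` (`(c − 1) w = rb(s0) w − w ∈ L`).  Hence if no `g0`
were adapted, `L` would be `G_ℚ`-stable, against irreducibility.

* `m59rpa_c_ne_one` : `det rb(s) ≠ 1` for `s` moving the nontrivial `p`-th roots of unity;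
* `m59rpa_adapted : m59rp_Adapted_stmt`.
-/
import Mathlib
import Fermat.Agent.M59.Rp.Seams
import Fermat.Agent.M59.HTW.Main

set_option autoImplicit false
set_option linter.unusedSectionVars false
set_option linter.unusedVariables false
set_option linter.style.haveILetI false

noncomputable section

namespace Fermat.Agent.M59

open IsLocalRing Fermat.Agent.S53 Fermat.Agent.S56

local notation "Qb" => AlgebraicClosure ℚ
local notation "GQ" => (AlgebraicClosure ℚ ≃ₐ[ℚ] AlgebraicClosure ℚ)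

section AD

variable {k : Type} [Field k] (rb : FramedResidual k) {p : ℕ} [hp : Fact p.Prime]

theorem m59rpa_res_apply (σ : GQ) (v : Fin 2 → k) :
    (m59rp_res rb).ρ σ v = (rb σ).mulVec v := Matrix.toLin'_apply _ _

theorem m59rpa_res_det (σ : GQ) : LinearMap.det ((m59rp_res rb).ρ σ) = (rb σ).det :=
  LinearMap.det_toLin' _

/-- `det rb(s) ≠ 1` for every `s` moving the nontrivial `p`-th roots of unity. -/
theorem m59rpa_c_ne_one (hdet : (m59rp_res rb).DetIsCyclotomic p) (s : GQ)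
    (hs : ∀ ζ : Qb, ζ ^ p = 1 → ζ ≠ 1 → s ζ ≠ ζ) : (rb s).det ≠ 1 := by
  have hp0 : p ≠ 0 := hp.out.ne_zero
  haveI : NeZero p := ⟨hp0⟩
  obtain ⟨hpm, hcyc⟩ := hdet
  have hpk : (p : k) = 0 := by
    rw [IsLocalRing.maximalIdeal_eq_bot] at hpm
    exact hpm
  obtain ⟨a, ha⟩ : ∃ a : ℕ, ∀ μ : Qb, μ ^ p ^ 1 = 1 → s μ = μ ^ a :=
    ⟨_, fun μ hμ =>
      cyclotomicCharacter.spec p (MulSemiringAction.toRingAut GQ (AlgebraicClosure ℚ) s) μ hμ⟩
  have h1 := hcyc 1 s a ha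
  rw [m59rpa_res_det, pow_one, hpk, Ideal.span_singleton_eq_bot.2 rfl, Ideal.mem_bot,
    sub_eq_zero] at h1
  obtain ⟨ω, hω⟩ := HasEnoughRootsOfUnity.exists_primitiveRoot Qb p
  have hω1 : ω ≠ 1 := hω.ne_one hp.out.one_lt
  have hsω : ω ^ a ≠ ω := by
    rw [← ha ω (by rw [pow_one]; exact hω.pow_eq_one)]
    exact hs ω hω.pow_eq_one hω1
  have hnd : ¬ (p : ℤ) ∣ (a : ℤ) - 1 := by
    intro hd
    apply hsω
    have hω0 : ω ≠ 0 := hω.ne_zero hp0
    have h2 : ω ^ ((a : ℤ) - 1) = 1 := (hω.zpow_eq_one_iff_dvd _).2 hd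
    have h3 : ω ^ ((a : ℤ) - 1 + 1) = ω ^ ((a : ℤ) - 1) * ω := zpow_add_one₀ hω0 _
    rw [sub_add_cancel, h2, one_mul, zpow_natCast] at h3
    exact h3
  have hcop : IsCoprime ((a : ℤ) - 1) (p : ℤ) :=
    ((Nat.prime_iff_prime_int.1 hp.out).coprime_iff_not_dvd.2 hnd).symm
  obtain ⟨u, v, huv⟩ := hcop
  intro hc1
  have h4 : ((u * ((a : ℤ) - 1) + v * (p : ℤ) : ℤ) : k) = 1 := by rw [huv]; simp
  have ha1 : (a : k) = 1 := h1.symm.trans hc1
  push_cast at h4
  rw [ha1, sub_self, mul_zero, hpk, mul_zero, add_zero] at h4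
  exact zero_ne_one h4

/-- **(AD)**. -/
theorem m59rpa_adapted : m59rp_Adapted_stmt := by
  intro p _ hp2 k _ rb A hA E habs hdet hord
  classical
  by_contra hcon
  push Not at hcon
  have hc1 : (rb E.s0).det ≠ 1 := m59rpa_c_ne_one rb hdet E.s0 E.s0_ne
  obtain ⟨L, ⟨b, hL⟩, hD, hI⟩ := hord A hA
  have hfdet : LinearMap.det ((m59rp_res rb).ρ E.s0) = (rb E.s0).det := m59rpa_res_det rb E.s0
  -- the hypothesis in terms of the endomorphisms
  have key : ∀ (g : GQ) (v : (m59rp_res rb).V),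
      (m59rp_res rb).ρ E.s0 ((m59rp_res rb).ρ g ((m59rp_res rb).ρ E.s0 v - v)) =
        (rb E.s0).det • ((m59rp_res rb).ρ g ((m59rp_res rb).ρ E.s0 v - v)) := by
    intro g v
    have h0 := hcon g
    rw [m59rp_IsAdapted, not_not] at h0
    have h1 := congrArg (fun M : Matrix (Fin 2) (Fin 2) k => M.mulVec (show Fin 2 → k from v)) h0
    simp only [Matrix.zero_mulVec, ← Matrix.mulVec_mulVec, Matrix.sub_mulVec,
      Matrix.smul_mulVec, Matrix.one_mulVec] at h1
    exact sub_eq_zero.1 h1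
  -- `ρ(s0) ≠ 1`
  have hne1 : (m59rp_res rb).ρ E.s0 ≠ 1 := by
    intro h1
    apply hc1
    rw [← hfdet, h1, map_one]
  obtain ⟨y, hy⟩ : ∃ y : (m59rp_res rb).V, (m59rp_res rb).ρ E.s0 y - y ≠ 0 := by
    by_contra hall
    push Not at hall
    apply hne1
    refine LinearMap.ext fun v => ?_
    rw [Module.End.one_apply]
    exact sub_eq_zero.1 (hall v)
  -- `x₀ := ρ(s0) y − y ∈ L`, `x₀ = a • b 0`, `a ≠ 0`
  have hx0L : (m59rp_res rb).ρ E.s0 y - y ∈ L := hI E.s0 E.s0_mem y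
  obtain ⟨a, ha⟩ := Submodule.mem_span_singleton.1 (hL ▸ hx0L)
  have ha0 : a ≠ 0 := by
    intro h0
    apply hy
    rw [← ha, h0, zero_smul]
  have hb0 : b 0 = (m59rp_res rb).ρ E.s0 (a⁻¹ • y) - a⁻¹ • y := by
    rw [map_smul, ← smul_sub, ← ha, smul_smul, inv_mul_cancel₀ ha0, one_smul]
  -- `L` is `G_ℚ`-stable
  have hstab : ∀ g : GQ, ∀ x ∈ L, (m59rp_res rb).ρ g x ∈ L := by
    intro g x hx
    obtain ⟨t, rfl⟩ := Submodule.mem_span_singleton.1 (hL ▸ hx)
    rw [map_smul]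
    refine L.smul_mem t ?_
    have h1 := key g (a⁻¹ • y)
    rw [← hb0] at h1
    -- `(c − 1) w ∈ L`
    have h2 := hI E.s0 E.s0_mem ((m59rp_res rb).ρ g (b 0))
    have h2' : ((rb E.s0).det - 1) • (m59rp_res rb).ρ g (b 0) ∈ L := by
      rw [sub_smul, one_smul, ← h1]
      exact h2
    have hc1' : (rb E.s0).det - 1 ≠ 0 := sub_ne_zero.2 hc1
    have h3 := L.smul_mem ((rb E.s0).det - 1)⁻¹ h2'
    rw [smul_smul, inv_mul_cancel₀ hc1', one_smul] at h3
    exact h3
  -- irreducibility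
  have hirr : L = (⊥ : Submodule k (m59rp_res rb).V) ∨ L = (⊤ : Submodule k (m59rp_res rb).V) :=
    m59tw_irr_of_abs rb.toResidualGaloisRep habs L hstab
  rcases hirr with h | h
  · have hb0L : b 0 ∈ L := by
      rw [hL]; exact Submodule.mem_span_singleton_self _
    rw [h, Submodule.mem_bot] at hb0L
    exact b.ne_zero 0 hb0L
  · have h1 : Module.finrank k L = 1 := by
      rw [hL]
      exact finrank_span_singleton (b.ne_zero 0)
    rw [h, finrank_top] at h1
    have h3 : Module.finrank k (m59rp_res rb).V = 2 := (m59rp_res rb).finrank_eq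
    omega

end AD

end Fermat.Agent.M59
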