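import Mathlib
import Fermat.Agent.M59.Rp.CotIII
import Fermat.Agent.M59.Rp.Mem
import Fermat.Agent.M59.C.PairCot

/-!
# M59 / block [R_p-norm]: THE COTANGENT BOUND IN CASE (III), NATIVE FORM (helper13; prefix `m59rp_`)

Twin of helper21's `m59cp_cot` (M59/C/PairCot.lean) with `pPrime p` FRAMED
(`Th' = insert (pPrime p) (T8 ∪ Tn)`, `p ∉ Smin`), for the pipeline of case (III).

* `m59rp_CotBound3 p Pp E g0 z0 Smin Th Q c` : for EVERY Hecke pair `H` of type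
  `m59c_IsType p Pp Smin (insert (pPrime p) Th) Q` which is ordinary at `p`, the two coordinates
  `a_T = z0 z_T(Frob_p) - 1`, `v_T` lie in `𝔪_T`, and for EVERY family `z` of elements of `𝔪_T`
  whose vanishing forces `m59c_LocCob Th H` (the chain primes only):
  `dim (Cot ⧸ relW (z, a_T, v_T)) + 2 ≤ c`.
* `m59rp_cot3` : the Taylor–Wiles primes and this bound with `rr + 1 = c + 3 |T8| + |Tn|`, `2 ≤ c`
  (so `κ` := `Fin c` has room for `ka ≠ kv`, and `rr + 1 = |κ| + 3 |T8| + |Tn|` is the relation of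
  helper26's frame `m59lp_Rp`).  BOTH sub-cases (`ū ≠ 0`: `d_p = 1`; `ū = v̄ = 0`: `d_p = 2`, third
  coordinate `u_T`, `m59rp_inv_of_split`) give the SAME statement.
* `m59rp_ord_of_strictW` : for a framed `rW` over `𝒪` with cyclotomic determinant, strictly
  ordinary at `p`: `∃ u₀ ≠ 0, s56o_Ord p rW.residual u₀` (the input `hO` of `m59rp_cot3`).
-/

set_option autoImplicit false
set_option linter.unusedSectionVars false
set_option linter.unusedVariables false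
set_option linter.style.haveILetI false

open Polynomial IsLocalRing ExtCitation Matrix Module
open Fermat.Agent.S53 Fermat.Agent.S56 Fermat.Agent.TW

namespace Fermat.Agent.M59

noncomputable section

local notation "GQ" => (AlgebraicClosure ℚ ≃ₐ[ℚ] AlgebraicClosure ℚ)
local notation "Qb" => AlgebraicClosure ℚ

attribute [local instance] S53.dualNumberAlgebra

/-! ### linear algebra -/

section lin

variable {K V : Type*} [Field K] [AddCommGroup V] [Module K V] [FiniteDimensional K V]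

/-- adding one vector to a subspace lowers the dimension of the quotient by at most one. -/
theorem m59rp_finrank_quot_sup_span (W : Submodule K V) (x : V) :
    finrank K (V ⧸ W) ≤ finrank K (V ⧸ (W ⊔ K ∙ x)) + 1 := by
  have h1 := Submodule.finrank_quotient_add_finrank W
  have h2 := Submodule.finrank_quotient_add_finrank (W ⊔ K ∙ x)
  have h3 : finrank K ↥(W ⊔ K ∙ x) ≤ finrank K W + 1 := by
    have h4 := Submodule.finrank_add_le_finrank_add_finrank W (K ∙ x)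
    have h5 : finrank K ↥(K ∙ x) ≤ 1 := by
      by_cases hx : x = 0
      · subst hx
        rw [Submodule.span_zero_singleton, finrank_bot]
        exact Nat.zero_le _
      · rw [finrank_span_singleton hx]
    omega
  omega

/-- the dimension of the quotient is antitone. -/
theorem m59rp_finrank_quot_anti {W W' : Submodule K V} (h : W ≤ W') :
    finrank K (V ⧸ W') ≤ finrank K (V ⧸ W) := by
  have h1 := Submodule.finrank_quotient_add_finrank W
  have h2 := Submodule.finrank_quotient_add_finrank W'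
  have h3 := Submodule.finrank_mono h
  omega

end lin

/-! ### `twc_relW` and one more coordinate -/

section relW

variable {𝒪 A : Type} [CommRing 𝒪] [IsLocalRing 𝒪] [CommRing A] [IsLocalRing A] [Algebra 𝒪 A]
  [IsLocalHom (algebraMap 𝒪 A)]

theorem m59rp_relW_three_le {ι : Type} (z : ι → maximalIdeal A) (a v u : maximalIdeal A) :
    twc_relW 𝒪 (Sum.elim z ![a, v, u]) ≤
      twc_relW 𝒪 (Sum.elim z ![a, v]) ⊔ (ResidueField A) ∙ (maximalIdeal A).toCotangent u := by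
  unfold twc_relW
  refine sup_le (le_sup_of_le_left le_sup_left) (Submodule.span_le.2 ?_)
  rintro _ ⟨i, rfl⟩
  rcases i with i | j
  · refine Submodule.mem_sup_left (Submodule.mem_sup_right (Submodule.subset_span ?_))
    exact ⟨Sum.inl i, rfl⟩
  · fin_cases j
    · refine Submodule.mem_sup_left (Submodule.mem_sup_right (Submodule.subset_span ?_))
      exact ⟨Sum.inr 0, rfl⟩
    · refine Submodule.mem_sup_left (Submodule.mem_sup_right (Submodule.subset_span ?_))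
      exact ⟨Sum.inr 1, rfl⟩
    · exact Submodule.mem_sup_right (Submodule.mem_span_singleton_self _)

/-- dropping the third coordinate costs at most one dimension. -/
theorem m59rp_relW_three [IsNoetherianRing A] {ι : Type} (z : ι → maximalIdeal A)
    (a v u : maximalIdeal A) :
    finrank (ResidueField A) (CotangentSpace A ⧸ twc_relW 𝒪 (Sum.elim z ![a, v])) ≤
      finrank (ResidueField A) (CotangentSpace A ⧸ twc_relW 𝒪 (Sum.elim z ![a, v, u])) + 1 :=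
  (m59rp_finrank_quot_sup_span _ ((maximalIdeal A).toCotangent u)).trans
    (Nat.add_le_add_right (m59rp_finrank_quot_anti (m59rp_relW_three_le z a v u)) 1)

end relW

/-! ### the bound -/

section bound

variable {𝒪 : Type} [CommRing 𝒪] [IsLocalRing 𝒪] {rb : FramedResidual (ResidueField 𝒪)}

/-- **the cotangent bound of case (III), native form**: `pPrime p` framed with the two coordinates
`a_T`, `v_T`. -/
def m59rp_CotBound3 (p : ℕ) [Fact p.Prime] (Pp : FramedRep (DualNumber (ResidueField 𝒪)) → Prop)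
    (E : m59rp_Elts p (padicPlace p)) (g0 : GQ) (z0 : 𝒪)
    (Smin : Finset ℕ) (Th : Finset Nat.Primes) (Q : Finset ℕ) (c : ℕ) : Prop :=
  ∀ (H : twc_HPair 𝒪 rb), m59c_IsType p Pp Smin (insert (pPrime p) Th) Q H →
    H.r.toGaloisRepAdic.IsOrdinaryAt p →
    ∃ aT vT : maximalIdeal H.T,
      (aT : H.T) = m59rp_a E (algebraMap 𝒪 H.T z0) H.r.toMonoidHom ∧
      (vT : H.T) = m59rp_v E g0 H.r.toMonoidHom ∧
      ∀ (ι : Type) (z : ι → maximalIdeal H.T),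
        (∀ φ : H.T →ₐ[𝒪] DualNumber (ResidueField 𝒪), (∀ i, φ (z i : H.T) = 0) →
          m59c_LocCob Th H φ) →
        Module.finrank (ResidueField H.T)
          (CotangentSpace H.T ⧸ twc_relW 𝒪 (Sum.elim z ![aT, vT])) + 2 ≤ c

end bound

section main

variable (𝒪 : Type) [CommRing 𝒪] [IsDomain 𝒪] [IsDiscreteValuationRing 𝒪]
  [IsAdicComplete (maximalIdeal 𝒪) 𝒪] [Finite (ResidueField 𝒪)]

/-- **[CI-COT], case (III), native form.** -/
theorem m59rp_cot3 (p : ℕ) [Fact p.Prime] (hp2 : p ≠ 2) (hp𝒪 : (p : 𝒪) ∈ maximalIdeal 𝒪)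
    (rb : FramedResidual (ResidueField 𝒪)) (hyp : s56a_Hyp p rb.toResidualGaloisRep)
    (Pp : FramedRep (DualNumber (ResidueField 𝒪)) → Prop)
    (S Smin : Finset ℕ) (hpS : p ∈ S) (hSmin : Smin ⊆ S) (hpmin : p ∉ Smin)
    (hmin : ∀ q : ℕ, q.Prime → q ≠ p →
      (q ∈ Smin ↔ ¬ rb.toResidualGaloisRep.IsUnramifiedAt q))
    (T8 Tn : Finset Nat.Primes) (hdisj : Disjoint T8 Tn)
    (hT : ∀ ℓ ∈ T8 ∪ Tn, ((ℓ : Nat.Primes) : ℕ) ∈ S ∧ ((ℓ : Nat.Primes) : ℕ) ∉ Smin ∧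
      ((ℓ : Nat.Primes) : ℕ) ≠ p)
    (td : m59c_TameData p (T8 ∪ Tn))
    (a : Nat.Primes → 𝒪)
    (hφa : ∀ ℓ ∈ T8, rb (td.gφ ℓ) = Matrix.scalar (Fin 2) (residue 𝒪 (a ℓ)))
    (e : Nat.Primes → Fin 2 → 𝒪)
    (hcyc : ∀ ℓ ∈ Tn, (m59c_cyc (rb (td.gφ ℓ)) (fun i => residue 𝒪 (e ℓ i))).det ≠ 0)
    -- the data at `p`
    (E : m59rp_Elts p (padicPlace p)) (g0 : GQ) (z0 : 𝒪)
    (had : m59rp_IsAdapted E rb g0) (hvb : m59rp_v E g0 rb.toMonoidHom = 0)
    (hz0 : z0 ^ 2 = 1) (hz0r : residue 𝒪 z0 * m59rp_z E rb.toMonoidHom E.fr = 1)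
    (hsplit : m59rp_u E g0 rb.toMonoidHom = 0 → 1 ≤ finrank (ResidueField 𝒪)
      (s56a_inv rb ((padicPlace p).decompositionSubgroup ℚ))) :
    ∃ rr c : ℕ, rr + 1 = c + 3 * T8.card + Tn.card ∧ 2 ≤ c ∧
      ∀ n : ℕ, ∃ qv : Fin rr → ℕ, Function.Injective qv ∧
        (∀ i, (qv i).Prime ∧ qv i ∉ S ∧ p ^ (n + 1) ∣ qv i - 1) ∧
        (∀ i, ∀ P : ValuationSubring Qb, P.LiesOverPrime (qv i) →
          ∀ φ : GQ, P.IsFrobeniusAt φ (qv i) → ∃ α β : ResidueField 𝒪, α ≠ β ∧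
            LinearMap.charpoly (rb.toResidualGaloisRep.ρ φ) = (X - C α) * (X - C β)) ∧
        m59rp_CotBound3 (rb := rb) p Pp E g0 z0 Smin (T8 ∪ Tn) (Finset.univ.image qv) c := by
  classical
  have hpp : p.Prime := Fact.out
  haveI : CharP (ResidueField 𝒪) p := s56a_charP p hp𝒪
  letI : Algebra (ZMod p) (ResidueField 𝒪) := ZMod.algebra _ p
  have hA : (padicPlace p).LiesOverPrime p := Fermat.Agent.S55.pl_padicPlace_liesOver p
  have h2k : (2 : ResidueField 𝒪) ≠ 0 := by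
    intro h
    have h2 : ((2 : ℕ) : ResidueField 𝒪) = 0 := by exact_mod_cast h
    have hdvd := (CharP.cast_eq_zero_iff (ResidueField 𝒪) p 2).mp h2
    exact hp2 ((Nat.prime_dvd_prime_iff_eq hpp Nat.prime_two).mp hdvd)
  -- `pPrime p` is not a chain prime
  have hpT : pPrime p ∉ T8 ∪ Tn := fun h => (hT _ h).2.2 rfl
  have hThS : ∀ ℓ ∈ insert (pPrime p) (T8 ∪ Tn), ((ℓ : Nat.Primes) : ℕ) ∈ S := by
    intro ℓ hℓ
    rcases Finset.mem_insert.1 hℓ with rfl | h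
    · exact hpS
    · exact (hT ℓ h).1
  have hThmin : ∀ ℓ ∈ insert (pPrime p) (T8 ∪ Tn), ((ℓ : Nat.Primes) : ℕ) ∉ Smin := by
    intro ℓ hℓ
    rcases Finset.mem_insert.1 hℓ with rfl | h
    · exact hpmin
    · exact (hT ℓ h).2.1
  -- `ρ̄` is unramified at the primes of the chain
  have hunr : ∀ ℓ ∈ T8 ∪ Tn, ∀ τ ∈ (primeLocalPlace ℓ).inertiaSubgroupIn ℚ, rb τ = 1 := by
    intro ℓ hℓ τ hτ
    have hu : rb.toResidualGaloisRep.IsUnramifiedAt ((ℓ : Nat.Primes) : ℕ) := by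
      by_contra hcon
      exact (hT ℓ hℓ).2.1 ((hmin _ ℓ.2 (hT ℓ hℓ).2.2).2 hcon)
    have h1 := hu (primeLocalPlace ℓ) (s56ld_liesOver ℓ) τ hτ
    have h3 : Matrix.toLin' (rb τ) =
        Matrix.toLin' (1 : Matrix (Fin 2) (Fin 2) (ResidueField 𝒪)) := by
      rw [Matrix.toLin'_one]; exact h1
    exact Matrix.toLin'.injective h3
  -- the weights
  set dp : ℕ := if m59rp_u E g0 rb.toMonoidHom = 0 then 2 else 1 with hdp_def
  have hdp1 : 1 ≤ dp := by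
    rw [hdp_def]; split_ifs <;> omega
  set d : Nat.Primes → ℕ := fun ℓ => if ℓ = pPrime p then dp else if ℓ ∈ T8 then 3 else 1
    with hd_def
  have hd : ∀ ℓ ∈ insert (pPrime p) (T8 ∪ Tn), d ℓ ≤
      finrank (ResidueField 𝒪) (s56a_inv rb ((primeLocalPlace ℓ).decompositionSubgroup ℚ)) +
      (if ℓ = pPrime p then 1 else 0) := by
    intro ℓ hℓ
    rcases Finset.mem_insert.1 hℓ with rfl | hℓ'
    · show (if pPrime p = pPrime p then dp else _) ≤ _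
      rw [if_pos rfl, if_pos rfl, hdp_def]
      split_ifs with hub
      · have h1 : 1 ≤ finrank (ResidueField 𝒪)
            (s56a_inv rb ((padicPlace p).decompositionSubgroup ℚ)) := hsplit hub
        have h2 : 1 ≤ finrank (ResidueField 𝒪)
            (s56a_inv rb ((primeLocalPlace (pPrime p)).decompositionSubgroup ℚ)) := h1
        omega
      · omega
    · have hne : ℓ ≠ pPrime p := fun h => hpT (h ▸ hℓ')
      show (if ℓ = pPrime p then dp else if ℓ ∈ T8 then 3 else 1) ≤ _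
      rw [if_neg hne, if_neg hne, add_zero]
      by_cases h8 : ℓ ∈ T8
      · rw [if_pos h8]
        exact twc_finrank_inv_of_scalar rb _ (fun σ hσ =>
          m59cp_decomp_scalar td rb ℓ hℓ' (hunr ℓ hℓ') _ (hφa ℓ h8) σ hσ)
      · have hn : ℓ ∈ Tn := (Finset.mem_union.1 hℓ').resolve_left h8
        rw [if_neg h8]
        exact m59c_one_le_finrank_inv rb _ (td.gφ ℓ) h2k
          (fun σ hσ => m59c_rb_comm td rb ℓ hℓ' (hunr ℓ hℓ') σ hσ)
          (m59cp_not_scalar_of_cyc _ _ (hcyc ℓ hn))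
  have hsum : ∑ ℓ ∈ insert (pPrime p) (T8 ∪ Tn), d ℓ = dp + (3 * T8.card + Tn.card) := by
    rw [Finset.sum_insert hpT]
    have h0 : d (pPrime p) = dp := by
      show (if pPrime p = pPrime p then dp else _) = dp
      rw [if_pos rfl]
    rw [h0, Finset.sum_union hdisj]
    have h1 : ∑ ℓ ∈ T8, d ℓ = 3 * T8.card := by
      have h : ∀ ℓ ∈ T8, d ℓ = 3 := fun ℓ hℓ => by
        have hne : ℓ ≠ pPrime p := fun h => hpT (h ▸ Finset.mem_union_left _ hℓ)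
        show (if ℓ = pPrime p then dp else if ℓ ∈ T8 then 3 else 1) = 3
        rw [if_neg hne, if_pos hℓ]
      rw [Finset.sum_congr rfl h, Finset.sum_const, smul_eq_mul, mul_comm]
    have h2 : ∑ ℓ ∈ Tn, d ℓ = Tn.card := by
      have h : ∀ ℓ ∈ Tn, d ℓ = 1 := fun ℓ hℓ => by
        have hne : ℓ ≠ pPrime p := fun h => hpT (h ▸ Finset.mem_union_right _ hℓ)
        show (if ℓ = pPrime p then dp else if ℓ ∈ T8 then 3 else 1) = 1
        rw [if_neg hne, if_neg (Finset.disjoint_right.1 hdisj hℓ)]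
      rw [Finset.sum_congr rfl h, Finset.sum_const, smul_eq_mul, mul_one]
    rw [h1, h2]
  obtain ⟨r, hr, h⟩ := m59c_finrank_le 𝒪 p hp2 hp𝒪 rb hyp Pp S Smin hSmin
    (fun hcon => absurd hcon hpmin) hmin (insert (pPrime p) (T8 ∪ Tn)) hThS hThmin
    (Or.inr (Finset.mem_insert_self _ _)) d hd
  rw [hsum] at hr
  refine ⟨r, r + 1 - (3 * T8.card + Tn.card), by omega, by omega, fun n => ?_⟩
  obtain ⟨qv, h1, h2, h3, h4⟩ := h n
  rw [hsum] at h4
  refine ⟨qv, h1, h2, h3, ?_⟩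
  intro H hType hord
  have hdet := hType.1
  obtain ⟨ma, mv, mu⟩ := m59rpk_mem p hp2 𝒪 rb (padicPlace p) hA E g0 z0 H hdet
  refine ⟨⟨_, ma hz0r⟩, ⟨_, mv hvb⟩, rfl, rfl, fun ι z hz => ?_⟩
  by_cases hub : m59rp_u E g0 rb.toMonoidHom = 0
  · -- the split case: three coordinates at `p`
    have hdp : dp = 2 := by rw [hdp_def, if_pos hub]
    have hb := h4 H hType (ι ⊕ Fin 3)
      (Sum.elim z ![⟨_, ma hz0r⟩, ⟨_, mv hvb⟩, ⟨_, mu hub⟩]) (fun φ hφ => by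
        refine m59rp_locCob_insert hp2 hp𝒪 rb E g0 z0 had hvb hz0 H hdet hord (T8 ∪ Tn) φ
          (hz φ (fun i => hφ (Sum.inl i))) ?_ ?_ (fun _ => ?_)
        · exact hφ (Sum.inr 0)
        · exact hφ (Sum.inr 1)
        · exact hφ (Sum.inr 2))
    have h3 := m59rp_relW_three (𝒪 := 𝒪) z ⟨_, ma hz0r⟩ ⟨_, mv hvb⟩ ⟨_, mu hub⟩
    omega
  · -- the non-split case: two coordinates at `p`
    have hdp : dp = 1 := by rw [hdp_def, if_neg hub]
    have hb := h4 H hType (ι ⊕ Fin 2)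
      (Sum.elim z ![⟨_, ma hz0r⟩, ⟨_, mv hvb⟩]) (fun φ hφ => by
        refine m59rp_locCob_insert hp2 hp𝒪 rb E g0 z0 had hvb hz0 H hdet hord (T8 ∪ Tn) φ
          (hz φ (fun i => hφ (Sum.inl i))) ?_ ?_ (fun h0 => absurd h0 hub)
        · exact hφ (Sum.inr 0)
        · exact hφ (Sum.inr 1))
    omega

/-- `m59rp_cot3` with the split hypothesis supplied by the residual ordinary datum
(`m59rp_inv_of_split`). -/
theorem m59rp_cot3_ord (p : ℕ) [Fact p.Prime] (hp2 : p ≠ 2) (hp𝒪 : (p : 𝒪) ∈ maximalIdeal 𝒪)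
    (rb : FramedResidual (ResidueField 𝒪)) (hyp : s56a_Hyp p rb.toResidualGaloisRep)
    (Pp : FramedRep (DualNumber (ResidueField 𝒪)) → Prop)
    (S Smin : Finset ℕ) (hpS : p ∈ S) (hSmin : Smin ⊆ S) (hpmin : p ∉ Smin)
    (hmin : ∀ q : ℕ, q.Prime → q ≠ p →
      (q ∈ Smin ↔ ¬ rb.toResidualGaloisRep.IsUnramifiedAt q))
    (T8 Tn : Finset Nat.Primes) (hdisj : Disjoint T8 Tn)
    (hT : ∀ ℓ ∈ T8 ∪ Tn, ((ℓ : Nat.Primes) : ℕ) ∈ S ∧ ((ℓ : Nat.Primes) : ℕ) ∉ Smin ∧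
      ((ℓ : Nat.Primes) : ℕ) ≠ p)
    (td : m59c_TameData p (T8 ∪ Tn))
    (a : Nat.Primes → 𝒪)
    (hφa : ∀ ℓ ∈ T8, rb (td.gφ ℓ) = Matrix.scalar (Fin 2) (residue 𝒪 (a ℓ)))
    (e : Nat.Primes → Fin 2 → 𝒪)
    (hcyc : ∀ ℓ ∈ Tn, (m59c_cyc (rb (td.gφ ℓ)) (fun i => residue 𝒪 (e ℓ i))).det ≠ 0)
    (E : m59rp_Elts p (padicPlace p)) (g0 : GQ) (z0 : 𝒪)
    (had : m59rp_IsAdapted E rb g0) (hvb : m59rp_v E g0 rb.toMonoidHom = 0)
    (hz0 : z0 ^ 2 = 1) (hz0r : residue 𝒪 z0 * m59rp_z E rb.toMonoidHom E.fr = 1)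
    (hO : m59rp_u E g0 rb.toMonoidHom = 0 →
      ∃ u₀ : Fin 2 → ResidueField 𝒪, u₀ ≠ 0 ∧ s56o_Ord p rb u₀) :
    ∃ rr c : ℕ, rr + 1 = c + 3 * T8.card + Tn.card ∧ 2 ≤ c ∧
      ∀ n : ℕ, ∃ qv : Fin rr → ℕ, Function.Injective qv ∧
        (∀ i, (qv i).Prime ∧ qv i ∉ S ∧ p ^ (n + 1) ∣ qv i - 1) ∧
        (∀ i, ∀ P : ValuationSubring Qb, P.LiesOverPrime (qv i) →
          ∀ φ : GQ, P.IsFrobeniusAt φ (qv i) → ∃ α β : ResidueField 𝒪, α ≠ β ∧
            LinearMap.charpoly (rb.toResidualGaloisRep.ρ φ) = (X - C α) * (X - C β)) ∧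
        m59rp_CotBound3 (rb := rb) p Pp E g0 z0 Smin (T8 ∪ Tn) (Finset.univ.image qv) c := by
  haveI : CharP (ResidueField 𝒪) p := s56a_charP p hp𝒪
  letI : Algebra (ZMod p) (ResidueField 𝒪) := ZMod.algebra _ p
  refine m59rp_cot3 𝒪 p hp2 hp𝒪 rb hyp Pp S Smin hpS hSmin hpmin hmin T8 Tn hdisj hT td a hφa e
    hcyc E g0 z0 had hvb hz0 hz0r (fun hub => ?_)
  obtain ⟨u₀, hu₀, hOrd⟩ := hO hub
  exact m59rp_inv_of_split hp2 rb E g0 had hu₀ hOrd hvb hub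

/-- the bound in the shape of helper21's #5717 (`∀ aT vT` with the two equations; `≤ c3`). -/
def m59rp_CotB3 {rb : FramedResidual (ResidueField 𝒪)} (p : ℕ) [Fact p.Prime]
    (E : m59rp_Elts p (padicPlace p)) (g0 : GQ) (z0 : 𝒪)
    (Pp : FramedRep (DualNumber (ResidueField 𝒪)) → Prop)
    (Smin : Finset ℕ) (Th : Finset Nat.Primes) (Q : Finset ℕ) (c3 : ℕ) : Prop :=
  ∀ (H'' : twc_HPair 𝒪 rb), m59c_IsType p Pp Smin (insert (pPrime p) Th) Q H'' →
    H''.r.toGaloisRepAdic.IsOrdinaryAt p →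
    ∀ (ι : Type) (z : ι → maximalIdeal H''.T),
      (∀ φ : H''.T →ₐ[𝒪] DualNumber (ResidueField 𝒪), (∀ i, φ (z i : H''.T) = 0) →
        m59c_LocCob Th H'' φ) →
      ∀ (aT vT : maximalIdeal H''.T),
        (aT : H''.T) = m59rp_a E (algebraMap 𝒪 H''.T z0) H''.r.toMonoidHom →
        (vT : H''.T) = m59rp_v E g0 H''.r.toMonoidHom →
        Module.finrank (ResidueField H''.T)
          (CotangentSpace H''.T ⧸ twc_relW 𝒪 (Sum.elim z ![aT, vT])) ≤ c3

theorem m59rp_cotB3_of {rb : FramedResidual (ResidueField 𝒪)} {p : ℕ} [Fact p.Prime]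
    {E : m59rp_Elts p (padicPlace p)} {g0 : GQ} {z0 : 𝒪}
    {Pp : FramedRep (DualNumber (ResidueField 𝒪)) → Prop}
    {Smin : Finset ℕ} {Th : Finset Nat.Primes} {Q : Finset ℕ} {c : ℕ}
    (h : m59rp_CotBound3 (rb := rb) p Pp E g0 z0 Smin Th Q c) :
    m59rp_CotB3 𝒪 (rb := rb) p E g0 z0 Pp Smin Th Q (c - 2) := by
  intro H hType hord ι z hz aT vT haT hvT
  obtain ⟨aT', vT', haT', hvT', hb⟩ := h H hType hord
  have e1 : aT = aT' := Subtype.ext (haT.trans haT'.symm)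
  have e2 : vT = vT' := Subtype.ext (hvT.trans hvT'.symm)
  subst e1 e2
  have := hb ι z hz
  omega

/-- **[CI-COT3]** in the shape of helper21's #5717:
`rr + 1 = (c3 + 2) + 3 |T8| + |Tn|` and `m59rp_CotB3 … c3`. -/
theorem m59rp_cotB3 (p : ℕ) [Fact p.Prime] (hp2 : p ≠ 2) (hp𝒪 : (p : 𝒪) ∈ maximalIdeal 𝒪)
    (rb : FramedResidual (ResidueField 𝒪)) (hyp : s56a_Hyp p rb.toResidualGaloisRep)
    (Pp : FramedRep (DualNumber (ResidueField 𝒪)) → Prop)
    (S Smin : Finset ℕ) (hpS : p ∈ S) (hSmin : Smin ⊆ S) (hpmin : p ∉ Smin)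
    (hmin : ∀ q : ℕ, q.Prime → q ≠ p →
      (q ∈ Smin ↔ ¬ rb.toResidualGaloisRep.IsUnramifiedAt q))
    (T8 Tn : Finset Nat.Primes) (hdisj : Disjoint T8 Tn)
    (hT : ∀ ℓ ∈ T8 ∪ Tn, ((ℓ : Nat.Primes) : ℕ) ∈ S ∧ ((ℓ : Nat.Primes) : ℕ) ∉ Smin ∧
      ((ℓ : Nat.Primes) : ℕ) ≠ p)
    (td : m59c_TameData p (T8 ∪ Tn))
    (a : Nat.Primes → 𝒪)
    (hφa : ∀ ℓ ∈ T8, rb (td.gφ ℓ) = Matrix.scalar (Fin 2) (residue 𝒪 (a ℓ)))
    (e : Nat.Primes → Fin 2 → 𝒪)
    (hcyc : ∀ ℓ ∈ Tn, (m59c_cyc (rb (td.gφ ℓ)) (fun i => residue 𝒪 (e ℓ i))).det ≠ 0)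
    (E : m59rp_Elts p (padicPlace p)) (g0 : GQ) (z0 : 𝒪)
    (had : m59rp_IsAdapted E rb g0) (hvb : m59rp_v E g0 rb.toMonoidHom = 0)
    (hz0 : z0 ^ 2 = 1) (hz0r : residue 𝒪 z0 * m59rp_z E rb.toMonoidHom E.fr = 1)
    (hsplit : m59rp_u E g0 rb.toMonoidHom = 0 → 1 ≤ finrank (ResidueField 𝒪)
      (s56a_inv rb ((padicPlace p).decompositionSubgroup ℚ))) :
    ∃ rr c3 : ℕ, rr + 1 = (c3 + 2) + 3 * T8.card + Tn.card ∧
      ∀ n : ℕ, ∃ qv : Fin rr → ℕ, Function.Injective qv ∧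
        (∀ i, (qv i).Prime ∧ qv i ∉ S ∧ p ^ (n + 1) ∣ qv i - 1) ∧
        (∀ i, ∀ P : ValuationSubring Qb, P.LiesOverPrime (qv i) →
          ∀ φ : GQ, P.IsFrobeniusAt φ (qv i) → ∃ α β : ResidueField 𝒪, α ≠ β ∧
            LinearMap.charpoly (rb.toResidualGaloisRep.ρ φ) = (X - C α) * (X - C β)) ∧
        m59rp_CotB3 𝒪 (rb := rb) p E g0 z0 Pp Smin (T8 ∪ Tn) (Finset.univ.image qv) c3 := by
  obtain ⟨rr, c, h1, h2, h3⟩ := m59rp_cot3 𝒪 p hp2 hp𝒪 rb hyp Pp S Smin hpS hSmin hpmin hmin T8 Tn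
    hdisj hT td a hφa e hcyc E g0 z0 had hvb hz0 hz0r hsplit
  refine ⟨rr, c - 2, by omega, fun n => ?_⟩
  obtain ⟨qv, k1, k2, k3, k4⟩ := h3 n
  exact ⟨qv, k1, k2, k3, m59rp_cotB3_of 𝒪 k4⟩

/-- **the residual ordinary datum of a strictly ordinary `rW`** (the input `hO` of `m59rp_cot3`). -/
theorem m59rp_ord_of_strictW {p : ℕ} [Fact p.Prime] (hp2 : p ≠ 2)
    (hp𝒪 : (p : 𝒪) ∈ maximalIdeal 𝒪) (rW : FramedRep 𝒪)
    (hdet : rW.toGaloisRepAdic.DetIsCyclotomic p)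
    (hs : rW.toGaloisRepAdic.IsStrictOrdinaryAt p) :
    ∃ u₀ : Fin 2 → ResidueField 𝒪, u₀ ≠ 0 ∧ s56o_Ord p rW.residual u₀ := by
  haveI : CharP (ResidueField 𝒪) p := s56a_charP p hp𝒪
  letI : Algebra (ZMod p) (ResidueField 𝒪) := ZMod.algebra _ p
  haveI : IsLocalHom (algebraMap 𝒪 𝒪) := ⟨fun a h => h⟩
  let φ : 𝒪 →ₐ[𝒪] DualNumber (ResidueField 𝒪) := Algebra.ofId 𝒪 _
  have hs' : (twc_frame rW φ).toGaloisRepAdic.IsStrictOrdinaryAt p := by
    obtain ⟨e⟩ := twc_frame_isEquiv rW φ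
    exact s56t_tr_isStrictOrdinaryAt e (s56bc_strictOrdinary _ (twc_isLocalHom φ) _ p hs)
  have hdet' := twc_frame_det rW φ hdet
  have hbar : ∀ σ, s56t_bar (twc_frame rW φ) σ = rW.residual σ := by
    intro σ
    ext i j
    rw [s56t_bar_apply, s56t_fst_apply, twc_frame_apply, Matrix.map_apply]
    rfl
  exact m59rp_ord_of_strict hp2 rW.residual (twc_frame rW φ) hbar hdet' hs'

end main

end

end Fermat.Agent.M59
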