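/-
M59 / [R_p-norm], cell (E) (helper24; prefix `m59rpk_`): THE FIXED ELEMENTS EXIST.

`m59rpk_elts : m59rp_Elts_stmt` : for `p` odd and every place `A` of `Q̄` over `p` the structure
`m59rp_Elts p A` of `Rp/Seams.lean` is inhabited:
* `s0` : `ζ_p ∉ K^nr` (`m59rpk_zeta_not_mem`) + `m59rpk_exists_moving`;
* `tv` : (K3), `m59rpk_tauV_at`;
* `tu` : `m59rpk_tauU`;
* `fr` : main's `fex_exists_isFrobeniusAt`.
-/
import Mathlib
import Fermat.Agent.M59.Rp.Seams
import Fermat.Agent.M59.Rp.KumTauU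
import Fermat.Agent.JT3.ES.FrobExists

set_option autoImplicit false
set_option linter.unusedSectionVars false
set_option linter.unusedVariables false

noncomputable section

namespace Fermat.Agent.M59

local notation "Qb" => AlgebraicClosure ℚ
local notation "GQ" => (AlgebraicClosure ℚ ≃ₐ[ℚ] AlgebraicClosure ℚ)

/-- a nontrivial `p`-th root of unity (`p` prime) is primitive. -/
theorem m59rpk_primitive_of_ne_one {p : ℕ} (hp : p.Prime) {ζ : Qb} (h : ζ ^ p = 1) (h1 : ζ ≠ 1) :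
    IsPrimitiveRoot ζ p := by
  have hd : orderOf ζ ∣ p := orderOf_dvd_of_pow_eq_one h
  rcases (Nat.dvd_prime hp).1 hd with h2 | h2
  · exact absurd (orderOf_eq_one_iff.1 h2) h1
  · rw [← h2]
    exact IsPrimitiveRoot.orderOf ζ

/-- an inertia element moving every nontrivial `p`-th root of unity. -/
theorem m59rpk_s0 (p : ℕ) [hp : Fact p.Prime] (A : ValuationSubring Qb) (hA : A.LiesOverPrime p)
    (hp2 : p ≠ 2) :
    ∃ s ∈ A.inertiaSubgroupIn ℚ, ∀ ζ : Qb, ζ ^ p = 1 → ζ ≠ 1 → s ζ ≠ ζ := by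
  have : NeZero p := ⟨hp.out.ne_zero⟩
  obtain ⟨ω, hω⟩ := HasEnoughRootsOfUnity.exists_primitiveRoot Qb p
  obtain ⟨s, hsI, -, hsω⟩ := m59rpk_exists_moving A (FF.ffi_L A) le_rfl
    (m59rpk_zeta_not_mem p A hA hp2 hω)
  refine ⟨s, hsI, fun ζ hζ hζ1 hfix => hsω ?_⟩
  have hζp := m59rpk_primitive_of_ne_one hp.out hζ hζ1
  obtain ⟨i, -, hi⟩ := hζp.eq_pow_of_pow_eq_one hω.pow_eq_one
  rw [← hi, map_pow, hfix]

/-- **(E)** the fixed elements exist. -/
theorem m59rpk_elts : m59rp_Elts_stmt := by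
  intro p hp hp2 A hA
  obtain ⟨s0, hs0, hs0ne⟩ := m59rpk_s0 p A hA hp2
  obtain ⟨tv, htv, htvfix, htvne⟩ := m59rpk_tauV_at p A hA hp2
  obtain ⟨tu, htu, htufix, htune⟩ := m59rpk_tauU p A hA hp2
  obtain ⟨fr, hfr⟩ := JT3.fex_exists_isFrobeniusAt hp.out A hA
  exact ⟨{ s0 := s0, tv := tv, tu := tu, fr := fr, s0_mem := hs0, s0_ne := hs0ne, tv_mem := htv,
           tv_fix := htvfix, tv_ne := htvne, tu_mem := htu, tu_fix := htufix, tu_ne := htune,
           fr_frob := hfr }⟩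

end Fermat.Agent.M59

end
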