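/-
M59 / [R_p-norm] (helper24; prefix `m59rpk_`): ONE FLAT LIFT TO `k[ε]` AT `τ_v`
(the arithmetic content of (R2'), the tangent form of `flat ⟹ v = 0`).

Main's `s56fo_lift` (S56/Flat/Ord/Conc.lean, fed with the closed cell `s56fop_main`) describes a FLAT
lift `r` to `k[ε]` of an ordinary `rb` (`(s - 1) V̄ ⊆ k u₀` on `I_P`, `det (u₀, u₁) = 1`):
`c_r = ∂m + A · Dg + n` on `D_P`, and the `u₀`-coefficients of `rb s u₁ - u₁` and of
`(c_r s - ∂m s) u₁` are peu ramifie on `I_P` after every pair of `𝔽_p`-functionals.  Evaluated at a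
`τ ∈ I_P` with the first clause of (K3) (`m59rpk_peu_tau_ctx`):

**`m59rpk_flat_tau`** : both coefficients VANISH at `τ`:
  `s56fo_co u₁ (rb τ *ᵥ u₁ - u₁) = 0`  and  `s56fo_co u₁ ((s56t_coc r τ - s56o_d rb m τ) *ᵥ u₁) = 0`,
with the same `m`, `A` as in `s56fo_lift` (all other clauses of `s56fo_lift` are kept).
-/
import Mathlib
import Fermat.Agent.S56.Flat.Ord.Conc
import Fermat.Agent.S56.Flat.Ord.Peu2
import Fermat.Agent.M59.Rp.KumPeu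

set_option autoImplicit false
set_option linter.unusedSectionVars false
set_option linter.unusedVariables false
set_option linter.style.haveILetI false

noncomputable section

namespace Fermat.Agent.M59

open Fermat.Agent.S56 Fermat.Agent.MZ Fermat.Agent.FF Fermat.Agent.S53 Matrix ExtCitation

local notation "Qb" => AlgebraicClosure ℚ
local notation "GQ" => (AlgebraicClosure ℚ ≃ₐ[ℚ] AlgebraicClosure ℚ)

/-- `𝔽_p`-functionals separate the points of a pair. -/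
theorem m59rpk_sep {p : ℕ} [Fact p.Prime] {k : Type} [Field k] [Algebra (ZMod p) k] {x y : k}
    (h : ∀ ℓ₀ ℓ₁ : k →ₗ[ZMod p] ZMod p, ℓ₀ x + ℓ₁ y = 0) : x = 0 ∧ y = 0 := by
  constructor
  · rw [← Module.forall_dual_apply_eq_zero_iff (ZMod p) x]
    intro ℓ
    have := h ℓ 0
    simpa using this
  · rw [← Module.forall_dual_apply_eq_zero_iff (ZMod p) y]
    intro ℓ
    have := h 0 ℓ
    simpa using this

/-- **one flat lift at `τ_v`.** -/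
theorem m59rpk_flat_tau {k : Type} [Field k] {p : ℕ} [Fact p.Prime] [Algebra (ZMod p) k]
    [Finite k] (hp2 : p ≠ 2)
    (rb : FramedResidual k) (P : ValuationSubring Qb) (hP : P.LiesOverPrime p)
    {u₀ u₁ : Fin 2 → k} (hu01 : s56fo_detw u₀ u₁ = 1)
    (hord : ∀ s ∈ P.inertiaSubgroupIn ℚ, ∀ v : Fin 2 → k, ∃ t : k, rb s *ᵥ v - v = t • u₀)
    {Dg : Matrix (Fin 2) (Fin 2) k} (hD1 : Dg *ᵥ u₀ = u₀)
    (hD2 : ∀ w : Fin 2 → k, ∃ t : k, Dg *ᵥ w = t • u₀ - w)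
    (r : FramedRep (DualNumber k)) (hr : ∀ σ, s56t_bar r σ = rb σ)
    (hdet : r.toGaloisRepAdic.DetIsCyclotomic p) (hflat : r.toGaloisRepAdic.IsFlatAt p)
    (τ : GQ) (hτI : τ ∈ P.inertiaSubgroupIn ℚ)
    (hτ1 : ∀ (N : ℕ) (γ : Qb), γ ∈ P → γ⁻¹ ∈ P →
      (∀ s ∈ P.inertiaSubgroupIn ℚ, s (γ ^ p ^ N) = γ ^ p ^ N) → τ γ = γ) :
    ∃ (m : Matrix (Fin 2) (Fin 2) k) (A : GQ → k), m.trace = 0 ∧
      (∀ σ ∈ P.decompositionSubgroup ℚ,
        s56t_coc r σ - s56o_d rb m σ - A σ • Dg ∈ s56oa_W0 u₀) ∧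
      (∀ σ ∈ P.decompositionSubgroup ℚ, ∀ τ' ∈ P.decompositionSubgroup ℚ,
        A (σ * τ') = A σ + A τ') ∧
      (∀ s ∈ P.inertiaSubgroupIn ℚ, A s = 0) ∧
      (∀ s ∈ P.decompositionSubgroup ℚ, r s = 1 → A s = 0) ∧
      s56fo_co u₁ (rb τ *ᵥ u₁ - u₁) = 0 ∧
      s56fo_co u₁ ((s56t_coc r τ - s56o_d rb m τ) *ᵥ u₁) = 0 := by
  haveI : NeZero p := ⟨(Fact.out : p.Prime).ne_zero⟩
  obtain ⟨ζ, hζ⟩ := HasEnoughRootsOfUnity.exists_primitiveRoot Qb p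
  obtain ⟨m, A, hm, h1, h2, h3, h4, h5⟩ :=
    s56fo_lift s56fop_main hp2 rb P hP hu01 hord hD1 hD2 hζ r hr hdet hflat
  refine ⟨m, A, hm, h1, h2, h3, h4, ?_⟩
  apply m59rpk_sep (p := p)
  intro ℓ₀ ℓ₁
  exact m59rpk_peu_tau_ctx p P hP hζ _ (h5 ℓ₀ ℓ₁) τ hτI hτ1

end Fermat.Agent.M59
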