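/-
M59 / [R_p-norm], cells (PEU-III), (PEU-II) (helper24; prefix `m59rpk_`).

`rb` a framed residual representation over a field `k`, residually ordinary at `p` with cyclotomic
determinant, `A` a place over `p`, `E : m59rp_Elts p A`, `b` an ordinary basis at `A`,
`N σ = (x, β; γ, δ)` the matrix of `rb σ` in `b` (`γ = 0`, `δ = 1` on `I_A`, `x = ω`).
Then `v̄ = tr rb(g0 τ_v) - tr rb(g0) = γ(g0) β(τ_v)` (`m59rpk_res_v`) and:

* `m59rpk_peuIII : m59rp_PeuIII_stmt` : peu ramifiée at `A` ⟹ `β(τ_v) = 0` ⟹ `v̄ = 0`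
  (the pair `(b 0, b 1)` with the cocycle `β`: every `𝔽_p`-functional of `β` has a unit radical,
  which `τ_v` fixes; functionals separate points);
* `m59rpk_peuII : m59rp_PeuII_stmt` : `g0` adapted (`γ(g0) ≠ 0`) and `v̄ = 0` ⟹ `rb(τ_v) = 1` ⟹ peu
  ramifiée at `A` (Hilbert 90 `m59rpk_h90` for the `𝔽_p`-functionals of the cocycle of any
  ordinary-shaped pair, then helper6's `m59kc_unit_of_tau`).
-/
import Mathlib
import Fermat.Agent.M59.Rp.R1Trace
import Fermat.Agent.M59.KumConv.Main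

set_option autoImplicit false
set_option linter.unusedSectionVars false
set_option linter.unusedVariables false
set_option linter.style.haveILetI false

noncomputable section

namespace Fermat.Agent.M59

open IsLocalRing Fermat.Agent.S53

local notation "Qb" => AlgebraicClosure ℚ
local notation "GQ" => (AlgebraicClosure ℚ ≃ₐ[ℚ] AlgebraicClosure ℚ)

section Res

variable {k : Type} [Field k] (rb : FramedResidual k)

theorem m59rpk_res_trace (b : Module.Basis (Fin 2) k (m59rp_res rb).V) (σ : GQ) :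
    (m59rpk_N (m59rp_res rb) b σ).trace = (rb σ).trace := by
  rw [m59rpk_N_trace]
  exact Matrix.trace_toLin'_eq (rb.toMonoidHom σ)

theorem m59rpk_res_det (σ : GQ) : LinearMap.det ((m59rp_res rb).ρ σ) = (rb σ).det :=
  LinearMap.det_toLin' (rb.toMonoidHom σ)

/-- the columns of `ρ σ` in the basis `b`. -/
theorem m59rpk_N_col {T : Type} [CommRing T] [IsLocalRing T] (ρ : GaloisRepAdic T)
    (b : Module.Basis (Fin 2) T ρ.V) (σ : GQ) (j : Fin 2) :
    ρ.ρ σ (b j) = m59rpk_N ρ b σ 0 j • b 0 + m59rpk_N ρ b σ 1 j • b 1 := by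
  rw [m59rpk_N_apply, m59rpk_N_apply]
  conv_lhs => rw [← b.sum_repr (ρ.ρ σ (b j)), Fin.sum_univ_two]

variable {p : ℕ} [hp : Fact p.Prime]

theorem m59rpk_res_p_zero (hdet : (m59rp_res rb).DetIsCyclotomic p) : (p : k) = 0 := by
  have h := hdet.1
  rwa [IsLocalRing.maximalIdeal_eq_bot, Ideal.mem_bot] at h

/-- the residual determinant is the mod `p` cyclotomic character. -/
theorem m59rpk_res_det_eq (hdet : (m59rp_res rb).DetIsCyclotomic p) {ζ : Qb}
    (hζ : IsPrimitiveRoot ζ p) (σ : GQ) (j : ℕ) (hj : σ ζ = ζ ^ j) :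
    LinearMap.det ((m59rp_res rb).ρ σ) = (j : k) := by
  haveI : NeZero p := ⟨hp.out.ne_zero⟩
  have h0 := m59rpk_res_p_zero rb hdet
  have h1 := hdet.2 1 σ j (fun μ hμ => by
    obtain ⟨i, -, rfl⟩ := hζ.eq_pow_of_pow_eq_one (by rwa [pow_one] at hμ)
    rw [map_pow, hj, ← pow_mul, ← pow_mul, mul_comm])
  rw [pow_one, h0, Ideal.span_singleton_eq_bot.2 rfl, Ideal.mem_bot] at h1
  exact sub_eq_zero.1 h1

variable {A : ValuationSubring Qb} (E : m59rp_Elts p A)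
  (b : Module.Basis (Fin 2) k (m59rp_res rb).V)
  (hin : ∀ σ ∈ A.inertiaSubgroupIn ℚ, ∀ w : (m59rp_res rb).V,
    (m59rp_res rb).ρ σ w - w ∈ Submodule.span k {b 0})

include hin in
/-- on inertia the upper left entry is the determinant. -/
theorem m59rpk_res_I00 {s : GQ} (hs : s ∈ A.inertiaSubgroupIn ℚ) :
    m59rpk_N (m59rp_res rb) b s 0 0 = LinearMap.det ((m59rp_res rb).ρ s) := by
  rw [← m59rpk_N_det (m59rp_res rb) b, Matrix.det_fin_two,
    m59rpk_N_I10 (m59rp_res rb) b A hin hs, m59rpk_N_I11 (m59rp_res rb) b A hin hs]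
  ring

include hin in
/-- `v̄ = γ(g0) β(τ_v)`. -/
theorem m59rpk_res_v (hdet : (m59rp_res rb).DetIsCyclotomic p) (g0 : GQ) :
    m59rp_v E g0 rb.toMonoidHom =
      m59rpk_N (m59rp_res rb) b g0 1 0 * m59rpk_N (m59rp_res rb) b E.tv 0 1 := by
  haveI : NeZero p := ⟨hp.out.ne_zero⟩
  obtain ⟨ζ, hζ⟩ := HasEnoughRootsOfUnity.exists_primitiveRoot Qb p
  have h10 := m59rpk_N_I10 (m59rp_res rb) b A hin E.tv_mem
  have h11 := m59rpk_N_I11 (m59rp_res rb) b A hin E.tv_mem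
  have h00 : m59rpk_N (m59rp_res rb) b E.tv 0 0 = 1 := by
    rw [m59rpk_res_I00 rb b hin E.tv_mem, m59rpk_res_det_eq rb hdet hζ E.tv 1
      (by rw [pow_one]; exact m59rpk_tv_fix_mu E 1 ζ (by rw [pow_one]; exact hζ.pow_eq_one)),
      Nat.cast_one]
  show (rb (g0 * E.tv)).trace - (rb g0).trace = _
  rw [← m59rpk_res_trace rb b, ← m59rpk_res_trace rb b, m59rpk_trace_eq, m59rpk_trace_eq,
    m59rpk_N_mul_apply, m59rpk_N_mul_apply, h10, h11, h00]
  ring

end Res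

/-- **(PEU-III)**. -/
theorem m59rpk_peuIII : m59rp_PeuIII_stmt := by
  intro p hp hp2 k _ rb A hA E g0 hdet hord hpeu
  have hp0 : p ≠ 0 := hp.out.ne_zero
  haveI : NeZero p := ⟨hp0⟩
  obtain ⟨L, ⟨b, rfl⟩, hstab, hin⟩ := hord A hA
  rw [m59rpk_res_v rb E b hin hdet g0]
  obtain ⟨ζ, hζ⟩ := HasEnoughRootsOfUnity.exists_primitiveRoot Qb p
  have hp0k := m59rpk_res_p_zero rb hdet
  haveI : CharP k p := (CharP.charP_iff_prime_eq_zero hp.out).2 hp0k
  letI : Algebra (ZMod p) k := ZMod.algebra k p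
  suffices h : m59rpk_N (m59rp_res rb) b E.tv 0 1 = 0 by rw [h, mul_zero]
  rw [← Module.forall_dual_apply_eq_zero_iff (ZMod p)]
  intro ℓ
  -- the ordinary-shaped pair `(b 0, b 1)`
  have hχ : ∀ σ ∈ A.inertiaSubgroupIn ℚ, ∀ j : ℕ, σ ζ = ζ ^ j →
      rb.toResidualGaloisRep.ρ σ (b 0) = (j : k) • b 0 := by
    intro σ hσ j hj
    have h1 := m59rpk_N_col (m59rp_res rb) b σ 0
    rw [m59rpk_N_I10 (m59rp_res rb) b A hin hσ, zero_smul, add_zero,
      m59rpk_res_I00 rb b hin hσ, m59rpk_res_det_eq rb hdet hζ σ j hj] at h1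
    exact h1
  have hc : ∀ σ ∈ A.inertiaSubgroupIn ℚ, rb.toResidualGaloisRep.ρ σ (b 1) =
      b 1 + m59rpk_N (m59rp_res rb) b σ 0 1 • b 0 := by
    intro σ hσ
    have h1 := m59rpk_N_col (m59rp_res rb) b σ 1
    rw [m59rpk_N_I11 (m59rp_res rb) b A hin hσ, one_smul, add_comm] at h1
    exact h1
  obtain ⟨β, hβ0, hβA, hβiA, hβ⟩ := hpeu ζ hζ (b 0) (b 1)
    (fun σ => m59rpk_N (m59rp_res rb) b σ 0 1) (b.ne_zero 0) hχ hc ℓ.toAddMonoidHom
  -- `τ_v` fixes `β`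
  have hfix : E.tv β = β := by
    refine E.tv_fix 1 β hβA hβiA fun s hs => ?_
    rw [pow_one, map_pow, hβ s hs, mul_pow, ← pow_mul, mul_comm _ p, pow_mul, hζ.pow_eq_one,
      one_pow, one_mul]
  have h5 := hβ E.tv E.tv_mem
  rw [hfix] at h5
  have h6 : ζ ^ (ℓ.toAddMonoidHom (m59rpk_N (m59rp_res rb) b E.tv 0 1)).val = 1 :=
    mul_right_cancel₀ hβ0 (h5.symm.trans (one_mul β).symm)
  have h7 := (hζ.pow_eq_one_iff_dvd _).1 h6
  have h8 := ZMod.val_lt (ℓ.toAddMonoidHom (m59rpk_N (m59rp_res rb) b E.tv 0 1))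
  exact (ZMod.val_eq_zero _).1 (Nat.eq_zero_of_dvd_of_lt h7 h8)

/-- an adapted `g0` has `γ(g0) ≠ 0` in every ordinary basis. -/
theorem m59rpk_adapted_gamma {k : Type} [Field k] (rb : FramedResidual k) {p : ℕ}
    {A : ValuationSubring Qb} (E : m59rp_Elts p A) (g0 : GQ)
    (b : Module.Basis (Fin 2) k (m59rp_res rb).V)
    (hin : ∀ σ ∈ A.inertiaSubgroupIn ℚ, ∀ w : (m59rp_res rb).V,
      (m59rp_res rb).ρ σ w - w ∈ Submodule.span k {b 0})
    (had : m59rp_IsAdapted E rb g0) : m59rpk_N (m59rp_res rb) b g0 1 0 ≠ 0 := by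
  intro h0
  apply had
  set Φ : Matrix (Fin 2) (Fin 2) k ≃ₐ[k] Matrix (Fin 2) (Fin 2) k :=
    (Matrix.toLinAlgEquiv' (R := k) (n := Fin 2)).trans (LinearMap.toMatrixAlgEquiv b) with hΦ
  have hΦN : ∀ σ : GQ, Φ (rb σ) = m59rpk_N (m59rp_res rb) b σ := fun σ => rfl
  apply Φ.injective
  rw [map_zero, map_mul, map_mul, map_sub, map_sub, map_smul, map_one, hΦN, hΦN]
  have h10 := m59rpk_N_I10 (m59rp_res rb) b A hin E.s0_mem
  have h11 := m59rpk_N_I11 (m59rp_res rb) b A hin E.s0_mem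
  have hd : (rb E.s0).det = m59rpk_N (m59rp_res rb) b E.s0 0 0 := by
    rw [← m59rpk_res_det, ← m59rpk_N_det (m59rp_res rb) b, Matrix.det_fin_two, h10, h11]
    ring
  rw [hd]
  ext i j
  fin_cases i <;> fin_cases j <;>
    simp [Matrix.mul_apply, Fin.sum_univ_two, h0, h10, h11, Matrix.smul_apply, Matrix.one_apply]

/-- **(PEU-II)**. -/
theorem m59rpk_peuII : m59rp_PeuII_stmt := by
  intro p hp hp2 k _ rb A hA E g0 had hdet hord hnpeu hv
  apply hnpeu
  have hp0 : p ≠ 0 := hp.out.ne_zero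
  haveI : NeZero p := ⟨hp0⟩
  obtain ⟨L, ⟨b, rfl⟩, hstab, hin⟩ := hord A hA
  rw [m59rpk_res_v rb E b hin hdet g0] at hv
  have hβtv : m59rpk_N (m59rp_res rb) b E.tv 0 1 = 0 :=
    (mul_eq_zero.1 hv).resolve_left (m59rpk_adapted_gamma rb E g0 b hin had)
  have hp0k := m59rpk_res_p_zero rb hdet
  -- `rb(τ_v) = 1`
  have htv1 : ∀ w : (m59rp_res rb).V, (m59rp_res rb).ρ E.tv w = w := by
    obtain ⟨ζ₀, hζ₀⟩ := HasEnoughRootsOfUnity.exists_primitiveRoot Qb p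
    have h00 : m59rpk_N (m59rp_res rb) b E.tv 0 0 = 1 := by
      rw [m59rpk_res_I00 rb b hin E.tv_mem, m59rpk_res_det_eq rb hdet hζ₀ E.tv 1
        (by rw [pow_one]; exact m59rpk_tv_fix_mu E 1 ζ₀ (by rw [pow_one]; exact hζ₀.pow_eq_one)),
        Nat.cast_one]
    have e0 : (m59rp_res rb).ρ E.tv (b 0) = b 0 := by
      rw [m59rpk_N_col, h00, m59rpk_N_I10 (m59rp_res rb) b A hin E.tv_mem, one_smul, zero_smul,
        add_zero]
    have e1 : (m59rp_res rb).ρ E.tv (b 1) = b 1 := by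
      rw [m59rpk_N_col, hβtv, m59rpk_N_I11 (m59rp_res rb) b A hin E.tv_mem, one_smul, zero_smul,
        zero_add]
    intro w
    conv_lhs => rw [← b.sum_repr w, Fin.sum_univ_two]
    rw [map_add, map_smul, map_smul, e0, e1]
    conv_rhs => rw [← b.sum_repr w, Fin.sum_univ_two]
  -- peu ramifiée
  intro ζ hζ x v c hx hχ hc l
  have hζ0 : ζ ≠ 0 := hζ.ne_zero hp0
  have hk : ∀ σ : GQ, ∃ j : ℕ, σ ζ = ζ ^ j := by
    intro σ
    have hpow : (σ ζ) ^ p = 1 := by rw [← map_pow, hζ.pow_eq_one, map_one]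
    obtain ⟨j, -, hj⟩ := hζ.eq_pow_of_pow_eq_one hpow
    exact ⟨j, hj.symm⟩
  -- the cocycle relation
  have hcoc : ∀ s ∈ A.inertiaSubgroupIn ℚ, ∀ t ∈ A.inertiaSubgroupIn ℚ, ∀ j : ℕ, s ζ = ζ ^ j →
      c (s * t) = c s + (j : k) * c t := by
    intro s hs t ht j hj
    have h1 := hc _ (mul_mem hs ht)
    rw [map_mul, Module.End.mul_apply, hc t ht, map_add, map_smul, hc s hs, hχ s hs j hj,
      add_assoc, smul_smul, ← add_smul] at h1
    have h2 := add_left_cancel h1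
    have h3 : (c s + c t * (j : k) - c (s * t)) • x = 0 := by
      rw [sub_smul, h2, sub_self]
    rcases smul_eq_zero.1 h3 with h4 | h4
    · rw [mul_comm] at h4
      exact (sub_eq_zero.1 h4).symm
    · exact absurd h4 hx
  set a : GQ → ℕ := fun σ => (l (c σ)).val with ha
  have hpow_eq : ∀ m n : ℕ, ((m : ZMod p) = (n : ZMod p)) → ζ ^ m = ζ ^ n := by
    intro m n hmn
    exact m59kc_pow_eq_of_modEq hζ ((ZMod.natCast_eq_natCast_iff _ _ _).1 hmn)
  have hacoc : ∀ s ∈ A.inertiaSubgroupIn ℚ, ∀ t ∈ A.inertiaSubgroupIn ℚ,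
      ζ ^ a (s * t) = ζ ^ a s * s (ζ ^ a t) := by
    intro s hs t ht
    obtain ⟨j, hj⟩ := hk s
    rw [map_pow, hj, ← pow_mul, ← pow_add]
    refine hpow_eq _ _ ?_
    rw [ha]
    push_cast
    simp only [ZMod.natCast_val, ZMod.cast_id', id]
    rw [hcoc s hs t ht j hj, map_add, ← nsmul_eq_mul, map_nsmul, nsmul_eq_mul]
  obtain ⟨F, hFfin, hF⟩ := rb.finiteLevel
  haveI := hFfin
  have hcu : ∀ u ∈ A.inertiaSubgroupIn ℚ, u ∈ F.fixingSubgroup → c u = 0 := by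
    intro u hu huF
    have h1 := hc u hu
    have h2 : rb.toMonoidHom u = 1 := hF u (fun y hy => huF ⟨y, hy⟩)
    have h3 : rb.toResidualGaloisRep.ρ u v = v := by
      show Matrix.toLin' (rb.toMonoidHom u) v = v
      rw [h2, Matrix.toLin'_one]
      rfl
    rw [h3] at h1
    have h4 : c u • x = 0 := by
      have := h1.symm
      rwa [add_eq_left] at this
    exact (smul_eq_zero.1 h4).resolve_right hx
  obtain ⟨β, hβ0, hβ⟩ := m59rpk_h90 A (fun s => (ζ ^ a s)⁻¹)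
    (fun s _ => inv_ne_zero (pow_ne_zero _ hζ0))
    (fun s hs t ht => by
      show (ζ ^ a (s * t))⁻¹ = (ζ ^ a s)⁻¹ * s ((ζ ^ a t)⁻¹)
      rw [hacoc s hs t ht, mul_inv, map_inv₀])
    F
    (fun s hs u hu huF => by
      show (ζ ^ a (s * u))⁻¹ = (ζ ^ a s)⁻¹
      obtain ⟨j, hj⟩ := hk s
      have : c (s * u) = c s := by rw [hcoc s hs u hu j hj, hcu u hu huF, mul_zero, add_zero]
      rw [ha]
      simp only [this])
  have hβ' : ∀ σ ∈ A.inertiaSubgroupIn ℚ, σ β = ζ ^ a σ * β := by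
    intro σ hσ
    have h1 : (ζ ^ a σ)⁻¹ * σ β = β := hβ σ hσ
    have h2 : (ζ ^ a σ) ≠ 0 := pow_ne_zero _ hζ0
    calc σ β = ζ ^ a σ * ((ζ ^ a σ)⁻¹ * σ β) := by rw [← mul_assoc, mul_inv_cancel₀ h2, one_mul]
      _ = ζ ^ a σ * β := by rw [h1]
  -- `a(τ_v) = 0`
  have hctv : c E.tv = 0 := by
    have h1 := hc E.tv E.tv_mem
    have h3 : rb.toResidualGaloisRep.ρ E.tv v = v := htv1 v
    rw [h3] at h1
    have h4 : c E.tv • x = 0 := by
      have := h1.symm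
      rwa [add_eq_left] at this
    exact (smul_eq_zero.1 h4).resolve_right hx
  have hatv : p ∣ a E.tv := by
    rw [ha]
    simp only [hctv, map_zero, ZMod.val_zero, dvd_zero]
  exact m59kc_unit_of_tau A hA hζ a hβ0 hβ' E.tv E.tv_mem E.tv_fix E.tv_ne hatv

end Fermat.Agent.M59

end
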