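/-
M59 / [R_p-norm], cell (RES-ORD) (helper24; prefix `m59rpk_`).

`m59rpk_resOrd : m59rp_ResOrd_stmt` : a Hecke pair `H` over `rb` with cyclotomic determinant, ordinary
at `p`, has a residual representation `m59rp_res rb` with cyclotomic determinant, ordinary at `p`.
* ordinary: `m59rpk_ord_residual` (reduce the line mod `𝔪_T`), `FramedRep.residual_isEquiv`,
  `H.lift` (`H.r.residual = rb.map ι`), then base change along `ι⁻¹`
  (`ι : ResidueField 𝒪 → ResidueField T` is bijective by `H.residue_surjective`).
* determinant: entrywise, `ι` injective.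
-/
import Mathlib
import Fermat.Agent.M59.Rp.Seams
import Fermat.Agent.M59.Rp.OrdTop

set_option autoImplicit false
set_option linter.unusedSectionVars false
set_option linter.unusedVariables false
set_option linter.style.haveILetI false

noncomputable section

namespace Fermat.Agent.M59

open IsLocalRing Fermat.Agent.S53 Fermat.Agent.TW

local notation "Qb" => AlgebraicClosure ℚ
local notation "GQ" => (AlgebraicClosure ℚ ≃ₐ[ℚ] AlgebraicClosure ℚ)

section Pair

variable {𝒪 : Type} [CommRing 𝒪] [IsLocalRing 𝒪] {rb : FramedResidual (ResidueField 𝒪)}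
  (H : twc_HPair 𝒪 rb)

/-- `ι : ResidueField 𝒪 → ResidueField T` is bijective. -/
theorem m59rpk_iota_bijective :
    Function.Bijective (ResidueField.map (algebraMap 𝒪 H.T)) := by
  refine ⟨(ResidueField.map (algebraMap 𝒪 H.T)).injective, fun y => ?_⟩
  obtain ⟨a, ha⟩ := H.residue_surjective y
  exact ⟨residue 𝒪 a, by rw [ResidueField.map_residue]; exact ha⟩

/-- the residual representation of a pair is ordinary as soon as the pair is. -/
theorem m59rpk_resOrd_ord {p : ℕ} (hord : H.r.toGaloisRepAdic.IsOrdinaryAt p) :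
    (m59rp_res rb).IsOrdinaryAt p := by
  set ι := ResidueField.map (algebraMap 𝒪 H.T) with hι
  set e : ResidueField 𝒪 ≃+* ResidueField H.T := RingEquiv.ofBijective ι (m59rpk_iota_bijective H)
    with he
  have h1 := m59rpk_ord_residual H.r.toGaloisRepAdic hord
  have h2 : (GaloisRepAdic.ofResidualGaloisRep (rb.map ι).toResidualGaloisRep).IsOrdinaryAt p := by
    have h3 := H.r.residual_isEquiv
    rw [(FramedRep.isLiftOf_iff H.r rb ι).1 H.lift] at h3
    exact m59rpk_ord_resEquiv h3 h1
  have h4 := m59rpk_ord_resBC (e.symm : ResidueField H.T →+* ResidueField 𝒪)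
    (rb.map ι).toResidualGaloisRep h2
  have h5 := m59rpk_ord_resEquiv
    (FramedResidual.baseChangeAlong_isEquiv (e.symm : ResidueField H.T →+* ResidueField 𝒪)
      (rb.map ι)) h4
  have h6 : (rb.map ι).map (e.symm : ResidueField H.T →+* ResidueField 𝒪) = rb := by
    apply FramedResidual.ext
    intro σ
    ext i j
    show e.symm (ι (rb σ i j)) = rb σ i j
    exact e.symm_apply_apply _
  rw [h6] at h5
  exact h5

/-- the residual determinant is cyclotomic as soon as the determinant of the pair is. -/
theorem m59rpk_resOrd_det {p : ℕ} (hdet : H.r.toGaloisRepAdic.DetIsCyclotomic p) :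
    (m59rp_res rb).DetIsCyclotomic p := by
  set ι := ResidueField.map (algebraMap 𝒪 H.T) with hι
  have hinj : Function.Injective ι := ι.injective
  obtain ⟨hpm, hcyc⟩ := hdet
  have hp0 : (p : ResidueField 𝒪) = 0 := by
    apply hinj
    rw [map_natCast, map_zero, ← map_natCast (residue H.T), residue_eq_zero_iff]
    exact hpm
  refine ⟨by rw [hp0]; exact Ideal.zero_mem _, fun n σ a ha => ?_⟩
  have h1 := hcyc n σ a ha
  have hd1 : LinearMap.det (H.r.toGaloisRepAdic.ρ σ) = (H.r σ).det :=
    LinearMap.det_toLin' (H.r.toMonoidHom σ)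
  have hd2 : LinearMap.det ((m59rp_res rb).ρ σ) = (rb σ).det :=
    LinearMap.det_toLin' (rb.toMonoidHom σ)
  rw [hd1] at h1
  rw [hd2]
  rcases Nat.eq_zero_or_pos n with hn | hn
  · rw [hn, pow_zero, Nat.cast_one, Ideal.span_singleton_one]
    exact Submodule.mem_top
  · suffices h : (rb σ).det - (a : ResidueField 𝒪) = 0 by rw [h]; exact Ideal.zero_mem _
    apply hinj
    have h2 : ι ((rb σ).det) = residue H.T ((H.r σ).det) := by
      rw [RingHom.map_det, RingHom.map_det]
      exact congrArg Matrix.det (H.lift σ).symm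
    rw [map_sub, map_natCast, map_zero, h2, ← map_natCast (residue H.T), ← map_sub,
      residue_eq_zero_iff]
    obtain ⟨c, hc⟩ := Ideal.mem_span_singleton.1 h1
    rw [hc, Nat.cast_pow]
    exact Ideal.mul_mem_right _ _ (Ideal.pow_mem_of_mem _ hpm n hn)

end Pair

/-- **(RES-ORD)**. -/
theorem m59rpk_resOrd : m59rp_ResOrd_stmt := by
  intro p hp 𝒪 _ _ rb H hdet hord
  exact ⟨m59rpk_resOrd_det H hdet, m59rpk_resOrd_ord H hord⟩

end Fermat.Agent.M59

end
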