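/-
M59 / [R_p-norm], cell (R2') (helper10; prefix `m59rpa_`): THE TANGENT FORM OF `flat ⟹ v = 0`.

`H` a Hecke pair over `rb`, `det = ε`, ordinary and FLAT at `p`; `φ : T → k[ε]` any `𝒪`-algebra map,
`r_φ = twc_frame H.r φ`.  Then `r_φ(τ_v) = 1`, hence `φ(v_T) = tr r_φ(g0 τ_v) - tr r_φ(g0) = 0`.

* `m59rpa_res_tau` (residual form, no lift needed): a FLAT `rK : FramedRep k` (`k` a finite field) with
  `(s - 1) V̄ ⊆ k u₀` on `I_P`, `det = ω`: the `u₀`-coefficient of `rK(τ_v) u₁ - u₁` vanishes.  (The order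
  of `k²` from `s56fi_order`, the cell `s56fop_main` through `s56fo_peu_of_order` with `X = k`,
  `j a = a u₀`, then `m59rpk_peu_tau_ctx` and the separation of points by `𝔽_p`-functionals.)
  It is applied to `rK = H.r.map (T → k)`; this covers the maps `φ` which are NOT onto (there the
  frame is the constant deformation, whose flatness is not available).
* `φ` onto: helper24's `m59rpk_flat_tau` for the flat frame `r_φ` gives `c_φ(τ_v) ∈ W₀` with vanishing
  `u₀`-coefficient on `u₁`, i.e. `c_φ(τ_v) = 0`.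
* `m59rpa_flatTan : m59rp_FlatTan_stmt`.
-/
import Mathlib
import Fermat.Agent.M59.Rp.Seams
import Fermat.Agent.M59.Rp.KumFlat
import Fermat.Agent.M59.Rp.ResOrd
import Fermat.Agent.M59.Rp.Mem
import Fermat.Agent.M59.Rp.PeuCases
import Fermat.Agent.M59.Rp.Adapted

set_option autoImplicit false
set_option linter.unusedSectionVars false
set_option linter.unusedVariables false
set_option linter.style.haveILetI false

noncomputable section

namespace Fermat.Agent.M59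

open IsLocalRing Fermat.Agent.S53 Fermat.Agent.S56 Fermat.Agent.TW Fermat.Agent.MZ Fermat.Agent.FF
  Matrix ExtCitation

local notation "Qb" => AlgebraicClosure ℚ
local notation "GQ" => (AlgebraicClosure ℚ ≃ₐ[ℚ] AlgebraicClosure ℚ)

attribute [local instance] S53.dualNumberAlgebra

/-- a matrix killing `u₀` and `u₁` (`det (u₀, u₁) = 1`) is zero. -/
theorem m59rpa_eq_zero_of_mulVec {k : Type} [Field k] {u₀ u₁ : Fin 2 → k}
    (hu01 : s56fo_detw u₀ u₁ = 1) (N : Matrix (Fin 2) (Fin 2) k)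
    (h0 : N *ᵥ u₀ = 0) (h1 : N *ᵥ u₁ = 0) : N = 0 := by
  rw [s56fo_detw_apply] at hu01
  have e0 : ∀ i, N i 0 * u₀ 0 + N i 1 * u₀ 1 = 0 := fun i => by
    have := congrFun h0 i
    simpa [Matrix.mulVec, dotProduct, Fin.sum_univ_two] using this
  have e1 : ∀ i, N i 0 * u₁ 0 + N i 1 * u₁ 1 = 0 := fun i => by
    have := congrFun h1 i
    simpa [Matrix.mulVec, dotProduct, Fin.sum_univ_two] using this
  ext i j
  fin_cases j
  · show N i 0 = 0
    linear_combination (-(u₁ 1)) * e0 i + (u₀ 1) * e1 i + (-(N i 0)) * hu01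
  · show N i 1 = 0
    linear_combination (u₁ 0) * e0 i + (-(u₀ 0)) * e1 i + (-(N i 1)) * hu01

/-- **the residual form of `flat ⟹ peu ramifiée at τ_v`.** -/
theorem m59rpa_res_tau {k : Type} [Field k] {p : ℕ} [Fact p.Prime] [Algebra (ZMod p) k]
    [Finite k] (hp2 : p ≠ 2)
    (rK : FramedRep k) (P : ValuationSubring Qb) (hP : P.LiesOverPrime p)
    {u₀ u₁ : Fin 2 → k} (hu01 : s56fo_detw u₀ u₁ = 1)
    (hord : ∀ s ∈ P.inertiaSubgroupIn ℚ, ∀ v : Fin 2 → k, ∃ t : k, rK s *ᵥ v - v = t • u₀)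
    (hdet : ∀ σ : GQ, (rK σ).det = ((cycloExp p σ : ℕ) : k))
    (hflat : rK.toGaloisRepAdic.IsFlatAt p)
    (τ : GQ) (hτI : τ ∈ P.inertiaSubgroupIn ℚ)
    (hτ1 : ∀ (N : ℕ) (γ : Qb), γ ∈ P → γ⁻¹ ∈ P →
      (∀ s ∈ P.inertiaSubgroupIn ℚ, s (γ ^ p ^ N) = γ ^ p ^ N) → τ γ = γ) :
    s56fo_co u₁ (rK τ *ᵥ u₁ - u₁) = 0 := by
  classical
  have hpr : p.Prime := Fact.out
  haveI : NeZero p := ⟨hpr.ne_zero⟩
  haveI : CharP k p := charP_of_injective_algebraMap (algebraMap (ZMod p) k).injective p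
  have h3 : 3 ≤ p := by
    have := hpr.two_le
    omega
  obtain ⟨ζ, hζ⟩ := HasEnoughRootsOfUnity.exists_primitiveRoot Qb p
  have hu : u₀ ≠ 0 := s56fo_u0_ne hu01
  have hctx := mzg_ctx p P hP
  haveI : IsDiscreteValuationRing ↥(ffi_O P ↥(ffi_L P)) := mzg_ctx_dvr p P hP
  obtain ⟨s₀, hs₀, hne⟩ := Fermat.Agent.MZ.mzj_ch_main p h3 P hP
  obtain ⟨H, hH⟩ := s56fi_order rK p hflat P hP
  letI modV : Module (ZMod p) (s56fi_Mod rK.toMonoidHom) :=
    inferInstanceAs (Module (ZMod p) (Fin 2 → k))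
  let j : k →ₗ[ZMod p] s56fi_Mod rK.toMonoidHom :=
    { toFun := fun a => s56fi_of _ (a • u₀)
      map_add' := fun a a' => add_smul a a' u₀
      map_smul' := fun n a => smul_assoc n a u₀ }
  have hj : Function.Injective j := by
    rw [injective_iff_map_eq_zero]
    intro a ha
    have h1 : a • u₀ = 0 := ha
    rcases smul_eq_zero.1 h1 with h | h
    · exact h
    · exact absurd h hu
  let ω : ↥(P.inertiaSubgroupIn ℚ) → ZMod p := fun s => ((cycloExp p (s : GQ) : ℕ) : ZMod p)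
  have hω : ∀ s : ↥(P.inertiaSubgroupIn ℚ), s • ζ = ζ ^ (ω s).val := by
    intro s
    show (s : GQ) ζ = ζ ^ (((cycloExp p (s : GQ) : ℕ) : ZMod p)).val
    rw [ZMod.val_natCast, ← pow_eq_pow_mod _ hζ.pow_eq_one]
    exact Fermat.Agent.S14.Reduction.apply_of_pow_eq_one p (s : GQ) hζ.pow_eq_one
  have hω1 : ∃ s : ↥(P.inertiaSubgroupIn ℚ), ω s ≠ 1 := ⟨⟨s₀, hs₀⟩, hne⟩
  have hnat : ∀ (n : ℕ) (a : k), ((n : ZMod p)) • a = (n : k) * a := by
    intro n a
    rw [Nat.cast_smul_eq_nsmul, nsmul_eq_mul]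
  have hjs : ∀ (s : ↥(P.inertiaSubgroupIn ℚ)) (a : k), s • j a = j (ω s • a) := by
    intro s a
    show s56fi_of _ ((rK (s : GQ)) *ᵥ (a • u₀)) = s56fi_of _ ((ω s • a) • u₀)
    rw [Matrix.mulVec_smul, s56fo_det_eigen hu01 _ (hord s s.2), hdet, hnat, smul_smul, mul_comm]
  let bt : ↥(P.inertiaSubgroupIn ℚ) → k := fun s => s56fo_co u₁ (rK (s : GQ) *ᵥ u₁ - u₁)
  have hbt : ∀ s : ↥(P.inertiaSubgroupIn ℚ), rK (s : GQ) *ᵥ u₁ - u₁ = bt s • u₀ := by
    intro s
    obtain ⟨t, ht⟩ := hord s s.2 u₁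
    show _ = s56fo_co u₁ (rK (s : GQ) *ᵥ u₁ - u₁) • u₀
    rw [ht, s56fo_co_smul hu01]
  have hb₁ : ∀ s : ↥(P.inertiaSubgroupIn ℚ),
      s • (s56fi_of rK.toMonoidHom u₁) = s56fi_of _ u₁ + j (bt s) := by
    intro s
    show s56fi_of _ ((rK (s : GQ)) *ᵥ u₁) = s56fi_of _ (u₁ + bt s • u₀)
    rw [← hbt s]
    congr 1
    abel
  have hind : ∀ (n : ZMod p) (a : k), n • (s56fi_of rK.toMonoidHom u₁) + j a = 0 → n = 0 := by
    intro n a h
    have h1 : (algebraMap (ZMod p) k n) • u₁ + a • u₀ = 0 := by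
      have e : n • (s56fi_of rK.toMonoidHom u₁) = s56fi_of _ ((algebraMap (ZMod p) k n) • u₁) := by
        show n • (u₁ : Fin 2 → k) = _
        rw [algebraMap_smul]
        rfl
      rw [e] at h
      exact h
    have h2 := congrArg (s56fo_detw u₀) h1
    rw [map_add, map_zero, s56fo_detw_smul, add_zero] at h2
    have h4 : algebraMap (ZMod p) k n * s56fo_detw u₀ u₁ = 0 := by
      rw [← h2, s56fo_detw_apply, s56fo_detw_apply]
      simp only [Pi.smul_apply, smul_eq_mul]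
      ring
    rw [hu01, mul_one] at h4
    exact (map_eq_zero_iff _ (algebraMap (ZMod p) k).injective).1 h4
  have hL : ∀ n : ℕ, n ≠ 0 → ∃ ζ' : Qb, IsPrimitiveRoot ζ' n := fun n hn => by
    haveI : NeZero n := ⟨hn⟩
    exact HasEnoughRootsOfUnity.exists_primitiveRoot Qb n
  show bt ⟨τ, hτI⟩ = 0
  rw [← Module.forall_dual_apply_eq_zero_iff (ZMod p)]
  intro ℓ
  have hmain := s56fo_peu_of_order s56fop_main hctx hp2 hL (s56fo_hperf p P hP) hζ hH j hj ω hω hω1
    hjs (s56fi_of rK.toMonoidHom u₁) bt hb₁ hind ℓ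
  exact m59rpk_peu_tau_ctx p P hP hζ _ hmain τ hτI hτ1

section Pair

variable {𝒪 : Type} [CommRing 𝒪] [IsLocalRing 𝒪] {rb : FramedResidual (ResidueField 𝒪)}
  (H : twc_HPair 𝒪 rb)

/-- `T → k` : the residue map followed by `ι⁻¹`. -/
def m59rpa_psi : H.T →+* ResidueField 𝒪 :=
  ((RingEquiv.ofBijective (ResidueField.map (algebraMap 𝒪 H.T)) (m59rpk_iota_bijective H)).symm :
    ResidueField H.T →+* ResidueField 𝒪).comp (residue H.T)

theorem m59rpa_psi_eq {a : H.T} {x : ResidueField 𝒪}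
    (h : residue H.T a = ResidueField.map (algebraMap 𝒪 H.T) x) : m59rpa_psi H a = x := by
  show (RingEquiv.ofBijective (ResidueField.map (algebraMap 𝒪 H.T))
    (m59rpk_iota_bijective H)).symm (residue H.T a) = x
  rw [RingEquiv.symm_apply_eq]
  exact h

theorem m59rpa_psi_surjective : Function.Surjective (m59rpa_psi H) := by
  intro x
  obtain ⟨a, ha⟩ := residue_surjective (R := H.T) (ResidueField.map (algebraMap 𝒪 H.T) x)
  exact ⟨a, m59rpa_psi_eq H ha⟩

theorem m59rpa_psi_local : IsLocalHom (m59rpa_psi H) := by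
  refine ⟨fun a ha => ?_⟩
  by_contra hn
  have h0 : residue H.T a = 0 := (residue_eq_zero_iff a).2 ((mem_maximalIdeal a).2 hn)
  have h1 : m59rpa_psi H a = 0 := m59rpa_psi_eq H (by rw [h0, map_zero])
  rw [h1] at ha
  exact not_isUnit_zero ha

/-- the residual representation of a pair, as a framed representation over `k`. -/
def m59rpa_resK : FramedRep (ResidueField 𝒪) := H.r.map (m59rpa_psi H) (m59rpa_psi_local H)

theorem m59rpa_resK_apply (σ : GQ) : m59rpa_resK H σ = rb σ := by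
  ext i j
  show m59rpa_psi H (H.r σ i j) = rb σ i j
  apply m59rpa_psi_eq
  have := congrFun (congrFun (H.lift σ) i) j
  rwa [Matrix.map_apply, Matrix.map_apply] at this

theorem m59rpa_resK_flat {p : ℕ} (h : H.r.toGaloisRepAdic.IsFlatAt p) :
    (m59rpa_resK H).toGaloisRepAdic.IsFlatAt p := by
  obtain ⟨e⟩ := FramedRep.baseChangeAlong_isEquiv (m59rpa_psi H) (m59rpa_psi_local H) H.r
  exact s56t_tr_isFlatAt e (s56bc_flat _ (m59rpa_psi_local H) (m59rpa_psi_surjective H) _ p h)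

end Pair

/-- **(R2')**. -/
theorem m59rpa_flatTan : m59rp_FlatTan_stmt := by
  intro p hp hp2 𝒪 _ _ _ _ _ hpm rb A hA E g0 H hdet hord hflat φ
  have hp0 : p ≠ 0 := hp.out.ne_zero
  haveI : NeZero p := ⟨hp0⟩
  have hp0k : (p : ResidueField 𝒪) = 0 := by
    rw [← map_natCast (residue 𝒪)]
    exact (residue_eq_zero_iff _).2 hpm
  haveI : CharP (ResidueField 𝒪) p := (CharP.charP_iff_prime_eq_zero hp.out).2 hp0k
  letI : Algebra (ZMod p) (ResidueField 𝒪) := ZMod.algebra (ResidueField 𝒪) p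
  obtain ⟨ζ, hζ⟩ := HasEnoughRootsOfUnity.exists_primitiveRoot Qb p
  obtain ⟨hdetb, hordb⟩ := m59rpk_resOrd p 𝒪 rb H hdet hord
  obtain ⟨L, ⟨b, rfl⟩, hstab, hin⟩ := hordb A hA
  -- the ordinary data
  obtain ⟨u₀, hu₀⟩ : ∃ u₀ : Fin 2 → ResidueField 𝒪, u₀ = b 0 := ⟨_, rfl⟩
  have hu : u₀ ≠ 0 := by rw [hu₀]; exact b.ne_zero 0
  obtain ⟨u₁, hu01⟩ := s56fo_detw_surjective hu 1
  obtain ⟨Dg, hDtr, hD1, hD2⟩ := s56o_exists_Dg hu
  have hordm : ∀ s ∈ A.inertiaSubgroupIn ℚ, ∀ v : Fin 2 → ResidueField 𝒪,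
      ∃ t : ResidueField 𝒪, rb s *ᵥ v - v = t • u₀ := by
    intro s hs v
    obtain ⟨t, ht⟩ := Submodule.mem_span_singleton.1 (hin s hs v)
    refine ⟨t, ?_⟩
    rw [hu₀, ← m59rpa_res_apply]
    exact ht.symm
  -- the frame
  have hbar : ∀ σ, s56t_bar (twc_frame H.r φ) σ = rb σ := twc_frame_bar H.r H.lift φ
  have hdetr := twc_frame_det H.r φ hdet
  have hdetb' : ∀ σ : GQ, (rb σ).det = ((cycloExp p σ : ℕ) : ResidueField 𝒪) := fun σ => by
    rw [← hbar, s56fo_det_bar _ hdetr]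
  -- the residual statement
  have hres : s56fo_co u₁ (rb E.tv *ᵥ u₁ - u₁) = 0 := by
    have h := m59rpa_res_tau hp2 (m59rpa_resK H) A hA hu01
      (fun s hs v => by rw [m59rpa_resK_apply]; exact hordm s hs v)
      (fun σ => by rw [m59rpa_resK_apply]; exact hdetb' σ)
      (m59rpa_resK_flat H hflat) E.tv E.tv_mem E.tv_fix
    rwa [m59rpa_resK_apply] at h
  -- `rb(τ_v) = 1`
  have hdet1 : (rb E.tv).det = 1 := by
    rw [← m59rpa_res_det, m59rpk_res_det_eq rb hdetb hζ E.tv 1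
      (by rw [pow_one]; exact m59rpk_tv_fix_mu E 1 ζ (by rw [pow_one]; exact hζ.pow_eq_one)),
      Nat.cast_one]
  have hone : rb E.tv = 1 := by
    have h0 : rb E.tv *ᵥ u₀ = u₀ := by
      rw [s56fo_det_eigen hu01 _ (hordm E.tv E.tv_mem), hdet1, one_smul]
    have h1 : rb E.tv *ᵥ u₁ - u₁ = 0 := by
      obtain ⟨t, ht⟩ := hordm E.tv E.tv_mem u₁
      rw [ht, s56fo_co_smul hu01] at hres
      rw [ht, hres, zero_smul]
    have := m59rpa_eq_zero_of_mulVec hu01 (rb E.tv - 1)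
      (by rw [Matrix.sub_mulVec, Matrix.one_mulVec, h0, sub_self])
      (by rw [Matrix.sub_mulVec, Matrix.one_mulVec, h1])
    exact sub_eq_zero.1 this
  -- the cocycle of the frame vanishes at `τ_v`
  have hcoc : s56t_coc (twc_frame H.r φ) E.tv = 0 := by
    by_cases hsurj : Function.Surjective φ
    · have hflatr := twc_frame_flat H.r φ hsurj hflat
      obtain ⟨m, A', hm, h1, h2, h3, h4, h5, h6⟩ := m59rpk_flat_tau hp2 rb A hA hu01 hordm hD1 hD2
        (twc_frame H.r φ) hbar hdetr hflatr E.tv E.tv_mem E.tv_fix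
      have hd0 : s56o_d rb m E.tv = 0 := by
        unfold s56o_d
        have hinv : rb E.tv⁻¹ = 1 := by
          have := rb.map_mul E.tv E.tv⁻¹
          rw [mul_inv_cancel, rb.map_one, hone, one_mul] at this
          exact this.symm
        rw [hone, hinv, one_mul, mul_one, sub_self]
      have hW := h1 E.tv (s56fo_inertia_le A E.tv_mem)
      rw [hd0, sub_zero, h3 E.tv E.tv_mem, zero_smul, sub_zero] at hW
      obtain ⟨hN0, hN1⟩ := hW
      obtain ⟨t, ht⟩ := hN1 u₁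
      rw [hd0, sub_zero, ht, s56fo_co_smul hu01] at h6
      exact m59rpa_eq_zero_of_mulVec hu01 _ hN0 (by rw [ht, h6, zero_smul])
    · exact twc_frame_coc_of_not_surjective H.residue_surjective H.r φ hsurj E.tv
  -- the frame is trivial at `τ_v`
  have hrt : twc_frame H.r φ E.tv = 1 := by
    rw [s56t_apply_eq (twc_frame H.r φ) E.tv, hcoc, hbar, hone, Matrix.zero_mul]
    exact s56t_mk_one_zero
  have hv : φ (m59rp_v E g0 H.r.toMonoidHom) = m59rp_v E g0 (twc_frame H.r φ).toMonoidHom :=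
    m59rpk_map_v (φ : H.T →+* DualNumber (ResidueField 𝒪)) E H.r.toMonoidHom
      (twc_frame H.r φ).toMonoidHom (fun σ => rfl) g0
  rw [hv]
  unfold m59rp_v
  have hmul : (twc_frame H.r φ).toMonoidHom (g0 * E.tv) = (twc_frame H.r φ).toMonoidHom g0 := by
    have := (twc_frame H.r φ).map_mul g0 E.tv
    rw [hrt, mul_one] at this
    exact this
  rw [hmul, sub_self]

end Fermat.Agent.M59
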