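import Mathlib
import Fermat.Agent.M59.Rp.Seams
import Fermat.Agent.M59.Rp.ZUr
import Fermat.Agent.M59.Rp.Mem
import Fermat.Agent.S56.LocP.Alg

/-!
# M59 / block [R_p-norm]: STRICTLY ORDINARY ⟹ `z(Frob_p) = ± 1`, `a = 0` (helper13; prefix `m59rp_`)

The bridge for the point of `W` in case (III) of [CORE] (`M59/Top/Chain3/Frame3.lean` needs
`a_W = 0`, i.e. `εp z_W(Frob_p) = 1` for a sign `εp`, and `res(εp) z̄(Frob_p) = 1` for (MEM)).

`r` a framed representation over a separated local ring `T`, cyclotomic determinant, STRICTLY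
ordinary at `p`; `E` the fixed elements at a place `A` over `p`:

* `m59rp_z_sq_of_strict` : `m59rp_z E r E.fr ^ 2 = 1` (in an ordinary basis `r(Frob) = (x, β; 0, z)`
  with `x z ≡ a`, `x ≡ a z` modulo `p^n` for the cyclotomic exponents `a`: `x (1 - z²) ≡ 0`, `x` a
  unit; `z = m59rp_z E r E.fr` by helper24's (Z) `m59rpk_zUr`);
* `m59rp_sign_of_strict` : over a domain: `∃ εp : ℤ, εp * εp = 1 ∧ m59rp_z E r E.fr = εp ∧
  m59rp_a E εp r = 0`;
* `m59rp_sign_res` : and then `residue εp * m59rp_z E r.residual E.fr = 1` (the hypothesis of the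
  first clause of (MEM) at `z0 := εp`).
-/

set_option autoImplicit false
set_option linter.unusedSectionVars false
set_option linter.unusedVariables false
set_option linter.style.haveILetI false

open IsLocalRing ExtCitation
open Fermat.Agent.S53 Fermat.Agent.S55 Fermat.Agent.S56

namespace Fermat.Agent.M59

noncomputable section

local notation "GQ" => (AlgebraicClosure ℚ ≃ₐ[ℚ] AlgebraicClosure ℚ)
local notation "Qb" => AlgebraicClosure ℚ

variable {T : Type} [CommRing T] [IsLocalRing T]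

/-- **strictly ordinary ⟹ `z(Frob_p)² = 1`.** -/
theorem m59rp_z_sq_of_strict {p : ℕ} [hp : Fact p.Prime] (hp2 : p ≠ 2) {A : ValuationSubring Qb}
    (hA : A.LiesOverPrime p) (E : m59rp_Elts p A)
    (hsep : ∀ x : T, (∀ n : ℕ, x ∈ maximalIdeal T ^ n) → x = 0)
    (r : FramedRep T) (hdet : r.toGaloisRepAdic.DetIsCyclotomic p)
    (hs : r.toGaloisRepAdic.IsStrictOrdinaryAt p) :
    m59rp_z E r.toMonoidHom E.fr ^ 2 = 1 := by
  obtain ⟨L, ⟨b, rfl⟩, hD, hI, hchar⟩ := hs.2 A hA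
  have hfrD : E.fr ∈ A.decompositionSubgroup ℚ := E.fr_frob.mem_decompositionSubgroup
  obtain ⟨x, z, hx, hz, hxz⟩ := hchar E.fr hfrD
  -- `z = m59rp_z E r E.fr`
  have hzeq : z = m59rp_z E r.toMonoidHom E.fr :=
    m59rpk_zUr p hp2 A hA E T hsep r hdet A hA E.fr E.fr_frob z ⟨_, ⟨b, rfl⟩, hD, hI, hz⟩
  rw [← hzeq]
  -- the determinant
  have hN00 : m59rpk_N r.toGaloisRepAdic b E.fr 0 0 = x := by
    rw [m59rpk_N_apply, hx (b 0) (Submodule.mem_span_singleton_self _), map_smul,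
      Module.Basis.repr_self, Finsupp.smul_apply, Finsupp.single_apply]
    simp
  have hN10 : m59rpk_N r.toGaloisRepAdic b E.fr 1 0 = 0 := m59rpk_N_D10 r.toGaloisRepAdic b A hD hfrD
  have hN11 : m59rpk_N r.toGaloisRepAdic b E.fr 1 1 = z := by
    obtain ⟨c, hc⟩ := Submodule.mem_span_singleton.1 (hz (b 1))
    have h3 : r.toGaloisRepAdic.ρ E.fr (b 1) = z • b 1 + c • b 0 := by
      rw [hc]; abel
    rw [m59rpk_N_apply, h3, map_add, map_smul, map_smul, Module.Basis.repr_self,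
      Module.Basis.repr_self, Finsupp.add_apply, Finsupp.smul_apply, Finsupp.smul_apply,
      Finsupp.single_apply, Finsupp.single_apply]
    simp
  have hdetM : LinearMap.det (r.toGaloisRepAdic.ρ E.fr) = x * z := by
    rw [← m59rpk_N_det r.toGaloisRepAdic b, Matrix.det_fin_two, hN10, mul_zero, sub_zero, hN00, hN11]
  -- `x` is a unit
  have hxu : IsUnit x := by
    have hu : IsUnit (LinearMap.det (r.toGaloisRepAdic.ρ E.fr)) := by
      have h1 : LinearMap.det (r.toGaloisRepAdic.ρ E.fr) * LinearMap.det (r.toGaloisRepAdic.ρ E.fr⁻¹) = 1 := by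
        rw [← map_mul, ← map_mul, mul_inv_cancel, map_one, map_one]
      exact IsUnit.of_mul_eq_one _ h1
    rw [hdetM] at hu
    exact isUnit_of_mul_isUnit_left hu
  -- `1 - z²` is divisible by every power of `p`
  have hpn : ∀ n : ℕ, Ideal.span {((p ^ n : ℕ) : T)} ≤ maximalIdeal T ^ n := by
    intro n
    rw [Ideal.span_le, Set.singleton_subset_iff, Nat.cast_pow]
    exact Ideal.pow_mem_pow hdet.1 n
  have hkey : x * (1 - z ^ 2) = 0 := by
    refine hsep _ fun n => hpn n ?_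
    obtain ⟨a, ha⟩ := s56oa_exists_cyc p E.fr n
    have h1 : x * z - (a : T) ∈ Ideal.span {((p ^ n : ℕ) : T)} := by
      rw [← hdetM]; exact hdet.2 n E.fr a ha
    have h2 : x - (a : T) * z ∈ Ideal.span {((p ^ n : ℕ) : T)} := hxz n a ha
    have e : x * (1 - z ^ 2) = (x - (a : T) * z) - (x * z - (a : T)) * z := by ring
    rw [e]
    exact Ideal.sub_mem _ h2 (Ideal.mul_mem_right _ _ h1)
  have h0 : 1 - z ^ 2 = 0 := (hxu.mul_right_eq_zero).mp hkey
  exact (sub_eq_zero.mp h0).symm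

/-- **strictly ordinary over a domain ⟹ `z(Frob_p) = εp = ± 1` and `a = 0`.** -/
theorem m59rp_sign_of_strict [IsDomain T] {p : ℕ} [hp : Fact p.Prime] (hp2 : p ≠ 2)
    {A : ValuationSubring Qb} (hA : A.LiesOverPrime p) (E : m59rp_Elts p A)
    (hsep : ∀ x : T, (∀ n : ℕ, x ∈ maximalIdeal T ^ n) → x = 0)
    (r : FramedRep T) (hdet : r.toGaloisRepAdic.DetIsCyclotomic p)
    (hs : r.toGaloisRepAdic.IsStrictOrdinaryAt p) :
    ∃ εp : ℤ, εp * εp = 1 ∧ m59rp_z E r.toMonoidHom E.fr = ((εp : ℤ) : T) ∧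
      m59rp_a E ((εp : ℤ) : T) r.toMonoidHom = 0 := by
  have h := m59rp_z_sq_of_strict hp2 hA E hsep r hdet hs
  have h1 : (m59rp_z E r.toMonoidHom E.fr - 1) * (m59rp_z E r.toMonoidHom E.fr + 1) = 0 := by
    have : (m59rp_z E r.toMonoidHom E.fr - 1) * (m59rp_z E r.toMonoidHom E.fr + 1) =
        m59rp_z E r.toMonoidHom E.fr ^ 2 - 1 := by ring
    rw [this, h, sub_self]
  rcases mul_eq_zero.mp h1 with h2 | h2
  · refine ⟨1, by norm_num, ?_, ?_⟩
    · rw [Int.cast_one]; exact sub_eq_zero.mp h2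
    · unfold m59rp_a
      rw [Int.cast_one, one_mul]; exact h2
  · have h3 : m59rp_z E r.toMonoidHom E.fr = -1 := eq_neg_of_add_eq_zero_left h2
    refine ⟨-1, by norm_num, ?_, ?_⟩
    · rw [Int.cast_neg, Int.cast_one]; exact h3
    · unfold m59rp_a
      rw [h3, Int.cast_neg, Int.cast_one]
      ring

/-- the residual companion: `res(εp) z̄(Frob_p) = 1`, the hypothesis of (MEM) for `a_T ∈ 𝔪_T`. -/
theorem m59rp_sign_res {p : ℕ} [hp : Fact p.Prime] {A : ValuationSubring Qb} (E : m59rp_Elts p A)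
    (r : FramedRep T) (hdet : r.toGaloisRepAdic.DetIsCyclotomic p) (εp : ℤ) (hε : εp * εp = 1)
    (hz : m59rp_z E r.toMonoidHom E.fr = ((εp : ℤ) : T)) :
    residue T ((εp : ℤ) : T) * m59rp_z E r.residual.toMonoidHom E.fr = 1 := by
  have h1 : residue T (m59rp_z E r.toMonoidHom E.fr) = m59rp_z E r.residual.toMonoidHom E.fr :=
    m59rpk_map_z (residue T) E r.toMonoidHom r.residual.toMonoidHom (fun σ => rfl)
      (m59rpk_one_sub_c_unit r hdet E.s0 E.s0_ne) E.fr
  rw [← h1, hz, ← map_mul, ← Int.cast_mul, hε, Int.cast_one, map_one]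

end

end Fermat.Agent.M59
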