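import Mathlib
import Fermat.Agent.M59.Rp.Cot3
import Fermat.Agent.M59.Rp.FlatTan
import Fermat.Agent.M59.Rp.Adapted
import Fermat.Agent.M59.Rp.Elts
import Fermat.Agent.M59.Rp.ResOrd
import Fermat.Agent.M59.Rp.StrictW

/-!
# M59 / block [R_p-norm]: THE DATA AT `p` IN CASE (III) (helper13; prefix `m59rp_`)

* `m59rp_cbW_mem` : the class of `x ∈ 𝔪_A` lies in the image `cbW` of `𝔪_𝒪` in the cotangent space
  ⟹ `x ∈ 𝔪_𝒪 A + 𝔪_A²`;
* `m59rp_killed_mem` (referee ref60 (4)(a)) : `x ∈ A` killed by ALL `𝒪`-algebra maps `A → k[ε]`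
  ⟹ `x ∈ 𝔪_𝒪 A + 𝔪_A²` (functionals on `Cot ⧸ cbW` separate points; `cbAlgHom`);
  `m59rp_killed_mem_span` : the same with `𝔪_𝒪 = (λ)`: `x ∈ (λ) + 𝔪_A²` (the shape of the field
  `flat0` of helper26's `m59ci3_LvSys`);
* `m59rp_flat_v_mem` : for a pair `H` with cyclotomic determinant, ordinary and FLAT at `p`:
  `v_T ∈ 𝔪_𝒪 T + 𝔪_T²` ((R2') `m59rpa_flatTan`); `m59rp_vbar_of_flat` : hence `v̄ = 0`;
* `m59rp_res_det`, `m59rp_res_ord` : the residual representation of a framed `rW` over `𝒪` has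
  cyclotomic determinant / is ordinary when `rW` is;
* `m59rp_dataIII` : THE BUNDLE: `rW` framed over the DVR `𝒪`, cyclotomic determinant, strictly
  ordinary at `p`, `ρ̄` absolutely irreducible ⟹ `∃ E g0 εp`, `εp² = 1`, `g0` adapted,
  `z_W(Frob_p) = εp`, `a_W = 0`, `res(εp) z̄(Frob_p) = 1`, and the residual ordinary datum `hO`.
-/

set_option autoImplicit false
set_option linter.unusedSectionVars false
set_option linter.unusedVariables false
set_option linter.style.haveILetI false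

open Polynomial IsLocalRing ExtCitation Matrix Module
open Fermat.Agent.S53 Fermat.Agent.S56 Fermat.Agent.TW

namespace Fermat.Agent.M59

noncomputable section

local notation "GQ" => (AlgebraicClosure ℚ ≃ₐ[ℚ] AlgebraicClosure ℚ)
local notation "Qb" => AlgebraicClosure ℚ

attribute [local instance] S53.dualNumberAlgebra

/-! ### tangent vectors separate `𝔪 ⧸ (𝔪_𝒪 A + 𝔪²)` -/

section cot

variable {𝒪 A : Type} [CommRing 𝒪] [IsLocalRing 𝒪] [CommRing A] [IsLocalRing A] [Algebra 𝒪 A]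
  [IsLocalHom (algebraMap 𝒪 A)]

/-- the classes in `cbW` are the classes of the elements of `𝔪_𝒪 A`. -/
theorem m59rp_cbW_mem (x : maximalIdeal A)
    (hx : (maximalIdeal A).toCotangent x ∈ S53.cbW 𝒪 A) :
    (x : A) ∈ (maximalIdeal 𝒪).map (algebraMap 𝒪 A) ⊔ maximalIdeal A ^ 2 := by
  have key : ∀ v ∈ S53.cbW 𝒪 A, ∃ y : maximalIdeal A,
      (y : A) ∈ (maximalIdeal 𝒪).map (algebraMap 𝒪 A) ∧ (maximalIdeal A).toCotangent y = v := by
    intro v hv
    unfold S53.cbW at hv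
    induction hv using Submodule.span_induction with
    | mem v hv =>
      obtain ⟨q, rfl⟩ := hv
      exact ⟨_, Ideal.mem_map_of_mem _ q.2, rfl⟩
    | zero => exact ⟨0, Ideal.zero_mem _, map_zero _⟩
    | add v w _ _ hv hw =>
      obtain ⟨y, hy, rfl⟩ := hv
      obtain ⟨y', hy', rfl⟩ := hw
      exact ⟨y + y', Ideal.add_mem _ hy hy', map_add _ _ _⟩
    | smul c v _ hv =>
      obtain ⟨y, hy, rfl⟩ := hv
      obtain ⟨a, rfl⟩ := IsLocalRing.residue_surjective c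
      exact ⟨a • y, Ideal.mul_mem_left _ a hy, cb_toCotangent_smul a y⟩
  obtain ⟨y, hy, hyx⟩ := key _ hx
  have h2 : (x : A) - (y : A) ∈ maximalIdeal A ^ 2 :=
    (Ideal.toCotangent_eq (maximalIdeal A)).1 hyx.symm
  have h3 : (x : A) = y + (x - y) := by ring
  rw [h3]
  exact Ideal.add_mem _ (Ideal.mem_sup_left hy) (Ideal.mem_sup_right h2)

/-- **an element killed by all the tangent vectors lies in `𝔪_𝒪 A + 𝔪_A²`.** -/
theorem m59rp_killed_mem (hres : Function.Surjective (residue A ∘ algebraMap 𝒪 A)) (x : A)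
    (hx : ∀ φ : A →ₐ[𝒪] DualNumber (ResidueField 𝒪), φ x = 0) :
    x ∈ (maximalIdeal 𝒪).map (algebraMap 𝒪 A) ⊔ maximalIdeal A ^ 2 := by
  have hinst : ∀ o : 𝒪, algebraMap 𝒪 (DualNumber (ResidueField 𝒪)) o =
      TrivSqZeroExt.inl (residue 𝒪 o) := fun o => rfl
  -- `x ∈ 𝔪_A`
  have hxm : x ∈ maximalIdeal A := by
    have h0 : S53.cbW 𝒪 A ≤ LinearMap.ker
        (0 : CotangentSpace A →ₗ[ResidueField A] ResidueField A) := by
      intro v _
      rw [LinearMap.mem_ker, LinearMap.zero_apply]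
    have h1 := hx (cbAlgHom hres hinst 0 h0)
    have h2 : cbRingHom hres 0 h0 x = 0 := h1
    rw [cbRingHom_apply] at h2
    have h3 := congrArg TrivSqZeroExt.fst h2
    simp only [TrivSqZeroExt.fst_add, TrivSqZeroExt.fst_inl, TrivSqZeroExt.fst_inr, add_zero,
      TrivSqZeroExt.fst_zero] at h3
    have h4 : residue A x = 0 := by
      have := congrArg (cbResidueEquiv hres) h3
      rwa [RingEquiv.apply_symm_apply, map_zero] at this
    exact (residue_eq_zero_iff _).1 h4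
  have hmem : (maximalIdeal A).toCotangent ⟨x, hxm⟩ ∈ S53.cbW 𝒪 A := by
    by_contra hcon
    have hne : (S53.cbW 𝒪 A).mkQ ((maximalIdeal A).toCotangent ⟨x, hxm⟩) ≠ 0 := by
      rw [Submodule.mkQ_apply, Ne, Submodule.Quotient.mk_eq_zero]
      exact hcon
    obtain ⟨μ, hμ⟩ : ∃ μ : Module.Dual (ResidueField A) (CotangentSpace A ⧸ S53.cbW 𝒪 A),
        μ ((S53.cbW 𝒪 A).mkQ ((maximalIdeal A).toCotangent ⟨x, hxm⟩)) ≠ 0 := by
      by_contra hall
      push Not at hall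
      exact hne ((Module.forall_dual_apply_eq_zero_iff (ResidueField A) _).1 hall)
    have hlam : S53.cbW 𝒪 A ≤ LinearMap.ker (μ.comp (S53.cbW 𝒪 A).mkQ) := by
      intro v hv
      rw [LinearMap.mem_ker, LinearMap.comp_apply, Submodule.mkQ_apply,
        (Submodule.Quotient.mk_eq_zero _).2 hv, map_zero]
    have h1 := hx (cbAlgHom hres hinst (μ.comp (S53.cbW 𝒪 A).mkQ) hlam)
    have h2 := cbAlgHom_snd_of_mem hres hinst (μ.comp (S53.cbW 𝒪 A).mkQ) hlam ⟨x, hxm⟩
    rw [show ((⟨x, hxm⟩ : maximalIdeal A) : A) = x from rfl, h1, TrivSqZeroExt.snd_zero] at h2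
    have h3 : (μ.comp (S53.cbW 𝒪 A).mkQ) ((maximalIdeal A).toCotangent ⟨x, hxm⟩) = 0 := by
      have := congrArg (cbResidueEquiv hres) h2
      rw [RingEquiv.apply_symm_apply, map_zero] at this
      exact this.symm
    exact hμ h3
  exact m59rp_cbW_mem ⟨x, hxm⟩ hmem

/-- the same with a uniformiser: `x ∈ (λ) + 𝔪_A²`. -/
theorem m59rp_killed_mem_span (hres : Function.Surjective (residue A ∘ algebraMap 𝒪 A))
    {lam : 𝒪} (hmax : maximalIdeal 𝒪 = Ideal.span {lam}) (x : A)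
    (hx : ∀ φ : A →ₐ[𝒪] DualNumber (ResidueField 𝒪), φ x = 0) :
    x ∈ Ideal.span {algebraMap 𝒪 A lam} ⊔ maximalIdeal A ^ 2 := by
  have h := m59rp_killed_mem hres x hx
  rwa [hmax, Ideal.map_span, Set.image_singleton] at h

end cot

/-! ### the flat level -/

section flat

variable {𝒪 : Type} [CommRing 𝒪] [IsDomain 𝒪] [IsDiscreteValuationRing 𝒪]
  [IsAdicComplete (maximalIdeal 𝒪) 𝒪] [Finite (ResidueField 𝒪)]

/-- **(R2'), ideal form**: on a flat ordinary pair, `v_T ∈ 𝔪_𝒪 T + 𝔪_T²`. -/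
theorem m59rp_flat_v_mem {p : ℕ} [Fact p.Prime] (hp2 : p ≠ 2) (hp𝒪 : (p : 𝒪) ∈ maximalIdeal 𝒪)
    (rb : FramedResidual (ResidueField 𝒪)) {A : ValuationSubring Qb} (hA : A.LiesOverPrime p)
    (E : m59rp_Elts p A) (g0 : GQ) (H : twc_HPair 𝒪 rb)
    (hdet : H.r.toGaloisRepAdic.DetIsCyclotomic p) (hord : H.r.toGaloisRepAdic.IsOrdinaryAt p)
    (hflat : H.r.toGaloisRepAdic.IsFlatAt p) :
    m59rp_v E g0 H.r.toMonoidHom ∈
      (maximalIdeal 𝒪).map (algebraMap 𝒪 H.T) ⊔ maximalIdeal H.T ^ 2 :=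
  m59rp_killed_mem H.residue_surjective _
    (fun φ => m59rpa_flatTan p hp2 𝒪 hp𝒪 rb A hA E g0 H hdet hord hflat φ)

/-- **`v̄ = 0` from a flat ordinary pair** (the hypothesis `hvb` of `m59rp_cot3`,
`m59rp_locCob_insert`, (MEM)). -/
theorem m59rp_vbar_of_flat {p : ℕ} [Fact p.Prime] (hp2 : p ≠ 2) (hp𝒪 : (p : 𝒪) ∈ maximalIdeal 𝒪)
    (rb : FramedResidual (ResidueField 𝒪)) {A : ValuationSubring Qb} (hA : A.LiesOverPrime p)
    (E : m59rp_Elts p A) (g0 : GQ) (H : twc_HPair 𝒪 rb)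
    (hdet : H.r.toGaloisRepAdic.DetIsCyclotomic p) (hord : H.r.toGaloisRepAdic.IsOrdinaryAt p)
    (hflat : H.r.toGaloisRepAdic.IsFlatAt p) :
    m59rp_v E g0 rb.toMonoidHom = 0 := by
  have h1 := m59rp_flat_v_mem hp2 hp𝒪 rb hA E g0 H hdet hord hflat
  have h2 : m59rp_v E g0 H.r.toMonoidHom ∈ maximalIdeal H.T := by
    refine (sup_le ?_ ?_ : _ ≤ maximalIdeal H.T) h1
    · rw [Ideal.map_le_iff_le_comap]
      intro o ho
      exact map_nonunit (algebraMap 𝒪 H.T) o ho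
    · exact Ideal.pow_le_self two_ne_zero
  have h3 := m59rpk_res_v' E H g0
  rw [(residue_eq_zero_iff _).2 h2] at h3
  exact (map_eq_zero_iff _ (ResidueField.map (algebraMap 𝒪 H.T)).injective).1 h3.symm

end flat

/-! ### the residual representation of a framed representation -/

section resid

variable {T : Type} [CommRing T] [IsLocalRing T]

/-- the residual determinant of a framed representation with cyclotomic determinant. -/
theorem m59rp_res_det {p : ℕ} (r : FramedRep T) (hdet : r.toGaloisRepAdic.DetIsCyclotomic p) :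
    (m59rp_res r.residual).DetIsCyclotomic p := by
  obtain ⟨hpm, hcyc⟩ := hdet
  have hp0 : (p : ResidueField T) = 0 := by
    rw [← map_natCast (residue T), residue_eq_zero_iff]
    exact hpm
  refine ⟨by rw [hp0]; exact Ideal.zero_mem _, fun n σ a ha => ?_⟩
  have h1 := hcyc n σ a ha
  have hd1 : LinearMap.det (r.toGaloisRepAdic.ρ σ) = (r σ).det :=
    LinearMap.det_toLin' (r.toMonoidHom σ)
  have hd2 : LinearMap.det ((m59rp_res r.residual).ρ σ) = (r.residual σ).det :=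
    LinearMap.det_toLin' (r.residual.toMonoidHom σ)
  rw [hd1] at h1
  rw [hd2]
  rcases Nat.eq_zero_or_pos n with hn | hn
  · rw [hn, pow_zero, Nat.cast_one, Ideal.span_singleton_one]
    exact Submodule.mem_top
  · suffices h : (r.residual σ).det - (a : ResidueField T) = 0 by rw [h]; exact Ideal.zero_mem _
    have h2 : (r.residual σ).det = residue T ((r σ).det) := by
      rw [RingHom.map_det]
      rfl
    rw [h2, ← map_natCast (residue T), ← map_sub, residue_eq_zero_iff]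
    obtain ⟨c, hc⟩ := Ideal.mem_span_singleton.1 h1
    rw [hc, Nat.cast_pow]
    exact Ideal.mul_mem_right _ _ (Ideal.pow_mem_of_mem _ hpm n hn)

/-- the residual representation of an ordinary framed representation is ordinary. -/
theorem m59rp_res_ord {p : ℕ} (r : FramedRep T) (hord : r.toGaloisRepAdic.IsOrdinaryAt p) :
    (m59rp_res r.residual).IsOrdinaryAt p :=
  m59rpk_ord_resEquiv r.residual_isEquiv (m59rpk_ord_residual r.toGaloisRepAdic hord)

end resid

/-! ### the bundle -/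

section bundle

variable {𝒪 : Type} [CommRing 𝒪] [IsDomain 𝒪] [IsDiscreteValuationRing 𝒪]
  [IsAdicComplete (maximalIdeal 𝒪) 𝒪] [Finite (ResidueField 𝒪)]

/-- **the data at `p` of case (III)**: everything `m59rp_cot3` / `m59rp_locCob_insert` / (MEM) /
helper26's frame need from `ρ_W` (strictly ordinary at `p`), except `v̄ = 0`
(`m59rp_vbar_of_flat`). -/
theorem m59rp_dataIII {p : ℕ} [Fact p.Prime] (hp2 : p ≠ 2) (hp𝒪 : (p : 𝒪) ∈ maximalIdeal 𝒪)
    (rW : FramedRep 𝒪)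
    (hirr : rW.residual.toResidualGaloisRep.IsAbsolutelyIrreducible)
    (hdet : rW.toGaloisRepAdic.DetIsCyclotomic p)
    (hs : rW.toGaloisRepAdic.IsStrictOrdinaryAt p) :
    ∃ (E : m59rp_Elts p (padicPlace p)) (g0 : GQ) (εp : ℤ),
      εp * εp = 1 ∧ m59rp_IsAdapted E rW.residual g0 ∧
      m59rp_z E rW.toMonoidHom E.fr = ((εp : ℤ) : 𝒪) ∧
      m59rp_a E ((εp : ℤ) : 𝒪) rW.toMonoidHom = 0 ∧
      ((εp : ℤ) : 𝒪) ^ 2 = 1 ∧
      residue 𝒪 ((εp : ℤ) : 𝒪) * m59rp_z E rW.residual.toMonoidHom E.fr = 1 ∧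
      ∃ u₀ : Fin 2 → ResidueField 𝒪, u₀ ≠ 0 ∧ s56o_Ord p rW.residual u₀ := by
  have hA : (padicPlace p).LiesOverPrime p := Fermat.Agent.S55.pl_padicPlace_liesOver p
  obtain ⟨E⟩ := m59rpk_elts p hp2 (padicPlace p) hA
  have hord := hs.isOrdinaryAt
  obtain ⟨g0, hg0⟩ := m59rpa_adapted p hp2 (ResidueField 𝒪) rW.residual (padicPlace p) hA E hirr
    (m59rp_res_det rW hdet) (m59rp_res_ord rW hord)
  have hsep : ∀ x : 𝒪, (∀ n : ℕ, x ∈ maximalIdeal 𝒪 ^ n) → x = 0 := by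
    intro x hx
    have h1 : x ∈ ⨅ n : ℕ, maximalIdeal 𝒪 ^ n := by
      rw [Ideal.mem_iInf]
      exact hx
    rw [Ideal.iInf_pow_eq_bot_of_isLocalRing _ (maximalIdeal.isMaximal 𝒪).ne_top] at h1
    exact h1
  obtain ⟨εp, hε, hz, ha⟩ := m59rp_sign_of_strict hp2 hA E hsep rW hdet hs
  refine ⟨E, g0, εp, hε, hg0, hz, ha, ?_, m59rp_sign_res E rW hdet εp hε hz,
    m59rp_ord_of_strictW 𝒪 hp2 hp𝒪 rW hdet hs⟩
  rw [sq, ← Int.cast_mul, hε, Int.cast_one]

end bundle

end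

end Fermat.Agent.M59
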