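import Mathlib
import Fermat.Agent.M59.Rp.Seams
import Fermat.Agent.M59.SinkA.Seams

/-!
# M59 / block [R_p-norm], cell [DICT] (helper13; prefix `m59rp_`)

`m59rp_peuDict : m59e_Link_stmt → m59sa_PeuDict_stmt m59rp_Peu` : the dictionary between the
Galois-side predicate `m59rp_Peu` of `Rp/Seams.lean` and Sink A's `m59sa_PeuAt`, through the
`𝔽_p`-structure `W[p] ↪ ρ̄.V` of [LINK]: `x := f x`, `v := f v`, `c σ := (a σ : k)`, `l` any additive
functional `k → 𝔽_p` with `l 1 = 1`.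
-/

set_option autoImplicit false
set_option linter.unusedSectionVars false
set_option linter.unusedVariables false
set_option linter.style.haveILetI false

open Polynomial IsLocalRing
open Fermat.Agent.S53 Fermat.Agent.S56 Fermat.Agent.TW Fermat.Agent.S44

namespace Fermat.Agent.M59

local notation "GQ" => (AlgebraicClosure ℚ ≃ₐ[ℚ] AlgebraicClosure ℚ)
local notation "Qb" => AlgebraicClosure ℚ

/-- an additive functional `k → 𝔽_p` with `l 1 = 1` on a field of characteristic `p`. -/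
theorem m59rp_exists_functional (p : ℕ) [Fact p.Prime] (k : Type) [Field k] [CharP k p] :
    ∃ l : k →+ ZMod p, l 1 = 1 := by
  letI : Algebra (ZMod p) k := ZMod.algebra k p
  let f : ZMod p →ₗ[ZMod p] k := Algebra.linearMap (ZMod p) k
  have hf : Function.Injective f := (algebraMap (ZMod p) k).injective
  obtain ⟨g, hg⟩ := LinearMap.exists_leftInverse_of_injective f (LinearMap.ker_eq_bot.2 hf)
  refine ⟨g.toAddMonoidHom, ?_⟩
  have h1 := LinearMap.congr_fun hg 1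
  simpa [f] using h1

/-- `ζ ^ (n mod p) = ζ ^ n` for a `p`-th root of unity. -/
theorem m59rp_pow_val {p : ℕ} [NeZero p] {ζ : Qb} (hζ : ζ ^ p = 1) (n : ℕ) :
    ζ ^ ((n : ZMod p)).val = ζ ^ n := by
  rw [ZMod.val_natCast]
  conv_rhs => rw [← Nat.div_add_mod n p, pow_add, pow_mul, hζ, one_pow, one_mul]

/-- **[DICT]** from [LINK]. -/
theorem m59rp_peuDict (hL : m59e_Link_stmt) : m59sa_PeuDict_stmt m59rp_Peu := by
  intro p _ hp W hΔ hW 𝒪 _ _ _ _ _ _ hp𝒪 ρ hT hPeu A hA ζ hζ x v a hB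
  haveI : NeZero p := ⟨(Fact.out : p.Prime).ne_zero⟩
  haveI : CharP (ResidueField 𝒪) p := s56a_charP p hp𝒪
  obtain ⟨f, hinj, hf⟩ := hL p hp W hΔ hW 𝒪 hp𝒪 ρ hT
  obtain ⟨l, hl⟩ := m59rp_exists_functional p (ResidueField 𝒪)
  have hfx : f x ≠ 0 := by
    intro h0
    exact hB.ne (hinj (by rw [h0, map_zero]))
  have heig : ∀ σ ∈ A.inertiaSubgroupIn ℚ, ∀ j : ℕ, σ ζ = ζ ^ j →
      ρ.residual.ρ σ (f x) = (j : ResidueField 𝒪) • f x := by
    intro σ hσ j hj
    rw [← hf σ x, hB.eig σ hσ j hj, map_nsmul, Nat.cast_smul_eq_nsmul]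
  have hext : ∀ σ ∈ A.inertiaSubgroupIn ℚ,
      ρ.residual.ρ σ (f v) = f v + ((a σ : ℕ) : ResidueField 𝒪) • f x := by
    intro σ hσ
    rw [← hf σ v, hB.ext σ hσ, map_add, map_nsmul, Nat.cast_smul_eq_nsmul]
  obtain ⟨β, hβ0, hβA, hβA', hβ⟩ := hPeu A hA ζ hζ (f x) (f v)
    (fun σ => ((a σ : ℕ) : ResidueField 𝒪)) hfx heig hext l
  refine ⟨β, hβ0, hβA, hβA', fun σ hσ => ?_⟩
  rw [hβ σ hσ]
  have h1 : l ((a σ : ℕ) : ResidueField 𝒪) = ((a σ : ℕ) : ZMod p) := by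
    rw [← nsmul_one, map_nsmul, hl, nsmul_one]
  rw [h1, m59rp_pow_val (hζ.pow_eq_one)]

end Fermat.Agent.M59
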