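/-
M59 / [CI3-FLAT0] (helper10; prefix `m59rpa_`): THE CLAUSE `flat0` OF THE CHAIN SYSTEM OF CASE (III).

* `m59rpa_flatTan_res` : (R2') with RESIDUAL ordinarity only: `H` a Hecke pair over `rb`, `det = ε`,
  FLAT at `p`, `rb` ordinary at `p` (no ordinarity of the lift): every `𝒪`-algebra map `T → k[ε]` kills
  `v_T = tr r(g0 τ_v) - tr r(g0)`.
* `m59rpa_mem_of_tangent` : the tangent-space criterion: `A` a local `𝒪`-algebra with residue field
  `k = 𝒪/𝔪_𝒪`; an element killed by EVERY `𝒪`-algebra map `A → k[ε]` lies in `𝔪_𝒪 A + 𝔪_A²`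
  (functionals on `Cot A ⧸ cbW` separate points; `S53.cbAlgHom`).
* `m59rpa_flat0_pair` : a pair with `det = ε`, flat at `p`, over a residually ordinary `rb`:
  `v_T ∈ (λ) + 𝔪_T²`.
* `m59rpa_flat0_datum` : the same for a Hecke–Galois datum of level prime to `p` (flat by S32), in trace
  form: `tr ρ(g0 τ_v) - tr ρ(g0) ∈ (λ) + 𝔪_T²`; `m59rpa_flat0_datum_ord` : with `H.ρ.IsOrdinaryAt p`.
-/
import Mathlib
import Fermat.Agent.M59.Rp.FlatTan
import Fermat.Agent.M59.Act.Trace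
import Fermat.Agent.TW.Top.DatumLocal
import Fermat.Agent.TW.Def.HPairOfDatum
import Fermat.Agent.S53.GoodIdeals.CotangentHoms

set_option autoImplicit false
set_option linter.unusedSectionVars false
set_option linter.unusedVariables false
set_option linter.style.haveILetI false

noncomputable section

namespace Fermat.Agent.M59

open IsLocalRing Fermat.Agent.S53 Fermat.Agent.S56 Fermat.Agent.TW Fermat.Agent.MZ Fermat.Agent.FF
  Matrix ExtCitation CuspForm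

local notation "Qb" => AlgebraicClosure ℚ
local notation "GQ" => (AlgebraicClosure ℚ ≃ₐ[ℚ] AlgebraicClosure ℚ)

attribute [local instance] S53.dualNumberAlgebra

/-- **(R2') with residual ordinarity only.** -/
theorem m59rpa_flatTan_res (p : ℕ) [hp : Fact p.Prime] (hp2 : p ≠ 2)
    (𝒪 : Type) [CommRing 𝒪] [IsDomain 𝒪] [IsDiscreteValuationRing 𝒪]
    [IsAdicComplete (maximalIdeal 𝒪) 𝒪] [Finite (ResidueField 𝒪)]
    (hpm : (p : 𝒪) ∈ maximalIdeal 𝒪)
    (rb : FramedResidual (ResidueField 𝒪)) (A : ValuationSubring Qb) (hA : A.LiesOverPrime p)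
    (E : m59rp_Elts p A) (g0 : GQ)
    (H : twc_HPair 𝒪 rb) (hdet : H.r.toGaloisRepAdic.DetIsCyclotomic p)
    (hordb : (m59rp_res rb).IsOrdinaryAt p) (hflat : H.r.toGaloisRepAdic.IsFlatAt p)
    (φ : H.T →ₐ[𝒪] DualNumber (ResidueField 𝒪)) : φ (m59rp_v E g0 H.r.toMonoidHom) = 0 := by
  have hp0 : p ≠ 0 := hp.out.ne_zero
  haveI : NeZero p := ⟨hp0⟩
  have hp0k : (p : ResidueField 𝒪) = 0 := by
    rw [← map_natCast (residue 𝒪)]
    exact (residue_eq_zero_iff _).2 hpm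
  haveI : CharP (ResidueField 𝒪) p := (CharP.charP_iff_prime_eq_zero hp.out).2 hp0k
  letI : Algebra (ZMod p) (ResidueField 𝒪) := ZMod.algebra (ResidueField 𝒪) p
  obtain ⟨ζ, hζ⟩ := HasEnoughRootsOfUnity.exists_primitiveRoot Qb p
  have hdetb := m59rpk_resOrd_det H hdet
  obtain ⟨L, ⟨b, rfl⟩, hstab, hin⟩ := hordb A hA
  -- the ordinary data
  obtain ⟨u₀, hu₀⟩ : ∃ u₀ : Fin 2 → ResidueField 𝒪, u₀ = b 0 := ⟨_, rfl⟩
  have hu : u₀ ≠ 0 := by rw [hu₀]; exact b.ne_zero 0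
  obtain ⟨u₁, hu01⟩ := s56fo_detw_surjective hu 1
  obtain ⟨Dg, hDtr, hD1, hD2⟩ := s56o_exists_Dg hu
  have hordm : ∀ s ∈ A.inertiaSubgroupIn ℚ, ∀ v : Fin 2 → ResidueField 𝒪,
      ∃ t : ResidueField 𝒪, rb s *ᵥ v - v = t • u₀ := by
    intro s hs v
    obtain ⟨t, ht⟩ := Submodule.mem_span_singleton.1 (hin s hs v)
    refine ⟨t, ?_⟩
    rw [hu₀, ← m59rpa_res_apply]
    exact ht.symm
  -- the frame
  have hbar : ∀ σ, s56t_bar (twc_frame H.r φ) σ = rb σ := twc_frame_bar H.r H.lift φ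
  have hdetr := twc_frame_det H.r φ hdet
  have hdetb' : ∀ σ : GQ, (rb σ).det = ((cycloExp p σ : ℕ) : ResidueField 𝒪) := fun σ => by
    rw [← hbar, s56fo_det_bar _ hdetr]
  -- the residual statement
  have hres : s56fo_co u₁ (rb E.tv *ᵥ u₁ - u₁) = 0 := by
    have h := m59rpa_res_tau hp2 (m59rpa_resK H) A hA hu01
      (fun s hs v => by rw [m59rpa_resK_apply]; exact hordm s hs v)
      (fun σ => by rw [m59rpa_resK_apply]; exact hdetb' σ)
      (m59rpa_resK_flat H hflat) E.tv E.tv_mem E.tv_fix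
    rwa [m59rpa_resK_apply] at h
  -- `rb(τ_v) = 1`
  have hdet1 : (rb E.tv).det = 1 := by
    rw [← m59rpa_res_det, m59rpk_res_det_eq rb hdetb hζ E.tv 1
      (by rw [pow_one]; exact m59rpk_tv_fix_mu E 1 ζ (by rw [pow_one]; exact hζ.pow_eq_one)),
      Nat.cast_one]
  have hone : rb E.tv = 1 := by
    have h0 : rb E.tv *ᵥ u₀ = u₀ := by
      rw [s56fo_det_eigen hu01 _ (hordm E.tv E.tv_mem), hdet1, one_smul]
    have h1 : rb E.tv *ᵥ u₁ - u₁ = 0 := by
      obtain ⟨t, ht⟩ := hordm E.tv E.tv_mem u₁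
      rw [ht, s56fo_co_smul hu01] at hres
      rw [ht, hres, zero_smul]
    have := m59rpa_eq_zero_of_mulVec hu01 (rb E.tv - 1)
      (by rw [Matrix.sub_mulVec, Matrix.one_mulVec, h0, sub_self])
      (by rw [Matrix.sub_mulVec, Matrix.one_mulVec, h1])
    exact sub_eq_zero.1 this
  -- the cocycle of the frame vanishes at `τ_v`
  have hcoc : s56t_coc (twc_frame H.r φ) E.tv = 0 := by
    by_cases hsurj : Function.Surjective φ
    · have hflatr := twc_frame_flat H.r φ hsurj hflat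
      obtain ⟨m, A', hm, h1, h2, h3, h4, h5, h6⟩ := m59rpk_flat_tau hp2 rb A hA hu01 hordm hD1 hD2
        (twc_frame H.r φ) hbar hdetr hflatr E.tv E.tv_mem E.tv_fix
      have hd0 : s56o_d rb m E.tv = 0 := by
        unfold s56o_d
        have hinv : rb E.tv⁻¹ = 1 := by
          have := rb.map_mul E.tv E.tv⁻¹
          rw [mul_inv_cancel, rb.map_one, hone, one_mul] at this
          exact this.symm
        rw [hone, hinv, one_mul, mul_one, sub_self]
      have hW := h1 E.tv (s56fo_inertia_le A E.tv_mem)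
      rw [hd0, sub_zero, h3 E.tv E.tv_mem, zero_smul, sub_zero] at hW
      obtain ⟨hN0, hN1⟩ := hW
      obtain ⟨t, ht⟩ := hN1 u₁
      rw [hd0, sub_zero, ht, s56fo_co_smul hu01] at h6
      exact m59rpa_eq_zero_of_mulVec hu01 _ hN0 (by rw [ht, h6, zero_smul])
    · exact twc_frame_coc_of_not_surjective H.residue_surjective H.r φ hsurj E.tv
  -- the frame is trivial at `τ_v`
  have hrt : twc_frame H.r φ E.tv = 1 := by
    rw [s56t_apply_eq (twc_frame H.r φ) E.tv, hcoc, hbar, hone, Matrix.zero_mul]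
    exact s56t_mk_one_zero
  have hv : φ (m59rp_v E g0 H.r.toMonoidHom) = m59rp_v E g0 (twc_frame H.r φ).toMonoidHom :=
    m59rpk_map_v (φ : H.T →+* DualNumber (ResidueField 𝒪)) E H.r.toMonoidHom
      (twc_frame H.r φ).toMonoidHom (fun σ => rfl) g0
  rw [hv]
  unfold m59rp_v
  have hmul : (twc_frame H.r φ).toMonoidHom (g0 * E.tv) = (twc_frame H.r φ).toMonoidHom g0 := by
    have := (twc_frame H.r φ).map_mul g0 E.tv
    rw [hrt, mul_one] at this
    exact this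
  rw [hmul, sub_self]

/-- **the tangent-space criterion**: an element of a local `𝒪`-algebra `A` (residue field `k`) killed by
every `𝒪`-algebra map `A → k[ε]` lies in `𝔪_𝒪 A + 𝔪_A²`. -/
theorem m59rpa_mem_of_tangent {𝒪 A : Type} [CommRing 𝒪] [IsLocalRing 𝒪] [CommRing A]
    [IsLocalRing A] [Algebra 𝒪 A] [IsLocalHom (algebraMap 𝒪 A)]
    (hres : Function.Surjective (residue A ∘ algebraMap 𝒪 A)) (x : A)
    (h : ∀ φ : A →ₐ[𝒪] DualNumber (ResidueField 𝒪), φ x = 0) :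
    x ∈ (maximalIdeal 𝒪).map (algebraMap 𝒪 A) ⊔ maximalIdeal A ^ 2 := by
  classical
  have hinst : ∀ o : 𝒪, algebraMap 𝒪 (DualNumber (ResidueField 𝒪)) o =
      TrivSqZeroExt.inl (residue 𝒪 o) := fun o => rfl
  -- `x ∈ 𝔪_A` (the trivial point)
  have hx : x ∈ maximalIdeal A := by
    have hk0 : cbW 𝒪 A ≤ LinearMap.ker (0 : CotangentSpace A →ₗ[ResidueField A] ResidueField A) := by
      rw [LinearMap.ker_zero]; exact le_top
    have h0 := h (cbAlgHom hres hinst 0 hk0)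
    have h1 : cbRingHom hres 0 hk0 x = 0 := h0
    rw [cbRingHom_apply] at h1
    have h2 := congrArg TrivSqZeroExt.fst h1
    simp only [TrivSqZeroExt.fst_add, TrivSqZeroExt.fst_inl, TrivSqZeroExt.fst_inr, add_zero,
      TrivSqZeroExt.fst_zero] at h2
    have h3 : residue A x = 0 := by
      have := congrArg (cbResidueEquiv hres) h2
      rwa [RingEquiv.apply_symm_apply, map_zero] at this
    exact (residue_eq_zero_iff x).1 h3
  -- the class of `x` lies in `cbW`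
  have hmem : (maximalIdeal A).toCotangent ⟨x, hx⟩ ∈ cbW 𝒪 A := by
    by_contra hn
    have hne : (cbW 𝒪 A).mkQ ((maximalIdeal A).toCotangent ⟨x, hx⟩) ≠ 0 := by
      rw [Submodule.mkQ_apply, Ne, Submodule.Quotient.mk_eq_zero]
      exact hn
    obtain ⟨μ, hμ⟩ : ∃ μ : Module.Dual (ResidueField A) (CotangentSpace A ⧸ cbW 𝒪 A),
        μ ((cbW 𝒪 A).mkQ ((maximalIdeal A).toCotangent ⟨x, hx⟩)) ≠ 0 := by
      by_contra hall
      simp only [not_exists, not_not] at hall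
      exact hne ((Module.forall_dual_apply_eq_zero_iff (ResidueField A) _).1 hall)
    have hker : cbW 𝒪 A ≤ LinearMap.ker (μ.comp (cbW 𝒪 A).mkQ) := by
      intro v hv
      rw [LinearMap.mem_ker, LinearMap.comp_apply, Submodule.mkQ_apply,
        (Submodule.Quotient.mk_eq_zero _).2 hv, map_zero]
    have h2 := cbAlgHom_snd_of_mem hres hinst (μ.comp (cbW 𝒪 A).mkQ) hker ⟨x, hx⟩
    rw [h (cbAlgHom hres hinst (μ.comp (cbW 𝒪 A).mkQ) hker), TrivSqZeroExt.snd_zero,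
      LinearMap.comp_apply] at h2
    have h3 := congrArg (cbResidueEquiv hres) h2
    rw [RingEquiv.apply_symm_apply, map_zero] at h3
    exact hμ h3.symm
  -- elements of `cbW` are classes of elements of `𝔪_𝒪 A`
  have hspan : ∀ v ∈ cbW 𝒪 A, ∃ y : maximalIdeal A,
      (y : A) ∈ (maximalIdeal 𝒪).map (algebraMap 𝒪 A) ∧ (maximalIdeal A).toCotangent y = v := by
    intro v hv
    unfold cbW at hv
    induction hv using Submodule.span_induction with
    | mem v hv =>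
      obtain ⟨q, rfl⟩ := hv
      exact ⟨_, Ideal.mem_map_of_mem _ q.2, rfl⟩
    | zero => exact ⟨0, Ideal.zero_mem _, map_zero _⟩
    | add v w _ _ hv hw =>
      obtain ⟨y, hy, rfl⟩ := hv
      obtain ⟨y', hy', rfl⟩ := hw
      exact ⟨y + y', Ideal.add_mem _ hy hy', map_add _ _ _⟩
    | smul c v _ hv =>
      obtain ⟨y, hy, rfl⟩ := hv
      obtain ⟨a, rfl⟩ := residue_surjective c
      exact ⟨a • y, Ideal.mul_mem_left _ a hy, cb_toCotangent_smul a y⟩
  obtain ⟨y, hy, hyx⟩ := hspan _ hmem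
  have hz : (maximalIdeal A).toCotangent (⟨x, hx⟩ - y) = 0 := by
    rw [map_sub, hyx, sub_self]
  have hz2 : x - (y : A) ∈ maximalIdeal A ^ 2 := (Ideal.toCotangent_eq_zero _ _).1 hz
  have : x = (y : A) + (x - (y : A)) := by ring
  rw [this]
  exact Ideal.add_mem _ (Ideal.mem_sup_left hy) (Ideal.mem_sup_right hz2)

/-- **`flat0` for a pair**: `det = ε`, flat at `p`, `rb` ordinary at `p` ⟹ `v_T ∈ (λ) + 𝔪_T²`. -/
theorem m59rpa_flat0_pair (p : ℕ) [hp : Fact p.Prime] (hp2 : p ≠ 2)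
    (𝒪 : Type) [CommRing 𝒪] [IsDomain 𝒪] [IsDiscreteValuationRing 𝒪]
    [IsAdicComplete (maximalIdeal 𝒪) 𝒪] [Finite (ResidueField 𝒪)]
    (hpm : (p : 𝒪) ∈ maximalIdeal 𝒪)
    (rb : FramedResidual (ResidueField 𝒪)) (A : ValuationSubring Qb) (hA : A.LiesOverPrime p)
    (E : m59rp_Elts p A) (g0 : GQ)
    (H : twc_HPair 𝒪 rb) (hdet : H.r.toGaloisRepAdic.DetIsCyclotomic p)
    (hordb : (m59rp_res rb).IsOrdinaryAt p) (hflat : H.r.toGaloisRepAdic.IsFlatAt p)
    (lam : 𝒪) (hlam : maximalIdeal 𝒪 = Ideal.span {lam}) :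
    m59rp_v E g0 H.r.toMonoidHom ∈
      Ideal.span {algebraMap 𝒪 H.T lam} ⊔ maximalIdeal H.T ^ 2 := by
  have h := m59rpa_mem_of_tangent (𝒪 := 𝒪) (A := H.T) H.residue_surjective
    (m59rp_v E g0 H.r.toMonoidHom)
    (fun φ => m59rpa_flatTan_res p hp2 𝒪 hpm rb A hA E g0 H hdet hordb hflat φ)
  rwa [hlam, Ideal.map_span, Set.image_singleton] at h

section datum

variable {p : ℕ} {Nb : ℕ} [NeZero Nb] {S' : Finset ℕ}
  {𝒪 : Type} [CommRing 𝒪] [IsDomain 𝒪] [IsDiscreteValuationRing 𝒪]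
  [IsAdicComplete (maximalIdeal 𝒪) 𝒪] [Finite (ResidueField 𝒪)] [CharZero 𝒪]
  {θ : heckeAlgebra Nb 2 (↑S' : Set ℕ) →+* ResidueField 𝒪}
  {T : Type} [CommRing T] [IsLocalRing T] [IsNoetherianRing T]
  [IsAdicComplete (maximalIdeal T) T] [Algebra 𝒪 T] [IsLocalHom (algebraMap 𝒪 T)]
  [Module.Finite 𝒪 T] [Module.Free 𝒪 T]

/-- **`flat0` for a Hecke–Galois datum of level prime to `p`** (trace form): the residual
representation `rb` ordinary at `p` ⟹ `tr ρ(g0 τ_v) - tr ρ(g0) ∈ (λ) + 𝔪_T²`. -/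
theorem m59rpa_flat0_datum [hp : Fact p.Prime] (hp2 : p ≠ 2)
    (hp𝒪 : (p : 𝒪) ∈ maximalIdeal 𝒪) (hpN : ¬ p ∣ Nb) (hpS : p ∈ S')
    (hNS : ∀ q : ℕ, q.Prime → q ∣ Nb → q ∈ S')
    (H : HeckeGaloisRepDatum Nb (↑S' : Set ℕ) 𝒪 θ T)
    (rb : FramedResidual (ResidueField 𝒪)) (hc : twt_Compat θ rb.toResidualGaloisRep)
    (hordb : (m59rp_res rb).IsOrdinaryAt p)
    (A : ValuationSubring Qb) (hA : A.LiesOverPrime p) (E : m59rp_Elts p A) (g0 : GQ)
    (lam : 𝒪) (hlam : maximalIdeal 𝒪 = Ideal.span {lam}) :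
    H.ρ.trace (g0 * E.tv) - H.ρ.trace g0 ∈
      Ideal.span {algebraMap 𝒪 T lam} ⊔ maximalIdeal T ^ 2 := by
  obtain ⟨r, hre, hrl⟩ := twc_hp_exists_framed H hNS rb hc
  obtain ⟨e⟩ := id hre
  have hdet : (twc_hp_ofFramed H hNS rb r hre hrl).r.toGaloisRepAdic.DetIsCyclotomic p :=
    s56t_tr_detIsCyclotomic e (twt_dl_det hp.out hp𝒪 hNS H)
  have hflat : (twc_hp_ofFramed H hNS rb r hre hrl).r.toGaloisRepAdic.IsFlatAt p :=
    s56t_tr_isFlatAt e (twt_dl_flat hp.out hp2 hp𝒪 hpN hpS hNS H)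
  have h := m59rpa_flat0_pair p hp2 𝒪 hp𝒪 rb A hA E g0 (twc_hp_ofFramed H hNS rb r hre hrl)
    hdet hordb hflat lam hlam
  rw [m59ac_trace_framed _ _ hre, m59ac_trace_framed _ _ hre]
  exact h

/-- the same with ordinarity of the datum itself (e.g. from `m59rpk_ord_chainP`). -/
theorem m59rpa_flat0_datum_ord [hp : Fact p.Prime] (hp2 : p ≠ 2)
    (hp𝒪 : (p : 𝒪) ∈ maximalIdeal 𝒪) (hpN : ¬ p ∣ Nb) (hpS : p ∈ S')
    (hNS : ∀ q : ℕ, q.Prime → q ∣ Nb → q ∈ S')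
    (H : HeckeGaloisRepDatum Nb (↑S' : Set ℕ) 𝒪 θ T)
    (rb : FramedResidual (ResidueField 𝒪)) (hc : twt_Compat θ rb.toResidualGaloisRep)
    (hord : H.ρ.IsOrdinaryAt p)
    (A : ValuationSubring Qb) (hA : A.LiesOverPrime p) (E : m59rp_Elts p A) (g0 : GQ)
    (lam : 𝒪) (hlam : maximalIdeal 𝒪 = Ideal.span {lam}) :
    H.ρ.trace (g0 * E.tv) - H.ρ.trace g0 ∈
      Ideal.span {algebraMap 𝒪 T lam} ⊔ maximalIdeal T ^ 2 := by
  obtain ⟨r, hre, hrl⟩ := twc_hp_exists_framed H hNS rb hc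
  obtain ⟨e⟩ := id hre
  have hordb : (m59rp_res rb).IsOrdinaryAt p :=
    m59rpk_resOrd_ord (twc_hp_ofFramed H hNS rb r hre hrl) (s56t_tr_isOrdinaryAt e hord)
  exact m59rpa_flat0_datum hp2 hp𝒪 hpN hpS hNS H rb hc hordb A hA E g0 lam hlam

end datum

end Fermat.Agent.M59
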