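/-
M59 / [R_p-norm] (helper24; prefix `m59rpk_`): PEU RAMIFIE COCYCLES VANISH AT `τ_v`
(the Kummer input of (R2'), the tangent form of `flat ⟹ v = 0`).

`A` over `p`, `Γ = I_A` acting on `Q̄` (the canonical subgroup action of `mzg_ctx`), `O` any ring with
`O = A ∩ Q̄^{I_A}` in `Q̄` (field `range_eq` of `mzo_Ctx`; e.g. the `O` of `mzg_ctx p A hA`).  If
`a : I_A → ZMod p` is PEU RAMIFIE in the sense of S56/Flat/Ord (`s56fo_Peu O p ζ a`: a radical `β`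
on all of `I_A` with `β ^ p = 1 + p x`, `x ∈ O`) and `τ ∈ I_A` has the first clause of (K3), then
`a τ = 0` : **`m59rpk_peu_tau`**.
-/
import Mathlib
import Fermat.Agent.MZ.Geo.Ctx
import Fermat.Agent.S56.Flat.Ord.Defs
import Fermat.Agent.M59.Rp.KumConj

set_option autoImplicit false
set_option linter.unusedSectionVars false
set_option linter.unusedVariables false
set_option linter.style.haveILetI false

noncomputable section

namespace Fermat.Agent.M59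

open Fermat.Agent.S56 Fermat.Agent.MZ

local notation "Qb" => AlgebraicClosure ℚ
local notation "GQ" => (AlgebraicClosure ℚ ≃ₐ[ℚ] AlgebraicClosure ℚ)

/-- **peu ramifie cocycles vanish at `τ_v`.** -/
theorem m59rpk_peu_tau (p : ℕ) [hp : Fact p.Prime] (A : ValuationSubring Qb)
    (hA : A.LiesOverPrime p) (O : Type) [CommRing O] [Algebra O Qb]
    (hO : Set.range (algebraMap O Qb) =
      {a : Qb | a ∈ A ∧ ∀ σ : ↥(A.inertiaSubgroupIn ℚ), σ • a = a})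
    {ζ : Qb} (hζ : IsPrimitiveRoot ζ p) (a : ↥(A.inertiaSubgroupIn ℚ) → ZMod p)
    (ha : s56fo_Peu O p ζ a)
    (τ : GQ) (hτI : τ ∈ A.inertiaSubgroupIn ℚ)
    (hτ1 : ∀ (N : ℕ) (γ : Qb), γ ∈ A → γ⁻¹ ∈ A →
      (∀ s ∈ A.inertiaSubgroupIn ℚ, s (γ ^ p ^ N) = γ ^ p ^ N) → τ γ = γ) :
    a ⟨τ, hτI⟩ = 0 := by
  obtain ⟨β, x, hβ0, hβ, hβp⟩ := ha
  have hp0 : p ≠ 0 := hp.out.ne_zero
  -- `x ∈ A`, fixed by inertia
  have hx : algebraMap O Qb x ∈ {a : Qb | a ∈ A ∧ ∀ σ : ↥(A.inertiaSubgroupIn ℚ), σ • a = a} := by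
    rw [← hO]
    exact ⟨x, rfl⟩
  obtain ⟨hxA, hxfix⟩ := hx
  -- `1 + p x` is a unit of `A`
  have hvp : A.valuation (p : Qb) < 1 := (A.mem_nonunits_iff).1 hA
  have hvx : A.valuation (algebraMap O Qb x) ≤ 1 := (A.valuation_le_one_iff _).2 hxA
  have hvpx : A.valuation ((p : Qb) * algebraMap O Qb x) < 1 := by
    rw [map_mul]
    exact mul_lt_one_of_lt_of_le hvp hvx
  have hv : A.valuation (1 + (p : Qb) * algebraMap O Qb x) = 1 := by
    have := Valuation.map_add_eq_of_lt_left A.valuation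
      (x := (1 : Qb)) (y := (p : Qb) * algebraMap O Qb x) (by rw [map_one]; exact hvpx)
    rw [this, map_one]
  have h1 : β ^ p ∈ A := by
    rw [hβp]
    exact (A.valuation_le_one_iff _).1 hv.le
  have h2 : (β ^ p)⁻¹ ∈ A := by
    rw [hβp, ← A.valuation_le_one_iff, map_inv₀, hv, inv_one]
  have h3 : ∀ s ∈ A.inertiaSubgroupIn ℚ, s (β ^ p) = β ^ p := by
    intro s hs
    have h4 : s (algebraMap O Qb x) = algebraMap O Qb x := hxfix ⟨s, hs⟩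
    rw [hβp, map_add, map_one, map_mul, map_natCast, h4]
  have hτβ : τ β = β := by
    refine hτ1 1 β (m59rpk_mem_of_pow_mem A hp0 h1)
      (m59rpk_mem_of_pow_mem A hp0 (by rw [inv_pow]; exact h2)) ?_
    intro s hs
    rw [pow_one]
    exact h3 s hs
  have h5 : τ β = ζ ^ (a ⟨τ, hτI⟩).val * β := hβ ⟨τ, hτI⟩
  rw [hτβ] at h5
  have h6 : ζ ^ (a ⟨τ, hτI⟩).val = 1 := by
    have := mul_right_cancel₀ hβ0 (h5.symm.trans (one_mul β).symm)
    exact this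
  have h7 : p ∣ (a ⟨τ, hτI⟩).val := (hζ.pow_eq_one_iff_dvd _).1 h6
  haveI : NeZero p := ⟨hp0⟩
  have h8 : (a ⟨τ, hτI⟩).val < p := ZMod.val_lt _
  have h9 : (a ⟨τ, hτI⟩).val = 0 := Nat.eq_zero_of_dvd_of_lt h7 h8
  exact (ZMod.val_eq_zero _).1 h9

/-- the same in the local setting `mzg_ctx p A hA`. -/
theorem m59rpk_peu_tau_ctx (p : ℕ) [hp : Fact p.Prime] (A : ValuationSubring Qb)
    (hA : A.LiesOverPrime p)
    {ζ : Qb} (hζ : IsPrimitiveRoot ζ p) (a : ↥(A.inertiaSubgroupIn ℚ) → ZMod p)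
    (ha : s56fo_Peu ↥(Fermat.Agent.FF.ffi_O A ↥(Fermat.Agent.FF.ffi_L A)) p ζ a)
    (τ : GQ) (hτI : τ ∈ A.inertiaSubgroupIn ℚ)
    (hτ1 : ∀ (N : ℕ) (γ : Qb), γ ∈ A → γ⁻¹ ∈ A →
      (∀ s ∈ A.inertiaSubgroupIn ℚ, s (γ ^ p ^ N) = γ ^ p ^ N) → τ γ = γ) :
    a ⟨τ, hτI⟩ = 0 :=
  m59rpk_peu_tau p A hA _ (mzg_ctx p A hA).range_eq hζ a ha τ hτI hτ1

end Fermat.Agent.M59
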