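/-
M59 / [R_p-norm], cells (K3) + (R1) (helper24; prefix `m59rpk_`): THE BUNDLE.

**`m59rpk_top`** : for `p` odd and `P` over `p` there is ONE `τ ∈ I_P` which
 (a) fixes every `γ` with `γ, γ⁻¹ ∈ P` and `γ ^ p ^ N` inertia-fixed (all `p`-power roots of all units
     of `K^nr`, in particular `μ_{p^∞}`),
 (b) moves every `p`-th root of `p`,
 (c) satisfies (R1) for EVERY ordinary datum: `R` local with `R / 𝔪ⁿ` finite and `⋂ 𝔪ⁿ = 0`,
     `ρ : GaloisRepAdic R` with cyclotomic determinant, `b` a basis of `ρ.V` with `R ∙ b 0` stable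
     under `D_P` and `I_P` trivial on the quotient; then for every `φ ∈ D_P` :
     `(z φ ^ 2 - 1) * v = 0`, `z φ = b.repr (ρ φ (b 1)) 1`, `v = b.repr (ρ τ (b 1)) 0`.
-/
import Mathlib
import Fermat.Agent.M59.Rp.KumMain
import Fermat.Agent.M59.Rp.KumR1

set_option autoImplicit false
set_option linter.unusedSectionVars false
set_option linter.unusedVariables false

noncomputable section

namespace Fermat.Agent.M59

open IsLocalRing

local notation "Qb" => AlgebraicClosure ℚ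
local notation "GQ" => (AlgebraicClosure ℚ ≃ₐ[ℚ] AlgebraicClosure ℚ)

/-- **(K3) + (R1)**. -/
theorem m59rpk_top (p : ℕ) [hp : Fact p.Prime] (hp2 : p ≠ 2) (P : ValuationSubring Qb)
    (hP : P.LiesOverPrime p) :
    ∃ τ ∈ P.inertiaSubgroupIn ℚ,
      (∀ (N : ℕ) (γ : Qb), γ ∈ P → γ⁻¹ ∈ P →
        (∀ s ∈ P.inertiaSubgroupIn ℚ, s (γ ^ p ^ N) = γ ^ p ^ N) → τ γ = γ) ∧
      (∀ x : Qb, x ^ p = (p : Qb) → τ x ≠ x) ∧
      ∀ (R : Type) [CommRing R] [IsLocalRing R],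
        (∀ n : ℕ, Finite (R ⧸ maximalIdeal R ^ n)) →
        (∀ x : R, (∀ n : ℕ, x ∈ maximalIdeal R ^ n) → x = 0) →
        ∀ ρ : GaloisRepAdic R, ρ.DetIsCyclotomic p →
        ∀ b : Module.Basis (Fin 2) R ρ.V,
          (∀ σ ∈ P.decompositionSubgroup ℚ, ρ.ρ σ (b 0) ∈ Submodule.span R {b 0}) →
          (∀ σ ∈ P.inertiaSubgroupIn ℚ, ∀ w : ρ.V, ρ.ρ σ w - w ∈ Submodule.span R {b 0}) →
          ∀ φ ∈ P.decompositionSubgroup ℚ,
            (b.repr (ρ.ρ φ (b 1)) 1 ^ 2 - 1) * b.repr (ρ.ρ τ (b 1)) 0 = 0 := by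
  obtain ⟨τ, hτI, hτ1, hτ2⟩ := m59rpk_tauV p hp2 P hP
  exact ⟨τ, hτI, hτ1, hτ2, fun R _ _ hfin hsep ρ hdet b hstab hin φ hφ =>
    m59rpk_R1 hfin hsep p ρ hdet P hP b hstab hin τ hτI hτ1 φ hφ⟩

end Fermat.Agent.M59
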