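/-
M59 / [R_p-norm], cell [ORD-GLUE] = STEP B of [ORD-T] (helper24; prefix `m59rpk_`).

**`m59rpk_ord_glue`** : `T` a local ring, `ρ : GaloisRepAdic T` with cyclotomic determinant, `p` odd,
`π i : T → Tᵢ` a JOINTLY INJECTIVE family of local homomorphisms of local rings.  If every base change
`ρ ⊗ Tᵢ` is ordinary at `p` (Prelude `IsOrdinaryAt`), so is `ρ`.

Proof (helper13's #5442 STEP B).  Fix `P | p`, `σ₀ ∈ I_P` with `ε̄(σ₀) ≠ 1` (`m59rpk_zeta_not_mem`),
`g := ρ σ₀`, `c := det g`; `c - 1` is a unit, `d (c - 1) = 1`, `E := d • (g - 1)`.  In an ordinary basis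
of a factor `g = (c, *; 0, 1)`, so the identities

  `(g - 1)(g - c) = 0`,  `tr g = 1 + c`,  `(1 - E) ρ(s) E = 0` (`s ∈ D_P`),  `(1 - E)(ρ(t) - 1) = 0` (`t ∈ I_P`)

hold after every base change (`m59rpk_factor`), hence in `End V` (`m59rpk_transfer`: entries of
`toMatrix`).  So `E` is an idempotent of trace `1`; over a local ring one diagonal entry of `E` is a
unit and `(E e_j, (1 - E) e_j')` is a basis (`m59rpk_idem_basis`); `L := range E = T ∙ b 0`.
-/
import Mathlib
import Fermat.Prelude.Def_GaloisRep_LocalConditions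
import Fermat.Agent.S33.Alg
import Fermat.Agent.M59.Rp.KumDesc
import Fermat.Agent.M59.Rp.KumR1

set_option autoImplicit false
set_option linter.unusedSectionVars false
set_option linter.style.haveILetI false
set_option linter.unusedVariables false

noncomputable section

namespace Fermat.Agent.M59

open IsLocalRing TensorProduct Fermat.Agent.FF

local notation "Qb" => AlgebraicClosure ℚ
local notation "GQ" => (AlgebraicClosure ℚ ≃ₐ[ℚ] AlgebraicClosure ℚ)

section Core

variable {T : Type*} [CommRing T] {V : Type*} [AddCommGroup V] [Module T V]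

/-- expansion of `f (b j)` in a basis indexed by `Fin 2`. -/
theorem m59rpk_basis_expand (b : Module.Basis (Fin 2) T V) (f : Module.End T V) (j : Fin 2) :
    f (b j) = LinearMap.toMatrix b b f 0 j • b 0 + LinearMap.toMatrix b b f 1 j • b 1 := by
  rw [LinearMap.toMatrix_apply, LinearMap.toMatrix_apply]
  conv_lhs => rw [← b.sum_repr (f (b j))]
  rw [Fin.sum_univ_two]

/-- the range of an idempotent `E` is spanned by `u` as soon as `u = E u'` and `V` is spanned by
`u` and a vector killed by `E`. -/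
theorem m59rpk_range_eq (E : Module.End T V) (hE : E * E = E) (b : Module.Basis (Fin 2) T V)
    {u' w' : V} (hb0 : b 0 = E u') (hb1 : b 1 = w' - E w') :
    LinearMap.range E = Submodule.span T {b 0} := by
  have hEE : ∀ x, E (E x) = E x := fun x => by
    rw [← Module.End.mul_apply, hE]
  apply le_antisymm
  · rintro _ ⟨x, rfl⟩
    have hx : x = b.repr x 0 • b 0 + b.repr x 1 • b 1 := by
      conv_lhs => rw [← b.sum_repr x]
      rw [Fin.sum_univ_two]
    rw [hx, map_add, map_smul, map_smul, hb0, hb1, hEE, map_sub, hEE, sub_self, smul_zero,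
      add_zero]
    exact Submodule.smul_mem _ _ (Submodule.mem_span_singleton_self _)
  · rw [Submodule.span_le, Set.singleton_subset_iff, hb0]
    exact ⟨u', rfl⟩

/-- **an idempotent of trace one over a local ring**: its range is `T ∙ b 0` for a basis `b`. -/
theorem m59rpk_idem_basis [IsLocalRing T] (b₀ : Module.Basis (Fin 2) T V) (E : Module.End T V)
    (hE : E * E = E) (htr : LinearMap.trace T V E = 1) :
    ∃ b : Module.Basis (Fin 2) T V, LinearMap.range E = Submodule.span T {b 0} := by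
  classical
  set M := LinearMap.toMatrix b₀ b₀ E with hM
  have hMM : M * M = M := by rw [hM, ← LinearMap.toMatrix_mul, hE]
  have h00 : M 0 0 * M 0 0 + M 0 1 * M 1 0 = M 0 0 := by
    have := congrFun (congrFun hMM 0) 0
    rwa [Matrix.mul_apply, Fin.sum_univ_two] at this
  have h11 : M 1 0 * M 0 1 + M 1 1 * M 1 1 = M 1 1 := by
    have := congrFun (congrFun hMM 1) 1
    rwa [Matrix.mul_apply, Fin.sum_univ_two] at this
  have ht : M 0 0 + M 1 1 = 1 := by
    rw [← Matrix.trace_fin_two, ← LinearMap.trace_eq_matrix_trace T b₀ E]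
    exact htr
  have hEb : ∀ j, E (b₀ j) = M 0 j • b₀ 0 + M 1 j • b₀ 1 := m59rpk_basis_expand b₀ E
  rcases IsLocalRing.isUnit_or_isUnit_of_add_one ht with hu | hu
  · -- `M 0 0` is a unit
    set A : Matrix (Fin 2) (Fin 2) T := !![M 0 0, -M 0 1; M 1 0, M 0 0] with hAdef
    have hdetA : A.det = M 0 0 := by
      rw [hAdef, Matrix.det_fin_two_of]
      linear_combination h00
    have hA : IsUnit A.det := by rw [hdetA]; exact hu
    set b := b₀.map (Matrix.toLinearEquiv b₀ A hA) with hb
    have hb0 : b 0 = E (b₀ 0) := by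
      rw [hb, Module.Basis.map_apply]
      show Matrix.toLin b₀ b₀ A (b₀ 0) = _
      rw [Matrix.toLin_self, Fin.sum_univ_two, hEb]
      simp [hAdef]
    have hb1 : b 1 = b₀ 1 - E (b₀ 1) := by
      rw [hb, Module.Basis.map_apply]
      show Matrix.toLin b₀ b₀ A (b₀ 1) = _
      rw [Matrix.toLin_self, Fin.sum_univ_two, hEb]
      have h1 : M 0 0 = 1 - M 1 1 := eq_sub_of_add_eq ht
      simp only [hAdef, Matrix.of_apply, Matrix.cons_val', Matrix.cons_val_zero,
        Matrix.cons_val_one, Matrix.cons_val_fin_one]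
      rw [h1]
      module
    exact ⟨b, m59rpk_range_eq E hE b hb0 hb1⟩
  · -- `M 1 1` is a unit
    set A : Matrix (Fin 2) (Fin 2) T := !![M 0 1, M 1 1; M 1 1, -M 1 0] with hAdef
    have hdetA : A.det = -M 1 1 := by
      rw [hAdef, Matrix.det_fin_two_of]
      linear_combination -h11
    have hA : IsUnit A.det := by rw [hdetA]; exact hu.neg
    set b := b₀.map (Matrix.toLinearEquiv b₀ A hA) with hb
    have hb0 : b 0 = E (b₀ 1) := by
      rw [hb, Module.Basis.map_apply]
      show Matrix.toLin b₀ b₀ A (b₀ 0) = _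
      rw [Matrix.toLin_self, Fin.sum_univ_two, hEb]
      simp [hAdef]
    have hb1 : b 1 = b₀ 0 - E (b₀ 0) := by
      rw [hb, Module.Basis.map_apply]
      show Matrix.toLin b₀ b₀ A (b₀ 1) = _
      rw [Matrix.toLin_self, Fin.sum_univ_two, hEb]
      have h1 : M 1 1 = 1 - M 0 0 := eq_sub_of_add_eq' ht
      simp only [hAdef, Matrix.of_apply, Matrix.cons_val', Matrix.cons_val_zero,
        Matrix.cons_val_one, Matrix.cons_val_fin_one]
      rw [h1]
      module
    exact ⟨b, m59rpk_range_eq E hE b hb0 hb1⟩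

/-- the two ordinary clauses from the idempotent identities. -/
theorem m59rpk_stable_of_idem (E f : Module.End T V) (hE : E * E = E)
    (h : (1 - E) * f * E = 0) {v : V} (hv : v ∈ LinearMap.range E) : f v ∈ LinearMap.range E := by
  obtain ⟨y, rfl⟩ := hv
  have h1 := LinearMap.congr_fun h y
  simp only [Module.End.mul_apply, LinearMap.sub_apply, Module.End.one_apply,
    LinearMap.zero_apply, sub_eq_zero] at h1
  exact ⟨f (E y), h1.symm⟩

theorem m59rpk_sub_mem_of_idem (E f : Module.End T V)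
    (h : (1 - E) * (f - 1) = 0) (v : V) : f v - v ∈ LinearMap.range E := by
  have h1 := LinearMap.congr_fun h v
  simp only [Module.End.mul_apply, LinearMap.sub_apply, Module.End.one_apply,
    LinearMap.zero_apply, sub_eq_zero] at h1
  exact ⟨f v - v, h1.symm⟩

end Core

section Factor

variable {B : Type*} [CommRing B] {W : Type*} [AddCommGroup W] [Module B W]

/-- **the identities in an ordinary basis.** -/
theorem m59rpk_factor (bi : Module.Basis (Fin 2) B W) (g : Module.End B W)
    (hin : ∀ w : W, g w - w ∈ Submodule.span B {bi 0})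
    (c' d' : B) (hc' : LinearMap.det g = c') (hd' : d' * (c' - 1) = 1) :
    (g - 1) * (g - c' • 1) = 0 ∧ LinearMap.trace B W g = 1 + c' ∧
      (∀ w : W, (d' • (g - 1)) w ∈ Submodule.span B {bi 0}) ∧
      (∀ v ∈ Submodule.span B {bi 0}, (d' • (g - 1)) v = v) := by
  classical
  obtain ⟨x', hx'⟩ := Submodule.mem_span_singleton.1 (hin (bi 0))
  obtain ⟨y, hy⟩ := Submodule.mem_span_singleton.1 (hin (bi 1))
  set x := x' + 1 with hx
  have hg0 : g (bi 0) = x • bi 0 := by
    rw [hx, add_smul, one_smul, hx']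
    abel
  have hg1 : g (bi 1) = bi 1 + y • bi 0 := by
    rw [hy]
    abel
  -- the matrix
  have hM00 : LinearMap.toMatrix bi bi g 0 0 = x := by
    rw [LinearMap.toMatrix_apply, hg0, map_smul, Module.Basis.repr_self, Finsupp.smul_apply,
      Finsupp.single_apply]
    simp
  have hM10 : LinearMap.toMatrix bi bi g 1 0 = 0 := by
    rw [LinearMap.toMatrix_apply, hg0, map_smul, Module.Basis.repr_self, Finsupp.smul_apply,
      Finsupp.single_apply]
    simp
  have hM11 : LinearMap.toMatrix bi bi g 1 1 = 1 := by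
    rw [LinearMap.toMatrix_apply, hg1, map_add, map_smul, Module.Basis.repr_self,
      Module.Basis.repr_self, Finsupp.add_apply, Finsupp.smul_apply, Finsupp.single_apply,
      Finsupp.single_apply]
    simp
  have hxc : x = c' := by
    rw [← hc', ← LinearMap.det_toMatrix bi, Matrix.det_fin_two, hM00, hM10, hM11]
    ring
  refine ⟨?_, ?_, ?_, ?_⟩
  · apply bi.ext
    intro j
    fin_cases j
    · show (g - 1) ((g - c' • 1) (bi 0)) = 0
      have : (g - c' • (1 : Module.End B W)) (bi 0) = 0 := by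
        rw [LinearMap.sub_apply, LinearMap.smul_apply, Module.End.one_apply, hg0, hxc, sub_self]
      rw [this, map_zero]
    · show (g - 1) ((g - c' • 1) (bi 1)) = 0
      have h1 : (g - c' • (1 : Module.End B W)) (bi 1) = (1 - c') • bi 1 + y • bi 0 := by
        rw [LinearMap.sub_apply, LinearMap.smul_apply, Module.End.one_apply, hg1]
        module
      rw [h1, LinearMap.sub_apply, Module.End.one_apply, map_add, map_smul, map_smul, hg1, hg0,
        hxc]
      module
  · rw [LinearMap.trace_eq_matrix_trace B bi g, Matrix.trace_fin_two, hM00, hM11, hxc]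
    ring
  · intro w
    rw [LinearMap.smul_apply, LinearMap.sub_apply, Module.End.one_apply]
    exact Submodule.smul_mem _ _ (hin w)
  · intro v hv
    obtain ⟨a, rfl⟩ := Submodule.mem_span_singleton.1 hv
    rw [LinearMap.smul_apply, LinearMap.sub_apply, Module.End.one_apply, map_smul, hg0, hxc]
    have : d' • (a • c' • bi 0 - a • bi 0) = (a * (d' * (c' - 1))) • bi 0 := by module
    rw [this, hd', mul_one]

/-- the derived identities. -/
theorem m59rpk_factor_stab (L : Submodule B W) (E' f : Module.End B W)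
    (hEL : ∀ w : W, E' w ∈ L) (hEid : ∀ v ∈ L, E' v = v) (hf : ∀ v ∈ L, f v ∈ L) :
    (1 - E') * f * E' = 0 := by
  apply LinearMap.ext
  intro w
  simp only [Module.End.mul_apply, LinearMap.sub_apply, Module.End.one_apply,
    LinearMap.zero_apply]
  rw [hEid _ (hf _ (hEL w)), sub_self]

theorem m59rpk_factor_in (L : Submodule B W) (E' f : Module.End B W)
    (hEid : ∀ v ∈ L, E' v = v) (hf : ∀ w : W, f w - w ∈ L) :
    (1 - E') * (f - 1) = 0 := by
  apply LinearMap.ext
  intro w
  simp only [Module.End.mul_apply, LinearMap.sub_apply, Module.End.one_apply,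
    LinearMap.zero_apply]
  rw [hEid _ (hf w), sub_self]

end Factor

section Transfer

variable {T : Type} [CommRing T] {V : Type} [AddCommGroup V] [Module T V]

/-- **joint injectivity for endomorphisms.** -/
theorem m59rpk_transfer (b₀ : Module.Basis (Fin 2) T V) {ι : Type} (Ti : ι → Type)
    [∀ i, CommRing (Ti i)] [∀ i, Algebra T (Ti i)]
    (hinj : ∀ x : T, (∀ i, algebraMap T (Ti i) x = 0) → x = 0)
    (f : Module.End T V) (hf : ∀ i, f.baseChange (Ti i) = 0) : f = 0 := by
  classical
  apply (LinearMap.toMatrix b₀ b₀).injective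
  rw [map_zero]
  ext j k
  rw [Matrix.zero_apply]
  apply hinj
  intro i
  have h1 := LinearMap.toMatrix_baseChange (Ti i) f b₀ b₀
  rw [hf i, map_zero] at h1
  have h2 := congrFun (congrFun h1 j) k
  rw [Matrix.zero_apply, Matrix.map_apply] at h2
  exact h2.symm

end Transfer

section Glue

variable {T : Type} [CommRing T] [IsLocalRing T]

/-- **[ORD-GLUE]**: `IsOrdinaryAt p` descends along a jointly injective family of local maps. -/
theorem m59rpk_ord_glue (p : ℕ) [hp : Fact p.Prime] (hp2 : p ≠ 2) (ρ : GaloisRepAdic T)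
    (hdet : ρ.DetIsCyclotomic p) {ι : Type} (Ti : ι → Type) [∀ i, CommRing (Ti i)]
    [∀ i, IsLocalRing (Ti i)] (π : ∀ i, T →+* Ti i) (hπ : ∀ i, IsLocalHom (π i))
    (hinj : ∀ x : T, (∀ i, π i x = 0) → x = 0)
    (hord : ∀ i, (ρ.baseChangeAlong (π i) (hπ i)).IsOrdinaryAt p) : ρ.IsOrdinaryAt p := by
  classical
  letI : ∀ i, Algebra T (Ti i) := fun i => (π i).toAlgebra
  intro P hP
  have hp0 : p ≠ 0 := hp.out.ne_zero
  haveI : NeZero p := ⟨hp0⟩
  -- an inertia element on which the mod `p` cyclotomic character is not `1`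
  obtain ⟨ζ, hζ⟩ := HasEnoughRootsOfUnity.exists_primitiveRoot Qb p
  have hζ0 : ζ ≠ 0 := hζ.ne_zero hp0
  have hnot := m59rpk_zeta_not_mem p P hP hp2 hζ
  rw [ffi_mem_L] at hnot
  push Not at hnot
  obtain ⟨σ₀, hσ₀, hσ₀ζ⟩ := hnot
  obtain ⟨a, ha⟩ := m59rpk_exists_cyc p σ₀ 1
  have ha1 : ¬ (p : ℤ) ∣ (a : ℤ) - 1 := by
    intro hdvd
    apply hσ₀ζ
    rw [ha ζ (by rw [pow_one]; exact hζ.pow_eq_one)]
    obtain ⟨m, hm⟩ := hdvd
    have ha' : (a : ℤ) = 1 + p * m := by linarith
    rw [← zpow_natCast, ha', zpow_add₀ hζ0, zpow_one, zpow_mul, zpow_natCast, hζ.pow_eq_one,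
      one_zpow, mul_one]
  set g : Module.End T ρ.V := ρ.ρ σ₀ with hg
  set c : T := LinearMap.det g with hc
  have hcu : IsUnit (c - 1) := by
    have h1 := hdet.2 1 σ₀ a ha
    have h2 := Fermat.Agent.S33.s33a_isUnit_sub_one p hp.out hdet.1 (a : ℤ) ha1
    rw [Int.cast_natCast] at h2
    by_contra hn
    have h3 : c - 1 ∈ maximalIdeal T := (mem_maximalIdeal _).2 hn
    have h4 : c - (a : T) ∈ maximalIdeal T := by
      have hle : Ideal.span {((p ^ 1 : ℕ) : T)} ≤ maximalIdeal T := by
        rw [Ideal.span_le, Set.singleton_subset_iff, pow_one]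
        exact hdet.1
      exact hle h1
    have h5 : (a : T) - 1 ∈ maximalIdeal T := by
      have : (a : T) - 1 = (c - 1) - (c - (a : T)) := by ring
      rw [this]
      exact Ideal.sub_mem _ h3 h4
    exact (mem_maximalIdeal _).1 h5 h2
  obtain ⟨d, hd⟩ := hcu.exists_left_inv
  set E : Module.End T ρ.V := d • (g - 1) with hE
  let b₀ : Module.Basis (Fin 2) T ρ.V := Module.finBasisOfFinrankEq T ρ.V ρ.finrank_eq
  have hinj' : ∀ x : T, (∀ i, algebraMap T (Ti i) x = 0) → x = 0 := fun x hx => hinj x hx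
  -- the ordinary bases of the factors
  have hfac : ∀ i, ∃ bi : Module.Basis (Fin 2) (Ti i) (Ti i ⊗[T] ρ.V),
      (∀ s ∈ P.decompositionSubgroup ℚ, ∀ v ∈ Submodule.span (Ti i) {bi 0},
        (ρ.ρ s).baseChange (Ti i) v ∈ Submodule.span (Ti i) {bi 0}) ∧
      (∀ t ∈ P.inertiaSubgroupIn ℚ, ∀ w : Ti i ⊗[T] ρ.V,
        (ρ.ρ t).baseChange (Ti i) w - w ∈ Submodule.span (Ti i) {bi 0}) := by
    intro i
    obtain ⟨L, ⟨bi, rfl⟩, hD, hI⟩ := hord i P hP
    exact ⟨bi, hD, hI⟩
  have hd' : ∀ i, algebraMap T (Ti i) d * (algebraMap T (Ti i) c - 1) = 1 := by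
    intro i
    rw [← map_one (algebraMap T (Ti i)), ← map_sub, ← map_mul, hd]
  have hEi : ∀ i, E.baseChange (Ti i) =
      algebraMap T (Ti i) d • (g.baseChange (Ti i) - 1) := by
    intro i
    rw [hE, LinearMap.baseChange_smul, algebraMap_smul, LinearMap.baseChange_sub,
      LinearMap.baseChange_one]
  -- the four identities
  have hA : (g - 1) * (g - c • 1) = 0 := by
    refine m59rpk_transfer b₀ Ti hinj' _ fun i => ?_
    obtain ⟨bi, hD, hI⟩ := hfac i
    have h1 := (m59rpk_factor bi (g.baseChange (Ti i)) (hI σ₀ hσ₀) _ _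
      (LinearMap.det_baseChange g) (hd' i)).1
    rw [LinearMap.baseChange_mul, LinearMap.baseChange_sub, LinearMap.baseChange_sub,
      LinearMap.baseChange_smul, LinearMap.baseChange_one, ← algebraMap_smul (Ti i) c]
    exact h1
  have hB : LinearMap.trace T ρ.V g = 1 + c := by
    rw [← sub_eq_zero]
    apply hinj'
    intro i
    obtain ⟨bi, hD, hI⟩ := hfac i
    have h1 := (m59rpk_factor bi (g.baseChange (Ti i)) (hI σ₀ hσ₀) _ _
      (LinearMap.det_baseChange g) (hd' i)).2.1
    rw [LinearMap.trace_baseChange] at h1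
    rw [map_sub, map_add, map_one, h1, sub_self]
  have hC : ∀ s ∈ P.decompositionSubgroup ℚ, (1 - E) * ρ.ρ s * E = 0 := by
    intro s hs
    refine m59rpk_transfer b₀ Ti hinj' _ fun i => ?_
    obtain ⟨bi, hD, hI⟩ := hfac i
    obtain ⟨-, -, h3, h4⟩ := m59rpk_factor bi (g.baseChange (Ti i)) (hI σ₀ hσ₀) _ _
      (LinearMap.det_baseChange g) (hd' i)
    rw [LinearMap.baseChange_mul, LinearMap.baseChange_mul, LinearMap.baseChange_sub,
      LinearMap.baseChange_one, hEi i]
    exact m59rpk_factor_stab _ _ _ h3 h4 (hD s hs)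
  have hD' : ∀ t ∈ P.inertiaSubgroupIn ℚ, (1 - E) * (ρ.ρ t - 1) = 0 := by
    intro t ht
    refine m59rpk_transfer b₀ Ti hinj' _ fun i => ?_
    obtain ⟨bi, hD, hI⟩ := hfac i
    obtain ⟨-, -, h3, h4⟩ := m59rpk_factor bi (g.baseChange (Ti i)) (hI σ₀ hσ₀) _ _
      (LinearMap.det_baseChange g) (hd' i)
    rw [LinearMap.baseChange_mul, LinearMap.baseChange_sub, LinearMap.baseChange_sub,
      LinearMap.baseChange_one, hEi i]
    exact m59rpk_factor_in _ _ _ h4 (hI t ht)
  -- `E` is an idempotent of trace one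
  have hEE : E * E = E := by
    have h1 : g - 1 = (g - c • (1 : Module.End T ρ.V)) + (c - 1) • (1 : Module.End T ρ.V) := by
      rw [sub_smul, one_smul]
      abel
    have h2 : (g - 1) * (g - 1) = (c - 1) • (g - 1) := by
      calc (g - 1) * (g - 1)
          = (g - 1) * ((g - c • (1 : Module.End T ρ.V)) + (c - 1) • (1 : Module.End T ρ.V)) := by
            rw [← h1]
        _ = (c - 1) • (g - 1) := by rw [mul_add, hA, zero_add, mul_smul_comm, mul_one]
    rw [hE, smul_mul_assoc, mul_smul_comm, h2, smul_smul, smul_smul, mul_assoc, hd, mul_one]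
  have htrE : LinearMap.trace T ρ.V E = 1 := by
    rw [hE, map_smul, map_sub, hB, LinearMap.trace_one, ρ.finrank_eq, smul_eq_mul]
    have : d * (1 + c - ((2 : ℕ) : T)) = d * (c - 1) := by
      push_cast
      ring
    rw [this, hd]
  obtain ⟨b, hb⟩ := m59rpk_idem_basis b₀ E hEE htrE
  refine ⟨LinearMap.range E, ⟨b, hb⟩, ?_, ?_⟩
  · intro s hs v hv
    exact m59rpk_stable_of_idem E (ρ.ρ s) hEE (hC s hs) hv
  · intro t ht v
    exact m59rpk_sub_mem_of_idem E (ρ.ρ t) (hD' t ht) v

/-- **[ORD-GLUE]** for two factors (e.g. the pair ring `T'' ⊆ T' × 𝒪`). -/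
theorem m59rpk_ord_glue_two (p : ℕ) [hp : Fact p.Prime] (hp2 : p ≠ 2) (ρ : GaloisRepAdic T)
    (hdet : ρ.DetIsCyclotomic p) {T₁ T₂ : Type} [CommRing T₁] [IsLocalRing T₁] [CommRing T₂]
    [IsLocalRing T₂] (π₁ : T →+* T₁) (hπ₁ : IsLocalHom π₁) (π₂ : T →+* T₂) (hπ₂ : IsLocalHom π₂)
    (hinj : ∀ x : T, π₁ x = 0 → π₂ x = 0 → x = 0)
    (h₁ : (ρ.baseChangeAlong π₁ hπ₁).IsOrdinaryAt p)
    (h₂ : (ρ.baseChangeAlong π₂ hπ₂).IsOrdinaryAt p) : ρ.IsOrdinaryAt p := by
  let Ti : Bool → Type := fun b => match b with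
    | true => T₁
    | false => T₂
  letI iC : ∀ i, CommRing (Ti i) := fun b => match b with
    | true => (inferInstance : CommRing T₁)
    | false => (inferInstance : CommRing T₂)
  haveI iL : ∀ i, IsLocalRing (Ti i) := fun b => match b with
    | true => (inferInstance : IsLocalRing T₁)
    | false => (inferInstance : IsLocalRing T₂)
  let π : ∀ i, T →+* Ti i := fun b => match b with
    | true => π₁
    | false => π₂
  have hπ : ∀ i, IsLocalHom (π i) := fun b => match b with
    | true => hπ₁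
    | false => hπ₂
  refine m59rpk_ord_glue p hp2 ρ hdet Ti π hπ (fun x hx => hinj x (hx true) (hx false)) ?_
  intro b
  cases b
  · exact h₂
  · exact h₁

end Glue

end Fermat.Agent.M59
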