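/-
S59 project, block [R_p-norm], cell [ORD-T] (helper24; prefix `m59rpk_`), deliverable (A2):
ORDINARITY AT `p` PASSES DOWN THE CHAIN OF LEVELS (push-forward along the maps `πT` of Hecke
algebras).

* `m59rpk_ord_equiv_bc`  : abstract form; `φ : A → B` a local homomorphism, `ρ'` over `B` equivalent
  to `ρ.baseChangeAlong φ`, `ρ` ordinary at `p` ⟹ `ρ'` ordinary at `p`;
* `m59rpk_ord_map`       : datum form; two Hecke–Galois data `H₁` over `T₁`, `H₂` over `T₂` and an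
  `𝒪`-algebra map `f : T₁ → T₂` matching the `T_ℓ` outside a finite set (`twc_fr_Match`, main's
  `TW/Def/Frames.lean`): `H₁.ρ` ordinary at `p` ⟹ `H₂.ρ` ordinary at `p`
  (Chebotarev `twlg_tr_charpoly_eq` + Carayol rigidity `ffc_rigid_of_trace_det`, through main's
  `twc_fr_isEquiv_map`);
* `m59rpk_match_stepP`, `m59rpk_match_step` : the maps `πT` of `m59p_StepP` and of `m59ep_Step` are
  matching maps;
* `m59rpk_ord_stepP`, `m59rpk_ord_step` : ordinarity passes from the upper level `L₁` of a step to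
  its lower level `L₀`;
* `m59rpk_ord_chain`     : hence from the top level of a chain to every level below;
* `m59rpk_ord_chainP`    : the chain of `m59p_ChainP_stmt`: the level `Lp` (level `N_m · p`,
  `p ∥ N_m p`) is ordinary by (A1) = frozen S33, hence so is every `L k`, `k ≤ m`
  (levels prime to `p`, where S33 does not apply).
-/
import Mathlib
import Fermat.Agent.TW.Def.Frames
import Fermat.Agent.M59.Rp.OrdTop
import Fermat.Agent.M59.EP.Seams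
import Fermat.Agent.M59.AtP.Seams

set_option autoImplicit false
set_option linter.unusedSectionVars false
set_option linter.style.haveILetI false

noncomputable section

namespace Fermat.Agent.M59

open IsLocalRing TensorProduct Polynomial CuspForm Fermat.Agent.S53 Fermat.Agent.S56
  Fermat.Agent.TW

local notation "GQ" => (AlgebraicClosure ℚ ≃ₐ[ℚ] AlgebraicClosure ℚ)
local notation "Qbar" => AlgebraicClosure ℚ

section abstract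

variable {A B : Type} [CommRing A] [IsLocalRing A] [CommRing B] [IsLocalRing B]

/-- ordinarity passes to (anything equivalent to) a push-forward. -/
theorem m59rpk_ord_equiv_bc (φ : A →+* B) (hφ : IsLocalHom φ) (ρ : GaloisRepAdic A)
    (ρ' : GaloisRepAdic B) (h : ρ'.IsEquiv (ρ.baseChangeAlong φ hφ)) {p : ℕ}
    (hord : ρ.IsOrdinaryAt p) : ρ'.IsOrdinaryAt p := by
  obtain ⟨e⟩ := h
  exact s56t_tr_isOrdinaryAt e.symm (s56bc_ordinary φ hφ ρ p hord)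

/-- ordinarity passes to (anything equivalent to) the entrywise push-forward of a framing. -/
theorem m59rpk_ord_equiv_map (φ : A →+* B) (hφ : IsLocalHom φ) (ρ : GaloisRepAdic A)
    (r : FramedRep A) (hr : ρ.IsEquiv r.toGaloisRepAdic)
    (ρ' : GaloisRepAdic B) (h : ρ'.IsEquiv (r.map φ hφ).toGaloisRepAdic) {p : ℕ}
    (hord : ρ.IsOrdinaryAt p) : ρ'.IsOrdinaryAt p := by
  obtain ⟨e₁⟩ := hr
  obtain ⟨e₂⟩ := FramedRep.baseChangeAlong_isEquiv φ hφ r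
  obtain ⟨e₃⟩ := h
  exact s56t_tr_isOrdinaryAt (e₂.trans e₃.symm)
    (s56bc_ordinary φ hφ r.toGaloisRepAdic p (s56t_tr_isOrdinaryAt e₁ hord))

end abstract

section two

variable {𝒪 : Type} [CommRing 𝒪] [IsDomain 𝒪] [IsDiscreteValuationRing 𝒪]
  [IsAdicComplete (maximalIdeal 𝒪) 𝒪]
  {N₁ : ℕ} [NeZero N₁] {S₁ : Finset ℕ}
  {θ₁ : heckeAlgebra N₁ 2 (↑S₁ : Set ℕ) →+* ResidueField 𝒪}
  {T₁ : Type} [CommRing T₁] [IsLocalRing T₁] [IsNoetherianRing T₁]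
  [IsAdicComplete (maximalIdeal T₁) T₁] [Algebra 𝒪 T₁] [IsLocalHom (algebraMap 𝒪 T₁)]
  [Module.Finite 𝒪 T₁] [Module.Free 𝒪 T₁]
  {N₂ : ℕ} [NeZero N₂] {S₂ : Finset ℕ}
  {θ₂ : heckeAlgebra N₂ 2 (↑S₂ : Set ℕ) →+* ResidueField 𝒪}
  {T₂ : Type} [CommRing T₂] [IsLocalRing T₂] [IsNoetherianRing T₂]
  [IsAdicComplete (maximalIdeal T₂) T₂] [Algebra 𝒪 T₂] [IsLocalHom (algebraMap 𝒪 T₂)]
  [Module.Finite 𝒪 T₂] [Module.Free 𝒪 T₂]
  {H₁ : HeckeGaloisRepDatum N₁ (↑S₁ : Set ℕ) 𝒪 θ₁ T₁}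
  {H₂ : HeckeGaloisRepDatum N₂ (↑S₂ : Set ℕ) 𝒪 θ₂ T₂} {f : T₁ →ₐ[𝒪] T₂} {S' : Finset ℕ}

/-- **[ORD-T], (A2), datum form**: ordinarity passes along a map of Hecke algebras matching the
`T_ℓ` outside a finite set. -/
theorem m59rpk_ord_map (hNS₂ : ∀ ℓ : ℕ, ℓ.Prime → ℓ ∣ N₂ → ℓ ∈ S₂)
    (hf : twc_fr_Match H₁ H₂ f S') {p : ℕ} (hord : H₁.ρ.IsOrdinaryAt p) :
    H₂.ρ.IsOrdinaryAt p := by
  have hsurj : Function.Surjective (f : T₁ →+* T₂) := twc_fr_match_surjective hNS₂ hf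
  have hloc : IsLocalHom (f : T₁ →+* T₂) := IsLocalHom.of_surjective _ hsurj
  obtain ⟨r₁, h₁⟩ := exists_framedRep H₁.ρ
  exact m59rpk_ord_equiv_map (f : T₁ →+* T₂) hloc H₁.ρ r₁ h₁ H₂.ρ
    (twc_fr_isEquiv_map hNS₂ hf hloc r₁ h₁) hord

/-- the representation of the lower datum IS the push-forward of the upper one. -/
theorem m59rpk_map_isEquiv (hNS₂ : ∀ ℓ : ℕ, ℓ.Prime → ℓ ∣ N₂ → ℓ ∈ S₂)
    (hf : twc_fr_Match H₁ H₂ f S') :
    ∃ hloc : IsLocalHom (f : T₁ →+* T₂),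
      H₂.ρ.IsEquiv (H₁.ρ.baseChangeAlong (f : T₁ →+* T₂) hloc) := by
  have hsurj : Function.Surjective (f : T₁ →+* T₂) := twc_fr_match_surjective hNS₂ hf
  have hloc : IsLocalHom (f : T₁ →+* T₂) := IsLocalHom.of_surjective _ hsurj
  obtain ⟨r₁, ⟨e₁⟩⟩ := exists_framedRep H₁.ρ
  obtain ⟨e₂⟩ := FramedRep.baseChangeAlong_isEquiv (f : T₁ →+* T₂) hloc r₁
  obtain ⟨e₃⟩ := twc_fr_isEquiv_map hNS₂ hf hloc r₁ ⟨e₁⟩
  exact ⟨hloc, ⟨(e₃.trans e₂.symm).trans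
    (GaloisRepAdic.Equiv.baseChangeAlong (f : T₁ →+* T₂) hloc e₁).symm⟩⟩

end two

section steps

variable {𝒪 : Type} [CommRing 𝒪] [IsDomain 𝒪] [IsDiscreteValuationRing 𝒪]
  [IsAdicComplete (maximalIdeal 𝒪) 𝒪]
  {N₀ N₁ : ℕ} [NeZero N₀] [NeZero N₁] {S₀ S₁ : Finset ℕ}
  {θ₀ : heckeAlgebra N₀ 2 (↑S₀ : Set ℕ) →+* ResidueField 𝒪}
  {θ₁ : heckeAlgebra N₁ 2 (↑S₁ : Set ℕ) →+* ResidueField 𝒪}
  {B₀ : twe_Base 𝒪 N₀ S₀ θ₀} {B₁ : twe_Base 𝒪 N₁ S₁ θ₁} {p : ℕ} {Q : Finset ℕ}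
  [NeZero (twe_Nbal N₀ Q ∅)] [NeZero (twe_Nbal N₁ Q ∅)]

/-- the map `πT` of a step of the chain `[E']` is a matching map. -/
theorem m59rpk_match_step {L₀ : twe_Level B₀ p Q} {L₁ : twe_Level B₁ p Q} {l : ℕ}
    (St : m59ep_Step L₀ L₁ l) :
    twc_fr_Match L₁.H' L₀.H' St.πT ((twe_Nbal N₁ Q ∅).primeFactors ∪ S₁) := by
  classical
  intro ℓ hℓ h2N h2S hℓS
  have h1N : ¬ ℓ ∣ twe_Nbal N₁ Q ∅ := fun h' =>
    hℓS (Finset.mem_union_left _ (Nat.mem_primeFactors.2 ⟨hℓ, h', NeZero.ne _⟩))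
  have h1S : ℓ ∉ (↑(S₁ ∪ Q) : Set ℕ) := by
    intro h'
    rcases Finset.mem_union.1 (Finset.mem_coe.1 h') with h'' | h''
    · exact hℓS (Finset.mem_union_right _ h'')
    · exact h2S (Finset.mem_coe.2 (Finset.mem_union_right _ h''))
  exact ⟨h1N, h1S, St.πT_T ℓ hℓ h1N h1S h2N h2S⟩

/-- **[ORD-T], (A2), step form**: ordinarity passes from the upper level of a step of the chain
to its lower level. -/
theorem m59rpk_ord_step {L₀ : twe_Level B₀ p Q} {L₁ : twe_Level B₁ p Q} {l : ℕ}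
    (St : m59ep_Step L₀ L₁ l) (hNS₀ : ∀ q : ℕ, q.Prime → q ∣ N₀ → q ∈ S₀)
    (hQ : ∀ t ∈ Q, t.Prime) {p' : ℕ} (hord : L₁.H'.ρ.IsOrdinaryAt p') :
    L₀.H'.ρ.IsOrdinaryAt p' :=
  m59rpk_ord_map (m59rpk_nbal_primes hNS₀ Q hQ) (m59rpk_match_step St) hord

end steps

section stepP

variable {𝒪 : Type} [CommRing 𝒪] [IsDomain 𝒪] [IsDiscreteValuationRing 𝒪]
  [IsAdicComplete (maximalIdeal 𝒪) 𝒪]
  {N₀ N₁ : ℕ} [NeZero N₀] [NeZero N₁] {S : Finset ℕ}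
  {θ₀ : heckeAlgebra N₀ 2 (↑S : Set ℕ) →+* ResidueField 𝒪}
  {θ₁ : heckeAlgebra N₁ 2 (↑S : Set ℕ) →+* ResidueField 𝒪}
  {B₀ : twe_Base 𝒪 N₀ S θ₀} {B₁ : twe_Base 𝒪 N₁ S θ₁} {p : ℕ} {Q : Finset ℕ}
  [NeZero (twe_Nbal N₀ Q ∅)] [NeZero (twe_Nbal N₁ Q ∅)]

/-- the map `πT` of the step at `l = p` is a matching map. -/
theorem m59rpk_match_stepP {L₀ : twe_Level B₀ p Q} {L₁ : twe_Level B₁ p Q}
    (St : m59p_StepP L₀ L₁) :
    twc_fr_Match L₁.H' L₀.H' St.πT (twe_Nbal N₁ Q ∅).primeFactors := by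
  intro ℓ hℓ h2N h2S hℓS
  have h1N : ¬ ℓ ∣ twe_Nbal N₁ Q ∅ := fun h' =>
    hℓS (Nat.mem_primeFactors.2 ⟨hℓ, h', NeZero.ne _⟩)
  exact ⟨h1N, h2S, St.πT_T ℓ hℓ h1N h2S h2N⟩

/-- **[ORD-T], (A2), the step at `p`**: ordinarity passes from the level `N₀ p` to the level
`N₀` prime to `p`. -/
theorem m59rpk_ord_stepP {L₀ : twe_Level B₀ p Q} {L₁ : twe_Level B₁ p Q}
    (St : m59p_StepP L₀ L₁) (hNS₀ : ∀ q : ℕ, q.Prime → q ∣ N₀ → q ∈ S)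
    (hQ : ∀ t ∈ Q, t.Prime) {p' : ℕ} (hord : L₁.H'.ρ.IsOrdinaryAt p') :
    L₀.H'.ρ.IsOrdinaryAt p' :=
  m59rpk_ord_map (m59rpk_nbal_primes hNS₀ Q hQ) (m59rpk_match_stepP St) hord

end stepP

section chain

variable {𝒪 : Type} [CommRing 𝒪] [IsDomain 𝒪] [IsDiscreteValuationRing 𝒪]
  [IsAdicComplete (maximalIdeal 𝒪) 𝒪]

/-- the primes of the level `N ∏_{i < k} l i` lie in the bad set `S₀ ∪ {l i : i < k}`. -/
theorem m59rpk_lvl_primes {N : ℕ} {S₀ : Finset ℕ} (hNS : ∀ q : ℕ, q.Prime → q ∣ N → q ∈ S₀)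
    {m : ℕ} (l : Fin m → ℕ) (hl : ∀ i, (l i).Prime) (k : ℕ) :
    ∀ q : ℕ, q.Prime → q ∣ m59ep_lvl N l k → q ∈ m59ep_bad S₀ l k := by
  classical
  intro q hq hdvd
  unfold m59ep_lvl at hdvd
  unfold m59ep_bad
  rcases (Nat.Prime.dvd_mul hq).mp hdvd with h | h
  · exact Finset.mem_union_left _ (hNS q hq h)
  · obtain ⟨i, _, hqi⟩ := (Prime.dvd_finsetProd_iff hq.prime _).mp h
    by_cases hik : (i : ℕ) < k
    · rw [if_pos hik] at hqi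
      have : q = l i := (Nat.prime_dvd_prime_iff_eq hq (hl i)).mp hqi
      refine Finset.mem_union_right _ (Finset.mem_image.mpr ⟨i, ?_, this.symm⟩)
      exact Finset.mem_filter.mpr ⟨Finset.mem_univ _, hik⟩
    · rw [if_neg hik] at hqi
      exact absurd (Nat.dvd_one.mp hqi) hq.one_lt.ne'

variable {N : ℕ} [NeZero N] {S₀ : Finset ℕ} {m : ℕ} {l : Fin m → ℕ}
  [∀ k : ℕ, NeZero (m59ep_lvl N l k)]
  {θ : ∀ k : ℕ, heckeAlgebra (m59ep_lvl N l k) 2 (↑(m59ep_bad S₀ l k) : Set ℕ) →+*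
    ResidueField 𝒪}
  {B : ∀ k : ℕ, twe_Base 𝒪 (m59ep_lvl N l k) (m59ep_bad S₀ l k) (θ k)}
  {p : ℕ} {Q : Finset ℕ} [∀ k : ℕ, NeZero (twe_Nbal (m59ep_lvl N l k) Q ∅)]

/-- **[ORD-T], (A2), chain form**: ordinarity passes from the top level of a chain of steps to
every level below. -/
theorem m59rpk_ord_chain (hNS : ∀ q : ℕ, q.Prime → q ∣ N → q ∈ S₀) (hl : ∀ i, (l i).Prime)
    (hQ : ∀ t ∈ Q, t.Prime) (L : ∀ k : ℕ, twe_Level (B k) p Q)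
    (hstep : ∀ k : Fin m, Nonempty (m59ep_Step (L (k : ℕ)) (L ((k : ℕ) + 1)) (l k)))
    {p' : ℕ} (hord : (L m).H'.ρ.IsOrdinaryAt p') :
    ∀ k : ℕ, k ≤ m → (L k).H'.ρ.IsOrdinaryAt p' := by
  have key : ∀ j k : ℕ, k + j = m → (L k).H'.ρ.IsOrdinaryAt p' := by
    intro j
    induction j with
    | zero =>
      intro k hk
      obtain rfl : m = k := by omega
      exact hord
    | succ j ih =>
      intro k hk
      have h1 : (L (k + 1)).H'.ρ.IsOrdinaryAt p' := ih (k + 1) (by omega)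
      obtain ⟨St⟩ := hstep ⟨k, by omega⟩
      exact m59rpk_ord_step St (m59rpk_lvl_primes hNS l hl k) hQ h1
  intro k hk
  exact key (m - k) k (by omega)

/-- `p ∤ N`, `l i ≠ p` primes ⟹ `p ∥ (N ∏_{i < k} l i) · p`. -/
theorem m59rpk_lvl_exact {N : ℕ} {p : ℕ} (hp : p.Prime) (hpN : ¬ p ∣ N) {m : ℕ} (l : Fin m → ℕ)
    (hl : ∀ i, (l i).Prime ∧ l i ≠ p) (k : ℕ) :
    p ∣ m59ep_lvl N l k * p ∧ ¬ p ^ 2 ∣ m59ep_lvl N l k * p := by
  classical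
  refine ⟨Dvd.intro_left _ rfl, fun h => ?_⟩
  rw [pow_two] at h
  have h1 : p ∣ m59ep_lvl N l k := Nat.dvd_of_mul_dvd_mul_right hp.pos h
  unfold m59ep_lvl at h1
  rcases (Nat.Prime.dvd_mul hp).mp h1 with h2 | h2
  · exact hpN h2
  · obtain ⟨i, _, hpi⟩ := (Prime.dvd_finsetProd_iff hp.prime _).mp h2
    by_cases hik : (i : ℕ) < k
    · rw [if_pos hik] at hpi
      exact (hl i).2 ((Nat.prime_dvd_prime_iff_eq hp (hl i).1).mp hpi).symm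
    · rw [if_neg hik] at hpi
      exact absurd (Nat.dvd_one.mp hpi) hp.one_lt.ne'

/-- the primes of `(N ∏_{i < k} l i) · p` lie in the bad set `S₀ ∪ {l i : i < k}` (`p ∈ S₀`). -/
theorem m59rpk_lvlP_primes {N : ℕ} {S₀ : Finset ℕ} (hNS : ∀ q : ℕ, q.Prime → q ∣ N → q ∈ S₀)
    {p : ℕ} (hp : p.Prime) (hpS : p ∈ S₀) {m : ℕ} (l : Fin m → ℕ) (hl : ∀ i, (l i).Prime)
    (k : ℕ) : ∀ q : ℕ, q.Prime → q ∣ m59ep_lvl N l k * p → q ∈ m59ep_bad S₀ l k := by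
  intro q hq hdvd
  rcases (Nat.Prime.dvd_mul hq).mp hdvd with h | h
  · exact m59rpk_lvl_primes hNS l hl k q hq h
  · have : q = p := (Nat.prime_dvd_prime_iff_eq hq hp).mp h
    unfold m59ep_bad
    exact Finset.mem_union_left _ (this ▸ hpS)

/-- **[ORD-T], the chain of `m59p_ChainP_stmt`** (case (III)): the level `Lp` at `N_m · p` is
ordinary at `p` by (A1) (frozen S33), hence so is every level `L k`, `k ≤ m`, of the chain (levels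
prime to `p`) by (A2). -/
theorem m59rpk_ord_chainP [Finite (ResidueField 𝒪)] [CharZero 𝒪]
    (hp : p.Prime) (hp2 : p ≠ 2) (hp𝒪 : (p : 𝒪) ∈ maximalIdeal 𝒪) (hpN : ¬ p ∣ N)
    (hpS : p ∈ S₀) (hNS : ∀ q : ℕ, q.Prime → q ∣ N → q ∈ S₀)
    (hl : ∀ i, (l i).Prime ∧ l i ≠ p)
    [NeZero (m59ep_lvl N l m * p)]
    {θp : heckeAlgebra (m59ep_lvl N l m * p) 2 (↑(m59ep_bad S₀ l m) : Set ℕ) →+* ResidueField 𝒪}
    {Bp : twe_Base 𝒪 (m59ep_lvl N l m * p) (m59ep_bad S₀ l m) θp}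
    [NeZero (twe_Nbal (m59ep_lvl N l m * p) Q ∅)]
    (hQ : ∀ t ∈ Q, t.Prime ∧ t % p = 1)
    (L : ∀ k : ℕ, twe_Level (B k) p Q) (Lp : twe_Level Bp p Q)
    (hstep : ∀ k : Fin m, Nonempty (m59ep_Step (L (k : ℕ)) (L ((k : ℕ) + 1)) (l k)))
    (hstepP : Nonempty (m59p_StepP (L m) Lp))
    (ρbar : ResidualGaloisRep (ResidueField 𝒪)) (hcompat : twt_Compat θp ρbar)
    (hord : (GaloisRepAdic.ofResidualGaloisRep ρbar).IsOrdinaryAt p) :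
    Lp.H'.ρ.IsOrdinaryAt p ∧ ∀ k : ℕ, k ≤ m → (L k).H'.ρ.IsOrdinaryAt p := by
  have hlp : ∀ i, (l i).Prime := fun i => (hl i).1
  have hQp : ∀ t ∈ Q, t.Prime := fun t ht => (hQ t ht).1
  have htop : Lp.H'.ρ.IsOrdinaryAt p :=
    m59rpk_ord_level hp hp2 hp𝒪 (m59rpk_lvl_exact hp hpN l hl m)
      (m59rpk_lvlP_primes hNS hp hpS l hlp m) hQ Lp ρbar hcompat hord
  obtain ⟨StP⟩ := hstepP
  have hm : (L m).H'.ρ.IsOrdinaryAt p :=
    m59rpk_ord_stepP StP (m59rpk_lvl_primes hNS l hlp m) hQp htop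
  exact ⟨htop, m59rpk_ord_chain hNS hlp hQp L hstep hm⟩

end chain

end Fermat.Agent.M59
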