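import Mathlib
import Fermat.Agent.M59.Rp.DataIII

/-!
# M59 / block [R_p-norm]: THE `p`-BLOCK OF THE SPINE OF CASE (III) (helper13; prefix `m59rp_`)

`m59rp_pBlock` : ONE lemma for the wiring (ArithCore3 / ArithOf3 / PairTop3 / CotOf3): from
`ρ = ρ_W ⊗ 𝒪` with cyclotomic determinant, STRICTLY ordinary at `p` (helper6's (O3)
`m59g_G5zS_closed`), a frame `rW` of `ρ` and the absolute irreducibility of `ρ̄`:

* the frame `rW` has cyclotomic determinant, is strictly ordinary and ordinary at `p`; its residual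
  representation has cyclotomic determinant and is ordinary at `p` (`hordb` of helper10's
  `m59rpa_flat0_datum`, of `m59rp_vbar_of_datum` and of helper24's `m59rpk_ord_chainP`);
* `∃ E g0 εp` with `εp² = 1`, `g0` adapted, `z_W(Frob_p) = εp`, `a_W = 0` (the value of
  `β (inr ())`), `res(εp) z̄(Frob_p) = 1` (`hzb`), the residual ordinary datum `hO`, and the split
  hypothesis `hsplit` of the cotangent bound `m59cp_cot3` / `m59rp_cotB3` (given `v̄ = 0`).
-/

set_option autoImplicit false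
set_option linter.unusedSectionVars false
set_option linter.unusedVariables false
set_option linter.style.haveILetI false

open Polynomial IsLocalRing ExtCitation Matrix Module
open Fermat.Agent.S53 Fermat.Agent.S56 Fermat.Agent.TW

namespace Fermat.Agent.M59

noncomputable section

local notation "GQ" => (AlgebraicClosure ℚ ≃ₐ[ℚ] AlgebraicClosure ℚ)
local notation "Qb" => AlgebraicClosure ℚ

variable {𝒪 : Type} [CommRing 𝒪] [IsDomain 𝒪] [IsDiscreteValuationRing 𝒪]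
  [IsAdicComplete (maximalIdeal 𝒪) 𝒪] [Finite (ResidueField 𝒪)]

/-- **the `p`-block of case (III).** -/
theorem m59rp_pBlock {p : ℕ} [Fact p.Prime] (hp2 : p ≠ 2) (hp𝒪 : (p : 𝒪) ∈ maximalIdeal 𝒪)
    (ρ : GaloisRepAdic 𝒪) (hdetρ : ρ.DetIsCyclotomic p) (hSO : ρ.IsStrictOrdinaryAt p)
    (rW : FramedRep 𝒪) (hW : ρ.IsEquiv rW.toGaloisRepAdic)
    (hirr : rW.residual.toResidualGaloisRep.IsAbsolutelyIrreducible) :
    rW.toGaloisRepAdic.DetIsCyclotomic p ∧ rW.toGaloisRepAdic.IsStrictOrdinaryAt p ∧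
    rW.toGaloisRepAdic.IsOrdinaryAt p ∧
    (m59rp_res rW.residual).DetIsCyclotomic p ∧ (m59rp_res rW.residual).IsOrdinaryAt p ∧
    ∃ (E : m59rp_Elts p (padicPlace p)) (g0 : GQ) (εp : ℤ),
      εp * εp = 1 ∧ m59rp_IsAdapted E rW.residual g0 ∧
      m59rp_z E rW.toMonoidHom E.fr = ((εp : ℤ) : 𝒪) ∧
      m59rp_a E ((εp : ℤ) : 𝒪) rW.toMonoidHom = 0 ∧
      ((εp : ℤ) : 𝒪) ^ 2 = 1 ∧
      residue 𝒪 ((εp : ℤ) : 𝒪) * m59rp_z E rW.residual.toMonoidHom E.fr = 1 ∧
      (∃ u₀ : Fin 2 → ResidueField 𝒪, u₀ ≠ 0 ∧ s56o_Ord p rW.residual u₀) ∧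
      (m59rp_v E g0 rW.residual.toMonoidHom = 0 → m59rp_u E g0 rW.residual.toMonoidHom = 0 →
        1 ≤ finrank (ResidueField 𝒪)
          (s56a_inv rW.residual ((padicPlace p).decompositionSubgroup ℚ))) := by
  obtain ⟨eW⟩ := hW
  haveI : CharP (ResidueField 𝒪) p := s56a_charP p hp𝒪
  letI : Algebra (ZMod p) (ResidueField 𝒪) := ZMod.algebra _ p
  have hdet : rW.toGaloisRepAdic.DetIsCyclotomic p := s56t_tr_detIsCyclotomic eW hdetρ
  have hs : rW.toGaloisRepAdic.IsStrictOrdinaryAt p := s56t_tr_isStrictOrdinaryAt eW hSO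
  have hord : rW.toGaloisRepAdic.IsOrdinaryAt p := hs.isOrdinaryAt
  obtain ⟨E, g0, εp, hε, had, hz, ha, hsq, hzb, u₀, hu₀, hO⟩ :=
    m59rp_dataIII hp2 hp𝒪 rW hirr hdet hs
  exact ⟨hdet, hs, hord, m59rp_res_det rW hdet, m59rp_res_ord rW hord, E, g0, εp, hε, had, hz, ha,
    hsq, hzb, ⟨u₀, hu₀, hO⟩,
    fun hvb hub => m59rp_inv_of_split hp2 rW.residual E g0 had hu₀ hO hvb hub⟩

end

end Fermat.Agent.M59
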