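import Mathlib
import Fermat.Agent.M59.Rp.AZeroII

/-!
# M59 / block [R_p-norm]: SMALL CONSUMER LEMMAS AT `p` FOR THE PAIR SIDE OF CASE (III)
(helper13; prefix `m59rp_`)

For the fields `w_ka`, `av`, `pr_z`, `pr_v`, `π0_ν` of helper26's `m59ci3_PairSys`:

* `m59rp_av_pair` : **(R1) in the pair ring**: for a pair `H` with cyclotomic determinant, ordinary
  at `p`, `z0² = 1`, `res(z0) z̄(Frob_p) = 1`: `a_T * v_T = 0`
  (`m59rpk_R1_trace` + `m59rp_av_of_R1` + (MEM));
* `m59rp_a_int` : `m59rp_a E (algebraMap 𝒪 T ((εp : ℤ) : 𝒪)) M = εp • m59rp_z E M E.fr - 1`;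
* `m59rp_map_a` : the coordinate `a` is compatible with entrywise-compatible ring homomorphisms;
* `m59rp_c_congr`, `m59rp_z_congr`, `m59rp_v_congr`, `m59rp_u_congr`, `m59rp_a_congr` : the
  coordinates only depend on the traces and on `det M(s0)` (conjugation invariance).
-/

set_option autoImplicit false
set_option linter.unusedSectionVars false
set_option linter.unusedVariables false
set_option linter.style.haveILetI false

open IsLocalRing Fermat.Agent.S53 Fermat.Agent.TW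

namespace Fermat.Agent.M59

noncomputable section

local notation "GQ" => (AlgebraicClosure ℚ ≃ₐ[ℚ] AlgebraicClosure ℚ)
local notation "Qb" => AlgebraicClosure ℚ

section pair

variable {𝒪 : Type} [CommRing 𝒪] [IsLocalRing 𝒪] [Finite (ResidueField 𝒪)]
  {rb : FramedResidual (ResidueField 𝒪)}

/-- **(R1) in the pair ring**: `a_T * v_T = 0`. -/
theorem m59rp_av_pair {p : ℕ} [hp : Fact p.Prime] (hp2 : p ≠ 2) {A : ValuationSubring Qb}
    (hA : A.LiesOverPrime p) (E : m59rp_Elts p A) (g0 : GQ) (z0 : 𝒪) (hz0 : z0 ^ 2 = 1)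
    (hz0r : residue 𝒪 z0 * m59rp_z E rb.toMonoidHom E.fr = 1)
    (H : twc_HPair 𝒪 rb) (hdet : H.r.toGaloisRepAdic.DetIsCyclotomic p)
    (hord : H.r.toGaloisRepAdic.IsOrdinaryAt p) :
    m59rp_a E (algebraMap 𝒪 H.T z0) H.r.toMonoidHom * m59rp_v E g0 H.r.toMonoidHom = 0 := by
  have hR1 := m59rpk_R1_trace p hp2 A hA E H.T (m59rpk_pair_hfin H) (m59rpk_pair_hsep H) H.r hdet
    hord E.fr E.fr_frob.mem_decompositionSubgroup g0
  have ha := (m59rpk_mem p hp2 𝒪 rb A hA E g0 z0 H hdet).1 hz0r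
  have h2 : IsUnit (2 : H.T) := m59rpk_two_unit hp.out hp2 hdet.1
  have hz0' : (algebraMap 𝒪 H.T z0) ^ 2 = 1 := by rw [← map_pow, hz0, map_one]
  exact m59rp_av_of_R1 hz0' h2 ha hR1

end pair

section coords

variable {R S : Type} [CommRing R] [CommRing S] {p : ℕ} {A : ValuationSubring Qb}
  (E : m59rp_Elts p A)

/-- `a` for a sign `z0 = εp`. -/
theorem m59rp_a_int {𝒪 : Type} [CommRing 𝒪] [Algebra 𝒪 R] (εp : ℤ)
    (M : GQ →* Matrix (Fin 2) (Fin 2) R) :
    m59rp_a E (algebraMap 𝒪 R ((εp : ℤ) : 𝒪)) M = εp • m59rp_z E M E.fr - 1 := by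
  unfold m59rp_a
  rw [map_intCast, zsmul_eq_mul]

/-- `a` for a sign `z0 = εp`, in the ring itself. -/
theorem m59rp_a_int' (εp : ℤ) (M : GQ →* Matrix (Fin 2) (Fin 2) R) :
    m59rp_a E ((εp : ℤ) : R) M = εp • m59rp_z E M E.fr - 1 := by
  unfold m59rp_a
  rw [zsmul_eq_mul]

/-- the coordinate `a` is compatible with entrywise-compatible ring homomorphisms. -/
theorem m59rp_map_a (f : R →+* S) (M : GQ →* Matrix (Fin 2) (Fin 2) R)
    (M' : GQ →* Matrix (Fin 2) (Fin 2) S) (h : ∀ σ, (M σ).map f = M' σ)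
    (hu : IsUnit (1 - m59rp_c E M)) (z0 : R) :
    f (m59rp_a E z0 M) = m59rp_a E (f z0) M' := by
  unfold m59rp_a
  rw [map_sub, map_mul, map_one, m59rpk_map_z f E M M' h hu]

variable (M M' : GQ →* Matrix (Fin 2) (Fin 2) R)

/-- `c` only depends on `det M(s0)`. -/
theorem m59rp_c_congr (hd : (M E.s0).det = (M' E.s0).det) : m59rp_c E M = m59rp_c E M' := hd

/-- `z` only depends on the traces and `det M(s0)`. -/
theorem m59rp_z_congr (ht : ∀ σ, (M σ).trace = (M' σ).trace)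
    (hd : (M E.s0).det = (M' E.s0).det) (σ : GQ) : m59rp_z E M σ = m59rp_z E M' σ := by
  unfold m59rp_z
  rw [m59rp_c_congr E M M' hd, ht, ht]

/-- `a` only depends on the traces and `det M(s0)`. -/
theorem m59rp_a_congr (ht : ∀ σ, (M σ).trace = (M' σ).trace)
    (hd : (M E.s0).det = (M' E.s0).det) (z0 : R) : m59rp_a E z0 M = m59rp_a E z0 M' := by
  unfold m59rp_a
  rw [m59rp_z_congr E M M' ht hd]

/-- `v` only depends on the traces. -/
theorem m59rp_v_congr (ht : ∀ σ, (M σ).trace = (M' σ).trace) (g0 : GQ) :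
    m59rp_v E g0 M = m59rp_v E g0 M' := by
  unfold m59rp_v
  rw [ht, ht]

/-- `u` only depends on the traces. -/
theorem m59rp_u_congr (ht : ∀ σ, (M σ).trace = (M' σ).trace) (g0 : GQ) :
    m59rp_u E g0 M = m59rp_u E g0 M' := by
  unfold m59rp_u
  rw [ht, ht]

end coords

end

end Fermat.Agent.M59
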