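/-
M59 / [R_p-norm], cell (CONJ-PEU) (helper24; prefix `m59rpk_`).

`m59rpk_peuConj : m59rp_PeuConj_stmt` : peu ramifiée at ONE place over `p` ⟹ at every place over `p`
(`G_ℚ` is transitive on the places over `p`, main's `pl_exists_smul_eq`; transport `ζ, x, v, c, β`
by `g`).
-/
import Mathlib
import Fermat.Agent.M59.Rp.Seams
import Fermat.Agent.S55.Places.Basic

set_option autoImplicit false
set_option linter.unusedSectionVars false
set_option linter.unusedVariables false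

noncomputable section

namespace Fermat.Agent.M59

open Fermat.Agent.S55
open scoped Pointwise

local notation "Qb" => AlgebraicClosure ℚ
local notation "GQ" => (AlgebraicClosure ℚ ≃ₐ[ℚ] AlgebraicClosure ℚ)

/-- peu ramifiée at `A` ⟹ peu ramifiée at `g • A`. -/
theorem m59rpk_peuAt_smul {k : Type} [Field k] (ρb : ResidualGaloisRep k) (p : ℕ)
    (A : ValuationSubring Qb) (g : GQ) (h : m59rp_PeuAt k ρb p A) : m59rp_PeuAt k ρb p (g • A) := by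
  intro ζ hζ x v c hx hχ hc l
  -- conjugation of inertia
  have hI : ∀ σ ∈ A.inertiaSubgroupIn ℚ, g * σ * g⁻¹ ∈ (g • A).inertiaSubgroupIn ℚ :=
    fun σ hσ => tl_inertia_conj A g σ hσ
  have hI' : ∀ σ' ∈ (g • A).inertiaSubgroupIn ℚ, g⁻¹ * σ' * g ∈ A.inertiaSubgroupIn ℚ := by
    intro σ' hσ'
    have h1 := tl_inertia_conj (g • A) g⁻¹ σ' hσ'
    rwa [inv_smul_smul, inv_inv] at h1
  have hζ' : IsPrimitiveRoot (g⁻¹ ζ) p := hζ.map_of_injective (f := (g⁻¹ : GQ)) (g⁻¹ : GQ).injective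
  have hgg : ∀ y : Qb, g (g⁻¹ y) = y := fun y => g.apply_symm_apply y
  have hgg' : ∀ y : Qb, g⁻¹ (g y) = y := fun y => g.symm_apply_apply y
  have hx' : ρb.ρ g⁻¹ x ≠ 0 := by
    intro h0
    apply hx
    have := congrArg (ρb.ρ g) h0
    rwa [← Module.End.mul_apply, ← map_mul, mul_inv_cancel, map_one, Module.End.one_apply,
      map_zero] at this
  have key : ∀ (σ : GQ) (w : ρb.V), ρb.ρ σ (ρb.ρ g⁻¹ w) = ρb.ρ g⁻¹ (ρb.ρ (g * σ * g⁻¹) w) := by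
    intro σ w
    rw [← Module.End.mul_apply, ← Module.End.mul_apply, ← map_mul, ← map_mul]
    congr 2
    group
  have hχ' : ∀ σ ∈ A.inertiaSubgroupIn ℚ, ∀ j : ℕ, σ (g⁻¹ ζ) = (g⁻¹ ζ) ^ j →
      ρb.ρ σ (ρb.ρ g⁻¹ x) = (j : k) • ρb.ρ g⁻¹ x := by
    intro σ hσ j hj
    have h1 : (g * σ * g⁻¹) ζ = ζ ^ j := by
      show g (σ (g⁻¹ ζ)) = ζ ^ j
      rw [hj, map_pow, hgg]
    rw [key, hχ _ (hI σ hσ) j h1, map_smul]
  have hc' : ∀ σ ∈ A.inertiaSubgroupIn ℚ,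
      ρb.ρ σ (ρb.ρ g⁻¹ v) = ρb.ρ g⁻¹ v + c (g * σ * g⁻¹) • ρb.ρ g⁻¹ x := by
    intro σ hσ
    rw [key, hc _ (hI σ hσ), map_add, map_smul]
  obtain ⟨β, hβ0, hβA, hβiA, hβ⟩ := h (g⁻¹ ζ) hζ' (ρb.ρ g⁻¹ x) (ρb.ρ g⁻¹ v)
    (fun σ => c (g * σ * g⁻¹)) hx' hχ' hc' l
  refine ⟨g β, ?_, ?_, ?_, ?_⟩
  · rwa [Ne, map_eq_zero_iff g g.injective]
  · exact (ValuationSubring.mem_smul_pointwise_iff_exists g (g β) A).2 ⟨β, hβA, rfl⟩
  · rw [← map_inv₀]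
    exact (ValuationSubring.mem_smul_pointwise_iff_exists g (g β⁻¹) A).2 ⟨β⁻¹, hβiA, rfl⟩
  · intro σ' hσ'
    have h1 := hβ _ (hI' σ' hσ')
    have h2 : g * (g⁻¹ * σ' * g) * g⁻¹ = σ' := by group
    rw [h2] at h1
    have h3 := congrArg g h1
    rw [map_mul, map_pow, hgg] at h3
    rw [← h3]
    show σ' (g β) = g (g⁻¹ (σ' (g β)))
    rw [hgg]

/-- **(CONJ-PEU)**. -/
theorem m59rpk_peuConj : m59rp_PeuConj_stmt := by
  intro p hp k _ ρb A hA h P hP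
  obtain ⟨g, rfl⟩ := pl_exists_smul_eq hp.out hA hP
  exact m59rpk_peuAt_smul ρb p A g h

end Fermat.Agent.M59

end
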