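import Mathlib
import Fermat.Agent.M59.Rp.Flat0
import Fermat.Agent.M59.Rp.Mem

/-!
# M59 / block [R_p-norm]: `v̄ = 0` IN CASE (III) (helper13; prefix `m59rp_`)

The hypothesis `hvb : m59rp_v E g0 rb.toMonoidHom = 0` of `m59rp_cot3` / `m59cp_cot3` /
`m59rp_locCob_insert` / (MEM) / `m59cp_pairSys3`, from a FLAT level with residually ordinary `rb`
(helper10's `m59rpa_flatTan_res`, Rp/Flat0.lean):

* `m59rp_vbar_of_flat_res` : a pair `H` over `rb`, `det = ε`, flat at `p`, `rb` ordinary at `p`;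
* `m59rp_vbar_of_datum` : a Hecke–Galois datum of level prime to `p` compatible with `rb`
  (flat by S32), `rb` ordinary at `p`.
-/

set_option autoImplicit false
set_option linter.unusedSectionVars false
set_option linter.unusedVariables false
set_option linter.style.haveILetI false

noncomputable section

namespace Fermat.Agent.M59

open IsLocalRing Fermat.Agent.S53 Fermat.Agent.S56 Fermat.Agent.TW Fermat.Agent.MZ Fermat.Agent.FF
  Matrix ExtCitation CuspForm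

local notation "Qb" => AlgebraicClosure ℚ
local notation "GQ" => (AlgebraicClosure ℚ ≃ₐ[ℚ] AlgebraicClosure ℚ)

attribute [local instance] S53.dualNumberAlgebra

/-- **`v̄ = 0` from a flat pair over a residually ordinary `rb`.** -/
theorem m59rp_vbar_of_flat_res (p : ℕ) [hp : Fact p.Prime] (hp2 : p ≠ 2)
    (𝒪 : Type) [CommRing 𝒪] [IsDomain 𝒪] [IsDiscreteValuationRing 𝒪]
    [IsAdicComplete (maximalIdeal 𝒪) 𝒪] [Finite (ResidueField 𝒪)]
    (hpm : (p : 𝒪) ∈ maximalIdeal 𝒪)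
    (rb : FramedResidual (ResidueField 𝒪)) (A : ValuationSubring Qb) (hA : A.LiesOverPrime p)
    (E : m59rp_Elts p A) (g0 : GQ)
    (H : twc_HPair 𝒪 rb) (hdet : H.r.toGaloisRepAdic.DetIsCyclotomic p)
    (hordb : (m59rp_res rb).IsOrdinaryAt p) (hflat : H.r.toGaloisRepAdic.IsFlatAt p) :
    m59rp_v E g0 rb.toMonoidHom = 0 := by
  have h1 := m59rpa_mem_of_tangent (𝒪 := 𝒪) (A := H.T) H.residue_surjective
    (m59rp_v E g0 H.r.toMonoidHom)
    (fun φ => m59rpa_flatTan_res p hp2 𝒪 hpm rb A hA E g0 H hdet hordb hflat φ)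
  have h2 : m59rp_v E g0 H.r.toMonoidHom ∈ maximalIdeal H.T := by
    refine (sup_le ?_ ?_ : _ ≤ maximalIdeal H.T) h1
    · rw [Ideal.map_le_iff_le_comap]
      intro o ho
      exact map_nonunit (algebraMap 𝒪 H.T) o ho
    · exact Ideal.pow_le_self two_ne_zero
  have h3 := m59rpk_res_v' E H g0
  rw [(residue_eq_zero_iff _).2 h2] at h3
  exact (map_eq_zero_iff _ (ResidueField.map (algebraMap 𝒪 H.T)).injective).1 h3.symm

section datum

variable {p : ℕ} {Nb : ℕ} [NeZero Nb] {S' : Finset ℕ}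
  {𝒪 : Type} [CommRing 𝒪] [IsDomain 𝒪] [IsDiscreteValuationRing 𝒪]
  [IsAdicComplete (maximalIdeal 𝒪) 𝒪] [Finite (ResidueField 𝒪)] [CharZero 𝒪]
  {θ : heckeAlgebra Nb 2 (↑S' : Set ℕ) →+* ResidueField 𝒪}
  {T : Type} [CommRing T] [IsLocalRing T] [IsNoetherianRing T]
  [IsAdicComplete (maximalIdeal T) T] [Algebra 𝒪 T] [IsLocalHom (algebraMap 𝒪 T)]
  [Module.Finite 𝒪 T] [Module.Free 𝒪 T]

/-- **`v̄ = 0` from a Hecke–Galois datum of level prime to `p`** compatible with a residually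
ordinary `rb`. -/
theorem m59rp_vbar_of_datum [hp : Fact p.Prime] (hp2 : p ≠ 2)
    (hp𝒪 : (p : 𝒪) ∈ maximalIdeal 𝒪) (hpN : ¬ p ∣ Nb) (hpS : p ∈ S')
    (hNS : ∀ q : ℕ, q.Prime → q ∣ Nb → q ∈ S')
    (H : HeckeGaloisRepDatum Nb (↑S' : Set ℕ) 𝒪 θ T)
    (rb : FramedResidual (ResidueField 𝒪)) (hc : twt_Compat θ rb.toResidualGaloisRep)
    (hordb : (m59rp_res rb).IsOrdinaryAt p)
    (A : ValuationSubring Qb) (hA : A.LiesOverPrime p) (E : m59rp_Elts p A) (g0 : GQ) :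
    m59rp_v E g0 rb.toMonoidHom = 0 := by
  obtain ⟨r, hre, hrl⟩ := twc_hp_exists_framed H hNS rb hc
  obtain ⟨e⟩ := id hre
  have hdet : (twc_hp_ofFramed H hNS rb r hre hrl).r.toGaloisRepAdic.DetIsCyclotomic p :=
    s56t_tr_detIsCyclotomic e (twt_dl_det hp.out hp𝒪 hNS H)
  have hflat : (twc_hp_ofFramed H hNS rb r hre hrl).r.toGaloisRepAdic.IsFlatAt p :=
    s56t_tr_isFlatAt e (twt_dl_flat hp.out hp2 hp𝒪 hpN hpS hNS H)
  exact m59rp_vbar_of_flat_res p hp2 𝒪 hp𝒪 rb A hA E g0 (twc_hp_ofFramed H hNS rb r hre hrl)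
    hdet hordb hflat

end datum

end Fermat.Agent.M59
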