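/-
M59 / [R_p-norm] (helper10; prefix `m59rpa_`): (Z-ex) FOR A REPRESENTATION THROUGH ANY FRAMING.

`ρ` over a local ring `T`, `det = ε`, ordinary at `p`; `r` ANY framing of `ρ`; `E` the fixed elements at
a place `A ∣ p`.  Then `z := m59rp_z E r E.fr` (a pure trace expression of `ρ`) is the eigenvalue of EVERY
Frobenius element `σ` at EVERY place `P ∣ p` on the unramified quotient line of `ρ`:
`m59p_IsUrEig ρ P σ z` (the hypothesis on `zT'` of the module side of case (III)).

* `m59rpa_isUrEig_z`       : the statement above;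
* `m59rpa_z_eq_traces`, `m59rpa_v_eq_traces`, `m59rpa_u_eq_traces` : the coordinates `m59rp_z E r σ`,
  `m59rp_v E g0 r`, `m59rp_u E g0 r` of a framing `r` of `ρ` are expressions in the traces and
  determinants of `ρ` (so they are compatible with every trace-compatible ring map).
-/
import Mathlib
import Fermat.Agent.M59.Rp.ZUr
import Fermat.Agent.M59.AtP.UrEigEquiv
import Fermat.Agent.S56.Tan.Transport
import Fermat.Agent.M59.Act.Trace

set_option autoImplicit false
set_option linter.unusedSectionVars false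
set_option linter.unusedVariables false
set_option linter.style.haveILetI false

noncomputable section

namespace Fermat.Agent.M59

open IsLocalRing Fermat.Agent.S53 Fermat.Agent.S56

local notation "Qb" => AlgebraicClosure ℚ
local notation "GQ" => (AlgebraicClosure ℚ ≃ₐ[ℚ] AlgebraicClosure ℚ)

variable {T : Type} [CommRing T] [IsLocalRing T]

/-- **(Z-ex) through a framing.** -/
theorem m59rpa_isUrEig_z {p : ℕ} [Fact p.Prime] (hp2 : p ≠ 2) {A : ValuationSubring Qb}
    (hA : A.LiesOverPrime p) (E : m59rp_Elts p A) (ρ : GaloisRepAdic T) (r : FramedRep T)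
    (hr : ρ.IsEquiv r.toGaloisRepAdic) (hdet : ρ.DetIsCyclotomic p) (hord : ρ.IsOrdinaryAt p)
    (P : ValuationSubring Qb) (hP : P.LiesOverPrime p) (σ : GQ) (hσ : P.IsFrobeniusAt σ p) :
    m59p_IsUrEig ρ P σ (m59rp_z E r.toMonoidHom E.fr) := by
  obtain ⟨e⟩ := id hr
  have h := m59rpk_zUrEx p hp2 A hA E T r (s56t_tr_detIsCyclotomic e hdet)
    (s56t_tr_isOrdinaryAt e hord) P hP σ hσ
  exact (m59p_isUrEig_framed ρ r hr P σ _).1 h

/-- `m59rp_z` of a framing, by the traces and determinants of `ρ`. -/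
theorem m59rpa_z_eq_traces {p : ℕ} {A : ValuationSubring Qb} (E : m59rp_Elts p A)
    (ρ : GaloisRepAdic T) (r : FramedRep T) (hr : ρ.IsEquiv r.toGaloisRepAdic) (σ : GQ) :
    m59rp_z E r.toMonoidHom σ = Ring.inverse (1 - LinearMap.det (ρ.ρ E.s0)) *
      (ρ.trace (σ * E.s0) - LinearMap.det (ρ.ρ E.s0) * ρ.trace σ) := by
  rw [m59ac_trace_framed ρ r hr, m59ac_trace_framed ρ r hr, m59ac_det_framed ρ r hr]
  rfl

/-- `m59rp_v` of a framing, by the traces of `ρ`. -/
theorem m59rpa_v_eq_traces {p : ℕ} {A : ValuationSubring Qb} (E : m59rp_Elts p A)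
    (ρ : GaloisRepAdic T) (r : FramedRep T) (hr : ρ.IsEquiv r.toGaloisRepAdic) (g0 : GQ) :
    m59rp_v E g0 r.toMonoidHom = ρ.trace (g0 * E.tv) - ρ.trace g0 := by
  rw [m59ac_trace_framed ρ r hr, m59ac_trace_framed ρ r hr]
  rfl

/-- `m59rp_u` of a framing, by the traces of `ρ`. -/
theorem m59rpa_u_eq_traces {p : ℕ} {A : ValuationSubring Qb} (E : m59rp_Elts p A)
    (ρ : GaloisRepAdic T) (r : FramedRep T) (hr : ρ.IsEquiv r.toGaloisRepAdic) (g0 : GQ) :
    m59rp_u E g0 r.toMonoidHom = ρ.trace (g0 * E.tu) - ρ.trace g0 := by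
  rw [m59ac_trace_framed ρ r hr, m59ac_trace_framed ρ r hr]
  rfl

end Fermat.Agent.M59
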